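/-
Programme T (S56, Taylor–Wiles primes), chapter LOC (local theory), helper2 (chapter lead): DEFINITIONS.

The local Galois group at a prime `q` is `Gq q = Gal(PadicAlgCl q / ℚ_q)` (the prelude's
`ExtCitation.primeLocalGaloisGroup`), with the level basis `Objects21.levelLoc q` (all open subgroups),
mapped to `Gal(ℚ̄/ℚ)` by the prelude's `localGaloisToGlobal q` (injective: `LocInj13`), with image in
the decomposition group of the prelude's `padicPlace q`.

This file fixes the vocabulary of the chapter: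
* `Gq q`, `rq q : Gq q →* Gal(ℚ̄/ℚ)`;
* `Iq q : Subgroup (Gq q)`, the LOCAL INERTIA GROUP, defined as the preimage of the prelude's
  `(padicPlace q).inertiaSubgroupIn ℚ`; it is normal (`Iq_normal`);
* `rq_mem_decomposition`, `rq_mem_inertia`: the two inclusions used to restrict the prelude's local
  conditions (`∀ σ ∈ P.decompositionSubgroup ℚ`, `∀ σ ∈ P.inertiaSubgroupIn ℚ`) to `Gq q`, `Iq q`;
* `IsUnramifiedRep M`: `Iq q` acts trivially on `M : Rep k (Gq q)`;
* `H1ur M`: the unramified classes `ker (H¹(Gq, M) → H¹(Iq, M))`, as the set of classes of level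
  cocycles vanishing... (cocycle form: classes having a representative which is trivial on `Iq`).
-/
import Mathlib
import Fermat.Agent.PT.GLUE.Objects21

set_option autoImplicit false

open Fermat.Agent.PT.PRO.LevelCoh28 Fermat.Agent.PT.GLUE.Objects21

namespace Fermat.Agent.TW.LOC.Defs2

variable (q : ℕ) [Fact q.Prime]

/-- The local Galois group `Gal(ℚ̄_q/ℚ_q)`. -/
abbrev Gq : Type := PadicAlgCl q ≃ₐ[ℚ_[q]] PadicAlgCl q

/-- `Gal(ℚ̄_q/ℚ_q) → Gal(ℚ̄/ℚ)`. -/
noncomputable abbrev rq : Gq q →* (AlgebraicClosure ℚ ≃ₐ[ℚ] AlgebraicClosure ℚ) :=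
  localGaloisToGlobal q

/-- The local inertia group: the preimage of the inertia group of `padicPlace q` in `Gal(ℚ̄/ℚ)`. -/
noncomputable def Iq : Subgroup (Gq q) :=
  ((padicPlace q).inertiaSubgroupIn ℚ).comap (rq q)

theorem mem_Iq_iff (τ : Gq q) : τ ∈ Iq q ↔ rq q τ ∈ (padicPlace q).inertiaSubgroupIn ℚ := Iff.rfl

/-- The image of `Gq` lies in the decomposition group of `padicPlace q` (prelude). -/
theorem rq_mem_decomposition (τ : Gq q) :
    rq q τ ∈ (padicPlace q).decompositionSubgroup ℚ :=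
  localGaloisToGlobal_mem_decompositionSubgroup q τ

/-- The image of `Iq` lies in the inertia group of `padicPlace q` (by definition). -/
theorem rq_mem_inertia {τ : Gq q} (hτ : τ ∈ Iq q) :
    rq q τ ∈ (padicPlace q).inertiaSubgroupIn ℚ := hτ

/-- The inertia group of a valuation subring is normalised by its decomposition group. -/
theorem conj_mem_inertiaSubgroupIn {K L : Type*} [Field K] [Field L] [Algebra K L]
    (A : ValuationSubring L) {σ τ : L ≃ₐ[K] L} (hσ : σ ∈ A.decompositionSubgroup K)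
    (hτ : τ ∈ A.inertiaSubgroupIn K) : σ * τ * σ⁻¹ ∈ A.inertiaSubgroupIn K := by
  rw [ValuationSubring.inertiaSubgroupIn, Subgroup.mem_map] at hτ ⊢
  obtain ⟨g, hg, rfl⟩ := hτ
  refine ⟨(⟨σ, hσ⟩ : A.decompositionSubgroup K) * g * (⟨σ, hσ⟩ : A.decompositionSubgroup K)⁻¹,
    ?_, rfl⟩
  have hn : (A.inertiaSubgroup K).Normal := by
    rw [ValuationSubring.inertiaSubgroup]
    exact MonoidHom.normal_ker _
  exact hn.conj_mem g hg _

instance Iq_normal : (Iq q).Normal := by
  refine ⟨fun τ hτ g => ?_⟩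
  rw [mem_Iq_iff, map_mul, map_mul, map_inv]
  exact conj_mem_inertiaSubgroupIn _ (rq_mem_decomposition q g) hτ

section Rep

variable {k : Type} [CommRing k]

/-- `Iq` acts trivially. -/
def IsUnramifiedRep (M : Rep.{0} k (Gq q)) : Prop := ∀ τ ∈ Iq q, M.ρ τ = 1

/-- The unramified classes: classes of level cocycles whose restriction to `Iq` is a coboundary of
`Iq`, i.e. `∃ m, ∀ τ ∈ Iq, c τ = τ m - m`. (Kernel of `H¹(Gq, M) → H¹(Iq, M)`.) -/
def H1ur (M : Rep.{0} k (Gq q)) : Submodule k (H1 (levelLoc q) M) where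
  carrier := {x | ∃ c : ↥(Z1 (levelLoc q) M), H1mk (levelLoc q) M c = x ∧
    ∃ m : M, ∀ τ ∈ Iq q, (c : Gq q → M) τ = M.ρ τ m - m}
  add_mem' := by
    rintro _ _ ⟨c, rfl, m, hm⟩ ⟨c', rfl, m', hm'⟩
    refine ⟨c + c', map_add _ _ _, m + m', fun τ hτ => ?_⟩
    have h1 : ((c + c' : ↥(Z1 (levelLoc q) M)) : Gq q → M) τ
        = (c : Gq q → M) τ + (c' : Gq q → M) τ := rfl
    rw [h1, hm τ hτ, hm' τ hτ, map_add]
    abel
  zero_mem' := ⟨0, map_zero _, 0, fun τ _ => by simp⟩
  smul_mem' := by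
    rintro a _ ⟨c, rfl, m, hm⟩
    refine ⟨a • c, map_smul _ _ _, a • m, fun τ hτ => ?_⟩
    have h1 : ((a • c : ↥(Z1 (levelLoc q) M)) : Gq q → M) τ = a • (c : Gq q → M) τ := rfl
    rw [h1, hm τ hτ, map_smul, smul_sub]

end Rep

end Fermat.Agent.TW.LOC.Defs2
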