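/-
Programme T (S56, Taylor–Wiles primes), chapter LOC, task L1 — helper4.

TAME INERTIA at finite level (Serre, Corps Locaux IV §2, Prop. 7 and Cor. 1–4), in the abstract
model of `Fermat.Agent.PT.LOC.Interface12` / `Unram11`:  `E'/E` a finite Galois extension of
`q`-adic fields, `G = E' ≃ₐ[E] E'`, `𝒪' = intRing q E'`, `𝔪' = mI q E'`, `k' = resF q E'`,
`k = resF q E`, `Q = resCard q E = #k`, `‖·‖ = snorm q E'`.

Definitions
* `resUnit q E : unitGroup q E →* (resF q E)ˣ`           residue class of a unit;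
* `thetaX q E E' σ : E'ˣ →* (resF q E')ˣ`                 `x ↦ [σ x / x]`  (any `σ ∈ G`);
* `inertia q E E' : Subgroup G := (redHom q E E').ker`    (`I`);
* `theta0 q E E' : inertia q E E' →* (resF q E')ˣ`        `σ ↦ [σ π' / π']`  (`θ₀`);
* `wild q E E' : Subgroup G`                              (`P`, the image of `ker θ₀` in `G`).

Theorems
* `mem_inertia_iff : σ ∈ I ↔ ∀ x ∈ 𝒪', ‖σ x - x‖ < 1`;  `inertia_eq_ideal_inertia` (Mathlib's
  `Ideal.inertia`), `card_inertia : #I = ramIdx q E E'`;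
* (a) `theta0` is a homomorphism (by construction); `theta0_apply`: independent of the uniformizer;
  `thetaX_eq_theta0_zpow : [σ x / x] = θ₀ σ ^ ord x` (`σ ∈ I`);
  `mem_wild_iff_theta0 : σ ∈ P ↔ ∃ h : σ ∈ I, θ₀ ⟨σ, h⟩ = 1`;
  `mem_wild_iff_uniformizer : σ ∈ P ↔ σ ∈ I ∧ (σ π' - π') π'⁻² ∈ 𝒪'` (any uniformizer `π'`);
  `mem_wild_iff : σ ∈ P ↔ σ ∈ I ∧ ∀ x ≠ 0, ‖σ x - x‖ < ‖x‖`; `P` and `I` are normal in `G`;
* (b) `isPGroup_wild : IsPGroup q P`, `isPGroup_ker_theta0`, `eq_one_of_mem_wild_of_pow_eq_one`;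
  `isCyclic_inertia_quot : IsCyclic (I ⧸ ker θ₀)`, `card_inertia_quot_coprime`,
  `isCyclic_range_theta0`, `card_units_resF_coprime`;
* (c) `theta0_conj : θ₀(φ τ φ⁻¹) = φ̄ (θ₀ τ)` (`φ ∈ G`, `φ̄ = redHom φ`),
  `theta0_conj_frob : θ₀(φ τ φ⁻¹) = θ₀ τ ^ Q` for a Frobenius `φ` (`IsFrob q E E' φ`);
* (d) for `p ≠ q` prime and `f : I →* H` with `IsPGroup p f.range`:
  `ker_theta0_le_ker : ker θ₀ ≤ ker f`, `isCyclic_range : IsCyclic f.range`,
  `exists_theta0_generator`, `range_eq_zpowers : f.range = zpowers (f τ)` whenever `θ₀ τ` generates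
  the image of `θ₀`; `tame_relation : g φ * g τ * (g φ)⁻¹ = g τ ^ Q` for `g : G →* H` whose
  restriction to `I` has `p`-group image, `φ` a Frobenius, `τ ∈ I`.
-/
import Mathlib
import Fermat.Agent.PT.LOC.Interface12
import Fermat.Agent.PT.LOC.Structure14
import Fermat.Agent.PT.LOC.StructureNorm14
import Fermat.Agent.PT.LOC.StructureTower27
import Fermat.Agent.PT.LOC.StructureTowerEF27
import Fermat.Agent.PT.LOC.RootsUnity14
import Fermat.Agent.PT.LOC.Unram11
import Fermat.Agent.PT.LOC.Frob27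

set_option autoImplicit false
set_option linter.unusedSectionVars false

open scoped Fermat.Agent.PT.LOC.Interface12 Fermat.Agent.PT.LOC.StructureTower27
open Fermat.Agent.PT.LOC.Interface12 Fermat.Agent.PT.LOC.Structure14
  Fermat.Agent.PT.LOC.StructureNorm14 Fermat.Agent.PT.LOC.StructureTower27
  Fermat.Agent.PT.LOC.StructureTowerEF27 Fermat.Agent.PT.LOC.RootsUnity14
  Fermat.Agent.PT.LOC.Unram11

namespace Fermat.Agent.TW.LOC.TameInertia4

noncomputable section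

variable (q : ℕ) [Fact q.Prime]

section One

variable (E : Type) [Field E] [Algebra ℚ_[q] E] [FiniteDimensional ℚ_[q] E]

/-- The unit of `𝒪` attached to an element of `unitGroup`. -/
def intUnit : unitGroup q E →* (intRing q E)ˣ where
  toFun u := ⟨⟨(u : Eˣ), u.2.1⟩, ⟨((u : Eˣ)⁻¹ : Eˣ), u.2.2⟩,
    Subtype.ext (by simp), Subtype.ext (by simp)⟩
  map_one' := by ext; simp
  map_mul' a b := by ext; simp

/-- The residue class of a unit, as a unit of the residue field. -/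
def resUnit : unitGroup q E →* (resF q E)ˣ :=
  (Units.map (Ideal.Quotient.mk (mI q E) : intRing q E →* resF q E)).comp (intUnit q E)

theorem coe_resUnit (u : unitGroup q E) :
    ((resUnit q E u : (resF q E)ˣ) : resF q E) =
      Ideal.Quotient.mk (mI q E) ⟨((u : Eˣ) : E), u.2.1⟩ := rfl

theorem resUnit_eq_one_iff (u : unitGroup q E) :
    resUnit q E u = 1 ↔ snorm q E (((u : Eˣ) : E) - 1) < 1 := by
  rw [Units.ext_iff, coe_resUnit, Units.val_one, ← map_one (Ideal.Quotient.mk (mI q E)),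
    Ideal.Quotient.eq, mem_maximalIdeal_iff_snorm]
  rfl

theorem resUnit_eq_iff (u v : unitGroup q E) :
    resUnit q E u = resUnit q E v ↔ snorm q E (((u : Eˣ) : E) - ((v : Eˣ) : E)) < 1 := by
  rw [Units.ext_iff, coe_resUnit, coe_resUnit, Ideal.Quotient.eq, mem_maximalIdeal_iff_snorm]
  rfl

end One

section Two

variable (E : Type) [Field E] [Algebra ℚ_[q] E] [FiniteDimensional ℚ_[q] E]
  (E' : Type) [Field E'] [Algebra ℚ_[q] E'] [FiniteDimensional ℚ_[q] E'] [Algebra E E']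
  [IsScalarTower ℚ_[q] E E']

/-- `x ↦ σ x / x`, a homomorphism `E'ˣ → 𝒪'ˣ`. -/
def quotHom (σ : E' ≃ₐ[E] E') : E'ˣ →* unitGroup q E' where
  toFun x := ⟨Units.map (σ : E' →* E') x * x⁻¹, by
    rw [mem_unitGroup_iff_ord, ord_mul, ord_inv, ord_galois]; ring⟩
  map_one' := by ext; simp
  map_mul' a b := by
    ext
    simp only [map_mul, Units.val_mul, mul_inv_rev, Subgroup.coe_mul]
    ring

theorem coe_quotHom (σ : E' ≃ₐ[E] E') (x : E'ˣ) :
    (((quotHom q E E' σ x : unitGroup q E') : E'ˣ) : E') = σ (x : E') * (x : E')⁻¹ := by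
  simp [quotHom]

/-- `x ↦` the residue class of `σ x / x`. -/
def thetaX (σ : E' ≃ₐ[E] E') : E'ˣ →* (resF q E')ˣ := (resUnit q E').comp (quotHom q E E' σ)

theorem thetaX_eq_one_iff (σ : E' ≃ₐ[E] E') (x : E'ˣ) :
    thetaX q E E' σ x = 1 ↔ snorm q E' (σ (x : E') * (x : E')⁻¹ - 1) < 1 := by
  rw [thetaX, MonoidHom.comp_apply, resUnit_eq_one_iff, coe_quotHom]

theorem thetaX_eq_one_iff' (σ : E' ≃ₐ[E] E') (x : E'ˣ) :
    thetaX q E E' σ x = 1 ↔ snorm q E' (σ (x : E') - (x : E')) < snorm q E' (x : E') := by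
  rw [thetaX_eq_one_iff]
  have hx : (x : E') ≠ 0 := x.ne_zero
  have hpos : 0 < snorm q E' (x : E') := snorm_pos q E' hx
  have : σ (x : E') * (x : E')⁻¹ - 1 = (σ (x : E') - (x : E')) * (x : E')⁻¹ := by
    field_simp
  rw [this, snorm_mul, snorm_inv, ← div_eq_mul_inv, div_lt_one hpos]

/-- The cocycle relation `(στ) x / x = σ(τ x)/(τ x) · τ x / x`. -/
theorem thetaX_mul (σ τ : E' ≃ₐ[E] E') (x : E'ˣ) :
    thetaX q E E' (σ * τ) x =
      thetaX q E E' σ (Units.map (τ : E' →* E') x) * thetaX q E E' τ x := by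
  simp only [thetaX, MonoidHom.comp_apply]
  rw [← map_mul]
  congr 1
  ext
  rw [Subgroup.coe_mul, Units.val_mul, coe_quotHom, coe_quotHom, coe_quotHom]
  have hx : (τ (x : E')) ≠ 0 := by
    simpa only [Units.coe_map, MonoidHom.coe_coe] using (Units.map (τ : E' →* E') x).ne_zero
  simp only [Units.coe_map, MonoidHom.coe_coe, AlgEquiv.mul_apply]
  field_simp

theorem thetaX_one (x : E'ˣ) : thetaX q E E' 1 x = 1 := by
  rw [thetaX_eq_one_iff]
  simp [snorm_zero]

end Two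

section Three

variable (E : Type) [Field E] [Algebra ℚ_[q] E] [FiniteDimensional ℚ_[q] E]
  (E' : Type) [Field E'] [Algebra ℚ_[q] E'] [FiniteDimensional ℚ_[q] E'] [Algebra E E']
  [IsScalarTower ℚ_[q] E E'] [IsGalois E E']

/-- The inertia subgroup of `Gal(E'/E)`: the kernel of the reduction map. -/
def inertia : Subgroup (E' ≃ₐ[E] E') := (redHom q E E').ker

instance inertia_normal : (inertia q E E').Normal := MonoidHom.normal_ker _

theorem mem_inertia_iff (σ : E' ≃ₐ[E] E') :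
    σ ∈ inertia q E E' ↔ ∀ x ∈ intRing q E', snorm q E' (σ x - x) < 1 := by
  rw [inertia, MonoidHom.mem_ker]
  constructor
  · intro h x hx
    have h1 := DFunLike.congr_fun h (Ideal.Quotient.mk (mI q E') ⟨x, hx⟩)
    rw [redHom_mk, AlgEquiv.one_apply, Ideal.Quotient.eq, mem_maximalIdeal_iff_snorm] at h1
    exact h1
  · intro h
    ext y
    obtain ⟨x, rfl⟩ := Ideal.Quotient.mk_surjective y
    rw [redHom_mk, AlgEquiv.one_apply, Ideal.Quotient.eq, mem_maximalIdeal_iff_snorm]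
    exact h x x.2

theorem inertia_eq_ideal_inertia :
    inertia q E E' = (mI q E').inertia (E' ≃ₐ[E] E') := by
  ext σ
  rw [mem_inertia_iff]
  constructor
  · intro h x
    change σ • x - x ∈ mI q E'
    rw [mem_maximalIdeal_iff_snorm]
    exact h x x.2
  · intro h x hx
    have : σ • (⟨x, hx⟩ : intRing q E') - ⟨x, hx⟩ ∈ mI q E' := h ⟨x, hx⟩
    rw [mem_maximalIdeal_iff_snorm] at this
    exact this

theorem card_inertia : Nat.card (inertia q E E') = ramIdx q E E' := by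
  rw [inertia_eq_ideal_inertia]
  exact Fermat.Agent.PT.LOC.Frob27.card_inertia q E E'

/-- Reduction commutes with the Galois action on units. -/
theorem resUnit_galois (φ : E' ≃ₐ[E] E') (u : E'ˣ) (hu : u ∈ unitGroup q E') :
    resUnit q E' ⟨Units.map (φ : E' →* E') u, (mem_unitGroup_galois_iff q E E' φ u).2 hu⟩ =
      Units.map ((redHom q E E' φ : resF q E' ≃ₐ[resF q E] resF q E') : resF q E' →* resF q E')
        (resUnit q E' ⟨u, hu⟩) := by
  apply Units.ext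
  exact (redHom_mk q E E' φ ⟨(u : E'), hu.1⟩).symm

/-- Inertia acts trivially on residue classes of units. -/
theorem thetaX_unit {σ : E' ≃ₐ[E] E'} (hσ : σ ∈ inertia q E E') (u : E'ˣ)
    (hu : u ∈ unitGroup q E') : thetaX q E E' σ u = 1 := by
  rw [thetaX_eq_one_iff', (mem_unitGroup_iff_snorm q E' u).1 hu]
  exact (mem_inertia_iff q E E' σ).1 hσ _ hu.1

/-- On inertia, `σ ↦ [σ x / x]` is multiplicative. -/
theorem thetaX_mul_of_mem {σ : E' ≃ₐ[E] E'} (hσ : σ ∈ inertia q E E') (τ : E' ≃ₐ[E] E')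
    (x : E'ˣ) : thetaX q E E' (σ * τ) x = thetaX q E E' σ x * thetaX q E E' τ x := by
  rw [thetaX_mul]
  congr 1
  have h1 : Units.map (τ : E' →* E') x = x * (quotHom q E E' τ x : E'ˣ) := by
    ext
    rw [Units.val_mul, coe_quotHom]
    simp only [Units.coe_map, MonoidHom.coe_coe]
    field_simp
  rw [h1, map_mul, thetaX_unit q E E' hσ _ (quotHom q E E' τ x).2, mul_one]

/-- For `σ` in the inertia group, `[σ x / x]` depends only on `ord x`:
`[σ x / x] = [σ π / π] ^ ord x`. -/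
theorem thetaX_eq_zpow {σ : E' ≃ₐ[E] E'} (hσ : σ ∈ inertia q E E') (π : E'ˣ)
    (hπ : IsUniformizer q E' (π : E')) (x : E'ˣ) :
    thetaX q E E' σ x = thetaX q E E' σ π ^ ord q E' x := by
  have hu := mul_zpow_neg_ord_mem_unitGroup q E' π hπ x
  have h1 : x = (x * π ^ (-(ord q E' x))) * π ^ ord q E' x := by
    rw [mul_assoc, ← zpow_add, neg_add_cancel, zpow_zero, mul_one]
  conv_lhs => rw [h1]
  rw [map_mul, thetaX_unit q E E' hσ _ hu, one_mul, map_zpow]

/-- Independence of the uniformizer. -/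
theorem thetaX_uniformizer_eq {σ : E' ≃ₐ[E] E'} (hσ : σ ∈ inertia q E E') (π π₁ : E'ˣ)
    (hπ : IsUniformizer q E' (π : E')) (hπ₁ : IsUniformizer q E' (π₁ : E')) :
    thetaX q E E' σ π₁ = thetaX q E E' σ π := by
  rw [thetaX_eq_zpow q E E' hσ π hπ π₁, (isUniformizer_iff_ord q E' π₁).1 hπ₁, zpow_one]

/-- A chosen uniformizer of `E'`. -/
def unif : E'ˣ := Classical.choose (exists_isUniformizer q E')

theorem isUniformizer_unif : IsUniformizer q E' ((unif q E' : E'ˣ) : E') :=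
  Classical.choose_spec (exists_isUniformizer q E')

/-- **The tame character** `θ₀ : I → k'ˣ`, `σ ↦ [σ π' / π']`. -/
def theta0 : inertia q E E' →* (resF q E')ˣ where
  toFun σ := thetaX q E E' (σ : E' ≃ₐ[E] E') (unif q E')
  map_one' := thetaX_one q E E' _
  map_mul' σ τ := thetaX_mul_of_mem q E E' σ.2 τ _

/-- `θ₀` does not depend on the choice of the uniformizer. -/
theorem theta0_apply (σ : inertia q E E') (π : E'ˣ) (hπ : IsUniformizer q E' (π : E')) :
    theta0 q E E' σ = thetaX q E E' (σ : E' ≃ₐ[E] E') π :=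
  thetaX_uniformizer_eq q E E' σ.2 π (unif q E') hπ (isUniformizer_unif q E')

theorem thetaX_eq_theta0_zpow (σ : inertia q E E') (x : E'ˣ) :
    thetaX q E E' (σ : E' ≃ₐ[E] E') x = theta0 q E E' σ ^ ord q E' x :=
  thetaX_eq_zpow q E E' σ.2 _ (isUniformizer_unif q E') x

end Three

section Four

variable (E : Type) [Field E] [Algebra ℚ_[q] E] [FiniteDimensional ℚ_[q] E]
  (E' : Type) [Field E'] [Algebra ℚ_[q] E'] [FiniteDimensional ℚ_[q] E'] [Algebra E E']
  [IsScalarTower ℚ_[q] E E'] [IsGalois E E']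

/-- The wild inertia subgroup `P = ker θ₀`, as a subgroup of `Gal(E'/E)`. -/
def wild : Subgroup (E' ≃ₐ[E] E') := (theta0 q E E').ker.map (inertia q E E').subtype

theorem wild_le_inertia : wild q E E' ≤ inertia q E E' := by
  rintro _ ⟨σ, -, rfl⟩
  exact σ.2

theorem mem_wild_iff_theta0 (σ : E' ≃ₐ[E] E') :
    σ ∈ wild q E E' ↔ ∃ h : σ ∈ inertia q E E', theta0 q E E' ⟨σ, h⟩ = 1 := by
  constructor
  · rintro ⟨σ, hσ, rfl⟩
    exact ⟨σ.2, hσ⟩
  · rintro ⟨h, h1⟩
    exact ⟨⟨σ, h⟩, h1, rfl⟩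

theorem mem_wild_subtype_iff (σ : inertia q E E') :
    (σ : E' ≃ₐ[E] E') ∈ wild q E E' ↔ theta0 q E E' σ = 1 := by
  rw [mem_wild_iff_theta0]
  exact ⟨fun ⟨_, h⟩ => h, fun h => ⟨σ.2, h⟩⟩

/-- `σ ∈ P` iff `σ ∈ I` and `‖σ x - x‖ < ‖x‖` for all `x ≠ 0`. -/
theorem mem_wild_iff (σ : E' ≃ₐ[E] E') :
    σ ∈ wild q E E' ↔ σ ∈ inertia q E E' ∧
      ∀ x : E'ˣ, snorm q E' (σ (x : E') - (x : E')) < snorm q E' (x : E') := by
  rw [mem_wild_iff_theta0]
  constructor
  · rintro ⟨h, h1⟩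
    refine ⟨h, fun x => ?_⟩
    rw [← thetaX_eq_one_iff', thetaX_eq_theta0_zpow q E E' ⟨σ, h⟩ x, h1, one_zpow]
  · rintro ⟨h, h1⟩
    refine ⟨h, ?_⟩
    change thetaX q E E' σ (unif q E') = 1
    rw [thetaX_eq_one_iff']
    exact h1 _

/-- `σ ∈ P` iff `σ ∈ I` and `σ π' ≡ π'` modulo `π'²`, for one (any) uniformizer `π'`. -/
theorem mem_wild_iff_uniformizer (σ : E' ≃ₐ[E] E') (π : E') (hπ : IsUniformizer q E' π) :
    σ ∈ wild q E E' ↔ σ ∈ inertia q E E' ∧ (σ π - π) * (π⁻¹) ^ 2 ∈ intRing q E' := by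
  have h0 : π ≠ 0 := hπ.2.1
  rw [mem_wild_iff_theta0]
  have key : ∀ h : σ ∈ inertia q E E', theta0 q E E' ⟨σ, h⟩ = 1 ↔
      (σ π - π) * (π⁻¹) ^ 2 ∈ intRing q E' := by
    intro h
    rw [theta0_apply q E E' ⟨σ, h⟩ (Units.mk0 π h0) hπ, thetaX_eq_one_iff,
      ← mul_inv_uniformizer_mem_iff q E' π hπ, Units.val_mk0]
    have : (σ π * π⁻¹ - 1) * π⁻¹ = (σ π - π) * (π⁻¹) ^ 2 := by
      field_simp
    rw [this]
  constructor
  · rintro ⟨h, h1⟩
    exact ⟨h, (key h).1 h1⟩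
  · rintro ⟨h, h1⟩
    exact ⟨h, (key h).2 h1⟩

instance wild_normal : (wild q E E').Normal := by
  constructor
  intro τ hτ φ
  rw [mem_wild_iff] at hτ ⊢
  refine ⟨(inertia_normal q E E').conj_mem τ hτ.1 φ, fun x => ?_⟩
  have h1 := hτ.2 (Units.map ((φ⁻¹ : E' ≃ₐ[E] E') : E' →* E') x)
  simp only [Units.coe_map, MonoidHom.coe_coe] at h1
  rw [snorm_galois] at h1
  rw [← snorm_galois q E E' φ] at h1
  rw [map_sub] at h1
  simpa [AlgEquiv.mul_apply] using h1

end Four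

section Five

variable (E : Type) [Field E] [Algebra ℚ_[q] E] [FiniteDimensional ℚ_[q] E]
  (E' : Type) [Field E'] [Algebra ℚ_[q] E'] [FiniteDimensional ℚ_[q] E'] [Algebra E E']
  [IsScalarTower ℚ_[q] E E'] [IsGalois E E']

/-- Key estimate: for `σ ∈ P`, `x ≠ 0`, `a = σ x / x - 1 ≠ 0`:
`‖(σ ^ k x / x - 1) - k a‖ < ‖a‖`. -/
theorem snorm_pow_sub_lt {σ : E' ≃ₐ[E] E'} (hσ : σ ∈ wild q E E') (x : E') (hx : x ≠ 0)
    (ha : σ x * x⁻¹ - 1 ≠ 0) (k : ℕ) :
    snorm q E' (((σ ^ k) x * x⁻¹ - 1) - (k : E') * (σ x * x⁻¹ - 1)) <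
      snorm q E' (σ x * x⁻¹ - 1) := by
  set a : E' := σ x * x⁻¹ - 1 with ha_def
  have hapos : 0 < snorm q E' a := snorm_pos q E' ha
  have hσx : σ x = x * (1 + a) := by
    rw [ha_def]; field_simp; ring
  induction k with
  | zero =>
    simp only [pow_zero, AlgEquiv.one_apply, Nat.cast_zero, zero_mul, sub_zero]
    rw [mul_inv_cancel₀ hx, sub_self, snorm_zero]
    exact hapos
  | succ k ih =>
    have hk : σ ^ k ∈ wild q E E' := pow_mem hσ k
    have hk' := ((mem_wild_iff q E E' _).1 hk).2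
    have hstep : (σ ^ (k + 1)) x = (σ ^ k) x * (1 + (σ ^ k) a) := by
      rw [pow_succ, AlgEquiv.mul_apply, hσx, map_mul, map_add, map_one]
    have hid : ((σ ^ (k + 1)) x * x⁻¹ - 1) - ((k + 1 : ℕ) : E') * a =
        (((σ ^ k) x * x⁻¹ - 1) - (k : E') * a) + (((σ ^ k) a - a) +
          ((σ ^ k) x * x⁻¹ - 1) * (σ ^ k) a) := by
      rw [hstep]; push_cast; ring
    rw [hid]
    have h1 : snorm q E' ((σ ^ k) a - a) < snorm q E' a := hk' (Units.mk0 a ha)
    have h2 : snorm q E' (((σ ^ k) x * x⁻¹ - 1) * (σ ^ k) a) < snorm q E' a := by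
      rw [snorm_mul, snorm_galois]
      have h3 : snorm q E' ((σ ^ k) x * x⁻¹ - 1) < 1 := by
        have h4 := hk' (Units.mk0 x hx)
        simp only [Units.val_mk0] at h4
        have : (σ ^ k) x * x⁻¹ - 1 = ((σ ^ k) x - x) * x⁻¹ := by field_simp
        rw [this, snorm_mul, snorm_inv, ← div_eq_mul_inv, div_lt_one (snorm_pos q E' hx)]
        exact h4
      calc snorm q E' ((σ ^ k) x * x⁻¹ - 1) * snorm q E' a < 1 * snorm q E' a :=
            mul_lt_mul_of_pos_right h3 hapos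
        _ = snorm q E' a := one_mul _
    refine lt_of_le_of_lt (snorm_add_le_max q E' _ _) (max_lt ih ?_)
    exact lt_of_le_of_lt (snorm_add_le_max q E' _ _) (max_lt h1 h2)

/-- An element of `P` of order prime to `q` is trivial. -/
theorem eq_one_of_mem_wild_of_pow_eq_one {σ : E' ≃ₐ[E] E'} (hσ : σ ∈ wild q E E') {n : ℕ}
    (hn : ¬ q ∣ n) (h : σ ^ n = 1) : σ = 1 := by
  by_contra hne
  have hex : ∃ x : E', σ x ≠ x := by
    by_contra hcon
    simp only [not_exists, not_not] at hcon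
    exact hne (AlgEquiv.ext hcon)
  obtain ⟨x, hx⟩ := hex
  have hx0 : x ≠ 0 := by
    rintro rfl
    exact hx (map_zero σ)
  have ha : σ x * x⁻¹ - 1 ≠ 0 := by
    intro h0
    apply hx
    have : σ x * x⁻¹ = 1 := sub_eq_zero.1 h0
    field_simp at this
    exact this
  have key := snorm_pow_sub_lt q E E' hσ x hx0 ha n
  rw [h, AlgEquiv.one_apply, mul_inv_cancel₀ hx0, sub_self, zero_sub, snorm_neg, snorm_mul,
    snorm_natCast_eq_one q E' hn, one_mul] at key
  exact lt_irrefl _ key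

/-- **The wild inertia group is a `q`-group.** -/
theorem isPGroup_wild : IsPGroup q (wild q E E') := by
  have := Fermat.Agent.PT.LOC.Frob27.finite_gal q E E'
  intro g
  have hm : orderOf g ≠ 0 := (orderOf_pos g).ne'
  obtain ⟨e, n', hn', hmn⟩ := Nat.exists_eq_pow_mul_and_not_dvd hm q (Fact.out : q.Prime).ne_one
  refine ⟨e, ?_⟩
  have h1 : ((g ^ q ^ e : wild q E E') : E' ≃ₐ[E] E') ^ n' = 1 := by
    rw [← Subgroup.coe_pow, ← pow_mul, ← hmn, pow_orderOf_eq_one, Subgroup.coe_one]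
  have h2 := eq_one_of_mem_wild_of_pow_eq_one q E E' (g ^ q ^ e).2 hn' h1
  exact Subtype.ext h2

/-- `ker θ₀` is a `q`-group. -/
theorem isPGroup_ker_theta0 : IsPGroup q (theta0 q E E').ker := by
  have h : Function.Injective
      (((inertia q E E').subtype).comp (theta0 q E E').ker.subtype) :=
    (Subgroup.subtype_injective _).comp (Subgroup.subtype_injective _)
  have hle : ∀ g : (theta0 q E E').ker, ((g : inertia q E E') : E' ≃ₐ[E] E') ∈ wild q E E' :=
    fun g => ⟨g, g.2, rfl⟩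
  intro g
  obtain ⟨k, hk⟩ := isPGroup_wild q E E' ⟨_, hle g⟩
  refine ⟨k, ?_⟩
  apply Subtype.ext
  apply Subtype.ext
  have := congrArg (Subtype.val) hk
  simpa using this

/-- The image of `θ₀` (`≅ I/P`) is cyclic. -/
instance isCyclic_range_theta0 : IsCyclic (theta0 q E E').range := inferInstance

/-- `I/P` is cyclic. -/
instance isCyclic_inertia_quot : IsCyclic (inertia q E E' ⧸ (theta0 q E E').ker) :=
  isCyclic_of_surjective (QuotientGroup.quotientKerEquivRange (theta0 q E E')).symm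
    (QuotientGroup.quotientKerEquivRange (theta0 q E E')).symm.surjective

theorem card_units_resF_coprime : (Nat.card (resF q E')ˣ).Coprime q := by
  obtain ⟨k, hk, hk'⟩ := exists_resCard_eq_pow q E'
  rw [Nat.card_units, card_resF, hk']
  have hq : q.Prime := Fact.out
  have h1 : 1 ≤ q ^ k := Nat.one_le_pow _ _ hq.pos
  rw [Nat.coprime_comm, Nat.Prime.coprime_iff_not_dvd hq]
  intro hdvd
  have h2 : q ∣ q ^ k := dvd_pow_self q hk.ne'
  have h3 : q ∣ q ^ k - (q ^ k - 1) := Nat.dvd_sub h2 hdvd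
  have h4 : q ^ k - (q ^ k - 1) = 1 := by omega
  rw [h4] at h3
  exact hq.one_lt.ne' (Nat.dvd_one.1 h3)

/-- `#(I/P)` is prime to `q`. -/
theorem card_inertia_quot_coprime :
    (Nat.card (inertia q E E' ⧸ (theta0 q E E').ker)).Coprime q := by
  rw [Nat.card_congr (QuotientGroup.quotientKerEquivRange (theta0 q E E')).toEquiv]
  exact Nat.Coprime.coprime_dvd_left (Subgroup.card_subgroup_dvd_card _)
    (card_units_resF_coprime q E')

end Five

section Six

variable (E : Type) [Field E] [Algebra ℚ_[q] E] [FiniteDimensional ℚ_[q] E]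
  (E' : Type) [Field E'] [Algebra ℚ_[q] E'] [FiniteDimensional ℚ_[q] E'] [Algebra E E']
  [IsScalarTower ℚ_[q] E E'] [IsGalois E E']

/-- `[(φ τ φ⁻¹) x / x] = φ̄ [τ (φ⁻¹ x) / φ⁻¹ x]`. -/
theorem thetaX_conj (φ τ : E' ≃ₐ[E] E') (x : E'ˣ) :
    thetaX q E E' (φ * τ * φ⁻¹) x =
      Units.map ((redHom q E E' φ : resF q E' ≃ₐ[resF q E] resF q E') : resF q E' →* resF q E')
        (thetaX q E E' τ (Units.map ((φ⁻¹ : E' ≃ₐ[E] E') : E' →* E') x)) := by
  simp only [thetaX, MonoidHom.comp_apply]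
  rw [← Subtype.coe_eta (quotHom q E E' τ (Units.map ((φ⁻¹ : E' ≃ₐ[E] E') : E' →* E') x))
    (quotHom q E E' τ (Units.map ((φ⁻¹ : E' ≃ₐ[E] E') : E' →* E') x)).2,
    ← resUnit_galois q E E' φ]
  congr 1
  apply Subtype.ext
  apply Units.ext
  rw [coe_quotHom]
  simp only [Units.coe_map, MonoidHom.coe_coe, coe_quotHom, map_mul, map_inv₀,
    AlgEquiv.mul_apply]
  rw [AlgEquiv.aut_inv, AlgEquiv.apply_symm_apply]

/-- **(c)** `θ₀(φ τ φ⁻¹) = φ̄(θ₀ τ)` for `τ ∈ I`, `φ ∈ Gal(E'/E)`. -/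
theorem theta0_conj (φ : E' ≃ₐ[E] E') (τ : inertia q E E') :
    theta0 q E E' ⟨φ * τ * φ⁻¹, (inertia_normal q E E').conj_mem τ τ.2 φ⟩ =
      Units.map ((redHom q E E' φ : resF q E' ≃ₐ[resF q E] resF q E') : resF q E' →* resF q E')
        (theta0 q E E' τ) := by
  have hπ := isUniformizer_unif q E'
  have hπ₁ : IsUniformizer q E'
      ((Units.map ((φ⁻¹ : E' ≃ₐ[E] E') : E' →* E') (unif q E') : E'ˣ) : E') :=
    isUniformizer_galois q E E' φ⁻¹ _ hπ
  rw [theta0_apply q E E' τ _ hπ₁]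
  exact thetaX_conj q E E' φ τ (unif q E')

/-- **(c)** for a Frobenius: `θ₀(φ τ φ⁻¹) = θ₀(τ) ^ Q`, `Q = #k`. -/
theorem theta0_conj_frob {φ : E' ≃ₐ[E] E'} (hφ : IsFrob q E E' φ) (τ : inertia q E E') :
    theta0 q E E' ⟨φ * τ * φ⁻¹, (inertia_normal q E E').conj_mem τ τ.2 φ⟩ =
      theta0 q E E' τ ^ resCard q E := by
  rw [theta0_conj, (redHom_eq_resFrob_iff_isFrob q E E' φ).2 hφ]
  apply Units.ext
  rw [Units.coe_map, Units.val_pow_eq_pow_val]
  exact resFrob_apply q E E' _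

end Six

section Seven

variable (E : Type) [Field E] [Algebra ℚ_[q] E] [FiniteDimensional ℚ_[q] E]
  (E' : Type) [Field E'] [Algebra ℚ_[q] E'] [FiniteDimensional ℚ_[q] E'] [Algebra E E']
  [IsScalarTower ℚ_[q] E E'] [IsGalois E E']
  {H : Type*} [Group H] (p : ℕ) [Fact p.Prime]

/-- **(d1)** A homomorphism from `I` with `p`-group image (`p ≠ q`) kills `P = ker θ₀`. -/
theorem ker_theta0_le_ker (hpq : p ≠ q) (f : inertia q E E' →* H) (hf : IsPGroup p f.range) :
    (theta0 q E E').ker ≤ f.ker := by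
  intro σ hσ
  rw [MonoidHom.mem_ker]
  have h1 : IsPGroup q ((theta0 q E E').ker.map f) := (isPGroup_ker_theta0 q E E').map f
  have hdis := IsPGroup.disjoint_of_ne q p hpq.symm _ _ h1 hf
  have h2 : f σ ∈ (theta0 q E E').ker.map f ⊓ f.range := ⟨⟨σ, hσ, rfl⟩, ⟨σ, rfl⟩⟩
  rw [hdis.eq_bot] at h2
  exact h2

/-- There is `τ ∈ I` such that `θ₀ τ` generates the image of `θ₀`. -/
theorem exists_theta0_generator :
    ∃ τ : inertia q E E', ∀ σ : inertia q E E',
      theta0 q E E' σ ∈ Subgroup.zpowers (theta0 q E E' τ) := by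
  obtain ⟨⟨g, τ, rfl⟩, hg⟩ := (isCyclic_range_theta0 q E E').exists_generator
  refine ⟨τ, fun σ => ?_⟩
  obtain ⟨k, hk⟩ := Subgroup.mem_zpowers_iff.1 (hg ⟨theta0 q E E' σ, σ, rfl⟩)
  refine Subgroup.mem_zpowers_iff.2 ⟨k, ?_⟩
  have := congrArg Subtype.val hk
  simpa using this

/-- **(d2)** If `θ₀ τ` generates the image of `θ₀`, then for every `f : I → H` with `p`-group image
(`p ≠ q`), `f τ` generates the image of `f`. -/
theorem apply_mem_zpowers (hpq : p ≠ q) (f : inertia q E E' →* H) (hf : IsPGroup p f.range)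
    (τ : inertia q E E')
    (hτ : ∀ σ : inertia q E E', theta0 q E E' σ ∈ Subgroup.zpowers (theta0 q E E' τ))
    (σ : inertia q E E') : f σ ∈ Subgroup.zpowers (f τ) := by
  obtain ⟨k, hk⟩ := Subgroup.mem_zpowers_iff.1 (hτ σ)
  have h1 : σ * (τ ^ k)⁻¹ ∈ (theta0 q E E').ker := by
    rw [MonoidHom.mem_ker, map_mul, map_inv, map_zpow, hk, mul_inv_cancel]
  have h2 := ker_theta0_le_ker q E E' p hpq f hf h1
  rw [MonoidHom.mem_ker, map_mul, map_inv, map_zpow, mul_inv_eq_one] at h2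
  exact Subgroup.mem_zpowers_iff.2 ⟨k, h2.symm⟩

theorem range_eq_zpowers (hpq : p ≠ q) (f : inertia q E E' →* H) (hf : IsPGroup p f.range)
    (τ : inertia q E E')
    (hτ : ∀ σ : inertia q E E', theta0 q E E' σ ∈ Subgroup.zpowers (theta0 q E E' τ)) :
    f.range = Subgroup.zpowers (f τ) := by
  apply le_antisymm
  · rintro _ ⟨σ, rfl⟩
    exact apply_mem_zpowers q E E' p hpq f hf τ hτ σ
  · rw [Subgroup.zpowers_le]
    exact ⟨τ, rfl⟩

/-- **(d)** The image of the inertia group in a `p`-group (`p ≠ q`) is cyclic. -/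
theorem isCyclic_range (hpq : p ≠ q) (f : inertia q E E' →* H) (hf : IsPGroup p f.range) :
    IsCyclic f.range := by
  obtain ⟨τ, hτ⟩ := exists_theta0_generator q E E'
  rw [range_eq_zpowers q E E' p hpq f hf τ hτ]
  infer_instance

/-- **The tame relation** `g(φ) g(τ) g(φ)⁻¹ = g(τ) ^ Q` (`φ` a Frobenius, `τ ∈ I`, `Q = #k`) for a
homomorphism `g` on `Gal(E'/E)` whose restriction to `I` has `p`-group image, `p ≠ q`. -/
theorem tame_relation (hpq : p ≠ q) (g : (E' ≃ₐ[E] E') →* H)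
    (hg : IsPGroup p ((inertia q E E').map g)) {φ : E' ≃ₐ[E] E'} (hφ : IsFrob q E E' φ)
    {τ : E' ≃ₐ[E] E'} (hτ : τ ∈ inertia q E E') :
    g φ * g τ * (g φ)⁻¹ = g τ ^ resCard q E := by
  set f : inertia q E E' →* H := g.comp (inertia q E E').subtype with hf_def
  have hf : IsPGroup p f.range := by
    have : f.range = (inertia q E E').map g := by
      rw [hf_def, MonoidHom.range_comp, Subgroup.range_subtype]
    rw [this]; exact hg
  set τ' : inertia q E E' := ⟨τ, hτ⟩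
  set c : inertia q E E' := ⟨φ * τ * φ⁻¹, (inertia_normal q E E').conj_mem τ hτ φ⟩
  have h1 : c * (τ' ^ resCard q E)⁻¹ ∈ (theta0 q E E').ker := by
    rw [MonoidHom.mem_ker, map_mul, map_inv, map_pow, theta0_conj_frob q E E' hφ τ',
      mul_inv_cancel]
  have h2 := ker_theta0_le_ker q E E' p hpq f hf h1
  rw [MonoidHom.mem_ker, map_mul, map_inv, map_pow, mul_inv_eq_one] at h2
  have h3 : f c = g φ * g τ * (g φ)⁻¹ := by
    simp [hf_def, c]
  have h4 : f τ' = g τ := rfl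
  rw [← h3, ← h4, h2]

end Seven

end

end Fermat.Agent.TW.LOC.TameInertia4
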