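/-
Programme T (S56, Taylor–Wiles primes), chapter LOC, task L1 (profinite form) — helper4.

TAME INERTIA on the local Galois group `Gq q = Gal(ℚ̄_q/ℚ_q)` (`Defs2`), with the level basis
`Objects21.levelLoc q` and the local inertia group `Iq q` of `Defs2`.

* Density: `mem_clQbar`, `exists_padicEmbedding_norm_sub_lt : ∀ x ε > 0, ∃ y : ℚ̄, ‖x - ι y‖ < ε`
  (`ι = padicEmbedding q`);
* `mem_nonunits_padicPlace_iff`, `liesOverPrime_padicPlace`,
  `sub_mem_nonunits_of_mem_inertiaSubgroupIn` (generic);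
* **`mem_Iq_iff_norm : τ ∈ Iq q ↔ ∀ x : PadicAlgCl q, ‖x‖ ≤ 1 → ‖τ x - x‖ < 1`**;
* `resCard_padic : resCard q ℚ_[q] = q`;
* for `L/ℚ_q` finite Galois inside `PadicAlgCl q` (an instance of the model of `Interface12` with
  `E = ℚ_[q]`, `E' = L`): `snorm_eq_norm`, `resL q L : Gq q →* Gal(L/ℚ_q)` (`coe_resL`, `ker_resL`,
  `resL_surjective`), `resL_mem_inertia`, `resI q L : Iq q →* inertia q ℚ_[q] L`,
  `IsFrobLift q φ := ∀ x, ‖x‖ ≤ 1 → ‖φ x - x ^ q‖ < 1`, `isFrob_resL`,
  `thetaL q L : Iq q →* (resF q L)ˣ` (the tame character of level `L`);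
* `exists_galois_level`: every `U ∈ (levelLoc q).sets` contains `Gal(ℚ̄_q/L)`, `L/ℚ_q` finite Galois;
* `IsLevelOnIq q f := ∃ U ∈ (levelLoc q).sets, ∀ σ : Iq q, ↑σ ∈ U → f σ = 1`, `isLevelOnIq_comp`;
* for `p ≠ q` prime, `f : Iq q →* H` of level `L` with `IsPGroup p f.range`:
  `eq_one_of_thetaL_eq_one` (`f` kills `ker (thetaL q L)`), `exists_thetaL_generator`,
  `apply_mem_zpowers_of_level`;
* **`exists_range_eq_zpowers`, `isCyclic_range_of_level`**: a level homomorphism `Iq q →* H` with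
  `p`-group image, `p ≠ q`, has cyclic image `⟨f τ⟩`;
* **`tame_relation_Gq`**: `g φ * g τ * (g φ)⁻¹ = g τ ^ q` for `g : Gq q →* H` trivial on some level,
  `IsPGroup p ((Iq q).map g)`, `φ` a Frobenius lift, `τ ∈ Iq q`.
-/
import Mathlib
import Fermat.Agent.TW.LOC.Defs2
import Fermat.Agent.TW.LOC.TameInertia4
import Fermat.Agent.PT.BR.LocInj13
import Fermat.Agent.PT.BR.LocalLevel13
import Fermat.Agent.ES.FROB.FrobFacts12
import Fermat.Agent.S13.UnramVal
import Fermat.Agent.PT.LOC.Unram11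

set_option autoImplicit false
set_option linter.unusedSectionVars false

open Fermat.Agent.PT.PRO.LevelCoh28 Fermat.Agent.PT.GLUE.Objects21
open Fermat.Agent.TW.LOC.Defs2 Fermat.Agent.PT.BR.LocInj13
open scoped Fermat.Agent.PT.LOC.Interface12 Fermat.Agent.PT.LOC.StructureTower27
open Fermat.Agent.PT.LOC.Interface12 Fermat.Agent.PT.LOC.Structure14
  Fermat.Agent.PT.LOC.StructureNorm14 Fermat.Agent.PT.LOC.StructureTower27
  Fermat.Agent.PT.LOC.StructureTowerEF27 Fermat.Agent.PT.LOC.RootsUnity14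
  Fermat.Agent.PT.LOC.Unram11 Fermat.Agent.TW.LOC.TameInertia4
open scoped IntermediateField

namespace Fermat.Agent.TW.LOC.TameProfinite4

noncomputable section

variable (q : ℕ) [Fact q.Prime]

local notation "Qbar" => AlgebraicClosure ℚ

/-! ### Density of `ℚ̄` in `PadicAlgCl q` -/

/-- The closure of `ι(ℚ̄)` as a subfield. -/
def clQbar : Subfield (PadicAlgCl q) :=
  ((padicEmbedding q).fieldRange.toSubfield).topologicalClosure

theorem padicEmbedding_mem_clQbar (y : Qbar) : padicEmbedding q y ∈ clQbar q :=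
  Subfield.le_topologicalClosure _ ⟨y, rfl⟩

theorem algebraMap_mem_clQbar (a : ℚ_[q]) : algebraMap ℚ_[q] (PadicAlgCl q) a ∈ clQbar q := by
  change algebraMap ℚ_[q] (PadicAlgCl q) a ∈
    closure (((padicEmbedding q).fieldRange.toSubfield : Subfield (PadicAlgCl q)) :
      Set (PadicAlgCl q))
  rw [Metric.mem_closure_iff]
  intro ε hε
  obtain ⟨r, hr⟩ := Padic.rat_dense q a hε
  refine ⟨algebraMap ℚ_[q] (PadicAlgCl q) (r : ℚ_[q]), ?_, ?_⟩
  · refine ⟨(r : Qbar), ?_⟩
    change padicEmbedding q (r : Qbar) = _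
    rw [map_ratCast, map_ratCast]
  · rw [dist_eq_norm, ← map_sub]
    have := PadicAlgCl.norm_extends q (a - (r : ℚ_[q]))
    rw [this]
    exact hr

/-- `ι(ℚ̄)` is dense in `PadicAlgCl q`. -/
theorem mem_clQbar (x : PadicAlgCl q) : x ∈ clQbar q := by
  obtain ⟨β, hβ⟩ := exists_mem_adjoin_padicEmbedding q x
  let K : IntermediateField ℚ_[q] (PadicAlgCl q) :=
    { (clQbar q) with algebraMap_mem' := algebraMap_mem_clQbar q }
  have hle : ℚ_[q]⟮padicEmbedding q β⟯ ≤ K := by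
    rw [IntermediateField.adjoin_simple_le_iff]
    exact padicEmbedding_mem_clQbar q β
  exact hle hβ

/-- Every element of `PadicAlgCl q` is congruent to an element of `ι(ℚ̄)` modulo the maximal
ideal (indeed modulo any `ε > 0`). -/
theorem exists_padicEmbedding_norm_sub_lt (x : PadicAlgCl q) {ε : ℝ} (hε : 0 < ε) :
    ∃ y : Qbar, ‖x - padicEmbedding q y‖ < ε := by
  have h := mem_clQbar q x
  change x ∈ closure (((padicEmbedding q).fieldRange.toSubfield : Subfield (PadicAlgCl q)) :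
      Set (PadicAlgCl q)) at h
  rw [Metric.mem_closure_iff] at h
  obtain ⟨_, ⟨y, rfl⟩, hy⟩ := h ε hε
  exact ⟨y, by rwa [dist_eq_norm] at hy⟩

/-! ### The inertia group `Iq` in terms of the norm -/

theorem mem_nonunits_padicPlace_iff (x : Qbar) :
    x ∈ (padicPlace q).nonunits ↔ ‖padicEmbedding q x‖ < 1 := by
  rw [ValuationSubring.mem_nonunits_iff_or]
  by_cases hx : x = 0
  · subst hx
    simp
  · have h1 : padicEmbedding q x ≠ 0 :=
      fun h => hx ((padicEmbedding q).injective (h.trans (map_zero _).symm))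
    have h2 : 0 < ‖padicEmbedding q x‖ := norm_pos_iff.2 h1
    rw [mem_padicPlace_iff, map_inv₀, ← NNReal.coe_le_coe, coe_nnnorm, norm_inv, NNReal.coe_one]
    constructor
    · rintro (h | h)
      · exact absurd h hx
      · rw [not_le] at h
        rw [one_lt_inv₀ h2] at h
        exact h
    · intro h
      right
      rw [not_le, one_lt_inv₀ h2]
      exact h

/-- Generic: an element of the inertia group moves every element of `A` by a non-unit. -/
theorem sub_mem_nonunits_of_mem_inertiaSubgroupIn {K L : Type*} [Field K] [Field L] [Algebra K L]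
    (A : ValuationSubring L) {τ : L ≃ₐ[K] L} (hτ : τ ∈ A.inertiaSubgroupIn K) (a : L)
    (ha : a ∈ A) : τ a - a ∈ A.nonunits := by
  obtain ⟨h, hx⟩ := (Fermat.Agent.ES.FROB.FrobFacts12.mem_inertiaSubgroupIn_iff A).1 hτ
  have h1 := hx (IsLocalRing.residue A ⟨a, ha⟩)
  rw [← IsLocalRing.ResidueField.residue_smul, ← sub_eq_zero, ← map_sub,
    IsLocalRing.residue_eq_zero_iff] at h1
  exact ValuationSubring.coe_mem_nonunits_iff.2 h1

theorem norm_sub_le_max' (a b : PadicAlgCl q) : ‖a - b‖ ≤ max ‖a‖ ‖b‖ := by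
  have := PadicAlgCl.isNonarchimedean q a (-b)
  rwa [norm_neg, ← sub_eq_add_neg] at this

theorem norm_galois (τ : Gq q) (x : PadicAlgCl q) : ‖τ x‖ = ‖x‖ :=
  (spectralNorm_eq_of_equiv τ x).symm

theorem liesOverPrime_padicPlace : (padicPlace q).LiesOverPrime q := by
  change ((q : ℕ) : Qbar) ∈ (padicPlace q).nonunits
  rw [mem_nonunits_padicPlace_iff, map_natCast]
  have h1 : ‖((q : ℚ_[q]) : PadicAlgCl q)‖ = ‖(q : ℚ_[q])‖ := PadicAlgCl.norm_extends q _
  have h2 : ((q : ℚ_[q]) : PadicAlgCl q) = ((q : ℕ) : PadicAlgCl q) := map_natCast _ _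
  rw [← h2, h1, Padic.norm_p]
  have hq : (1 : ℝ) < q := by exact_mod_cast (Fact.out : q.Prime).one_lt
  exact inv_lt_one_of_one_lt₀ hq

/-- **Norm characterisation of the local inertia group**: `τ ∈ Iq` iff `τ` moves every integral
element of `PadicAlgCl q` by an element of norm `< 1`. -/
theorem mem_Iq_iff_norm (τ : Gq q) :
    τ ∈ Iq q ↔ ∀ x : PadicAlgCl q, ‖x‖ ≤ 1 → ‖τ x - x‖ < 1 := by
  constructor
  · intro hτ x hx
    obtain ⟨y, hy⟩ := exists_padicEmbedding_norm_sub_lt q x one_pos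
    have hy1 : ‖padicEmbedding q y‖ ≤ 1 := by
      have : padicEmbedding q y = x - (x - padicEmbedding q y) := by ring
      rw [this]
      exact le_trans (norm_sub_le_max' q _ _) (max_le hx hy.le)
    have h1 := sub_mem_nonunits_of_mem_inertiaSubgroupIn (padicPlace q) hτ y
      ((mem_padicPlace_iff q).2 (by
        rw [← NNReal.coe_le_coe, coe_nnnorm, NNReal.coe_one]; exact hy1))
    rw [mem_nonunits_padicPlace_iff, map_sub, padicEmbedding_localGaloisToGlobal] at h1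
    have h2 : τ x - x = (τ (x - padicEmbedding q y) + (τ (padicEmbedding q y) - padicEmbedding q y))
        - (x - padicEmbedding q y) := by
      rw [map_sub]; ring
    rw [h2]
    refine lt_of_le_of_lt (norm_sub_le_max' q _ _) (max_lt ?_ hy)
    refine lt_of_le_of_lt (PadicAlgCl.isNonarchimedean q _ _) (max_lt ?_ h1)
    rw [norm_galois]
    exact hy
  · intro h
    refine Fermat.Agent.S13.UnramVal.mem_inertiaSubgroupIn_qbar (padicPlace q)
      (Fact.out : q.Prime) (liesOverPrime_padicPlace q) _ (fun x hx => ?_)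
    rw [mem_nonunits_padicPlace_iff, map_sub, padicEmbedding_localGaloisToGlobal]
    apply h
    have hmem : x ∈ padicPlace q := Fermat.Agent.S13.UnramVal.mem_of_isIntegral_int _ hx
    have := (mem_padicPlace_iff q).1 hmem
    rw [← NNReal.coe_le_coe, coe_nnnorm, NNReal.coe_one] at this
    exact this

/-! ### The residue field of `ℚ_q` -/

theorem snorm_padic (a : ℚ_[q]) : snorm q ℚ_[q] a = ‖a‖ :=
  snorm_algebraMap q ℚ_[q] a

/-- The residue field of `ℚ_q` has `q` elements. -/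
theorem resCard_padic : resCard q ℚ_[q] = q := by
  rw [← card_resF]
  let f : ℤ_[q] →+* resF q ℚ_[q] :=
    (Ideal.Quotient.mk (mI q ℚ_[q])).comp (algebraMap ℤ_[q] (intRing q ℚ_[q]))
  have hsurj : Function.Surjective f := by
    intro y
    obtain ⟨x, rfl⟩ := Ideal.Quotient.mk_surjective y
    have hx : ‖(x : ℚ_[q])‖ ≤ 1 := by
      have := (mem_intRing_iff q ℚ_[q] _).1 x.2
      rwa [← snorm_padic]
    exact ⟨⟨x, hx⟩, rfl⟩
  have hker : RingHom.ker f = IsLocalRing.maximalIdeal ℤ_[q] := by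
    ext a
    rw [RingHom.mem_ker, RingHom.comp_apply, Ideal.Quotient.eq_zero_iff_mem,
      mem_maximalIdeal_iff_snorm, IsLocalRing.mem_maximalIdeal, PadicInt.mem_nonunits,
      snorm_padic, PadicInt.norm_def]
    rfl
  have e : ℤ_[q] ⧸ RingHom.ker f ≃+* resF q ℚ_[q] := RingHom.quotientKerEquivOfSurjective hsurj
  rw [← Nat.card_congr e.toEquiv, hker]
  change Nat.card (IsLocalRing.ResidueField ℤ_[q]) = q
  rw [Nat.card_congr (PadicInt.residueField (p := q)).toEquiv, Nat.card_zmod]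

/-! ### Finite Galois levels -/

section Level

variable (L : IntermediateField ℚ_[q] (PadicAlgCl q)) [FiniteDimensional ℚ_[q] L]
  [IsGalois ℚ_[q] L]

theorem snorm_eq_norm (x : L) : snorm q L x = ‖(x : PadicAlgCl q)‖ := by
  change spectralNorm ℚ_[q] L x = spectralNorm ℚ_[q] (PadicAlgCl q) (x : PadicAlgCl q)
  rw [spectralNorm, spectralNorm]
  congr 1
  exact (minpoly.algHom_eq L.val L.val.injective x).symm

/-- Restriction `Gq → Gal(L/ℚ_q)`. -/
def resL : Gq q →* (L ≃ₐ[ℚ_[q]] L) := AlgEquiv.restrictNormalHom L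

theorem coe_resL (τ : Gq q) (x : L) : ((resL q L τ x : L) : PadicAlgCl q) = τ (x : PadicAlgCl q) :=
  AlgEquiv.restrictNormal_commutes τ L x

theorem ker_resL : (resL q L).ker = L.fixingSubgroup := L.restrictNormalHom_ker

theorem resL_surjective : Function.Surjective (resL q L) :=
  AlgEquiv.restrictNormalHom_surjective _

/-- The restriction of an element of `Iq` lies in the inertia group of `L/ℚ_q`. -/
theorem resL_mem_inertia {τ : Gq q} (hτ : τ ∈ Iq q) : resL q L τ ∈ inertia q ℚ_[q] L := by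
  rw [mem_inertia_iff]
  intro x hx
  have h1 : snorm q L x ≤ 1 := (mem_intRing_iff q L x).1 hx
  rw [snorm_eq_norm] at h1 ⊢
  have h2 := (mem_Iq_iff_norm q τ).1 hτ _ h1
  rwa [← coe_resL q L τ x, ← AddSubgroupClass.coe_sub] at h2

/-- Restriction `Iq → I(L/ℚ_q)`. -/
def resI : Iq q →* inertia q ℚ_[q] L :=
  ((resL q L).comp (Iq q).subtype).codRestrict _ (fun τ => resL_mem_inertia q L τ.2)

theorem coe_resI (τ : Iq q) : ((resI q L τ : inertia q ℚ_[q] L) : L ≃ₐ[ℚ_[q]] L) = resL q L τ :=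
  rfl

/-- A Frobenius lift: `φ x ≡ x ^ q` modulo the maximal ideal of the integers of `PadicAlgCl q`. -/
def IsFrobLift (φ : Gq q) : Prop := ∀ x : PadicAlgCl q, ‖x‖ ≤ 1 → ‖φ x - x ^ q‖ < 1

theorem isFrob_resL {φ : Gq q} (hφ : IsFrobLift q φ) : IsFrob q ℚ_[q] L (resL q L φ) := by
  rw [Fermat.Agent.PT.LOC.RootsUnity14.isFrob_iff, resCard_padic]
  intro x hx
  have h1 : snorm q L x ≤ 1 := (mem_intRing_iff q L x).1 hx
  rw [snorm_eq_norm] at h1 ⊢
  have h2 := hφ _ h1
  rwa [← coe_resL q L φ x, ← SubmonoidClass.coe_pow, ← AddSubgroupClass.coe_sub] at h2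

end Level

/-! ### Levels of `Gq` -/

local instance isAlgClosurePadicT4 : IsAlgClosure ℚ_[q] (PadicAlgCl q) :=
  ⟨inferInstance, inferInstance⟩
local instance isGaloisPadicT4 : IsGalois ℚ_[q] (PadicAlgCl q) :=
  IsAlgClosure.isGalois ℚ_[q] (PadicAlgCl q)

/-- Every member of `levelLoc q` contains `Gal(ℚ̄_q/L)` for a finite Galois `L/ℚ_q`. -/
theorem exists_galois_level {U : Subgroup (Gq q)} (hU : U ∈ (levelLoc q).sets) :
    ∃ L : IntermediateField ℚ_[q] (PadicAlgCl q), FiniteDimensional ℚ_[q] L ∧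
      IsGalois ℚ_[q] L ∧ L.fixingSubgroup ≤ U := by
  obtain ⟨V, hV, hVU, hn⟩ := (levelLoc q).isBasis.normalCore U hU
  obtain ⟨_, ⟨F, hF, rfl⟩, rfl⟩ := hV
  have hF' : FiniteDimensional ℚ F := hF
  have heq : F.fixingSubgroup.comap (localGaloisToGlobal q) = (localField q F).fixingSubgroup := by
    ext τ
    rw [Subgroup.mem_comap, mem_fixingSubgroup_localField_iff]
  rw [heq] at hn hVU
  exact ⟨localField q F, inferInstance, (InfiniteGalois.normal_iff_isGalois _).1 hn, hVU⟩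

section Main

variable {H : Type*} [Group H] (p : ℕ) [Fact p.Prime]

/-- `f : Iq → H` is trivial on `Iq ∩ U` for some open subgroup `U` of `Gq`. -/
def IsLevelOnIq (f : Iq q →* H) : Prop :=
  ∃ U ∈ (levelLoc q).sets, ∀ σ : Iq q, (σ : Gq q) ∈ U → f σ = 1

variable (L : IntermediateField ℚ_[q] (PadicAlgCl q)) [FiniteDimensional ℚ_[q] L]
  [IsGalois ℚ_[q] L]

/-- The tame character of level `L` on `Iq`. -/
def thetaL : Iq q →* (resF q L)ˣ := (theta0 q ℚ_[q] L).comp (resI q L)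

/-- Core lemma: a homomorphism `f : Iq → H` of level `L` with `p`-group image (`p ≠ q`) kills the
kernel of the tame character of level `L`. -/
theorem eq_one_of_thetaL_eq_one (hpq : p ≠ q) (f : Iq q →* H)
    (hL : ∀ σ : Iq q, (σ : Gq q) ∈ L.fixingSubgroup → f σ = 1) (hf : IsPGroup p f.range)
    (σ : Iq q) (hσ : thetaL q L σ = 1) : f σ = 1 := by
  obtain ⟨k, hk⟩ := isPGroup_ker_theta0 q ℚ_[q] L ⟨resI q L σ, hσ⟩
  have h1 : resI q L (σ ^ q ^ k) = 1 := by
    rw [map_pow]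
    exact congrArg Subtype.val hk
  have h2 : ((σ ^ q ^ k : Iq q) : Gq q) ∈ L.fixingSubgroup := by
    rw [← ker_resL, MonoidHom.mem_ker, ← coe_resI, h1]
    rfl
  have h3 : f σ ^ q ^ k = 1 := by rw [← map_pow]; exact hL _ h2
  obtain ⟨m, hm⟩ := hf ⟨f σ, σ, rfl⟩
  have h4 : f σ ^ p ^ m = 1 := congrArg Subtype.val hm
  have hcop : Nat.Coprime (q ^ k) (p ^ m) :=
    Nat.Coprime.pow _ _ ((Nat.coprime_primes Fact.out Fact.out).2 hpq.symm)
  have h5 := Nat.eq_one_of_dvd_coprimes hcop (orderOf_dvd_of_pow_eq_one h3)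
    (orderOf_dvd_of_pow_eq_one h4)
  exact orderOf_eq_one_iff.1 h5

theorem exists_thetaL_generator :
    ∃ τ : Iq q, ∀ σ : Iq q, thetaL q L σ ∈ Subgroup.zpowers (thetaL q L τ) := by
  have hc : IsCyclic (thetaL q L).range := inferInstance
  obtain ⟨⟨g, τ, rfl⟩, hg⟩ := hc.exists_generator
  refine ⟨τ, fun σ => ?_⟩
  obtain ⟨k, hk⟩ := Subgroup.mem_zpowers_iff.1 (hg ⟨thetaL q L σ, σ, rfl⟩)
  refine Subgroup.mem_zpowers_iff.2 ⟨k, ?_⟩
  have := congrArg Subtype.val hk
  simpa using this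

theorem apply_mem_zpowers_of_level (hpq : p ≠ q) (f : Iq q →* H)
    (hL : ∀ σ : Iq q, (σ : Gq q) ∈ L.fixingSubgroup → f σ = 1) (hf : IsPGroup p f.range)
    (τ : Iq q) (hτ : ∀ σ : Iq q, thetaL q L σ ∈ Subgroup.zpowers (thetaL q L τ)) (σ : Iq q) :
    f σ ∈ Subgroup.zpowers (f τ) := by
  obtain ⟨k, hk⟩ := Subgroup.mem_zpowers_iff.1 (hτ σ)
  have h1 : thetaL q L (σ * (τ ^ k)⁻¹) = 1 := by
    rw [map_mul, map_inv, map_zpow, hk, mul_inv_cancel]
  have h2 := eq_one_of_thetaL_eq_one q p L hpq f hL hf _ h1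
  rw [map_mul, map_inv, map_zpow, mul_inv_eq_one] at h2
  exact Subgroup.mem_zpowers_iff.2 ⟨k, h2.symm⟩

end Main

section Final

variable {H : Type*} [Group H] (p : ℕ) [Fact p.Prime]

theorem isLevelOnIq_comp (g : Gq q →* H) (hlev : ∃ U ∈ (levelLoc q).sets, U ≤ g.ker) :
    IsLevelOnIq q (g.comp (Iq q).subtype) := by
  obtain ⟨U, hU, hgU⟩ := hlev
  exact ⟨U, hU, fun σ hσ => hgU hσ⟩

/-- **Tame inertia, profinite form**: a level homomorphism from the local inertia group `Iq` whose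
image is a `p`-group, `p ≠ q`, has cyclic image, generated by `f τ` for some `τ ∈ Iq`. -/
theorem exists_range_eq_zpowers (hpq : p ≠ q) (f : Iq q →* H) (hlev : IsLevelOnIq q f)
    (hf : IsPGroup p f.range) : ∃ τ : Iq q, f.range = Subgroup.zpowers (f τ) := by
  obtain ⟨U, hU, hfU⟩ := hlev
  obtain ⟨L, hfd, hgal, hLU⟩ := exists_galois_level q hU
  have hL : ∀ σ : Iq q, (σ : Gq q) ∈ L.fixingSubgroup → f σ = 1 := fun σ hσ => hfU σ (hLU hσ)
  obtain ⟨τ, hτ⟩ := exists_thetaL_generator q L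
  refine ⟨τ, le_antisymm ?_ ?_⟩
  · rintro _ ⟨σ, rfl⟩
    exact apply_mem_zpowers_of_level q p L hpq f hL hf τ hτ σ
  · rw [Subgroup.zpowers_le]
    exact ⟨τ, rfl⟩

theorem isCyclic_range_of_level (hpq : p ≠ q) (f : Iq q →* H) (hlev : IsLevelOnIq q f)
    (hf : IsPGroup p f.range) : IsCyclic f.range := by
  obtain ⟨τ, hτ⟩ := exists_range_eq_zpowers q p hpq f hlev hf
  rw [hτ]
  infer_instance

/-- **The tame relation on `Gq`**: `g φ * g τ * (g φ)⁻¹ = g τ ^ q` for a level homomorphism `g` on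
`Gq` whose restriction to `Iq` has `p`-group image (`p ≠ q`), `φ` a Frobenius lift, `τ ∈ Iq`. -/
theorem tame_relation_Gq (hpq : p ≠ q) (g : Gq q →* H)
    (hlev : ∃ U ∈ (levelLoc q).sets, U ≤ g.ker) (hg : IsPGroup p ((Iq q).map g))
    {φ : Gq q} (hφ : IsFrobLift q φ) {τ : Gq q} (hτ : τ ∈ Iq q) :
    g φ * g τ * (g φ)⁻¹ = g τ ^ q := by
  obtain ⟨U, hU, hgU⟩ := hlev
  obtain ⟨L, hfd, hgal, hLU⟩ := exists_galois_level q hU
  set f : Iq q →* H := g.comp (Iq q).subtype with hf_def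
  have hf : IsPGroup p f.range := by
    have : f.range = (Iq q).map g := by
      rw [hf_def, MonoidHom.range_comp, Subgroup.range_subtype]
    rw [this]; exact hg
  have hL : ∀ σ : Iq q, (σ : Gq q) ∈ L.fixingSubgroup → f σ = 1 :=
    fun σ hσ => hgU (hLU hσ)
  set τ' : Iq q := ⟨τ, hτ⟩
  set c : Iq q := ⟨φ * τ * φ⁻¹, (Iq_normal q).conj_mem τ hτ φ⟩
  have hc : resI q L c = ⟨resL q L φ * resI q L τ' * (resL q L φ)⁻¹,
      (inertia_normal q ℚ_[q] L).conj_mem _ (resI q L τ').2 _⟩ := by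
    apply Subtype.ext
    rw [coe_resI]
    simp only [c, map_mul, map_inv]
    rfl
  have h1 : thetaL q L (c * (τ' ^ q)⁻¹) = 1 := by
    rw [map_mul, map_inv, map_pow]
    change theta0 q ℚ_[q] L (resI q L c) * _ = 1
    rw [hc, theta0_conj_frob q ℚ_[q] L (isFrob_resL q L hφ) (resI q L τ'), resCard_padic]
    exact mul_inv_cancel _
  have h2 := eq_one_of_thetaL_eq_one q p L hpq f hL hf _ h1
  rw [map_mul, map_inv, map_pow, mul_inv_eq_one] at h2
  have h3 : f c = g φ * g τ * (g φ)⁻¹ := by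
    simp [hf_def, c]
  have h4 : f τ' = g τ := rfl
  rw [← h3, ← h4, h2]

end Final

end

end Fermat.Agent.TW.LOC.TameProfinite4
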