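/-
Programme T (S56, Taylor–Wiles primes), chapter LOC, task L2 (finite-level input) — helper4.

INERTIA GROUPS IN TOWERS, in the abstract model of `PT/LOC/Interface12` (`TameInertia4.inertia`):
for `E ⊆ E' ⊆ E''` finite extensions of `ℚ_q` with `E'/E`, `E''/E` (hence `E''/E'`) Galois and
`resT E E' E'' : Gal(E''/E) →* Gal(E'/E)` the restriction (`AlgEquiv.restrictNormalHom E'`):

* `resT_mem_inertia : σ ∈ inertia q E E'' → resT E E' E'' σ ∈ inertia q E E'`;
* `inertia_inf_ker : inertia q E E'' ⊓ (resT E E' E'').ker = (inertia q E' E'').map (galIncl E E' E'')`;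
* **`resT_inertia_surjective : σ ∈ inertia q E E' → ∃ σ'' ∈ inertia q E E'', resT E E' E'' σ'' = σ`**
  (counting: `#I(E''/E) = e(E''/E) = e(E'/E) e(E''/E')`, `Frob27.card_inertia`, `ramIdx_tower`).
-/
import Mathlib
import Fermat.Agent.TW.LOC.TameInertia4

set_option autoImplicit false
set_option linter.unusedSectionVars false

open scoped Fermat.Agent.PT.LOC.Interface12 Fermat.Agent.PT.LOC.StructureTower27
open Fermat.Agent.PT.LOC.Interface12 Fermat.Agent.PT.LOC.Structure14
  Fermat.Agent.PT.LOC.StructureNorm14 Fermat.Agent.PT.LOC.StructureTower27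
  Fermat.Agent.PT.LOC.StructureTowerEF27 Fermat.Agent.PT.LOC.RootsUnity14
  Fermat.Agent.PT.LOC.Unram11 Fermat.Agent.TW.LOC.TameInertia4

namespace Fermat.Agent.TW.LOC.InertiaTower4

noncomputable section

variable (q : ℕ) [Fact q.Prime]
  (E : Type) [Field E] [Algebra ℚ_[q] E] [FiniteDimensional ℚ_[q] E]
  (E' : Type) [Field E'] [Algebra ℚ_[q] E'] [FiniteDimensional ℚ_[q] E'] [Algebra E E']
  [IsScalarTower ℚ_[q] E E']
  (E'' : Type) [Field E''] [Algebra ℚ_[q] E''] [FiniteDimensional ℚ_[q] E''] [Algebra E E'']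
  [IsScalarTower ℚ_[q] E E''] [Algebra E' E''] [IsScalarTower ℚ_[q] E' E'']
  [IsScalarTower E E' E''] [IsGalois E E'] [IsGalois E E''] [IsGalois E' E'']

/-- Restriction `Gal(E''/E) → Gal(E'/E)`. -/
abbrev resT : (E'' ≃ₐ[E] E'') →* (E' ≃ₐ[E] E') := AlgEquiv.restrictNormalHom E'

theorem algebraMap_resT (σ : E'' ≃ₐ[E] E'') (x : E') :
    algebraMap E' E'' (resT E E' E'' σ x) = σ (algebraMap E' E'' x) :=
  AlgEquiv.restrictNormal_commutes σ E' x

/-- Restriction maps inertia into inertia. -/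
theorem resT_mem_inertia {σ : E'' ≃ₐ[E] E''} (hσ : σ ∈ inertia q E E'') :
    resT E E' E'' σ ∈ inertia q E E' := by
  rw [mem_inertia_iff] at hσ ⊢
  intro x hx
  rw [← snorm_algebraMap_tower q E' E'', map_sub, algebraMap_resT]
  exact hσ _ ((mem_intRing_algebraMap_iff q E' E'' x).2 hx)

theorem galIncl_injective : Function.Injective (galIncl E E' E'') := by
  intro a b h
  ext x
  exact DFunLike.congr_fun h x

theorem galIncl_apply (τ : E'' ≃ₐ[E'] E'') (x : E'') : galIncl E E' E'' τ x = τ x := rfl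

/-- The kernel of restriction on inertia is the inertia group of `E''/E'`. -/
theorem inertia_inf_ker :
    inertia q E E'' ⊓ (resT E E' E'').ker = (inertia q E' E'').map (galIncl E E' E'') := by
  ext σ
  rw [Subgroup.mem_inf, Subgroup.mem_map]
  constructor
  · rintro ⟨hσ, hker⟩
    rw [MonoidHom.mem_ker] at hker
    have hcomm : ∀ x : E', σ (algebraMap E' E'' x) = algebraMap E' E'' x := by
      intro x
      rw [← algebraMap_resT, hker, AlgEquiv.one_apply]
    let τ : E'' ≃ₐ[E'] E'' := AlgEquiv.ofRingEquiv (f := σ.toRingEquiv) hcomm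
    refine ⟨τ, ?_, ?_⟩
    · rw [mem_inertia_iff]
      exact (mem_inertia_iff q E E'' σ).1 hσ
    · ext x
      rfl
  · rintro ⟨τ, hτ, rfl⟩
    refine ⟨?_, ?_⟩
    · rw [mem_inertia_iff]
      exact (mem_inertia_iff q E' E'' τ).1 hτ
    · rw [MonoidHom.mem_ker]
      ext x
      apply (algebraMap E' E'').injective
      rw [algebraMap_resT, galIncl_apply, τ.commutes, AlgEquiv.one_apply]

/-- **Inertia groups surject in towers.** -/
theorem resT_inertia_surjective {σ : E' ≃ₐ[E] E'} (hσ : σ ∈ inertia q E E') :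
    ∃ σ'' ∈ inertia q E E'', resT E E' E'' σ'' = σ := by
  have hfin'' := Fermat.Agent.PT.LOC.Frob27.finite_gal q E E''
  have hfin' := Fermat.Agent.PT.LOC.Frob27.finite_gal q E E'
  set f : inertia q E E'' →* (E' ≃ₐ[E] E') := (resT E E' E'').comp (inertia q E E'').subtype
    with hf
  have h1 : Nat.card f.ker * Nat.card f.range = Nat.card (inertia q E E'') := by
    rw [← Subgroup.index_ker]; exact Subgroup.card_mul_index _
  have h2 : Nat.card f.ker = ramIdx q E' E'' := by
    rw [← Subgroup.card_subtype (inertia q E E'') f.ker]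
    have : Subgroup.map (inertia q E E'').subtype f.ker =
        inertia q E E'' ⊓ (resT E E' E'').ker := by
      ext σ''
      constructor
      · rintro ⟨τ, hτ, rfl⟩
        exact ⟨τ.2, hτ⟩
      · rintro ⟨h1, h2⟩
        exact ⟨⟨σ'', h1⟩, h2, rfl⟩
    rw [this, inertia_inf_ker, Subgroup.card_map_of_injective (galIncl_injective E E' E''),
      card_inertia]
  rw [h2, card_inertia, ramIdx_tower q E E' E'', mul_comm] at h1
  have h3 : Nat.card f.range = ramIdx q E E' :=
    Nat.eq_of_mul_eq_mul_right (ramIdx_pos q E' E'') h1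
  have hle : f.range ≤ inertia q E E' := by
    rintro _ ⟨τ, rfl⟩
    exact resT_mem_inertia q E E' E'' τ.2
  have heq : f.range = inertia q E E' :=
    Subgroup.eq_of_le_of_card_ge hle (by rw [h3, card_inertia])
  rw [← heq] at hσ
  obtain ⟨τ, rfl⟩ := hσ
  exact ⟨τ, τ.2, rfl⟩

end

end Fermat.Agent.TW.LOC.InertiaTower4
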