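/-
Programme T (S56, Taylor–Wiles primes), chapter LOC, task L2 (abstract part) — helper4.

UNRAMIFIED COHOMOLOGY, abstract form (Mathlib + `PT/PRO/LevelCoh28` only).

`G` a group with a level basis `𝓑` (`LevelCoh28.LevelBasis G`), `I ⊴ G`, `φ : G` such that
`IsProcyclicQuot 𝓑 I φ`:
* `gen  : ∀ U ∈ 𝓑.sets, ∀ g, ∃ k : ℕ, ∃ τ ∈ I, ∃ u ∈ U, g = φ ^ k * τ * u`
  (the image of `φ` generates every `G/IU`);
* `quot : ∀ m > 0, ∃ V, V.Normal ∧ I ≤ V ∧ (∃ U ∈ 𝓑.sets, U ≤ V) ∧ ∀ k : ℕ, φ ^ k ∈ V ↔ m ∣ k`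
  (`G/I` has cyclic quotients of every order).

`H1urAbs 𝓑 I A : Submodule k (H1 𝓑 A)` = classes of level cocycles `c` with
`∃ m, ∀ τ ∈ I, c τ = A.ρ τ m - m` (the kernel of `H¹(G, A) → H¹(I, A)`; same formula as
`Defs2.H1ur`).

Main theorem, for `A : Rep k G` finite and discrete (`LevelCoh28.IsDiscrete 𝓑.sets A`):

  `card_H1urAbs : Nat.card (H1urAbs 𝓑 I A) = Nat.card {m : A // ∀ g, A.ρ g m = m}`.

Intermediate results: `eq_zero_of_vanish` (a level cocycle vanishing on `I` and at `φ` is zero),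
`CycData.coc` (the cocycle `g ↦ ∑_{i<κ(g)} φ^i n` attached to `n ∈ A^I`), `Theta : A^I →+ H1 𝓑 A`
with `range_Theta = H1urAbs` and `ker_Theta = range (φ - 1)`, `mem_ker_phiSubOne_iff`
(`(A^I)^φ = A^G`).
-/
import Mathlib
import Fermat.Agent.PT.PRO.LevelCoh28

set_option autoImplicit false
set_option linter.unusedSectionVars false

universe u

open CategoryTheory groupCohomology Fermat.Agent.PT.PRO.LevelCoh28

namespace Fermat.Agent.TW.LOC.UnramH1Abs4

variable {k G : Type u} [CommRing k] [Group G]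

/-- `G/I` is "procyclic, topologically generated by `φ`, with finite quotients of every order":
* `gen`: for every level `U`, `G = ⋃_k φ^k I U`;
* `quot`: for every `m ≥ 1` there is a normal subgroup `V ⊇ I` containing a level, such that
  `φ ^ k ∈ V ↔ m ∣ k`. -/
structure IsProcyclicQuot (𝓑 : LevelBasis G) (I : Subgroup G) (φ : G) : Prop where
  gen : ∀ U ∈ 𝓑.sets, ∀ g : G, ∃ k : ℕ, ∃ τ ∈ I, ∃ u ∈ U, g = φ ^ k * τ * u
  quot : ∀ m : ℕ, 0 < m → ∃ V : Subgroup G, V.Normal ∧ I ≤ V ∧ (∃ U ∈ 𝓑.sets, U ≤ V) ∧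
    ∀ k : ℕ, φ ^ k ∈ V ↔ m ∣ k

variable (𝓑 : LevelBasis G) (I : Subgroup G) (A : Rep.{u} k G)

/-- The unramified classes (relative to `I`): classes of level cocycles whose restriction to `I`
is the coboundary of a vector. -/
def H1urAbs : Submodule k (H1 𝓑 A) where
  carrier := {x | ∃ c : ↥(Z1 𝓑 A), H1mk 𝓑 A c = x ∧
    ∃ m : A, ∀ τ ∈ I, (c : G → A) τ = A.ρ τ m - m}
  add_mem' := by
    rintro _ _ ⟨c, rfl, m, hm⟩ ⟨c', rfl, m', hm'⟩
    refine ⟨c + c', map_add _ _ _, m + m', fun τ hτ => ?_⟩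
    have h1 : ((c + c' : ↥(Z1 𝓑 A)) : G → A) τ = (c : G → A) τ + (c' : G → A) τ := rfl
    rw [h1, hm τ hτ, hm' τ hτ, map_add]
    abel
  zero_mem' := ⟨0, map_zero _, 0, fun τ _ => by simp⟩
  smul_mem' := by
    rintro a _ ⟨c, rfl, m, hm⟩
    refine ⟨a • c, map_smul _ _ _, a • m, fun τ hτ => ?_⟩
    have h1 : ((a • c : ↥(Z1 𝓑 A)) : G → A) τ = a • (c : G → A) τ := rfl
    rw [h1, hm τ hτ, map_smul, smul_sub]

/-- The `I`-invariants, as an additive subgroup. -/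
def invI : AddSubgroup A where
  carrier := {n | ∀ τ ∈ I, A.ρ τ n = n}
  add_mem' := fun {a b} ha hb τ hτ => by rw [map_add, ha τ hτ, hb τ hτ]
  zero_mem' := fun τ _ => map_zero _
  neg_mem' := fun {a} ha τ hτ => by rw [map_neg, ha τ hτ]

theorem mem_invI (n : A) : n ∈ invI I A ↔ ∀ τ ∈ I, A.ρ τ n = n := Iff.rfl

theorem ρ_mem_invI [I.Normal] (g : G) {n : A} (hn : n ∈ invI I A) : A.ρ g n ∈ invI I A := by
  intro τ hτ
  have h1 : τ * g = g * (g⁻¹ * τ * g) := by group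
  have h2 : g⁻¹ * τ * g ∈ I := by
    have := (inferInstance : I.Normal).conj_mem τ hτ g⁻¹
    simpa using this
  rw [← Module.End.mul_apply, ← map_mul, h1, map_mul, Module.End.mul_apply, hn _ h2]

variable {𝓑 I A}

theorem coc_mul {c : G → A} (hc : c ∈ cocycles₁ A) (g h : G) :
    c (g * h) = A.ρ g (c h) + c g := (mem_cocycles₁_iff c).1 hc g h

theorem coc_one {c : G → A} (hc : c ∈ cocycles₁ A) : c 1 = 0 := by
  have := coc_mul hc 1 1
  rw [mul_one, map_one, Module.End.one_apply] at this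
  exact left_eq_add.1 this

theorem coc_pow_eq_zero {c : G → A} (hc : c ∈ cocycles₁ A) {φ : G} (h0 : c φ = 0) (k : ℕ) :
    c (φ ^ k) = 0 := by
  induction k with
  | zero => rw [pow_zero]; exact coc_one hc
  | succ k ih => rw [pow_succ, coc_mul hc, h0, map_zero, ih, add_zero]

/-- **Uniqueness**: a level cocycle vanishing on `I` and at `φ` is zero. -/
theorem eq_zero_of_vanish {φ : G} (h : IsProcyclicQuot 𝓑 I φ) {c : G → A} (hc : c ∈ Z1 𝓑 A)
    (hI : ∀ τ ∈ I, c τ = 0) (hφ : c φ = 0) : c = 0 := by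
  obtain ⟨hcoc, U, hU, hinv⟩ := hc
  funext g
  obtain ⟨k, τ, hτ, u, hu, rfl⟩ := h.gen U hU g
  rw [hinv _ u hu, coc_mul hcoc, hI τ hτ, map_zero, coc_pow_eq_zero hcoc hφ, add_zero]
  rfl

/-- The value at `φ` of a cocycle vanishing on `I` is `I`-invariant. -/
theorem apply_mem_invI [I.Normal] {c : G → A} (hc : c ∈ cocycles₁ A) (hI : ∀ τ ∈ I, c τ = 0)
    (g : G) : c g ∈ invI I A := by
  intro τ hτ
  have h2 : g⁻¹ * τ * g ∈ I := by
    have := (inferInstance : I.Normal).conj_mem τ hτ g⁻¹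
    simpa using this
  have h1 : τ * g = g * (g⁻¹ * τ * g) := by group
  have e1 := coc_mul hc τ g
  have e2 := coc_mul hc g (g⁻¹ * τ * g)
  rw [← h1, hI _ h2, map_zero, zero_add] at e2
  rw [hI τ hτ, add_zero, e2] at e1
  exact e1.symm

/-! ### The cocycle attached to an invariant vector -/

variable (I A) in
/-- Auxiliary data: a normal subgroup `V ⊇ I` acting trivially on `A^I` with `G/V` cyclic of order
`m` generated by `φ`, such that the norm `∑_{i<m} φ^i` kills `A^I`. -/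
structure CycData (φ : G) where
  V : Subgroup G
  hV : V.Normal
  hIV : I ≤ V
  m : ℕ
  hφV : ∀ k : ℕ, φ ^ k ∈ V ↔ m ∣ k
  hgen : ∀ g : G, ∃ k : ℕ, (φ ^ k)⁻¹ * g ∈ V
  htriv : ∀ v ∈ V, ∀ n ∈ invI I A, A.ρ v n = n
  hsum : ∀ n ∈ invI I A, ∑ i ∈ Finset.range m, A.ρ (φ ^ i) n = 0

/-- `S n k = ∑_{i<k} φ^i n`. -/
def S (A : Rep.{u} k G) (φ : G) (n : A) (j : ℕ) : A := ∑ i ∈ Finset.range j, A.ρ (φ ^ i) n

theorem S_zero (φ : G) (n : A) : S A φ n 0 = 0 := by simp [S]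

theorem S_one (φ : G) (n : A) : S A φ n 1 = n := by simp [S]

theorem S_add (φ : G) (n : A) (j l : ℕ) :
    S A φ n (j + l) = S A φ n j + A.ρ (φ ^ j) (S A φ n l) := by
  simp only [S]
  rw [Finset.sum_range_add, map_sum]
  congr 1
  refine Finset.sum_congr rfl fun i _ => ?_
  rw [pow_add, map_mul, Module.End.mul_apply]

theorem S_add_left (φ : G) (n n' : A) (j : ℕ) : S A φ (n + n') j = S A φ n j + S A φ n' j := by
  simp only [S, map_add, Finset.sum_add_distrib]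

theorem S_neg_left (φ : G) (n : A) (j : ℕ) : S A φ (-n) j = -S A φ n j := by
  simp only [S, map_neg, Finset.sum_neg_distrib]

theorem S_mem_invI [I.Normal] (φ : G) {n : A} (hn : n ∈ invI I A) (j : ℕ) :
    S A φ n j ∈ invI I A :=
  AddSubgroup.sum_mem _ fun i _ => ρ_mem_invI I A (φ ^ i) hn

namespace CycData

variable {φ : G} (D : CycData I A φ)

theorem S_add_mul {n : A} (hn : n ∈ invI I A) (j t : ℕ) :
    S A φ n (j + D.m * t) = S A φ n j := by
  induction t with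
  | zero => rw [mul_zero, add_zero]
  | succ t ih =>
    have h0 : S A φ n D.m = 0 := D.hsum n hn
    rw [mul_add, mul_one, ← add_assoc, S_add, h0, map_zero, add_zero, ih]

theorem S_mod {n : A} (hn : n ∈ invI I A) (j : ℕ) : S A φ n j = S A φ n (j % D.m) := by
  conv_lhs => rw [← Nat.mod_add_div j D.m]
  exact D.S_add_mul hn _ _

theorem S_congr {n : A} (hn : n ∈ invI I A) {j l : ℕ} (h : j ≡ l [MOD D.m]) :
    S A φ n j = S A φ n l := by
  rw [D.S_mod hn j, D.S_mod hn l, h]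

/-- The exponent of `g` modulo `V`. -/
noncomputable def κ (g : G) : ℕ := Classical.choose (D.hgen g)

theorem κ_spec (g : G) : (φ ^ D.κ g)⁻¹ * g ∈ D.V := Classical.choose_spec (D.hgen g)

theorem modEq_κ {g : G} {j : ℕ} (h : (φ ^ j)⁻¹ * g ∈ D.V) : j ≡ D.κ g [MOD D.m] := by
  have h1 := D.κ_spec g
  -- `(φ^j)⁻¹ φ^κ ∈ V`
  have h2 : (φ ^ j)⁻¹ * φ ^ D.κ g ∈ D.V := by
    have := D.V.mul_mem h (D.V.inv_mem h1)
    simpa [mul_assoc] using this
  rcases Nat.le_total j (D.κ g) with hle | hle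
  · have h3 : φ ^ (D.κ g - j) ∈ D.V := by
      have : φ ^ (D.κ g - j) = (φ ^ j)⁻¹ * φ ^ D.κ g := by
        rw [pow_sub φ hle, ← (Commute.pow_pow_self φ (D.κ g) j).inv_right.eq]
      rw [this]; exact h2
    exact ((Nat.modEq_iff_dvd' hle).2 ((D.hφV _).1 h3))
  · have h3 : φ ^ (j - D.κ g) ∈ D.V := by
      have : φ ^ (j - D.κ g) = ((φ ^ j)⁻¹ * φ ^ D.κ g)⁻¹ := by
        rw [pow_sub φ hle, mul_inv_rev, inv_inv,
          (Commute.pow_pow_self φ j (D.κ g)).inv_right.eq]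
      rw [this]; exact D.V.inv_mem h2
    exact ((Nat.modEq_iff_dvd' hle).2 ((D.hφV _).1 h3)).symm

/-- The cocycle `g ↦ ∑_{i<κ(g)} φ^i n`. -/
noncomputable def coc (n : A) : G → A := fun g => S A φ n (D.κ g)

theorem coc_eq {n : A} (hn : n ∈ invI I A) {g : G} {j : ℕ} (h : (φ ^ j)⁻¹ * g ∈ D.V) :
    D.coc n g = S A φ n j := (D.S_congr hn (D.modEq_κ h)).symm

theorem coc_of_mem {n : A} (hn : n ∈ invI I A) {v : G} (hv : v ∈ D.V) : D.coc n v = 0 := by
  rw [D.coc_eq hn (j := 0) (by simpa using hv), S_zero]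

theorem coc_φ {n : A} (hn : n ∈ invI I A) : D.coc n φ = n := by
  rw [D.coc_eq hn (j := 1) (by simp), S_one]

theorem coc_mul_right {n : A} (hn : n ∈ invI I A) (g : G) {s : G} (hs : s ∈ D.V) :
    D.coc n (g * s) = D.coc n g := by
  refine D.coc_eq hn ?_
  rw [← mul_assoc]
  exact D.V.mul_mem (D.κ_spec g) hs

theorem coc_mem_cocycles [I.Normal] {n : A} (hn : n ∈ invI I A) : D.coc n ∈ cocycles₁ A := by
  rw [mem_cocycles₁_iff]
  intro g h
  have hV := D.hV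
  have h1 : (φ ^ (D.κ g + D.κ h))⁻¹ * (g * h) ∈ D.V := by
    have e : (φ ^ (D.κ g + D.κ h))⁻¹ * (g * h) =
        ((φ ^ D.κ h)⁻¹ * h) * (h⁻¹ * ((φ ^ D.κ g)⁻¹ * g) * h) := by
      rw [pow_add]; group
    rw [e]
    refine D.V.mul_mem (D.κ_spec h) ?_
    have := hV.conj_mem _ (D.κ_spec g) h⁻¹
    simpa using this
  rw [D.coc_eq hn h1, S_add, add_comm]
  congr 1
  -- `ρ g = ρ (φ^κg) ∘ ρ v`, `v ∈ V` acting trivially on invariants
  have e : g = φ ^ D.κ g * ((φ ^ D.κ g)⁻¹ * g) := by group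
  have hc : D.coc n h = S A φ n (D.κ h) := rfl
  conv_rhs => rw [e, map_mul, Module.End.mul_apply]
  rw [hc, D.htriv _ (D.κ_spec g) _ (S_mem_invI φ hn _)]

theorem coc_add (n n' : A) : D.coc (n + n') = D.coc n + D.coc n' := by
  funext g
  exact S_add_left φ n n' _

theorem coc_neg (n : A) : D.coc (-n) = -D.coc n := by
  funext g
  exact S_neg_left φ n _

theorem coc_mem_Z1 [I.Normal] (hlev : ∃ U ∈ 𝓑.sets, U ≤ D.V) {n : A} (hn : n ∈ invI I A) :
    D.coc n ∈ Z1 𝓑 A := by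
  obtain ⟨U, hU, hUV⟩ := hlev
  exact ⟨D.coc_mem_cocycles hn, U, hU, fun g s hs => D.coc_mul_right hn g (hUV hs)⟩

end CycData

/-! ### Existence of the auxiliary data -/

theorem exists_pow_ρ_eq_one [Finite A] (φ : G) : ∃ d : ℕ, 0 < d ∧ A.ρ (φ ^ d) = 1 := by
  have hfin : Finite (Module.End k A) :=
    Finite.of_injective (fun f : A →ₗ[k] A => (f : A → A)) DFunLike.coe_injective
  have hfin' : Finite (Module.End k A)ˣ := inferInstance
  refine ⟨orderOf (A.ρ.asGroupHom φ), (isOfFinOrder_of_finite _).orderOf_pos, ?_⟩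
  have h2 := congrArg Units.val (pow_orderOf_eq_one (A.ρ.asGroupHom φ))
  rw [Units.val_pow_eq_pow_val, Units.val_one, Representation.asGroupHom_apply] at h2
  rw [map_pow]
  exact h2

theorem S_mul_of_ρ_eq_one (φ : G) (n : A) {d : ℕ} (hd : A.ρ (φ ^ d) = 1) (e : ℕ) :
    S A φ n (d * e) = e • S A φ n d := by
  induction e with
  | zero => simp [S_zero]
  | succ e ih =>
    have h1 : A.ρ (φ ^ (d * e)) = 1 := by
      rw [pow_mul, map_pow, hd, one_pow]
    rw [mul_add, mul_one, S_add, ih, h1, Module.End.one_apply, succ_nsmul]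

theorem exists_cycData [I.Normal] [Finite A] {φ : G} (h : IsProcyclicQuot 𝓑 I φ)
    (hA : IsDiscrete 𝓑.sets A) : ∃ D : CycData I A φ, ∃ U ∈ 𝓑.sets, U ≤ D.V := by
  obtain ⟨U₀, hU₀, -, hfix⟩ := hA.exists_fixing 𝓑.isBasis (T := Set.univ) Set.finite_univ
  obtain ⟨d, hd0, hd⟩ := exists_pow_ρ_eq_one (A := A) φ
  have he0 : 0 < Nat.card A := Nat.card_pos
  obtain ⟨V, hVn, hIV, ⟨U₁, hU₁, hU₁V⟩, hφV⟩ := h.quot (d * Nat.card A) (Nat.mul_pos hd0 he0)
  obtain ⟨U₂, hU₂, hU₂le⟩ := 𝓑.isBasis.directed U₁ hU₁ U₀ hU₀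
  have hU₂V : U₂ ≤ V := fun x hx => hU₁V (hU₂le hx).1
  refine ⟨{ V := V, hV := hVn, hIV := hIV, m := d * Nat.card A, hφV := hφV, hgen := ?_,
            htriv := ?_, hsum := ?_ }, U₁, hU₁, hU₁V⟩
  · intro g
    obtain ⟨j, τ, hτ, u, hu, rfl⟩ := h.gen U₂ hU₂ g
    refine ⟨j, ?_⟩
    have : (φ ^ j)⁻¹ * (φ ^ j * τ * u) = τ * u := by group
    rw [this]
    exact V.mul_mem (hIV hτ) (hU₂V hu)
  · intro v hv n hn
    obtain ⟨j, τ, hτ, u, hu, rfl⟩ := h.gen U₂ hU₂ v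
    have h1 : φ ^ j ∈ V := by
      have e : φ ^ j = (φ ^ j * τ * u) * (u⁻¹ * τ⁻¹) := by group
      rw [e]
      exact V.mul_mem hv (V.mul_mem (V.inv_mem (hU₂V hu)) (V.inv_mem (hIV hτ)))
    obtain ⟨t, ht⟩ := (hφV j).1 h1
    have h2 : A.ρ (φ ^ j) = 1 := by
      rw [ht, mul_assoc, pow_mul, map_pow, hd, one_pow]
    rw [map_mul, map_mul, h2, one_mul, Module.End.mul_apply,
      hfix u (hU₂le hu).2 n (Set.mem_univ _), hn τ hτ]
  · intro n _
    change S A φ n (d * Nat.card A) = 0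
    rw [S_mul_of_ρ_eq_one φ n hd]
    exact card_nsmul_eq_zero'

/-! ### The isomorphism `A^I / (φ - 1) ≅ H¹_ur` and the count -/

section Count

variable [I.Normal] {φ : G} (h : IsProcyclicQuot 𝓑 I φ) (hA : IsDiscrete 𝓑.sets A)
  (D : CycData I A φ) (hlev : ∃ U ∈ 𝓑.sets, U ≤ D.V)

/-- `n ↦ [c_n]`. -/
noncomputable def Theta : invI I A →+ H1 𝓑 A :=
  AddMonoidHom.mk' (fun n => H1mk 𝓑 A ⟨D.coc n, D.coc_mem_Z1 hlev n.2⟩) (by
    intro n n'
    rw [← map_add]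
    congr 1
    apply Subtype.ext
    exact D.coc_add _ _)

theorem Theta_apply (n : invI I A) :
    Theta D hlev n = H1mk 𝓑 A ⟨D.coc n, D.coc_mem_Z1 hlev n.2⟩ := rfl

/-- `φ - 1` on the `I`-invariants. -/
def phiSubOne (φ : G) : invI I A →+ invI I A :=
  AddMonoidHom.mk' (fun n => ⟨A.ρ φ n - n, (invI I A).sub_mem (ρ_mem_invI I A φ n.2) n.2⟩) (by
    intro n n'
    apply Subtype.ext
    simp only [AddSubgroup.coe_add, map_add]
    abel)

theorem coe_phiSubOne (n : invI I A) : ((phiSubOne (I := I) (A := A) φ n : invI I A) : A) =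
    A.ρ φ n - n := rfl

include h hA in
theorem range_Theta : ((Theta D hlev).range : Set (H1 𝓑 A)) = (H1urAbs 𝓑 I A : Set (H1 𝓑 A)) := by
  ext x
  constructor
  · rintro ⟨n, rfl⟩
    refine ⟨⟨D.coc n, D.coc_mem_Z1 hlev n.2⟩, rfl, 0, fun τ hτ => ?_⟩
    rw [map_zero, sub_zero]
    exact D.coc_of_mem n.2 (D.hIV hτ)
  · rintro ⟨c, rfl, m₀, hm₀⟩
    have hd : (d₀₁ A).hom m₀ ∈ Z1 𝓑 A := coboundaries₁_le_Z1 hA ⟨m₀, rfl⟩
    have hc' : (c : G → A) - (d₀₁ A).hom m₀ ∈ Z1 𝓑 A := (Z1 𝓑 A).sub_mem c.2 hd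
    have hI : ∀ τ ∈ I, ((c : G → A) - (d₀₁ A).hom m₀) τ = 0 := by
      intro τ hτ
      rw [Pi.sub_apply, d₀₁_hom_apply, hm₀ τ hτ, sub_self]
    have hn : ((c : G → A) - (d₀₁ A).hom m₀) φ ∈ invI I A := apply_mem_invI hc'.1 hI φ
    refine ⟨⟨_, hn⟩, ?_⟩
    rw [Theta_apply]
    have hz : ((c : G → A) - (d₀₁ A).hom m₀) - D.coc (((c : G → A) - (d₀₁ A).hom m₀) φ) = 0 := by
      refine eq_zero_of_vanish h ((Z1 𝓑 A).sub_mem hc' (D.coc_mem_Z1 hlev hn)) ?_ ?_
      · intro τ hτ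
        rw [Pi.sub_apply, hI τ hτ, D.coc_of_mem hn (D.hIV hτ), sub_zero]
      · rw [Pi.sub_apply, D.coc_φ hn, sub_self]
    have hz' : D.coc (((c : G → A) - (d₀₁ A).hom m₀) φ) = (c : G → A) - (d₀₁ A).hom m₀ :=
      (sub_eq_zero.1 hz).symm
    have e : (⟨D.coc (((c : G → A) - (d₀₁ A).hom m₀) φ), D.coc_mem_Z1 hlev hn⟩ : ↥(Z1 𝓑 A)) =
        c - ⟨(d₀₁ A).hom m₀, hd⟩ := Subtype.ext hz'
    rw [e, map_sub, sub_eq_self, H1mk_eq_zero_iff]
    exact ⟨m₀, rfl⟩

include h hA in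
theorem ker_Theta : ((Theta D hlev).ker : Set (invI I A)) =
    ((phiSubOne (I := I) (A := A) φ).range : Set (invI I A)) := by
  ext n
  simp only [SetLike.mem_coe, AddMonoidHom.mem_ker, AddMonoidHom.mem_range]
  rw [Theta_apply, H1mk_eq_zero_iff]
  constructor
  · rintro ⟨b, hb⟩
    have hb' : ∀ g, D.coc n g = A.ρ g b - b := fun g => by
      rw [← d₀₁_hom_apply]; exact (congrFun hb g).symm
    have hbI : b ∈ invI I A := by
      intro τ hτ
      have := hb' τ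
      rw [D.coc_of_mem n.2 (D.hIV hτ)] at this
      exact (sub_eq_zero.1 this.symm)
    refine ⟨⟨b, hbI⟩, Subtype.ext ?_⟩
    rw [coe_phiSubOne, ← hb' φ, D.coc_φ n.2]
  · rintro ⟨b, rfl⟩
    refine ⟨(b : A), ?_⟩
    have hn := (phiSubOne (I := I) (A := A) φ b).2
    have hd : (d₀₁ A).hom (b : A) ∈ Z1 𝓑 A := coboundaries₁_le_Z1 hA ⟨_, rfl⟩
    have hz : D.coc ((phiSubOne (I := I) (A := A) φ b : invI I A) : A) - (d₀₁ A).hom (b : A) = 0 := by
      refine eq_zero_of_vanish h ((Z1 𝓑 A).sub_mem (D.coc_mem_Z1 hlev hn) hd) ?_ ?_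
      · intro τ hτ
        rw [Pi.sub_apply, D.coc_of_mem hn (D.hIV hτ), d₀₁_hom_apply, b.2 τ hτ, sub_self, sub_zero]
      · rw [Pi.sub_apply, D.coc_φ hn, d₀₁_hom_apply, coe_phiSubOne, sub_self]
    exact (sub_eq_zero.1 hz).symm

end Count

/-- Lagrange for an additive homomorphism: `#N = #ker f * #range f`. -/
theorem card_eq_card_ker_mul_card_range {N P : Type*} [AddGroup N] [AddGroup P] (f : N →+ P) :
    Nat.card N = Nat.card f.ker * Nat.card f.range := by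
  rw [AddSubgroup.card_eq_card_quotient_mul_card_addSubgroup f.ker,
    Nat.card_congr (QuotientAddGroup.quotientKerEquivRange f).toEquiv, mul_comm]

/-- The `G`-invariants are the `φ`-invariants of the `I`-invariants. -/
theorem mem_ker_phiSubOne_iff [I.Normal] [Finite A] {φ : G} (h : IsProcyclicQuot 𝓑 I φ)
    (hA : IsDiscrete 𝓑.sets A) (n : invI I A) :
    n ∈ (phiSubOne (I := I) (A := A) φ).ker ↔ ∀ g : G, A.ρ g (n : A) = n := by
  rw [AddMonoidHom.mem_ker, Subtype.ext_iff, coe_phiSubOne, AddSubgroup.coe_zero, sub_eq_zero]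
  constructor
  · intro hφ g
    obtain ⟨U₀, hU₀, -, hfix⟩ := hA.exists_fixing 𝓑.isBasis (T := Set.univ) Set.finite_univ
    obtain ⟨j, τ, hτ, u, hu, rfl⟩ := h.gen U₀ hU₀ g
    have hpow : ∀ j : ℕ, A.ρ (φ ^ j) (n : A) = n := by
      intro j
      induction j with
      | zero => simp
      | succ j ih => rw [pow_succ, map_mul, Module.End.mul_apply, hφ, ih]
    rw [map_mul, map_mul, Module.End.mul_apply, Module.End.mul_apply,
      hfix u hu _ (Set.mem_univ _), n.2 τ hτ, hpow]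
  · intro hg
    exact hg φ

/-- **Unramified cohomology**: if `G/I` is procyclic generated by `φ` (with quotients of every
order), then for a finite discrete `G`-module `A`,
`#ker (H¹(G, A) → H¹(I, A)) = #A^G`. -/
theorem card_H1urAbs [I.Normal] [Finite A] {φ : G} (h : IsProcyclicQuot 𝓑 I φ)
    (hA : IsDiscrete 𝓑.sets A) :
    Nat.card (H1urAbs 𝓑 I A) = Nat.card {m : A // ∀ g : G, A.ρ g m = m} := by
  obtain ⟨D, hlev⟩ := exists_cycData h hA
  have h1 := card_eq_card_ker_mul_card_range (Theta D hlev)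
  have h2 := card_eq_card_ker_mul_card_range (phiSubOne (I := I) (A := A) φ)
  have e1 : Nat.card (Theta D hlev).range = Nat.card (H1urAbs 𝓑 I A) :=
    Nat.card_congr (Equiv.setCongr (range_Theta h hA D hlev))
  have e2 : Nat.card (Theta D hlev).ker = Nat.card (phiSubOne (I := I) (A := A) φ).range :=
    Nat.card_congr (Equiv.setCongr (ker_Theta h hA D hlev))
  have e3 : Nat.card (phiSubOne (I := I) (A := A) φ).ker =
      Nat.card {m : A // ∀ g : G, A.ρ g m = m} := by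
    refine Nat.card_congr
      { toFun := fun n => ⟨((n : invI I A) : A), (mem_ker_phiSubOne_iff h hA n.1).1 n.2⟩
        invFun := fun m => ⟨⟨m.1, fun τ _ => m.2 τ⟩,
          (mem_ker_phiSubOne_iff h hA _).2 m.2⟩
        left_inv := fun n => rfl
        right_inv := fun m => rfl }
  have hpos : 0 < Nat.card (phiSubOne (I := I) (A := A) φ).range := Nat.card_pos
  rw [e1, e2] at h1
  rw [h2, mul_comm] at h1
  rw [← e3]
  exact (Nat.eq_of_mul_eq_mul_left hpos h1).symm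

end Fermat.Agent.TW.LOC.UnramH1Abs4
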