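/-
Programme T (S56, Taylor–Wiles primes), chapter LOC, task L2 (UN2) — helper4.

UNRAMIFIED COHOMOLOGY OF `Gq q = Gal(ℚ̄_q/ℚ_q)` (`Defs2`: `Gq`, `Iq`, `H1ur`; level basis
`Objects21.levelLoc q`; Krull topology and `CompactSpace` from Mathlib).

* `exists_forall_mem` (compactness principle): a decreasing family `S E ⊆ Gq` (`E/ℚ_q` finite) of
  nonempty sets, each right-invariant under some open subgroup, has a common point;
* **`exists_isFrobLift : ∃ φ : Gq q, IsFrobLift q φ`** (`IsFrobLift` of `TameProfinite4`: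
  `∀ x, ‖x‖ ≤ 1 → ‖φ x - x ^ q‖ < 1`);
* **`resI_surjective : Function.Surjective (resI q L)`**: `Iq q` surjects onto the inertia group
  `TameInertia4.inertia q ℚ_[q] L` of every finite Galois `L/ℚ_q` (`exists_inertia_lift_level` +
  `InertiaTower4.resT_inertia_surjective` + compactness);
* `exists_pow_inv_mul_mem_inertia` (finite level: `Gal = ⟨Frob⟩ · I`), **`gen_of_isFrobLift`**:
  for `U ∈ (levelLoc q).sets`, every `g : Gq q` is `φ ^ j * τ * u`, `τ ∈ Iq q`, `u ∈ U`;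
* **`exists_unramified_level`**: for `m > 0` there is a normal `V ⊇ Iq q` containing a level with
  `φ ^ j ∈ V ↔ m ∣ j` (the unramified extension of degree `m`: `Unram11.unramSplittingStatement`);
* **`isProcyclicQuot : IsFrobLift q φ → UnramH1Abs4.IsProcyclicQuot (levelLoc q) (Iq q) φ`**;
* **`card_H1ur`** (UN2): for `M : Rep k (Gq q)` finite and discrete,
  `Nat.card (H1ur q M) = Nat.card {m : M // ∀ g, M.ρ g m = m}`.
-/
import Mathlib
import Fermat.Agent.TW.LOC.Defs2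
import Fermat.Agent.TW.LOC.TameInertia4
import Fermat.Agent.TW.LOC.TameProfinite4
import Fermat.Agent.TW.LOC.UnramH1Abs4
import Fermat.Agent.TW.LOC.InertiaTower4

set_option autoImplicit false
set_option linter.unusedSectionVars false
set_option linter.style.haveILetI false

open Fermat.Agent.PT.PRO.LevelCoh28 Fermat.Agent.PT.GLUE.Objects21
open Fermat.Agent.TW.LOC.Defs2 Fermat.Agent.PT.BR.LocInj13
open scoped IntermediateField Pointwise
open scoped Fermat.Agent.PT.LOC.Interface12 Fermat.Agent.PT.LOC.StructureTower27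
open Fermat.Agent.PT.LOC.Interface12 Fermat.Agent.PT.LOC.Structure14
  Fermat.Agent.PT.LOC.StructureNorm14 Fermat.Agent.PT.LOC.StructureTower27
  Fermat.Agent.PT.LOC.StructureTowerEF27 Fermat.Agent.PT.LOC.RootsUnity14
  Fermat.Agent.PT.LOC.Unram11 Fermat.Agent.TW.LOC.TameInertia4
  Fermat.Agent.TW.LOC.TameProfinite4 Fermat.Agent.TW.LOC.InertiaTower4

namespace Fermat.Agent.TW.LOC.UnramGq4

noncomputable section

variable (q : ℕ) [Fact q.Prime]

local notation "Ω" => PadicAlgCl q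

local instance isAlgClosurePadicU4 : IsAlgClosure ℚ_[q] (PadicAlgCl q) :=
  ⟨inferInstance, inferInstance⟩
local instance isGaloisPadicU4 : IsGalois ℚ_[q] (PadicAlgCl q) :=
  IsAlgClosure.isGalois ℚ_[q] (PadicAlgCl q)

/-! ### A compactness principle -/

/-- A set which is right-invariant under an open subgroup is closed. -/
theorem isClosed_of_mul_mem {S : Set (Gq q)} (E : IntermediateField ℚ_[q] Ω)
    [FiniteDimensional ℚ_[q] E] (hinv : ∀ σ ∈ S, ∀ u ∈ E.fixingSubgroup, σ * u ∈ S) :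
    IsClosed S := by
  rw [← isOpen_compl_iff, isOpen_iff_forall_mem_open]
  intro σ hσ
  refine ⟨σ • (E.fixingSubgroup : Set (Gq q)), ?_, (E.fixingSubgroup_isOpen).leftCoset σ,
    ⟨1, one_mem _, by simp⟩⟩
  rintro _ ⟨u, hu, rfl⟩ hmem
  apply hσ
  have := hinv _ hmem u⁻¹ (inv_mem hu)
  simpa using this

/-- **Compactness principle**: a decreasing family of nonempty subsets of `Gq`, indexed by the
finite extensions `E` of `ℚ_q`, each invariant under right translation by some open subgroup, has a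
common point. -/
theorem exists_forall_mem (S : IntermediateField ℚ_[q] Ω → Set (Gq q))
    (hinv : ∀ E : IntermediateField ℚ_[q] Ω, FiniteDimensional ℚ_[q] E →
      ∃ E' : IntermediateField ℚ_[q] Ω, FiniteDimensional ℚ_[q] E' ∧
        ∀ σ ∈ S E, ∀ u ∈ E'.fixingSubgroup, σ * u ∈ S E)
    (hanti : ∀ E E' : IntermediateField ℚ_[q] Ω, E ≤ E' → S E' ⊆ S E)
    (hne : ∀ E : IntermediateField ℚ_[q] Ω, FiniteDimensional ℚ_[q] E → (S E).Nonempty) :
    ∃ σ : Gq q, ∀ E : IntermediateField ℚ_[q] Ω, FiniteDimensional ℚ_[q] E → σ ∈ S E := by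
  let ι := {E : IntermediateField ℚ_[q] Ω // FiniteDimensional ℚ_[q] E}
  have hι : Nonempty ι := ⟨⟨⊥, inferInstance⟩⟩
  have hdir : Directed (· ⊇ ·) (fun i : ι => S i.1) := by
    intro i j
    have hi : FiniteDimensional ℚ_[q] i.1 := i.2
    have hj : FiniteDimensional ℚ_[q] j.1 := j.2
    exact ⟨⟨i.1 ⊔ j.1, IntermediateField.finiteDimensional_sup i.1 j.1⟩,
      hanti _ _ le_sup_left, hanti _ _ le_sup_right⟩
  have hcl : ∀ i : ι, IsClosed (S i.1) := by
    intro i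
    obtain ⟨E', hE', h⟩ := hinv i.1 i.2
    exact isClosed_of_mul_mem q E' h
  obtain ⟨σ, hσ⟩ := IsCompact.nonempty_iInter_of_directed_nonempty_isCompact_isClosed
    (fun i : ι => S i.1) hdir (fun i => hne i.1 i.2) (fun i => (hcl i).isCompact) hcl
  exact ⟨σ, fun E hE => Set.mem_iInter.1 hσ ⟨E, hE⟩⟩

/-! ### Finite Galois hulls -/

/-- Every finite extension of `ℚ_q` in `Ω` is contained in a finite Galois one. -/
theorem exists_galois_ge (E : IntermediateField ℚ_[q] Ω) [FiniteDimensional ℚ_[q] E] :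
    ∃ L : IntermediateField ℚ_[q] Ω, FiniteDimensional ℚ_[q] L ∧ IsGalois ℚ_[q] L ∧ E ≤ L :=
  ⟨IntermediateField.normalClosure ℚ_[q] E Ω, normalClosure.is_finiteDimensional ℚ_[q] E Ω,
    IsGalois.normalClosure ℚ_[q] E Ω, IntermediateField.le_normalClosure E⟩

/-- Every element lies in a finite extension. -/
theorem exists_finiteDimensional_mem (x : Ω) :
    ∃ E : IntermediateField ℚ_[q] Ω, FiniteDimensional ℚ_[q] E ∧ x ∈ E :=
  ⟨ℚ_[q]⟮x⟯, IntermediateField.adjoin.finiteDimensional (Algebra.IsIntegral.isIntegral x),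
    IntermediateField.mem_adjoin_simple_self _ x⟩

/-! ### Existence of Frobenius lifts -/

theorem exists_isFrobLift : ∃ φ : Gq q, IsFrobLift q φ := by
  let S : IntermediateField ℚ_[q] Ω → Set (Gq q) :=
    fun E => {σ | ∀ x ∈ E, ‖x‖ ≤ 1 → ‖σ x - x ^ q‖ < 1}
  have hinv : ∀ E : IntermediateField ℚ_[q] Ω, FiniteDimensional ℚ_[q] E →
      ∃ E' : IntermediateField ℚ_[q] Ω, FiniteDimensional ℚ_[q] E' ∧
        ∀ σ ∈ S E, ∀ u ∈ E'.fixingSubgroup, σ * u ∈ S E := by
    intro E hE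
    refine ⟨E, hE, fun σ hσ u hu x hx hx1 => ?_⟩
    rw [AlgEquiv.mul_apply, (IntermediateField.mem_fixingSubgroup_iff _ _).1 hu x hx]
    exact hσ x hx hx1
  have hanti : ∀ E E' : IntermediateField ℚ_[q] Ω, E ≤ E' → S E' ⊆ S E :=
    fun E E' hle σ hσ x hx hx1 => hσ x (hle hx) hx1
  have hne : ∀ E : IntermediateField ℚ_[q] Ω, FiniteDimensional ℚ_[q] E → (S E).Nonempty := by
    intro E hE
    obtain ⟨L, hL, hgal, hEL⟩ := exists_galois_ge q E
    obtain ⟨φ', hφ'⟩ := exists_isFrob q ℚ_[q] L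
    obtain ⟨σ, rfl⟩ := resL_surjective q L φ'
    refine ⟨σ, fun x hx hx1 => ?_⟩
    rw [Fermat.Agent.PT.LOC.RootsUnity14.isFrob_iff, resCard_padic] at hφ'
    have h1 := hφ' ⟨x, hEL hx⟩ ((mem_intRing_iff q L _).2 (by
      change snorm q L _ ≤ 1
      rw [snorm_eq_norm]; exact hx1))
    rw [snorm_eq_norm] at h1
    rwa [AddSubgroupClass.coe_sub, coe_resL, SubmonoidClass.coe_pow] at h1
  obtain ⟨φ, hφ⟩ := exists_forall_mem q S hinv hanti hne
  refine ⟨φ, fun x hx => ?_⟩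
  obtain ⟨E, hE, hxE⟩ := exists_finiteDimensional_mem q x
  exact hφ E hE x hxE hx

/-! ### `Iq` surjects onto the inertia groups of the finite levels -/

section Tower

variable (L L' : IntermediateField ℚ_[q] (PadicAlgCl q)) [FiniteDimensional ℚ_[q] L] [IsGalois ℚ_[q] L]
  [FiniteDimensional ℚ_[q] L'] [IsGalois ℚ_[q] L'] (hLL' : L ≤ L')

/-- The `L`-algebra structure of `L' ⊇ L`. -/
@[reducible] def algTower : Algebra L L' := (IntermediateField.inclusion hLL').toRingHom.toAlgebra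

include hLL' in
/-- Finite-level surjectivity for intermediate fields of `Ω`. -/
theorem exists_inertia_lift_level {σ : L ≃ₐ[ℚ_[q]] L} (hσ : σ ∈ inertia q ℚ_[q] L) :
    ∃ σ'' : L' ≃ₐ[ℚ_[q]] L', σ'' ∈ inertia q ℚ_[q] L' ∧
      ∀ x : L, ((σ'' (IntermediateField.inclusion hLL' x) : L') : Ω) = ((σ x : L) : Ω) := by
  letI : Algebra L L' := algTower q L L' hLL'
  haveI : IsScalarTower ℚ_[q] L L' := IsScalarTower.of_algebraMap_eq (fun x => rfl)
  haveI : IsGalois L L' := IsGalois.tower_top_of_isGalois ℚ_[q] L L'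
  obtain ⟨σ'', hσ'', hres⟩ := resT_inertia_surjective q ℚ_[q] L L' hσ
  refine ⟨σ'', hσ'', fun x => ?_⟩
  rw [← hres]
  have := algebraMap_resT ℚ_[q] L L' σ'' x
  exact (congrArg (fun y : L' => (y : Ω)) this).symm

end Tower

section Lift

variable (L : IntermediateField ℚ_[q] (PadicAlgCl q)) [FiniteDimensional ℚ_[q] L] [IsGalois ℚ_[q] L]

/-- **The local inertia group surjects onto the inertia group of every finite Galois level.** -/
theorem resI_surjective : Function.Surjective (resI q L) := by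
  rintro ⟨σ₀, hσ₀⟩
  let S : IntermediateField ℚ_[q] Ω → Set (Gq q) :=
    fun E => {σ | resL q L σ = σ₀ ∧ ∀ x ∈ E, ‖x‖ ≤ 1 → ‖σ x - x‖ < 1}
  have hinv : ∀ E : IntermediateField ℚ_[q] Ω, FiniteDimensional ℚ_[q] E →
      ∃ E' : IntermediateField ℚ_[q] Ω, FiniteDimensional ℚ_[q] E' ∧
        ∀ σ ∈ S E, ∀ u ∈ E'.fixingSubgroup, σ * u ∈ S E := by
    intro E hE
    refine ⟨E ⊔ L, IntermediateField.finiteDimensional_sup E L, fun σ hσ u hu => ⟨?_, ?_⟩⟩
    · have hu' : u ∈ (resL q L).ker := by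
        rw [ker_resL]
        exact IntermediateField.fixingSubgroup_antitone le_sup_right hu
      rw [map_mul, MonoidHom.mem_ker.1 hu', mul_one]
      exact hσ.1
    · intro x hx hx1
      have hu' := IntermediateField.fixingSubgroup_antitone (le_sup_left : E ≤ E ⊔ L) hu
      rw [AlgEquiv.mul_apply, (IntermediateField.mem_fixingSubgroup_iff _ _).1 hu' x hx]
      exact hσ.2 x hx hx1
  have hanti : ∀ E E' : IntermediateField ℚ_[q] Ω, E ≤ E' → S E' ⊆ S E :=
    fun E E' hle σ hσ => ⟨hσ.1, fun x hx hx1 => hσ.2 x (hle hx) hx1⟩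
  have hne : ∀ E : IntermediateField ℚ_[q] Ω, FiniteDimensional ℚ_[q] E → (S E).Nonempty := by
    intro E hE
    haveI : FiniteDimensional ℚ_[q] ↥(E ⊔ L) := IntermediateField.finiteDimensional_sup E L
    obtain ⟨L', hL', hgal, hle⟩ := exists_galois_ge q (E ⊔ L)
    have hLL' : L ≤ L' := le_trans le_sup_right hle
    obtain ⟨σ'', hσ'', hres⟩ := exists_inertia_lift_level q L L' hLL' hσ₀
    obtain ⟨σ, rfl⟩ := resL_surjective q L' σ''
    refine ⟨σ, ?_, ?_⟩
    · ext x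
      rw [coe_resL, ← hres x, coe_resL]
      rfl
    · intro x hx hx1
      have hxL' : x ∈ L' := hle ((le_sup_left : E ≤ E ⊔ L) hx)
      have h1 := (mem_inertia_iff q ℚ_[q] L' _).1 hσ'' ⟨x, hxL'⟩ ((mem_intRing_iff q L' _).2 (by
        change snorm q L' _ ≤ 1
        rw [snorm_eq_norm]; exact hx1))
      rw [snorm_eq_norm] at h1
      rwa [AddSubgroupClass.coe_sub, coe_resL] at h1
  obtain ⟨σ, hσ⟩ := exists_forall_mem q S hinv hanti hne
  have hσI : σ ∈ Iq q := by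
    rw [mem_Iq_iff_norm]
    intro x hx
    obtain ⟨E, hE, hxE⟩ := exists_finiteDimensional_mem q x
    exact (hσ E hE).2 x hxE hx
  refine ⟨⟨σ, hσI⟩, Subtype.ext ?_⟩
  rw [coe_resI]
  exact (hσ ⊥ inferInstance).1

end Lift

/-! ### `Gq / Iq` is generated by a Frobenius lift -/

/-- Finite level: modulo inertia, every element is a power of a Frobenius. -/
theorem exists_pow_inv_mul_mem_inertia (E : Type) [Field E] [Algebra ℚ_[q] E]
    [FiniteDimensional ℚ_[q] E] (E' : Type) [Field E'] [Algebra ℚ_[q] E']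
    [FiniteDimensional ℚ_[q] E'] [Algebra E E'] [IsScalarTower ℚ_[q] E E'] [IsGalois E E']
    {φ : E' ≃ₐ[E] E'} (hφ : IsFrob q E E' φ) (σ : E' ≃ₐ[E] E') :
    ∃ j : ℕ, (φ ^ j)⁻¹ * σ ∈ inertia q E E' := by
  have hφ' := (redHom_eq_resFrob_iff_isFrob q E E' φ).2 hφ
  obtain ⟨j, hj⟩ := (FiniteField.bijective_frobeniusAlgEquivOfAlgebraic_pow (resF q E)
    (resF q E')).2 (redHom q E E' σ)
  refine ⟨j.1, ?_⟩
  change (φ ^ j.1)⁻¹ * σ ∈ (redHom q E E').ker
  rw [MonoidHom.mem_ker, map_mul, map_inv, map_pow, hφ', inv_mul_eq_one]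
  exact hj

theorem gen_of_isFrobLift {φ : Gq q} (hφ : IsFrobLift q φ) {U : Subgroup (Gq q)}
    (hU : U ∈ (levelLoc q).sets) (g : Gq q) :
    ∃ j : ℕ, ∃ τ ∈ Iq q, ∃ u ∈ U, g = φ ^ j * τ * u := by
  obtain ⟨L, hfd, hgal, hLU⟩ := exists_galois_level q hU
  obtain ⟨j, hj⟩ := exists_pow_inv_mul_mem_inertia q ℚ_[q] L (isFrob_resL q L hφ) (resL q L g)
  obtain ⟨τ, hτ⟩ := resI_surjective q L ⟨_, hj⟩
  have hτ' : resL q L τ = (resL q L φ ^ j)⁻¹ * resL q L g := by
    rw [← coe_resI, hτ]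
  refine ⟨j, τ, τ.2, (τ : Gq q)⁻¹ * (φ ^ j)⁻¹ * g, hLU ?_, by group⟩
  rw [← ker_resL, MonoidHom.mem_ker, map_mul, map_mul, map_inv, map_inv, map_pow, hτ']
  group

/-! ### Unramified quotients of every degree -/

theorem exists_unramified_level {φ : Gq q} (hφ : IsFrobLift q φ) {m : ℕ} (hm : 0 < m) :
    ∃ V : Subgroup (Gq q), V.Normal ∧ Iq q ≤ V ∧ (∃ U ∈ (levelLoc q).sets, U ≤ V) ∧
      ∀ j : ℕ, φ ^ j ∈ V ↔ m ∣ j := by
  let P : Polynomial ℚ_[q] := Fermat.Agent.PT.LOC.UnramDef12.unramPoly q ℚ_[q] m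
  let Lm : IntermediateField ℚ_[q] Ω := IntermediateField.adjoin ℚ_[q] (P.rootSet Ω)
  haveI hsplit : Polynomial.IsSplittingField ℚ_[q] Lm P :=
    IntermediateField.adjoin_rootSet_isSplittingField (IsAlgClosed.splits _)
  haveI hfd : FiniteDimensional ℚ_[q] Lm := Polynomial.IsSplittingField.finiteDimensional Lm P
  haveI hgal : IsGalois ℚ_[q] Lm := isGalois_of_isSplittingField q ℚ_[q] Lm P
  obtain ⟨hdeg, hunr, -⟩ := unramSplittingStatement q ℚ_[q] Lm m hm hsplit
  have hord : orderOf (resL q Lm φ) = m := by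
    rw [Fermat.Agent.PT.LOC.Frob27.orderOf_frob q ℚ_[q] Lm hunr (isFrob_resL q Lm hφ), hdeg]
  refine ⟨Lm.fixingSubgroup, IsGalois.fixingSubgroup_normal_of_isGalois Lm, ?_, ?_, ?_⟩
  · intro τ hτ
    have h1 := resL_mem_inertia q Lm hτ
    rw [inertia_eq_ideal_inertia, Fermat.Agent.PT.LOC.Frob27.inertia_eq_bot q ℚ_[q] Lm hunr,
      Subgroup.mem_bot] at h1
    rw [← ker_resL]
    exact h1
  · obtain ⟨F, hF, hle⟩ := exists_le_localField q Lm
    refine ⟨F.fixingSubgroup.comap (localGaloisToGlobal q), ⟨_, ⟨F, hF, rfl⟩, rfl⟩, ?_⟩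
    intro τ hτ
    rw [Subgroup.mem_comap, ← mem_fixingSubgroup_localField_iff] at hτ
    exact IntermediateField.fixingSubgroup_antitone hle hτ
  · intro j
    rw [← ker_resL, MonoidHom.mem_ker, map_pow, ← orderOf_dvd_iff_pow_eq_one, hord]

/-- **`Gq/Iq` is procyclic, generated by any Frobenius lift.** -/
theorem isProcyclicQuot {φ : Gq q} (hφ : IsFrobLift q φ) :
    Fermat.Agent.TW.LOC.UnramH1Abs4.IsProcyclicQuot (levelLoc q) (Iq q) φ where
  gen := fun _ hU g => gen_of_isFrobLift q hφ hU g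
  quot := fun _ hm => exists_unramified_level q hφ hm

/-! ### The count of unramified classes -/

theorem H1ur_eq {k : Type} [CommRing k] (M : Rep.{0} k (Gq q)) :
    H1ur q M = Fermat.Agent.TW.LOC.UnramH1Abs4.H1urAbs (levelLoc q) (Iq q) M := rfl

/-- **UN2**: for a finite discrete `Gq`-module `M`,
`#ker (H¹(Gq, M) → H¹(Iq, M)) = #M^{Gq}`. -/
theorem card_H1ur {k : Type} [CommRing k] (M : Rep.{0} k (Gq q)) [Finite M]
    (hM : IsDiscrete (levelLoc q).sets M) :
    Nat.card (H1ur q M) = Nat.card {m : M // ∀ g : Gq q, M.ρ g m = m} := by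
  obtain ⟨φ, hφ⟩ := exists_isFrobLift q
  rw [H1ur_eq]
  exact Fermat.Agent.TW.LOC.UnramH1Abs4.card_H1urAbs (isProcyclicQuot q hφ) hM

end

end Fermat.Agent.TW.LOC.UnramGq4
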