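/-
Programme T (S56, Taylor–Wiles primes), chapter LOC, item UNR-local (request of helper7, T/FLAT) —
helper4.

THE INERTIA FIELD IS UNRAMIFIED.  `Ω = PadicAlgCl q`, `Iq q` the local inertia group (`Defs2`).

* `isUniformizer_padic : IsUniformizer q ℚ_[q] (q : ℚ_[q])` (Interface12 model);
* for `L/ℚ_q` finite Galois inside `Ω`: `K0 q L` the fixed field of `inertia q ℚ_[q] L`;
  `inertia_K0_eq_top : inertia q (K0 q L) L = ⊤`, `ramIdx_K0 : ramIdx q ℚ_[q] (K0 q L) = 1`;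
  `snorm_le_of_fixed` : `x ∈ L` fixed by the inertia group, `‖x‖ < 1 ⇒ ‖x‖ ≤ ‖q‖`;
* **`norm_le_norm_q_of_fixed (x : Ω) (hfix : ∀ τ ∈ Iq q, τ x = x) (hx : ‖x‖ < 1) :
  ‖x‖ ≤ ‖((q : ℕ) : Ω)‖`**, and `norm_div_q_le_one_of_fixed : ‖x / q‖ ≤ 1`.
-/
import Mathlib
import Fermat.Agent.TW.LOC.Defs2
import Fermat.Agent.TW.LOC.TameInertia4
import Fermat.Agent.TW.LOC.TameProfinite4
import Fermat.Agent.TW.LOC.UnramGq4

set_option autoImplicit false
set_option linter.unusedSectionVars false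
set_option linter.style.haveILetI false

open Fermat.Agent.PT.GLUE.Objects21
open Fermat.Agent.TW.LOC.Defs2
open scoped Fermat.Agent.PT.LOC.Interface12 Fermat.Agent.PT.LOC.StructureTower27
open Fermat.Agent.PT.LOC.Interface12 Fermat.Agent.PT.LOC.Structure14
  Fermat.Agent.PT.LOC.StructureNorm14 Fermat.Agent.PT.LOC.StructureTower27
  Fermat.Agent.PT.LOC.StructureTowerEF27 Fermat.Agent.PT.LOC.Unram11
open Fermat.Agent.TW.LOC.TameInertia4 Fermat.Agent.TW.LOC.TameProfinite4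
  Fermat.Agent.TW.LOC.UnramGq4

namespace Fermat.Agent.TW.LOC.UnramFixed4

noncomputable section

variable (q : ℕ) [Fact q.Prime]

local notation "Ω" => PadicAlgCl q

/-- `q` is a uniformizer of `ℚ_q`. -/
theorem isUniformizer_padic : IsUniformizer q ℚ_[q] (q : ℚ_[q]) := by
  have hq1 : (1 : ℝ) < q := by exact_mod_cast (Fact.out : q.Prime).one_lt
  have hq0 : (0 : ℝ) < q := by linarith
  have hmem : ∀ x : ℚ_[q], x ∈ intRing q ℚ_[q] ↔ ‖x‖ ≤ 1 := by
    intro x
    rw [mem_intRing_iff, ← snorm_padic]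
  refine ⟨?_, ?_, ?_, ?_⟩
  · rw [hmem, Padic.norm_p]
    exact (inv_lt_one_of_one_lt₀ hq1).le
  · exact_mod_cast (Fact.out : q.Prime).ne_zero
  · rw [hmem, norm_inv, Padic.norm_p, inv_inv, not_le]
    exact hq1
  · intro x hx hx'
    rw [hmem] at hx hx' ⊢
    rw [norm_inv, not_le] at hx'
    have hx0 : x ≠ 0 := by
      rintro rfl
      rw [norm_zero, inv_zero] at hx'
      linarith
    have hlt : ‖x‖ < 1 := by
      have hpos : 0 < ‖x‖ := norm_pos_iff.2 hx0
      exact (one_lt_inv₀ hpos).1 hx'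
    have h1 : ‖x‖ ≤ (q : ℝ) ^ (-1 : ℤ) := by
      rw [Padic.norm_le_pow_iff_norm_lt_pow_add_one]
      simpa using hlt
    rw [norm_mul, norm_inv, Padic.norm_p, inv_inv]
    rw [zpow_neg_one] at h1
    calc ‖x‖ * q ≤ (q : ℝ)⁻¹ * q := mul_le_mul_of_nonneg_right h1 hq0.le
      _ = 1 := inv_mul_cancel₀ hq0.ne'


local instance isAlgClosurePadicF4 : IsAlgClosure ℚ_[q] (PadicAlgCl q) :=
  ⟨inferInstance, inferInstance⟩
local instance isGaloisPadicF4 : IsGalois ℚ_[q] (PadicAlgCl q) :=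
  IsAlgClosure.isGalois ℚ_[q] (PadicAlgCl q)

section Level

variable (L : IntermediateField ℚ_[q] (PadicAlgCl q)) [FiniteDimensional ℚ_[q] L]
  [IsGalois ℚ_[q] L]

/-- The inertia field of `L/ℚ_q`. -/
abbrev K0 : IntermediateField ℚ_[q] L := IntermediateField.fixedField (inertia q ℚ_[q] L)

/-- Every automorphism of `L` over the inertia field lies in the inertia group of `L/K0`. -/
theorem inertia_K0_eq_top : inertia q (K0 q L) L = ⊤ := by
  rw [eq_top_iff]
  intro σ _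
  rw [mem_inertia_iff]
  intro x hx
  -- `σ` comes from an element of the inertia group of `L/ℚ_q`
  have hσ : (σ.restrictScalars ℚ_[q] : L ≃ₐ[ℚ_[q]] L) ∈ inertia q ℚ_[q] L := by
    have h1 : (σ.restrictScalars ℚ_[q] : L ≃ₐ[ℚ_[q]] L) ∈ (K0 q L).fixingSubgroup := by
      rw [IntermediateField.mem_fixingSubgroup_iff]
      intro y hy
      exact σ.commutes ⟨y, hy⟩
    rwa [IntermediateField.fixingSubgroup_fixedField] at h1
  exact (mem_inertia_iff q ℚ_[q] L _).1 hσ x hx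

theorem ramIdx_K0 : ramIdx q ℚ_[q] (K0 q L) = 1 := by
  have h1 : ramIdx q (K0 q L) L = Nat.card (inertia q ℚ_[q] L) := by
    rw [← card_inertia q (K0 q L) L, inertia_K0_eq_top, Subgroup.card_top,
      IsGalois.card_aut_eq_finrank, IntermediateField.finrank_fixedField_eq_card]
  have h2 := ramIdx_tower q ℚ_[q] (K0 q L) L
  rw [h1, card_inertia q ℚ_[q] L] at h2
  have hpos := ramIdx_pos q ℚ_[q] L
  exact Nat.eq_of_mul_eq_mul_right hpos (by rw [one_mul]; exact h2.symm)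

/-- An element of `L` fixed by the inertia group of `L/ℚ_q`, of norm `< 1`, has norm `≤ ‖q‖`. -/
theorem snorm_le_of_fixed (x : L) (hfix : ∀ σ ∈ inertia q ℚ_[q] L, σ x = x)
    (hx : snorm q L x < 1) : snorm q L x ≤ snorm q L (q : L) := by
  by_cases hx0 : x = 0
  · rw [hx0, snorm_zero]; exact snorm_nonneg q L _
  have hxK : x ∈ K0 q L := by
    rw [IntermediateField.mem_fixedField_iff]
    exact hfix
  set x₀ : K0 q L := ⟨x, hxK⟩ with hx₀
  have hunr : IsUnramified q ℚ_[q] (K0 q L) := (isUnramified_iff q ℚ_[q] (K0 q L)).2 (ramIdx_K0 q L)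
  have hπ := hunr _ (isUniformizer_padic q)
  have hxx : algebraMap (K0 q L) L x₀ = x := rfl
  have h1 : x₀ ∈ intRing q (K0 q L) := by
    rw [← mem_intRing_algebraMap_iff q (K0 q L) L, hxx, mem_intRing_iff]
    exact hx.le
  have h2 : x₀⁻¹ ∉ intRing q (K0 q L) := by
    rw [← mem_intRing_algebraMap_iff q (K0 q L) L, map_inv₀, hxx, mem_intRing_iff]
    change ¬ snorm q L x⁻¹ ≤ 1
    rw [snorm_inv, not_le]
    exact (one_lt_inv₀ (snorm_pos q L hx0)).2 hx
  have h3 := hπ.2.2.2 x₀ h1 h2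
  rw [← mem_intRing_algebraMap_iff q (K0 q L) L, map_mul, map_inv₀, hxx, mem_intRing_iff] at h3
  change snorm q L (x * _) ≤ 1 at h3
  have hq : algebraMap (K0 q L) L (algebraMap ℚ_[q] (K0 q L) (q : ℚ_[q])) = (q : L) := by
    rw [← IsScalarTower.algebraMap_apply, map_natCast]
  rw [hq, snorm_mul, snorm_inv] at h3
  have hqpos : 0 < snorm q L (q : L) := snorm_pos q L (by
    exact_mod_cast (Fact.out : q.Prime).ne_zero)
  rwa [← div_eq_mul_inv, div_le_one hqpos] at h3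

end Level

/-- **UNR-local**: an element of `ℚ̄_q` fixed by the inertia group `Iq`, of norm `< 1`, has norm
`≤ ‖q‖` (the inertia field `ℚ_q^{ur}` is unramified over `ℚ_q`). -/
theorem norm_le_norm_q_of_fixed (x : Ω) (hfix : ∀ τ ∈ Iq q, τ x = x) (hx : ‖x‖ < 1) :
    ‖x‖ ≤ ‖((q : ℕ) : Ω)‖ := by
  obtain ⟨E, hE, hxE⟩ := exists_finiteDimensional_mem q x
  obtain ⟨L, hfd, hgal, hEL⟩ := exists_galois_ge q E
  set xL : L := ⟨x, hEL hxE⟩ with hxL
  have hfixL : ∀ σ ∈ inertia q ℚ_[q] L, σ xL = xL := by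
    intro σ hσ
    obtain ⟨τ, hτ⟩ := resI_surjective q L ⟨σ, hσ⟩
    have h1 : resL q L τ = σ := by rw [← coe_resI, hτ]
    apply Subtype.ext
    rw [← h1, coe_resL]
    exact hfix τ τ.2
  have h := snorm_le_of_fixed q L xL hfixL (by rw [snorm_eq_norm]; exact hx)
  rw [snorm_eq_norm, snorm_eq_norm] at h
  have hq : (((q : ℕ) : L) : Ω) = ((q : ℕ) : Ω) := by
    simp
  rwa [hq] at h

/-- The same in divisibility form: `x / q` is integral. -/
theorem norm_div_q_le_one_of_fixed (x : Ω) (hfix : ∀ τ ∈ Iq q, τ x = x) (hx : ‖x‖ < 1) :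
    ‖x / ((q : ℕ) : Ω)‖ ≤ 1 := by
  have hq0 : ((q : ℕ) : Ω) ≠ 0 := by exact_mod_cast (Fact.out : q.Prime).ne_zero
  rw [norm_div, div_le_one (norm_pos_iff.2 hq0)]
  exact norm_le_norm_q_of_fixed q x hfix hx

end

end Fermat.Agent.TW.LOC.UnramFixed4
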