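/-
Programme T (S56, Taylor–Wiles primes), chapter LOC, item L0 (Bridge) of `T/tasks/LOC` — helper4.

THE LOCAL GALOIS GROUP MAPS ONTO THE DECOMPOSITION GROUP.  `rq q : Gq q → Gal(ℚ̄/ℚ)` (Prelude's
`localGaloisToGlobal q`), `P = padicPlace q`, `ι = padicEmbedding q : ℚ̄ → Ω = PadicAlgCl q`.

* `norm_padicEmbedding_apply : σ ∈ P.decompositionSubgroup ℚ → ‖ι (σ x)‖ = ‖ι x‖`
  (two absolute values with the same unit ball are equivalent, and they agree at `q`);
* `W q σ` : the closure of the graph `{(ι y, ι (σ y))}` in `Ω × Ω`, a closed subring containing the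
  diagonal of `ℚ_q` (`diag_mem_W`), on which `‖u‖ = ‖v‖` (`norm_eq_of_mem_W`), hence the graph of a
  function (`snd_eq_of_mem_W`); `Wq q σ` the same as a `ℚ_q`-subalgebra;
* `exists_apply_eq : ∃ τ : Gq q, τ (ι α) = ι (σ α)` (`ι (σ α)` is a root of the minimal polynomial
  of `ι α` over `ℚ_q`);  `exists_forall_apply_eq` (the same on a finite extension `F/ℚ`);
* **`exists_rq_eq : σ ∈ P.decompositionSubgroup ℚ → ∃ τ : Gq q, rq q τ = σ`** (compactness of `Gq`);
  `range_rq : (rq q).range = P.decompositionSubgroup ℚ`;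
* **`exists_mem_Iq_rq_eq : σ ∈ P.inertiaSubgroupIn ℚ → ∃ τ ∈ Iq q, rq q τ = σ`**,
  `map_Iq : (Iq q).map (rq q) = P.inertiaSubgroupIn ℚ`;
* `conj_mem_inertiaSubgroupIn_of_smul`, `exists_conj_rq` : every inertia element at ANY place over
  `q` is `g * rq q τ * g⁻¹` with `τ ∈ Iq q`;
* **`eq_one_of_forall_Iq`** (local ⇒ global unramifiedness of a homomorphism),
  **`exists_mem_Iq_ne_one`**, `exists_mem_Iq_ne_one_of_not_isUnramifiedAt`
  (`¬ ρbar.IsUnramifiedAt q → ∃ τ ∈ Iq q, ρbar.ρ (rq q τ) ≠ 1`: the hypothesis `hram` of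
  `UnipLocal4`).
-/
import Mathlib
import Fermat.Agent.TW.LOC.Defs2
import Fermat.Agent.TW.LOC.TameProfinite4
import Fermat.Agent.TW.LOC.UnramGq4
import Fermat.Agent.TW.GRP.PlaceConj3
import Fermat.Prelude.Def_GaloisRep_Residual

set_option autoImplicit false
set_option linter.unusedSectionVars false
set_option linter.style.haveILetI false

open Fermat.Agent.PT.GLUE.Objects21
open Fermat.Agent.TW.LOC.Defs2
open Fermat.Agent.TW.LOC.TameProfinite4 Fermat.Agent.TW.LOC.UnramGq4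
open scoped Pointwise

namespace Fermat.Agent.TW.LOC.DecompSurj4

noncomputable section

variable (q : ℕ) [Fact q.Prime]

local notation "Ω" => PadicAlgCl q
local notation "Qbar" => AlgebraicClosure ℚ
local notation "GQ" => (AlgebraicClosure ℚ ≃ₐ[ℚ] AlgebraicClosure ℚ)

/-! ### Step 1: elements of the decomposition group are isometries -/

variable {q}

theorem mem_iff_of_mem_decomposition {σ : GQ}
    (hσ : σ ∈ (padicPlace q).decompositionSubgroup ℚ) (y : Qbar) :
    σ y ∈ padicPlace q ↔ y ∈ padicPlace q := by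
  have h1 : σ • padicPlace q = padicPlace q := MulAction.mem_stabilizer_iff.1 hσ
  constructor
  · intro h
    rw [← h1, ValuationSubring.mem_pointwise_smul_iff_inv_smul_mem] at h
    simpa [AlgEquiv.smul_def] using h
  · intro h
    rw [← h1, ValuationSubring.mem_pointwise_smul_iff_inv_smul_mem]
    simpa [AlgEquiv.smul_def] using h

/-- The absolute value `x ↦ ‖ι x‖` on `ℚ̄`. -/
def absV (q : ℕ) [Fact q.Prime] : AbsoluteValue Qbar ℝ where
  toFun x := ‖padicEmbedding q x‖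
  map_mul' x y := by rw [map_mul, norm_mul]
  nonneg' x := norm_nonneg _
  eq_zero' x := by
    rw [norm_eq_zero]
    exact map_eq_zero_iff _ (padicEmbedding q).injective
  add_le' x y := by rw [map_add]; exact norm_add_le _ _

/-- The absolute value `x ↦ ‖ι (σ x)‖` on `ℚ̄`. -/
def absW (q : ℕ) [Fact q.Prime] (σ : GQ) : AbsoluteValue Qbar ℝ where
  toFun x := ‖padicEmbedding q (σ x)‖
  map_mul' x y := by rw [map_mul, map_mul, norm_mul]
  nonneg' x := norm_nonneg _
  eq_zero' x := by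
    rw [norm_eq_zero]
    exact (map_eq_zero_iff _ (padicEmbedding q).injective).trans
      (map_eq_zero_iff _ σ.injective)
  add_le' x y := by rw [map_add, map_add]; exact norm_add_le _ _

theorem norm_natCast_q : ‖((q : ℕ) : Ω)‖ = (q : ℝ)⁻¹ := by
  have h1 : ‖((q : ℚ_[q]) : PadicAlgCl q)‖ = ‖(q : ℚ_[q])‖ := PadicAlgCl.norm_extends q _
  have h2 : ((q : ℚ_[q]) : PadicAlgCl q) = ((q : ℕ) : PadicAlgCl q) := map_natCast _ _
  rw [← h2, h1, Padic.norm_p]


theorem mem_padicPlace_iff_norm (x : Qbar) : x ∈ padicPlace q ↔ ‖padicEmbedding q x‖ ≤ 1 := by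
  rw [mem_padicPlace_iff, ← NNReal.coe_le_coe, coe_nnnorm, NNReal.coe_one]

theorem absV_q : absV q ((q : ℕ) : Qbar) = (q : ℝ)⁻¹ := by
  change ‖padicEmbedding q ((q : ℕ) : Qbar)‖ = _
  rw [map_natCast, norm_natCast_q]

theorem absW_q (σ : GQ) : absW q σ ((q : ℕ) : Qbar) = (q : ℝ)⁻¹ := by
  change ‖padicEmbedding q (σ ((q : ℕ) : Qbar))‖ = _
  rw [map_natCast, map_natCast, norm_natCast_q]

theorem inv_q_lt_one : ((q : ℝ)⁻¹) < 1 := by
  have hq : (1 : ℝ) < q := by exact_mod_cast (Fact.out : q.Prime).one_lt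
  exact inv_lt_one_of_one_lt₀ hq

theorem inv_q_pos : (0 : ℝ) < (q : ℝ)⁻¹ := by
  have hq : (0 : ℝ) < q := by exact_mod_cast (Fact.out : q.Prime).pos
  exact inv_pos.2 hq

/-- **Elements of the decomposition group of `padicPlace q` are isometries** for `x ↦ ‖ι x‖`. -/
theorem norm_padicEmbedding_apply {σ : GQ}
    (hσ : σ ∈ (padicPlace q).decompositionSubgroup ℚ) (x : Qbar) :
    ‖padicEmbedding q (σ x)‖ = ‖padicEmbedding q x‖ := by
  have hnt : (absV q).IsNontrivial := by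
    refine ⟨((q : ℕ) : Qbar), ?_, ?_⟩
    · exact_mod_cast (Fact.out : q.Prime).ne_zero
    · rw [absV_q]; exact (inv_q_lt_one (q := q)).ne
  have himp : ∀ x, absV q x < 1 → absW q σ x < 1 := by
    intro x hx
    by_cases hx0 : x = 0
    · subst hx0
      rw [map_zero]; exact one_pos
    change ‖padicEmbedding q x‖ < 1 at hx
    change ‖padicEmbedding q (σ x)‖ < 1
    have h1 : x⁻¹ ∉ padicPlace q := by
      rw [mem_padicPlace_iff_norm, map_inv₀, norm_inv, not_le]
      exact one_lt_inv_iff₀.2 ⟨norm_pos_iff.2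
        (fun h => hx0 ((map_eq_zero_iff _ (padicEmbedding q).injective).1 h)), hx⟩
    have h2 : σ x⁻¹ ∉ padicPlace q := fun h => h1 ((mem_iff_of_mem_decomposition hσ _).1 h)
    rw [mem_padicPlace_iff_norm, map_inv₀, map_inv₀, norm_inv, not_le, one_lt_inv_iff₀] at h2
    exact h2.2
  obtain ⟨c, hc, hcw⟩ := AbsoluteValue.isEquiv_iff_exists_rpow_eq.1
    (AbsoluteValue.isEquiv_of_lt_one_imp hnt himp)
  have hq : absV q ((q : ℕ) : Qbar) ^ c = absW q σ ((q : ℕ) : Qbar) :=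
    congrFun hcw ((q : ℕ) : Qbar)
  rw [absV_q, absW_q] at hq
  have hc1 : c = 1 := by
    rcases lt_trichotomy c 1 with h | h | h
    · have := Real.rpow_lt_rpow_of_exponent_gt (inv_q_pos (q := q)) inv_q_lt_one h
      rw [Real.rpow_one, hq] at this
      exact absurd this (lt_irrefl _)
    · exact h
    · have := Real.rpow_lt_rpow_of_exponent_gt (inv_q_pos (q := q)) inv_q_lt_one h
      rw [Real.rpow_one, hq] at this
      exact absurd this (lt_irrefl _)
  have hx : absV q x ^ c = absW q σ x := congrFun hcw x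
  rw [hc1, Real.rpow_one] at hx
  exact hx.symm


/-! ### Step 2: the closure of the graph of `ι y ↦ ι (σ y)` -/

variable (q) in
/-- The ring homomorphism `y ↦ (ι y, ι (σ y))`. -/
def graphHom (σ : GQ) : Qbar →+* Ω × Ω :=
  (padicEmbedding q).toRingHom.prod ((padicEmbedding q).toRingHom.comp (σ : Qbar →+* Qbar))

theorem graphHom_apply (σ : GQ) (y : Qbar) :
    graphHom q σ y = (padicEmbedding q y, padicEmbedding q (σ y)) := rfl

variable (q) in
/-- The closure of the graph. -/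
def W (σ : GQ) : Subring (Ω × Ω) := (graphHom q σ).range.topologicalClosure

theorem graphHom_mem_W (σ : GQ) (y : Qbar) : graphHom q σ y ∈ W q σ :=
  subset_closure ⟨y, rfl⟩

theorem norm_eq_of_mem_W {σ : GQ} (hσ : σ ∈ (padicPlace q).decompositionSubgroup ℚ)
    {w : Ω × Ω} (hw : w ∈ W q σ) : ‖w.1‖ = ‖w.2‖ := by
  have hcl : IsClosed {w : Ω × Ω | ‖w.1‖ = ‖w.2‖} :=
    isClosed_eq (continuous_norm.comp continuous_fst) (continuous_norm.comp continuous_snd)
  refine closure_minimal ?_ hcl hw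
  rintro _ ⟨y, rfl⟩
  exact (norm_padicEmbedding_apply hσ y).symm

theorem snd_eq_of_mem_W {σ : GQ} (hσ : σ ∈ (padicPlace q).decompositionSubgroup ℚ)
    {w w' : Ω × Ω} (hw : w ∈ W q σ) (hw' : w' ∈ W q σ) (h1 : w.1 = w'.1) : w.2 = w'.2 := by
  have h := norm_eq_of_mem_W hσ ((W q σ).sub_mem hw hw')
  rw [Prod.fst_sub, Prod.snd_sub, h1, sub_self, norm_zero] at h
  exact sub_eq_zero.1 (norm_eq_zero.1 h.symm)

theorem diag_mem_W (σ : GQ) (a : ℚ_[q]) :
    (algebraMap ℚ_[q] Ω a, algebraMap ℚ_[q] Ω a) ∈ W q σ := by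
  have hcont : Continuous fun a : ℚ_[q] => ((algebraMap ℚ_[q] Ω a, algebraMap ℚ_[q] Ω a) : Ω × Ω) :=
    (continuous_algebraMap ℚ_[q] Ω).prodMk (continuous_algebraMap ℚ_[q] Ω)
  have hcl : IsClosed {a : ℚ_[q] | ((algebraMap ℚ_[q] Ω a, algebraMap ℚ_[q] Ω a) : Ω × Ω) ∈ W q σ} :=
    (isClosed_closure (s := ((graphHom q σ).range : Set (Ω × Ω)))).preimage hcont
  refine isClosed_property (Padic.denseRange_ratCast q) hcl (fun r => ?_) a
  have h1 : graphHom q σ (r : Qbar) =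
      (algebraMap ℚ_[q] Ω (r : ℚ_[q]), algebraMap ℚ_[q] Ω (r : ℚ_[q])) := by
    rw [graphHom_apply, map_ratCast, map_ratCast, map_ratCast, map_ratCast]
  change ((algebraMap ℚ_[q] Ω (r : ℚ_[q]), algebraMap ℚ_[q] Ω (r : ℚ_[q])) : Ω × Ω) ∈ W q σ
  rw [← h1]
  exact graphHom_mem_W σ _

variable (q) in
/-- `W` as a `ℚ_q`-subalgebra. -/
def Wq (σ : GQ) : Subalgebra ℚ_[q] (Ω × Ω) :=
  { (W q σ) with
    algebraMap_mem' := fun a => by
      rw [Prod.algebraMap_apply]
      exact diag_mem_W σ a }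

theorem mem_Wq {σ : GQ} {w : Ω × Ω} : w ∈ Wq q σ ↔ w ∈ W q σ := Iff.rfl

/-! ### Step 3: one element at a time -/

local instance isAlgClosurePadicD4 : IsAlgClosure ℚ_[q] (PadicAlgCl q) :=
  ⟨inferInstance, inferInstance⟩
local instance normalPadicD4 : Normal ℚ_[q] (PadicAlgCl q) :=
  IsAlgClosure.normal ℚ_[q] (PadicAlgCl q)

theorem exists_apply_eq {σ : GQ} (hσ : σ ∈ (padicPlace q).decompositionSubgroup ℚ)
    (α : Qbar) : ∃ τ : Gq q, τ (padicEmbedding q α) = padicEmbedding q (σ α) := by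
  set g : Polynomial ℚ_[q] := minpoly ℚ_[q] (padicEmbedding q α) with hg
  have hw : graphHom q σ α ∈ Wq q σ := graphHom_mem_W σ α
  have h1 : Polynomial.aeval (graphHom q σ α) g ∈ Wq q σ := by
    have := (Polynomial.aeval (⟨graphHom q σ α, hw⟩ : Wq q σ) g).2
    rwa [Polynomial.coe_aeval_mk_apply] at this
  rw [Polynomial.aeval_prod_apply, graphHom_apply, hg, minpoly.aeval] at h1
  have h2 := norm_eq_of_mem_W hσ (mem_Wq.1 h1)
  rw [norm_zero] at h2
  have h3 : Polynomial.aeval (padicEmbedding q (σ α)) (minpoly ℚ_[q] (padicEmbedding q α)) = 0 :=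
    norm_eq_zero.1 h2.symm
  exact minpoly.exists_algEquiv_of_root' (Algebra.IsAlgebraic.isAlgebraic _) h3


/-! ### Step 4: compactness -/

open Fermat.Agent.PT.BR.LocInj13 in
/-- Finite level: for a finite extension `F/ℚ` there is `τ ∈ Gq` with `τ ∘ ι = ι ∘ σ` on `F`. -/
theorem exists_forall_apply_eq {σ : GQ} (hσ : σ ∈ (padicPlace q).decompositionSubgroup ℚ)
    (F : IntermediateField ℚ Qbar) [FiniteDimensional ℚ F] :
    ∃ τ : Gq q, ∀ y ∈ F, τ (padicEmbedding q y) = padicEmbedding q (σ y) := by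
  obtain ⟨α, hα⟩ := Field.exists_primitive_element ℚ F
  obtain ⟨τ, hτ⟩ := exists_apply_eq hσ (α : Qbar)
  refine ⟨τ, fun y hy => ?_⟩
  -- two `ℚ`-algebra homomorphisms `F → Ω` agreeing at the primitive element
  let φ₁ : F →ₐ[ℚ] Ω := ((τ.restrictScalars ℚ : Ω ≃ₐ[ℚ] Ω) : Ω →ₐ[ℚ] Ω).comp
    ((padicEmbedding q).comp F.val)
  let φ₂ : F →ₐ[ℚ] Ω := (padicEmbedding q).comp (((σ : Qbar ≃ₐ[ℚ] Qbar) : Qbar →ₐ[ℚ] Qbar).comp F.val)
  have hφ : φ₁.comp (IntermediateField.adjoin ℚ {α}).val =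
      φ₂.comp (IntermediateField.adjoin ℚ {α}).val := by
    apply IntermediateField.adjoin_algHom_ext
    intro x hx
    rw [Set.mem_singleton_iff] at hx
    subst hx
    exact hτ
  have hy' : (⟨y, hy⟩ : F) ∈ IntermediateField.adjoin ℚ {α} := by
    rw [hα]; exact IntermediateField.mem_top
  exact congrArg (fun φ => φ ⟨⟨y, hy⟩, hy'⟩) hφ

open Fermat.Agent.PT.BR.LocInj13 in
/-- **L0 (decomposition group)**: `rq q : Gq q → Gal(ℚ̄/ℚ)` maps onto the decomposition group of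
`padicPlace q`. -/
theorem exists_rq_eq {σ : GQ} (hσ : σ ∈ (padicPlace q).decompositionSubgroup ℚ) :
    ∃ τ : Gq q, rq q τ = σ := by
  let ι' := {F : IntermediateField ℚ Qbar // FiniteDimensional ℚ F}
  let S : ι' → Set (Gq q) :=
    fun F => {τ | ∀ y ∈ F.1, τ (padicEmbedding q y) = padicEmbedding q (σ y)}
  have hι : Nonempty ι' := ⟨⟨⊥, inferInstance⟩⟩
  have hdir : Directed (· ⊇ ·) S := by
    intro i j
    haveI : FiniteDimensional ℚ i.1 := i.2
    haveI : FiniteDimensional ℚ j.1 := j.2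
    exact ⟨⟨i.1 ⊔ j.1, IntermediateField.finiteDimensional_sup i.1 j.1⟩,
      fun τ hτ y hy => hτ y (le_sup_left (a := i.1) (b := j.1) hy),
      fun τ hτ y hy => hτ y (le_sup_right (a := i.1) (b := j.1) hy)⟩
  have hne : ∀ i : ι', (S i).Nonempty := by
    intro i
    haveI : FiniteDimensional ℚ i.1 := i.2
    exact exists_forall_apply_eq hσ i.1
  have hcl : ∀ i : ι', IsClosed (S i) := by
    intro i
    haveI : FiniteDimensional ℚ i.1 := i.2
    refine isClosed_of_mul_mem q (localField q i.1) fun τ hτ u hu y hy => ?_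
    rw [AlgEquiv.mul_apply, (IntermediateField.mem_fixingSubgroup_iff _ _).1 hu _
      (padicEmbedding_mem_localField q hy)]
    exact hτ y hy
  obtain ⟨τ, hτ⟩ := IsCompact.nonempty_iInter_of_directed_nonempty_isCompact_isClosed
    S hdir hne (fun i => (hcl i).isCompact) hcl
  refine ⟨τ, AlgEquiv.ext fun y => ?_⟩
  apply (padicEmbedding q).injective
  change padicEmbedding q (localGaloisToGlobal q τ y) = padicEmbedding q (σ y)
  rw [padicEmbedding_localGaloisToGlobal]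
  have hy : FiniteDimensional ℚ (IntermediateField.adjoin ℚ {y}) :=
    IntermediateField.adjoin.finiteDimensional (Algebra.IsIntegral.isIntegral y)
  exact Set.mem_iInter.1 hτ ⟨IntermediateField.adjoin ℚ {y}, hy⟩ y
    (IntermediateField.mem_adjoin_simple_self ℚ y)


/-! ### Consequences -/

variable (q) in
theorem range_rq : (rq q).range = (padicPlace q).decompositionSubgroup ℚ := by
  apply le_antisymm
  · rintro _ ⟨τ, rfl⟩
    exact rq_mem_decomposition q τ
  · intro σ hσ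
    exact exists_rq_eq hσ

theorem mem_decomposition_of_mem_inertia {K L : Type*} [Field K] [Field L] [Algebra K L]
    (A : ValuationSubring L) {σ : L ≃ₐ[K] L} (hσ : σ ∈ A.inertiaSubgroupIn K) :
    σ ∈ A.decompositionSubgroup K := by
  rw [ValuationSubring.inertiaSubgroupIn, Subgroup.mem_map] at hσ
  obtain ⟨g, -, rfl⟩ := hσ
  exact g.2

/-- **L0 (inertia group)**: `Iq q` maps onto the inertia group of `padicPlace q`. -/
theorem exists_mem_Iq_rq_eq {σ : GQ} (hσ : σ ∈ (padicPlace q).inertiaSubgroupIn ℚ) :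
    ∃ τ ∈ Iq q, rq q τ = σ := by
  obtain ⟨τ, rfl⟩ := exists_rq_eq (mem_decomposition_of_mem_inertia _ hσ)
  exact ⟨τ, hσ, rfl⟩

variable (q) in
theorem map_Iq : (Iq q).map (rq q) = (padicPlace q).inertiaSubgroupIn ℚ := by
  apply le_antisymm
  · rintro _ ⟨τ, hτ, rfl⟩
    exact rq_mem_inertia q hτ
  · intro σ hσ
    obtain ⟨τ, hτ, rfl⟩ := exists_mem_Iq_rq_eq hσ
    exact ⟨τ, hτ, rfl⟩

/-- Inertia groups of conjugate places are conjugate. -/
theorem conj_mem_inertiaSubgroupIn_of_smul {V : ValuationSubring Qbar}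
    (hV : V.LiesOverPrime q) (g : GQ) {σ : GQ} (hσ : σ ∈ (g • V).inertiaSubgroupIn ℚ) :
    g⁻¹ * σ * g ∈ V.inertiaSubgroupIn ℚ := by
  refine Fermat.Agent.S13.UnramVal.mem_inertiaSubgroupIn_qbar V (Fact.out : q.Prime) hV _
    fun x hx => ?_
  have hgx : g x ∈ g • V := by
    rw [ValuationSubring.mem_pointwise_smul_iff_inv_smul_mem, AlgEquiv.smul_def,
      ← AlgEquiv.mul_apply, inv_mul_cancel, AlgEquiv.one_apply]
    exact Fermat.Agent.S13.UnramVal.mem_of_isIntegral_int V hx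
  have h1 := sub_mem_nonunits_of_mem_inertiaSubgroupIn (g • V) hσ (g x) hgx
  rw [Fermat.Agent.PT.BR.UnramBridge13.mem_smul_nonunits_iff, map_sub] at h1
  have h2 : (g⁻¹ * σ * g) x - x = g⁻¹ (σ (g x)) - g⁻¹ (g x) := by
    rw [AlgEquiv.mul_apply, AlgEquiv.mul_apply, ← AlgEquiv.mul_apply g⁻¹ g x, inv_mul_cancel,
      AlgEquiv.one_apply]
  rw [h2]
  exact h1

/-- Every inertia element at a place over `q` is conjugate to the image of an element of `Iq`. -/
theorem exists_conj_rq {P : ValuationSubring Qbar} (hP : P.LiesOverPrime q) {σ : GQ}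
    (hσ : σ ∈ P.inertiaSubgroupIn ℚ) : ∃ g : GQ, ∃ τ ∈ Iq q, σ = g * rq q τ * g⁻¹ := by
  obtain ⟨g, rfl⟩ := Fermat.Agent.TW.GRP.PlaceConj3.exists_smul_eq (Fact.out : q.Prime)
    (liesOverPrime_padicPlace q) hP
  obtain ⟨τ, hτ, hτσ⟩ := exists_mem_Iq_rq_eq
    (conj_mem_inertiaSubgroupIn_of_smul (liesOverPrime_padicPlace q) g hσ)
  refine ⟨g, τ, hτ, ?_⟩
  rw [hτσ]
  group

/-- **Local ⇒ global unramifiedness**: a homomorphism which is trivial on `rq (Iq q)` is trivial on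
the inertia groups of all places over `q`. -/
theorem eq_one_of_forall_Iq {X : Type*} [Monoid X] (f : GQ →* X)
    (h : ∀ τ ∈ Iq q, f (rq q τ) = 1) {P : ValuationSubring Qbar} (hP : P.LiesOverPrime q)
    {σ : GQ} (hσ : σ ∈ P.inertiaSubgroupIn ℚ) : f σ = 1 := by
  obtain ⟨g, τ, hτ, rfl⟩ := exists_conj_rq hP hσ
  rw [map_mul, map_mul, h τ hτ, mul_one, ← map_mul, mul_inv_cancel, map_one]

/-- **(ram)**: a homomorphism which is non-trivial on some inertia group over `q` is non-trivial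
on `rq (Iq q)`. -/
theorem exists_mem_Iq_ne_one {X : Type*} [Monoid X] (f : GQ →* X)
    (h : ∃ P : ValuationSubring Qbar, P.LiesOverPrime q ∧ ∃ σ ∈ P.inertiaSubgroupIn ℚ, f σ ≠ 1) :
    ∃ τ ∈ Iq q, f (rq q τ) ≠ 1 := by
  by_contra hcon
  have hcon' : ∀ τ ∈ Iq q, f (rq q τ) = 1 := by
    intro τ hτ
    by_contra hne
    exact hcon ⟨τ, hτ, hne⟩
  obtain ⟨P, hP, σ, hσ, hne⟩ := h
  exact hne (eq_one_of_forall_Iq f hcon' hP hσ)

/-- (ram) for a residual representation: ramified at `q` ⇒ locally ramified. -/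
theorem exists_mem_Iq_ne_one_of_not_isUnramifiedAt {k : Type} [Field k]
    (ρbar : ResidualGaloisRep k) (h : ¬ ρbar.IsUnramifiedAt q) :
    ∃ τ ∈ Iq q, ρbar.ρ (rq q τ) ≠ 1 := by
  by_contra hcon
  apply h
  intro P hP σ hσ
  refine eq_one_of_forall_Iq ρbar.ρ (fun τ hτ => ?_) hP hσ
  by_contra hne
  exact hcon ⟨τ, hτ, hne⟩

end

end Fermat.Agent.TW.LOC.DecompSurj4
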