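/-
Programme T (S56, Taylor–Wiles primes), chapter LOC, item (TW) of `T/iface/LOC` — helper4.

THE LOCAL COHOMOLOGY AT A TAYLOR–WILES PRIME.  `q ≠ p` primes with `p ∣ q - 1`; `N : Rep k (Gq q)`
finite, discrete for `levelLoc q`, killed by `p`, unramified (`Defs2.IsUnramifiedRep`).

* `resHom q hunr hc : Iq q →* Multiplicative N`: the restriction of a cocycle to `Iq` is a
  homomorphism; `isPGroup_range_resHom`; `coc_conj : c (φ τ φ⁻¹) = φ • c τ` (`τ ∈ Iq`);
* `thetaL_conj_frob : thetaL q L ⟨φ τ φ⁻¹, _⟩ = thetaL q L τ ^ q` (`φ` a Frobenius lift);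
* `eq_zero_on_Iq` (Lemma A): a cocycle of level `L` vanishing at a tame generator of level `L`
  vanishes on `Iq`;
* `ρ_frob_apply`, `ρ_apply_coc` (Lemma D): the values on `Iq` of a level cocycle are `Gq`-invariant;
* `exists_common_level`: finitely many level cochains have a common finite Galois level;
* `card_quot_le : Finite (H¹/H¹_ur) ∧ #(H¹(Gq, N)/H¹_ur) ≤ #N^{Gq}`;
* **`card_H1_le : Finite (H1 (levelLoc q) N) ∧ Nat.card (H1 (levelLoc q) N) ≤ (#N^{Gq})²`**
  where `N^{Gq} = {m : N // ∀ g, N.ρ g m = m}` (uses `UnramGq4.card_H1ur`).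
-/
import Mathlib
import Fermat.Agent.TW.LOC.Defs2
import Fermat.Agent.TW.LOC.TameInertia4
import Fermat.Agent.TW.LOC.TameProfinite4
import Fermat.Agent.TW.LOC.UnramH1Abs4
import Fermat.Agent.TW.LOC.UnramGq4

set_option autoImplicit false
set_option linter.unusedSectionVars false
set_option linter.style.haveILetI false

open CategoryTheory groupCohomology
open Fermat.Agent.PT.PRO.LevelCoh28 Fermat.Agent.PT.GLUE.Objects21
open Fermat.Agent.TW.LOC.Defs2
open scoped Fermat.Agent.PT.LOC.Interface12 Fermat.Agent.PT.LOC.StructureTower27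
open Fermat.Agent.PT.LOC.Interface12 Fermat.Agent.PT.LOC.Unram11
open Fermat.Agent.TW.LOC.TameInertia4 Fermat.Agent.TW.LOC.TameProfinite4
  Fermat.Agent.TW.LOC.UnramH1Abs4 Fermat.Agent.TW.LOC.UnramGq4

namespace Fermat.Agent.TW.LOC.TWLocal4

noncomputable section

variable (q : ℕ) [Fact q.Prime] {k : Type} [CommRing k] (N : Rep.{0} k (Gq q))

/-! ### Restriction of cocycles to the inertia group of an unramified module -/

variable {N} in
/-- For `N` unramified, the restriction of a cocycle to `Iq` is a homomorphism. -/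
def resHom (hunr : IsUnramifiedRep q N) {c : Gq q → N} (hc : c ∈ cocycles₁ N) :
    Iq q →* Multiplicative N where
  toFun τ := Multiplicative.ofAdd (c τ)
  map_one' := by
    change Multiplicative.ofAdd (c 1) = 1
    rw [coc_one hc]; rfl
  map_mul' τ σ := by
    change Multiplicative.ofAdd (c ((τ : Gq q) * σ)) = _
    rw [coc_mul hc, hunr τ τ.2, Module.End.one_apply, add_comm]
    rfl

variable {N} in
theorem resHom_apply (hunr : IsUnramifiedRep q N) {c : Gq q → N} (hc : c ∈ cocycles₁ N)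
    (τ : Iq q) : resHom q hunr hc τ = Multiplicative.ofAdd (c τ) := rfl

variable {N} in
theorem isPGroup_range_resHom (p : ℕ) (hp : ∀ n : N, p • n = 0) (hunr : IsUnramifiedRep q N)
    {c : Gq q → N} (hc : c ∈ cocycles₁ N) : IsPGroup p (resHom q hunr hc).range := by
  rintro ⟨_, τ, rfl⟩
  refine ⟨1, Subtype.ext ?_⟩
  rw [pow_one, Subgroup.coe_pow, Subgroup.coe_one]
  change (resHom q hunr hc τ) ^ p = 1
  rw [resHom_apply, ← ofAdd_nsmul, hp]
  rfl

variable {N} in
/-- The conjugation formula `c (φ τ φ⁻¹) = φ • c τ` for `τ ∈ Iq`, `N` unramified. -/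
theorem coc_conj (hunr : IsUnramifiedRep q N) {c : Gq q → N} (hc : c ∈ cocycles₁ N)
    (φ : Gq q) {τ : Gq q} (hτ : τ ∈ Iq q) : c (φ * τ * φ⁻¹) = N.ρ φ (c τ) := by
  have h1 : c (φ * φ⁻¹) = 0 := by rw [mul_inv_cancel]; exact coc_one hc
  rw [coc_mul hc] at h1
  rw [coc_mul hc, coc_mul hc, map_mul, Module.End.mul_apply, hunr τ hτ, Module.End.one_apply]
  rw [add_comm (N.ρ φ (c τ)), ← add_assoc, h1, zero_add]

/-! ### Cocycles of a fixed level -/

section Level

variable (L : IntermediateField ℚ_[q] (PadicAlgCl q)) [FiniteDimensional ℚ_[q] L]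
  [IsGalois ℚ_[q] L] (p : ℕ) [Fact p.Prime]

/-- The tame character of level `L` satisfies `θ(φ τ φ⁻¹) = θ(τ) ^ q` for a Frobenius lift `φ`. -/
theorem thetaL_conj_frob {φ : Gq q} (hφ : IsFrobLift q φ) (τ : Iq q) :
    thetaL q L ⟨φ * τ * φ⁻¹, (Iq_normal q).conj_mem τ τ.2 φ⟩ = thetaL q L τ ^ q := by
  have hc : resI q L ⟨φ * τ * φ⁻¹, (Iq_normal q).conj_mem τ τ.2 φ⟩ =
      ⟨resL q L φ * resI q L τ * (resL q L φ)⁻¹,
        (inertia_normal q ℚ_[q] L).conj_mem _ (resI q L τ).2 _⟩ := by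
    apply Subtype.ext
    rw [coe_resI]
    simp only [map_mul, map_inv]
    rfl
  change theta0 q ℚ_[q] L (resI q L _) = _
  rw [hc, theta0_conj_frob q ℚ_[q] L (isFrob_resL q L hφ) (resI q L τ), resCard_padic]
  rfl

variable {N}

/-- A cocycle of level `L` vanishes on `Iq ∩ Gal(ℚ̄_q/L)`. -/
theorem resHom_eq_one_of_level (hunr : IsUnramifiedRep q N) {c : Gq q → N}
    (hc : c ∈ cocycles₁ N) (hL : InvOn₁ L.fixingSubgroup c) (σ : Iq q)
    (hσ : (σ : Gq q) ∈ L.fixingSubgroup) : resHom q hunr hc σ = 1 := by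
  rw [resHom_apply]
  have := hL 1 σ hσ
  rw [one_mul, coc_one hc] at this
  rw [this]; rfl

/-- **Lemma A**: a cocycle of level `L` (values in an unramified `p`-torsion module, `p ≠ q`)
vanishing at a tame generator `τ` of level `L` vanishes on `Iq`. -/
theorem eq_zero_on_Iq (hpq : p ≠ q) (hp : ∀ n : N, p • n = 0) (hunr : IsUnramifiedRep q N)
    {c : Gq q → N} (hc : c ∈ cocycles₁ N) (hL : InvOn₁ L.fixingSubgroup c) (τ : Iq q)
    (hτ : ∀ σ : Iq q, thetaL q L σ ∈ Subgroup.zpowers (thetaL q L τ)) (h0 : c τ = 0)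
    (σ : Gq q) (hσ : σ ∈ Iq q) : c σ = 0 := by
  have h1 := apply_mem_zpowers_of_level q p L hpq (resHom q hunr hc)
    (resHom_eq_one_of_level q L hunr hc hL) (isPGroup_range_resHom q p hp hunr hc) τ hτ ⟨σ, hσ⟩
  have h2 : resHom q hunr hc τ = 1 := by rw [resHom_apply, h0]; rfl
  rw [h2, Subgroup.zpowers_one_eq_bot, Subgroup.mem_bot, resHom_apply] at h1
  exact h1

/-- **Lemma D**: for `q ≡ 1 mod p`, the value of a cocycle of level `L` at `τ ∈ Iq` is fixed by
every Frobenius lift. -/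
theorem ρ_frob_apply (hpq : p ≠ q) (hq1 : p ∣ q - 1) (hp : ∀ n : N, p • n = 0)
    (hunr : IsUnramifiedRep q N) {c : Gq q → N} (hc : c ∈ cocycles₁ N)
    (hL : InvOn₁ L.fixingSubgroup c) {φ : Gq q} (hφ : IsFrobLift q φ) (τ : Iq q) :
    N.ρ φ (c τ) = c τ := by
  set c' : Iq q := ⟨φ * τ * φ⁻¹, (Iq_normal q).conj_mem τ τ.2 φ⟩
  have h1 : thetaL q L (c' * (τ ^ q)⁻¹) = 1 := by
    rw [map_mul, map_inv, map_pow, thetaL_conj_frob q L hφ τ, mul_inv_cancel]
  have h2 := eq_one_of_thetaL_eq_one q p L hpq (resHom q hunr hc)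
    (resHom_eq_one_of_level q L hunr hc hL) (isPGroup_range_resHom q p hp hunr hc) _ h1
  rw [map_mul, map_inv, map_pow, mul_inv_eq_one, resHom_apply, resHom_apply, ← ofAdd_nsmul] at h2
  have h3 : c (φ * τ * φ⁻¹) = q • c τ := Multiplicative.ofAdd.injective h2
  rw [coc_conj q hunr hc φ τ.2] at h3
  rw [h3]
  obtain ⟨t, ht⟩ := hq1
  have hq : q = 1 + p * t := by
    have := (Fact.out : q.Prime).one_lt
    omega
  have h4 : ∀ (j : ℕ) (n : N), j = 1 + p * t → j • n = n := by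
    intro j n hj
    rw [hj, add_smul, one_smul, mul_comm, mul_smul, hp, smul_zero, add_zero]
  exact h4 q _ hq

end Level

/-! ### The count -/

section Count

variable {N} (p : ℕ) [Fact p.Prime]

theorem exists_common_level (T : Finset (Gq q → N))
    (hT : ∀ c ∈ T, IsLevel₁ (levelLoc q).sets c) :
    ∃ L : IntermediateField ℚ_[q] (PadicAlgCl q), FiniteDimensional ℚ_[q] L ∧ IsGalois ℚ_[q] L ∧
      ∀ c ∈ T, InvOn₁ L.fixingSubgroup c := by
  have h1 : ∃ U ∈ (levelLoc q).sets, ∀ c ∈ T, InvOn₁ U c := by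
    classical
    induction T using Finset.induction_on with
    | empty =>
      obtain ⟨U, hU⟩ := (levelLoc q).isBasis.nonempty
      exact ⟨U, hU, fun c hc => absurd hc (Finset.notMem_empty c)⟩
    | insert a T ha ih =>
      obtain ⟨U, hU, hUT⟩ := ih (fun c hc => hT c (Finset.mem_insert_of_mem hc))
      obtain ⟨V, hV, hVa⟩ := hT a (Finset.mem_insert_self a T)
      obtain ⟨W, hW, hWle⟩ := (levelLoc q).isBasis.directed U hU V hV
      refine ⟨W, hW, fun c hc => ?_⟩
      rcases Finset.mem_insert.1 hc with rfl | hc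
      · exact hVa.mono (hWle.trans inf_le_right)
      · exact (hUT c hc).mono (hWle.trans inf_le_left)
  obtain ⟨U, hU, hUT⟩ := h1
  obtain ⟨L, hfd, hgal, hLU⟩ := exists_galois_level q hU
  exact ⟨L, hfd, hgal, fun c hc => (hUT c hc).mono hLU⟩

/-- The values on `Iq` of a level cocycle are `Gq`-invariant (`N` unramified, `p`-torsion,
`q ≡ 1 mod p`). -/
theorem ρ_apply_coc [Finite N] (hN : IsDiscrete (levelLoc q).sets N) (hpq : p ≠ q)
    (hq1 : p ∣ q - 1) (hp : ∀ n : N, p • n = 0) (hunr : IsUnramifiedRep q N) {c : Gq q → N}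
    (hc : c ∈ Z1 (levelLoc q) N) (τ : Iq q) (g : Gq q) : N.ρ g (c τ) = c τ := by
  obtain ⟨L, hfd, hgal, hL⟩ := exists_common_level q {c} (by
    intro c' hc'
    rw [Finset.mem_singleton] at hc'
    rw [hc']; exact hc.2)
  obtain ⟨φ, hφ⟩ := exists_isFrobLift q
  have h1 := ρ_frob_apply q L p hpq hq1 hp hunr hc.1 (hL c (Finset.mem_singleton_self c)) hφ τ
  have hI : c τ ∈ invI (Iq q) N := fun τ' hτ' => by rw [hunr τ' hτ']; rfl
  have h2 := (mem_ker_phiSubOne_iff (isProcyclicQuot q hφ) hN ⟨c τ, hI⟩).1 (by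
    rw [AddMonoidHom.mem_ker]
    apply Subtype.ext
    rw [coe_phiSubOne]
    exact sub_eq_zero.2 h1)
  exact h2 g

theorem card_le_of_finset {α : Type*} (n : ℕ) (h : ∀ T : Finset α, T.card ≤ n) :
    Finite α ∧ Nat.card α ≤ n := by
  have hfin : Finite α := by
    by_contra hinf
    rw [not_finite_iff_infinite] at hinf
    obtain ⟨T, hT⟩ := Infinite.exists_subset_card_eq α (n + 1)
    have := h T
    omega
  refine ⟨hfin, ?_⟩
  have := Fintype.ofFinite α
  rw [Nat.card_eq_fintype_card, ← Finset.card_univ]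
  exact h _

/-- **(TW), quotient part**: `H¹(Gq, N) / H¹_ur` has at most `#N^{Gq}` elements. -/
theorem card_quot_le [Finite N] (hN : IsDiscrete (levelLoc q).sets N) (hpq : p ≠ q)
    (hq1 : p ∣ q - 1) (hp : ∀ n : N, p • n = 0) (hunr : IsUnramifiedRep q N) :
    Finite (H1 (levelLoc q) N ⧸ H1ur q N) ∧
      Nat.card (H1 (levelLoc q) N ⧸ H1ur q N) ≤
        Nat.card {m : N // ∀ g : Gq q, N.ρ g m = m} := by
  classical
  apply card_le_of_finset
  intro T
  have hsurj : Function.Surjective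
      (fun c : ↥(Z1 (levelLoc q) N) => (H1ur q N).mkQ (H1mk (levelLoc q) N c)) :=
    (Submodule.mkQ_surjective _).comp (H1mk_surjective _ _)
  let lift : (H1 (levelLoc q) N ⧸ H1ur q N) → ↥(Z1 (levelLoc q) N) := Function.surjInv hsurj
  have hlift : ∀ t, (H1ur q N).mkQ (H1mk (levelLoc q) N (lift t)) = t :=
    Function.surjInv_eq hsurj
  obtain ⟨L, hfd, hgal, hL⟩ := exists_common_level q
    (T.image fun t => ((lift t : ↥(Z1 (levelLoc q) N)) : Gq q → N)) (by
      intro c hc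
      obtain ⟨t, -, rfl⟩ := Finset.mem_image.1 hc
      exact (lift t).2.2)
  obtain ⟨τ, hτ⟩ := exists_thetaL_generator q L
  have := Fintype.ofFinite {m : N // ∀ g : Gq q, N.ρ g m = m}
  rw [Nat.card_eq_fintype_card, ← Finset.card_univ]
  refine Finset.card_le_card_of_injOn
    (fun t => ⟨((lift t : ↥(Z1 (levelLoc q) N)) : Gq q → N) τ,
      ρ_apply_coc q p hN hpq hq1 hp hunr (lift t).2 τ⟩) (fun _ _ => Finset.mem_univ _) ?_
  intro t ht t' ht' heq
  have heq' : ((lift t : ↥(Z1 (levelLoc q) N)) : Gq q → N) τ =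
      ((lift t' : ↥(Z1 (levelLoc q) N)) : Gq q → N) τ := congrArg Subtype.val heq
  have hLt := hL _ (Finset.mem_image_of_mem _ ht)
  have hLt' := hL _ (Finset.mem_image_of_mem _ ht')
  have hd : ((lift t - lift t' : ↥(Z1 (levelLoc q) N)) : Gq q → N) =
      ((lift t : ↥(Z1 (levelLoc q) N)) : Gq q → N) - (lift t' : ↥(Z1 (levelLoc q) N)) := rfl
  have hLd : InvOn₁ L.fixingSubgroup
      ((lift t - lift t' : ↥(Z1 (levelLoc q) N)) : Gq q → N) := by
    intro g s hs
    rw [hd, Pi.sub_apply, Pi.sub_apply, hLt g s hs, hLt' g s hs]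
  have hzero := eq_zero_on_Iq q L p hpq hp hunr (lift t - lift t').2.1 hLd τ hτ (by
    rw [hd, Pi.sub_apply, heq', sub_self])
  have hmem : H1mk (levelLoc q) N (lift t - lift t') ∈ H1ur q N :=
    ⟨lift t - lift t', rfl, 0, fun σ hσ => by rw [hzero σ hσ, map_zero, sub_zero]⟩
  rw [map_sub] at hmem
  have := (Submodule.Quotient.eq (H1ur q N)).2 hmem
  rw [← hlift t, ← hlift t']
  exact this

/-- **(TW)**: for `q ≠ p`, `q ≡ 1 mod p`, and `N` a finite discrete unramified `Gq`-module killed by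
`p`: `H¹(Gq, N)` is finite with at most `(#N^{Gq})²` elements. -/
theorem card_H1_le [Finite N] (hN : IsDiscrete (levelLoc q).sets N) (hpq : p ≠ q)
    (hq1 : p ∣ q - 1) (hp : ∀ n : N, p • n = 0) (hunr : IsUnramifiedRep q N) :
    Finite (H1 (levelLoc q) N) ∧
      Nat.card (H1 (levelLoc q) N) ≤ (Nat.card {m : N // ∀ g : Gq q, N.ρ g m = m}) ^ 2 := by
  obtain ⟨hfinQ, hcardQ⟩ := card_quot_le q p hN hpq hq1 hp hunr
  have hur := card_H1ur q N hN
  have hpos : 0 < Nat.card {m : N // ∀ g : Gq q, N.ρ g m = m} := by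
    haveI : Nonempty {m : N // ∀ g : Gq q, N.ρ g m = m} := ⟨⟨0, fun g => map_zero _⟩⟩
    exact Nat.card_pos
  have hlag := Submodule.card_eq_card_quotient_mul_card (H1ur q N)
  have hQpos : 0 < Nat.card (H1 (levelLoc q) N ⧸ H1ur q N) := Nat.card_pos
  refine ⟨?_, ?_⟩
  · apply Nat.finite_of_card_ne_zero
    rw [hlag, hur]
    exact (Nat.mul_pos hpos hQpos).ne'
  · rw [hlag, hur, pow_two]
    exact Nat.mul_le_mul_left _ hcardQ

end Count

end

end Fermat.Agent.TW.LOC.TWLocal4
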