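/-
Programme T (S56, Taylor–Wiles primes), chapter LOC, item (TW) of `T/iface/LOC`, second half — helper4.

THE LOCAL COHOMOLOGY OF `ad⁰ρ̄` AT A TAYLOR–WILES PRIME, in the vocabulary of `TW/DEF/Basic1`
(`rbar : GQ →* M2 k`, `ad0Rep rbar`, `Mq`, `Hq1`).  `k` a finite field of characteristic `p ≠ 2`,
`q ≠ p` a prime with `p ∣ q - 1`.

* `isFrobeniusAt_rq : IsFrobLift q φ → (padicPlace q).IsFrobeniusAt (rq q φ) q`
  (a Frobenius lift of `Gq` is a Frobenius element at `padicPlace q` in the sense of the Prelude);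
* `card_commutant_sl2 : ¬ IsScalar Φ → #{X ∈ sl2 k | Φ X = X Φ} = #k`  (`2 ≠ 0` in `k`);
* `IsUnramAt q rbar := ∀ τ ∈ Iq q, rbar (rq q τ) = 1`, `IsLevelAt q rbar`
  (`isUnramAt_of_global`, `isLevelAt_of_global` from the global shapes of `TW/GRP/Bridge3`);
* `exists_pow_eq : ∀ g, ∃ j, rbar (rq q g) = rbar (rq q φ) ^ j` (`φ` a Frobenius lift);
* `forall_ρ_eq_iff` : the `Gq`-invariants of `ad⁰ρ̄` = trace-zero matrices commuting with `ρ̄(Frob_q)`;
* `isUnramifiedRep_Mq`, `isDiscrete_Mq_ad0`;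
* `card_invariants_ad0`, `card_invariants_ad0'` : `#H⁰(ℚ_q, ad⁰ρ̄) = #k` if `ρ̄(Frob_q)` is not scalar;
* **`card_Hq1_ad0_le`** : `Finite (Hq1 (ad0Rep rbar) q) ∧ #Hq1 (ad0Rep rbar) q ≤ (#k)²`;
* **`card_Hq1_ad0_le_of_global`** : the same from the hypotheses in the shape produced by
  `TW/GRP/Main3.exists_tw_primes` (`disc2 (rbar φ) ≠ 0` for every Frobenius element over `q`),
  with `#H⁰ = #k` and `#H¹ ≤ #k · #H⁰`.
-/
import Mathlib
import Fermat.Agent.TW.DEF.Basic1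
import Fermat.Agent.TW.GRP.Mat2x3
import Fermat.Agent.TW.LOC.TWLocal4

set_option autoImplicit false
set_option linter.unusedSectionVars false
set_option linter.style.haveILetI false

open CategoryTheory groupCohomology
open Fermat.Agent.PT.PRO.LevelCoh28 Fermat.Agent.PT.GLUE.Objects21
open Fermat.Agent.TW.LOC.Defs2
open Fermat.Agent.TW.LOC.TameProfinite4 Fermat.Agent.TW.LOC.UnramGq4
open Fermat.Agent.TW.DEF.Basic1 (GQ M2 Mq Hq1 ad0Rep ad0Val ad0Val_injective ad0Val_ρ_apply trace_ad0Val)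
open Fermat.Agent.TW.GRP.Mat2x3 (IsScalar disc2)

namespace Fermat.Agent.TW.LOC.TWLocalAd4

noncomputable section

variable (q : ℕ) [Fact q.Prime]

/-- A Frobenius lift in `Gq` maps to a Frobenius element (Prelude sense) at `padicPlace q`. -/
theorem isFrobeniusAt_rq {φ : Gq q} (hφ : IsFrobLift q φ) :
    (padicPlace q).IsFrobeniusAt (rq q φ) q := by
  refine ⟨rq_mem_decomposition q φ, fun x => ?_⟩
  obtain ⟨⟨a, ha⟩, rfl⟩ := IsLocalRing.residue_surjective x
  rw [← IsLocalRing.ResidueField.residue_smul, ← map_pow, ← sub_eq_zero, ← map_sub,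
    IsLocalRing.residue_eq_zero_iff]
  rw [← ValuationSubring.coe_mem_nonunits_iff]
  change rq q φ a - a ^ q ∈ (padicPlace q).nonunits
  rw [mem_nonunits_padicPlace_iff, map_sub, padicEmbedding_localGaloisToGlobal, map_pow]
  apply hφ
  have := (mem_padicPlace_iff q).1 ha
  rw [← NNReal.coe_le_coe, coe_nnnorm, NNReal.coe_one] at this
  exact this


/-! ### The commutant of a non-scalar matrix in the trace-zero matrices -/

section Comm

variable {k : Type} [Field k]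

open Fermat.Agent.TW.DEF.Basic1 (sl2 mem_sl2_iff)

theorem card_commutant_sl2 [Finite k] (h2 : (2 : k) ≠ 0) {Φ : M2 k} (hns : ¬ IsScalar Φ) :
    Nat.card {X : ↥(sl2 k) // Φ * (X : M2 k) = (X : M2 k) * Φ} = Nat.card k := by
  set N : M2 k := Φ - (Φ.trace / 2) • (1 : M2 k) with hN
  have hNtr : N.trace = 0 := Fermat.Agent.TW.GRP.Mat2x3.trace_sub_half h2 Φ
  have hN0 : N ≠ 0 := fun h0 => hns ⟨Φ.trace / 2, sub_eq_zero.mp h0⟩
  have hcomm : Φ * N = N * Φ := by
    rw [hN, Matrix.mul_sub, Matrix.sub_mul, Matrix.mul_smul, Matrix.smul_mul, Matrix.mul_one,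
      Matrix.one_mul]
  symm
  refine Nat.card_congr (Equiv.ofBijective
    (fun y : k => (⟨⟨y • N, (mem_sl2_iff _).2 (by rw [Matrix.trace_smul, hNtr, smul_zero])⟩,
      by
        change Φ * (y • N) = (y • N) * Φ
        rw [Matrix.mul_smul, Matrix.smul_mul, hcomm]⟩ :
      {X : ↥(sl2 k) // Φ * (X : M2 k) = (X : M2 k) * Φ})) ⟨?_, ?_⟩)
  · intro x y hxy
    have h0 : x • N = y • N := congrArg (fun A : {X : ↥(sl2 k) // Φ * (X : M2 k) = (X : M2 k) * Φ} =>
      ((A : ↥(sl2 k)) : M2 k)) hxy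
    have h1 : (x - y) • N = 0 := by rw [sub_smul, h0, sub_self]
    exact sub_eq_zero.mp ((smul_eq_zero.mp h1).resolve_right hN0)
  · rintro ⟨⟨A, hA⟩, hAM⟩
    change Φ * A = A * Φ at hAM
    obtain ⟨x, y, hxy⟩ := Fermat.Agent.TW.GRP.Mat2x3.commutant_of_not_isScalar hns hAM.symm
    have htr : A.trace = 0 := (mem_sl2_iff _).1 hA
    refine ⟨y, ?_⟩
    apply Subtype.ext
    apply Subtype.ext
    change y • N = A
    have ht := congrArg Matrix.trace hxy
    rw [htr, Matrix.trace_add, Matrix.trace_smul, Matrix.trace_smul, Matrix.trace_one,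
      Fintype.card_fin, smul_eq_mul, smul_eq_mul] at ht
    have hx : x = -(y * (Φ.trace / 2)) := by
      have h2' : ((2 : ℕ) : k) = 2 := by norm_num
      rw [h2'] at ht
      field_simp
      linear_combination -ht
    rw [hxy, hN, hx]
    module

end Comm

/-! ### The adjoint representation at an unramified prime -/

section Ad

variable {k : Type} [Field k] (rbar : GQ →* M2 k)

/-- `ρ̄` is unramified at `q` (local form). -/
def IsUnramAt : Prop := ∀ τ ∈ Iq q, rbar (rq q τ) = 1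

/-- `ρ̄ ∘ rq` is trivial on an open subgroup of `Gq`. -/
def IsLevelAt : Prop := ∃ U ∈ (levelLoc q).sets, ∀ s ∈ U, rbar (rq q s) = 1

variable {q rbar}

theorem isUnramAt_of_global
    (h : ∀ P : ValuationSubring (AlgebraicClosure ℚ), P.LiesOverPrime q →
      ∀ ι ∈ P.inertiaSubgroupIn ℚ, rbar ι = 1) : IsUnramAt q rbar :=
  fun _ hτ => h (padicPlace q) (liesOverPrime_padicPlace q) _ (rq_mem_inertia q hτ)

theorem isLevelAt_of_global
    (h : ∃ L : IntermediateField ℚ (AlgebraicClosure ℚ), FiniteDimensional ℚ L ∧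
      ∀ σ : GQ, (∀ x ∈ L, σ x = x) → rbar σ = 1) : IsLevelAt q rbar := by
  obtain ⟨L, hL, h1⟩ := h
  refine ⟨L.fixingSubgroup.comap (rq q), ⟨_, ⟨L, hL, rfl⟩, rfl⟩, fun s hs => h1 _ fun x hx => ?_⟩
  exact hs ⟨x, hx⟩

/-- The image of `Gq` consists of powers of the image of a Frobenius lift. -/
theorem exists_pow_eq (hunr : IsUnramAt q rbar) (hlev : IsLevelAt q rbar) {φ : Gq q}
    (hφ : IsFrobLift q φ) (g : Gq q) : ∃ j : ℕ, rbar (rq q g) = rbar (rq q φ) ^ j := by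
  obtain ⟨U, hU, h1⟩ := hlev
  obtain ⟨j, τ, hτ, u, hu, rfl⟩ := gen_of_isFrobLift q hφ hU g
  exact ⟨j, by rw [map_mul, map_mul, map_mul, map_mul, hunr τ hτ, h1 u hu, mul_one, mul_one,
    map_pow, map_pow]⟩

theorem Mq_ρ_apply (g : Gq q) (X : ad0Rep rbar) :
    ad0Val rbar ((Mq (ad0Rep rbar) q).ρ g X) =
      rbar (rq q g) * ad0Val rbar X * rbar (rq q g)⁻¹ := rfl

/-- The `Gq`-invariants of `ad⁰ρ̄` are the trace-zero matrices commuting with `ρ̄(Frob_q)`. -/
theorem forall_ρ_eq_iff (hunr : IsUnramAt q rbar) (hlev : IsLevelAt q rbar) {φ : Gq q}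
    (hφ : IsFrobLift q φ) (X : ad0Rep rbar) :
    (∀ g : Gq q, (Mq (ad0Rep rbar) q).ρ g X = X) ↔
      rbar (rq q φ) * ad0Val rbar X = ad0Val rbar X * rbar (rq q φ) := by
  constructor
  · intro h
    have h1 := congrArg (ad0Val rbar) (h φ)
    rw [Mq_ρ_apply] at h1
    have h2 := congrArg (· * rbar (rq q φ)) h1
    simp only [Matrix.mul_assoc, Fermat.Agent.TW.DEF.Basic1.rbar_inv_mul, Matrix.mul_one] at h2
    exact h2
  · intro h g
    apply ad0Val_injective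
    rw [Mq_ρ_apply]
    obtain ⟨j, hj⟩ := exists_pow_eq hunr hlev hφ g
    have hc : rbar (rq q φ) ^ j * ad0Val rbar X = ad0Val rbar X * rbar (rq q φ) ^ j :=
      ((Commute.pow_left (show Commute (rbar (rq q φ)) (ad0Val rbar X) from h) j)).eq
    rw [hj, hc, ← hj, Matrix.mul_assoc, Fermat.Agent.TW.DEF.Basic1.rbar_mul_inv, Matrix.mul_one]


theorem isUnramifiedRep_Mq (hunr : IsUnramAt q rbar) :
    IsUnramifiedRep q (Mq (ad0Rep rbar) q) := by
  intro τ hτ
  refine LinearMap.ext fun X => ?_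
  apply ad0Val_injective
  have h1 : rbar (rq q τ)⁻¹ = 1 := by
    rw [← map_inv]
    exact hunr _ ((Iq q).inv_mem hτ)
  rw [Mq_ρ_apply, hunr τ hτ, h1, one_mul, mul_one]
  rfl

theorem isDiscrete_Mq_ad0 (hlev : IsLevelAt q rbar) :
    IsDiscrete (levelLoc q).sets (Mq (ad0Rep rbar) q) := by
  obtain ⟨U, hU, h1⟩ := hlev
  intro X
  refine ⟨U, hU, fun s hs => ?_⟩
  apply ad0Val_injective
  have h2 : rbar (rq q s)⁻¹ = 1 := by
    rw [← map_inv]
    exact h1 _ (U.inv_mem hs)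
  rw [Mq_ρ_apply, h1 s hs, h2, one_mul, mul_one]

/-- `#H⁰(ℚ_q, ad⁰ρ̄) = #k` at an unramified prime where `ρ̄(Frob_q)` is not scalar. -/
theorem card_invariants_ad0 [Finite k] (h2 : (2 : k) ≠ 0) (hunr : IsUnramAt q rbar)
    (hlev : IsLevelAt q rbar) {φ : Gq q} (hφ : IsFrobLift q φ)
    (hns : ¬ IsScalar (rbar (rq q φ))) :
    Nat.card {X : Mq (ad0Rep rbar) q // ∀ g : Gq q, (Mq (ad0Rep rbar) q).ρ g X = X} =
      Nat.card k := by
  rw [← card_commutant_sl2 h2 hns]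
  exact Nat.card_congr (Equiv.subtypeEquivRight fun X => forall_ρ_eq_iff hunr hlev hφ X)

theorem card_invariants_ad0' [Finite k] (h2 : (2 : k) ≠ 0) (hunr : IsUnramAt q rbar)
    (hlev : IsLevelAt q rbar) {φ : Gq q} (hφ : IsFrobLift q φ)
    (hns : ¬ IsScalar (rbar (rq q φ))) :
    Nat.card (Mq (ad0Rep rbar) q).ρ.invariants = Nat.card k := by
  rw [← card_invariants_ad0 h2 hunr hlev hφ hns]
  exact Nat.card_congr (Equiv.subtypeEquivRight fun X => Representation.mem_invariants _ X)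

/-- **The local cohomology of `ad⁰ρ̄` at a Taylor–Wiles prime.** -/
theorem card_Hq1_ad0_le (p : ℕ) [Fact p.Prime] [CharP k p] [Finite k] (hp2 : p ≠ 2)
    (hpq : p ≠ q) (hq1 : p ∣ q - 1) (hunr : IsUnramAt q rbar) (hlev : IsLevelAt q rbar)
    {φ : Gq q} (hφ : IsFrobLift q φ) (hns : ¬ IsScalar (rbar (rq q φ))) :
    Finite (Hq1 (ad0Rep rbar) q) ∧ Nat.card (Hq1 (ad0Rep rbar) q) ≤ Nat.card k ^ 2 := by
  have h2 : (2 : k) ≠ 0 := by
    intro h
    have h3 : ((2 : ℕ) : k) = 0 := by exact_mod_cast h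
    rw [CharP.cast_eq_zero_iff k p] at h3
    exact hp2 ((Nat.prime_dvd_prime_iff_eq (Fact.out : p.Prime) Nat.prime_two).1 h3)
  haveI : Finite (Mq (ad0Rep rbar) q) :=
    Finite.of_injective _ (ad0Val_injective rbar)
  have hp : ∀ n : Mq (ad0Rep rbar) q, p • n = 0 := by
    intro n
    rw [← Nat.cast_smul_eq_nsmul k, CharP.cast_eq_zero, zero_smul]
  have := Fermat.Agent.TW.LOC.TWLocal4.card_H1_le q p (isDiscrete_Mq_ad0 hlev) hpq hq1 hp
    (isUnramifiedRep_Mq hunr)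
  rwa [card_invariants_ad0 h2 hunr hlev hφ hns] at this

theorem not_isScalar_of_disc2_ne_zero {M : M2 k} (hd : disc2 M ≠ 0) : ¬ IsScalar M := by
  rintro ⟨x, rfl⟩
  apply hd
  simp [disc2]
  ring

/-- The same with the hypotheses in the global shape produced by `TW/GRP` (`Bridge3.rhoM_inertia`,
`Bridge3.rhoM_finiteLevel`, `Main3.exists_tw_primes`). -/
theorem card_Hq1_ad0_le_of_global (p : ℕ) [Fact p.Prime] [CharP k p] [Finite k] (hp2 : p ≠ 2)
    (hpq : p ≠ q) (hq1 : p ∣ q - 1)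
    (hunrG : ∀ P : ValuationSubring (AlgebraicClosure ℚ), P.LiesOverPrime q →
      ∀ ι ∈ P.inertiaSubgroupIn ℚ, rbar ι = 1)
    (hlevG : ∃ L : IntermediateField ℚ (AlgebraicClosure ℚ), FiniteDimensional ℚ L ∧
      ∀ σ : GQ, (∀ x ∈ L, σ x = x) → rbar σ = 1)
    (hfrobG : ∀ P : ValuationSubring (AlgebraicClosure ℚ), P.LiesOverPrime q →
      ∀ φ : GQ, P.IsFrobeniusAt φ q → disc2 (rbar φ) ≠ 0) :
    Finite (Hq1 (ad0Rep rbar) q) ∧ Nat.card (Hq1 (ad0Rep rbar) q) ≤ Nat.card k ^ 2 ∧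
      Nat.card (Mq (ad0Rep rbar) q).ρ.invariants = Nat.card k ∧
      Nat.card (Hq1 (ad0Rep rbar) q) ≤
        Nat.card k * Nat.card (Mq (ad0Rep rbar) q).ρ.invariants := by
  obtain ⟨φ, hφ⟩ := exists_isFrobLift q
  have hns : ¬ IsScalar (rbar (rq q φ)) :=
    not_isScalar_of_disc2_ne_zero
      (hfrobG (padicPlace q) (liesOverPrime_padicPlace q) _ (isFrobeniusAt_rq q hφ))
  have hunr := isUnramAt_of_global (q := q) hunrG
  have hlev := isLevelAt_of_global (q := q) hlevG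
  have h2 : (2 : k) ≠ 0 := by
    intro h
    have h3 : ((2 : ℕ) : k) = 0 := by exact_mod_cast h
    rw [CharP.cast_eq_zero_iff k p] at h3
    exact hp2 ((Nat.prime_dvd_prime_iff_eq (Fact.out : p.Prime) Nat.prime_two).1 h3)
  obtain ⟨hf, hc⟩ := card_Hq1_ad0_le p hp2 hpq hq1 hunr hlev hφ hns
  have hi := card_invariants_ad0' h2 hunr hlev hφ hns
  refine ⟨hf, hc, hi, ?_⟩
  rw [hi, ← sq]
  exact hc

end Ad

end

end Fermat.Agent.TW.LOC.TWLocalAd4
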