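/-
Programme T (S56, Taylor–Wiles primes), chapter LOC, item (FIN-q) of helper2's list — helper4.

FINITENESS OF `H¹(Gq, N)` FOR `q ≠ p`, WITHOUT ANY CONDITION ON THE ACTION OF INERTIA.
`N : Rep k (Gq q)` finite, discrete for `levelLoc q`, killed by a prime `p ≠ q`.

* `zeroSub q hd` : the zero set of a cocycle `d` is a subgroup of `Gq`;
* `eq_zero_of_vanishing` : a cocycle of level `L` vanishing on `ker θ_L` (the preimage in `Iq` of the
  wild inertia group of `L/ℚ_q`), at a tame generator `τ` of level `L` and at a Frobenius lift `φ`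
  is zero (`Gq` is generated by `φ`, `τ`, `ker θ_L` and `Gal(ℚ̄_q/L)`);
* `exists_coboundary_on_ker` (averaging over the finite `q`-group `ker θ₀ ⊆ I(L/ℚ_q)`): a cocycle of
  level `L` is a coboundary `σ ↦ σ n - n` on `ker θ_L`;
* `exists_common_open` : finitely many level cochains have a common level;
* **`card_H1_le_sq : Finite (H1 (levelLoc q) N) ∧ Nat.card (H1 (levelLoc q) N) ≤ Nat.card N ^ 2`**.
-/
import Mathlib
import Fermat.Agent.TW.LOC.Defs2
import Fermat.Agent.TW.LOC.TameInertia4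
import Fermat.Agent.TW.LOC.TameProfinite4
import Fermat.Agent.TW.LOC.UnramH1Abs4
import Fermat.Agent.TW.LOC.UnramGq4
import Fermat.Agent.TW.LOC.TWLocal4

set_option autoImplicit false
set_option linter.unusedSectionVars false
set_option linter.style.haveILetI false

open CategoryTheory groupCohomology
open Fermat.Agent.PT.PRO.LevelCoh28 Fermat.Agent.PT.GLUE.Objects21
open Fermat.Agent.TW.LOC.Defs2
open scoped Fermat.Agent.PT.LOC.Interface12 Fermat.Agent.PT.LOC.StructureTower27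
open Fermat.Agent.PT.LOC.Interface12 Fermat.Agent.PT.LOC.Unram11
open Fermat.Agent.TW.LOC.TameInertia4 Fermat.Agent.TW.LOC.TameProfinite4
  Fermat.Agent.TW.LOC.UnramH1Abs4 Fermat.Agent.TW.LOC.UnramGq4

namespace Fermat.Agent.TW.LOC.FiniteH1q4

noncomputable section

variable (q : ℕ) [Fact q.Prime] {k : Type} [CommRing k] {N : Rep.{0} k (Gq q)}

/-! ### The zero set of a cocycle is a subgroup -/

/-- The subgroup on which a cocycle vanishes. -/
def zeroSub {d : Gq q → N} (hd : d ∈ cocycles₁ N) : Subgroup (Gq q) where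
  carrier := {g | d g = 0}
  one_mem' := coc_one hd
  mul_mem' := by
    intro g h hg hh
    change d (g * h) = 0
    rw [coc_mul hd, hh, map_zero, hg, add_zero]
  inv_mem' := by
    intro g hg
    change d g⁻¹ = 0
    have h1 : d (g * g⁻¹) = 0 := by rw [mul_inv_cancel]; exact coc_one hd
    rw [coc_mul hd, hg, add_zero] at h1
    have h2 := congrArg (N.ρ g⁻¹) h1
    rwa [← Module.End.mul_apply, ← map_mul, inv_mul_cancel, map_one, Module.End.one_apply,
      map_zero] at h2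

theorem mem_zeroSub {d : Gq q → N} (hd : d ∈ cocycles₁ N) (g : Gq q) :
    g ∈ zeroSub q hd ↔ d g = 0 := Iff.rfl

variable (L : IntermediateField ℚ_[q] (PadicAlgCl q)) [FiniteDimensional ℚ_[q] L]
  [IsGalois ℚ_[q] L]

/-- A cocycle of level `L` vanishing on `ker θ_L`, at a tame generator `τ` of level `L` and at a
Frobenius lift `φ` vanishes identically. -/
theorem eq_zero_of_vanishing {d : Gq q → N} (hd : d ∈ cocycles₁ N)
    (hL : InvOn₁ L.fixingSubgroup d)
    (hker : ∀ σ : Iq q, thetaL q L σ = 1 → d σ = 0)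
    (τ : Iq q) (hτ : ∀ σ : Iq q, thetaL q L σ ∈ Subgroup.zpowers (thetaL q L τ))
    (hdτ : d τ = 0) {φ : Gq q} (hφ : IsFrobLift q φ) (hdφ : d φ = 0) (g : Gq q) : d g = 0 := by
  have hIq : ∀ σ : Iq q, (σ : Gq q) ∈ zeroSub q hd := by
    intro σ
    obtain ⟨j, hj⟩ := Subgroup.mem_zpowers_iff.1 (hτ σ)
    have h1 : thetaL q L (σ * (τ ^ j)⁻¹) = 1 := by
      rw [map_mul, map_inv, map_zpow, hj, mul_inv_cancel]
    have h2 : ((σ * (τ ^ j)⁻¹ : Iq q) : Gq q) ∈ zeroSub q hd := hker _ h1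
    have h3 : ((τ ^ j : Iq q) : Gq q) ∈ zeroSub q hd := by
      rw [Subgroup.coe_zpow]
      exact (zeroSub q hd).zpow_mem hdτ j
    have h4 := (zeroSub q hd).mul_mem h2 h3
    have e : ((σ * (τ ^ j)⁻¹ : Iq q) : Gq q) * ((τ ^ j : Iq q) : Gq q) = σ := by
      rw [← Subgroup.coe_mul, inv_mul_cancel_right]
    rwa [e] at h4
  have hU : ∃ U ∈ (levelLoc q).sets, U ≤ L.fixingSubgroup := by
    obtain ⟨F, hF, hle⟩ := Fermat.Agent.PT.BR.LocInj13.exists_le_localField q L
    refine ⟨F.fixingSubgroup.comap (localGaloisToGlobal q), ⟨_, ⟨F, hF, rfl⟩, rfl⟩, ?_⟩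
    intro τ hτ
    rw [Subgroup.mem_comap, ← Fermat.Agent.PT.BR.LocInj13.mem_fixingSubgroup_localField_iff] at hτ
    exact IntermediateField.fixingSubgroup_antitone hle hτ
  obtain ⟨U, hU, hUL⟩ := hU
  obtain ⟨j, σ, hσ, u, hu, rfl⟩ := gen_of_isFrobLift q hφ hU g
  have hu' : u ∈ zeroSub q hd := by
    have := hL 1 u (hUL hu)
    rw [one_mul, coc_one hd] at this
    exact this
  exact (zeroSub q hd).mul_mem ((zeroSub q hd).mul_mem ((zeroSub q hd).pow_mem hdφ j)
    (hIq ⟨σ, hσ⟩)) hu'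


/-! ### Killing the wild part -/

variable (p : ℕ) [Fact p.Prime]

theorem exists_mul_eq_one_add (hpq : p ≠ q) (a : ℕ) : ∃ m t : ℕ, m * q ^ a = 1 + p * t := by
  have hcop : Nat.Coprime (q ^ a) p :=
    Nat.Coprime.pow_left a ((Nat.coprime_primes Fact.out Fact.out).2 hpq.symm)
  obtain ⟨m, -, hm⟩ := Nat.exists_mul_mod_eq_one_of_coprime hcop (Fact.out : p.Prime).one_lt
  refine ⟨m, q ^ a * m / p, ?_⟩
  have := Nat.div_add_mod (q ^ a * m) p
  rw [hm] at this
  rw [mul_comm m]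
  omega

/-- **Averaging over the wild inertia group**: a cocycle of level `L` with values in a `p`-torsion
module (`p ≠ q`) is a coboundary on `ker θ_L`. -/
theorem exists_coboundary_on_ker (hpq : p ≠ q) (hp : ∀ n : N, p • n = 0) {c : Gq q → N}
    (hc : c ∈ cocycles₁ N) (hL : InvOn₁ L.fixingSubgroup c) :
    ∃ n : N, ∀ σ : Iq q, thetaL q L σ = 1 → c σ = N.ρ σ n - n := by
  classical
  set Q : Subgroup (inertia q ℚ_[q] L) := (theta0 q ℚ_[q] L).ker with hQ
  haveI : Finite Q := inferInstance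
  haveI : Fintype Q := Fintype.ofFinite Q
  obtain ⟨a, ha⟩ := (IsPGroup.iff_card.1 (isPGroup_ker_theta0 q ℚ_[q] L))
  obtain ⟨m, t, hmt⟩ := exists_mul_eq_one_add q p hpq a
  -- a section of `resI`
  let s : Q → Iq q := fun x => Function.surjInv (resI_surjective q L) (x : inertia q ℚ_[q] L)
  have hs : ∀ x : Q, resI q L (s x) = (x : inertia q ℚ_[q] L) :=
    fun x => Function.surjInv_eq (resI_surjective q L) _
  set S : N := ∑ x : Q, c (s x) with hS
  refine ⟨-(m • S), fun σ hσ => ?_⟩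
  let y' : Q := ⟨resI q L σ, hσ⟩
  -- `c (σ * s x) = c (s (y' * x))`
  have h1 : ∀ x : Q, c ((σ : Gq q) * (s x : Gq q)) = c (s (y' * x) : Gq q) := by
    intro x
    have hmem : ((s (y' * x) : Iq q) : Gq q)⁻¹ * ((σ : Gq q) * (s x : Gq q)) ∈ L.fixingSubgroup := by
      rw [← ker_resL, MonoidHom.mem_ker, map_mul, map_inv, map_mul, ← coe_resI, ← coe_resI,
        ← coe_resI, hs, hs]
      change ((y' * x : Q) : inertia q ℚ_[q] L).1⁻¹ * ((y' : inertia q ℚ_[q] L).1 * (x : inertia q ℚ_[q] L).1) = 1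
      rw [Subgroup.coe_mul, Subgroup.coe_mul, inv_mul_cancel]
    have := hL (s (y' * x) : Gq q) _ hmem
    rw [mul_inv_cancel_left] at this
    exact this
  have h2 : ∑ x : Q, c ((σ : Gq q) * (s x : Gq q)) = S := by
    rw [hS]
    simp_rw [h1]
    exact Equiv.sum_comp (Equiv.mulLeft y') (fun x => c (s x : Gq q))
  have h3 : ∑ x : Q, c ((σ : Gq q) * (s x : Gq q)) = N.ρ σ S + Fintype.card Q • c σ := by
    simp_rw [coc_mul hc]
    rw [Finset.sum_add_distrib, ← map_sum, Finset.sum_const, Finset.card_univ]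
  have h4 : N.ρ σ S + q ^ a • c σ = S := by
    have h4' := h3.symm.trans h2
    rwa [← Nat.card_eq_fintype_card, ha] at h4'
  have h5 : c σ = (m * q ^ a) • c σ := by
    rw [hmt, add_smul, one_smul, mul_comm, mul_smul, hp, smul_zero, add_zero]
  have h6 : q ^ a • c σ = S - N.ρ σ S := eq_sub_of_add_eq' h4
  rw [h5, mul_smul, h6, map_neg, map_nsmul, smul_sub]
  abel


/-! ### The count -/

omit [Fact p.Prime] in
theorem exists_common_open (T : Finset (Gq q → N))
    (hT : ∀ c ∈ T, IsLevel₁ (levelLoc q).sets c) :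
    ∃ U ∈ (levelLoc q).sets, ∀ c ∈ T, InvOn₁ U c := by
  classical
  induction T using Finset.induction_on with
  | empty =>
    obtain ⟨U, hU⟩ := (levelLoc q).isBasis.nonempty
    exact ⟨U, hU, fun c hc => absurd hc (Finset.notMem_empty c)⟩
  | insert a T ha ih =>
    obtain ⟨U, hU, hUT⟩ := ih (fun c hc => hT c (Finset.mem_insert_of_mem hc))
    obtain ⟨V, hV, hVa⟩ := hT a (Finset.mem_insert_self a T)
    obtain ⟨W, hW, hWle⟩ := (levelLoc q).isBasis.directed U hU V hV
    refine ⟨W, hW, fun c hc => ?_⟩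
    rcases Finset.mem_insert.1 hc with rfl | hc
    · exact hVa.mono (hWle.trans inf_le_right)
    · exact (hUT c hc).mono (hWle.trans inf_le_left)

/-- **(FIN-q)**: for `q ≠ p` and `N` a finite discrete `Gq`-module killed by `p` (no condition on
the action of inertia), `H¹(Gq, N)` is finite, with at most `(#N)²` elements. -/
theorem card_H1_le_sq [Finite N] (hN : IsDiscrete (levelLoc q).sets N) (hpq : p ≠ q)
    (hp : ∀ n : N, p • n = 0) :
    Finite (H1 (levelLoc q) N) ∧ Nat.card (H1 (levelLoc q) N) ≤ Nat.card N ^ 2 := by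
  classical
  apply Fermat.Agent.TW.LOC.TWLocal4.card_le_of_finset
  intro T
  let lift : H1 (levelLoc q) N → ↥(Z1 (levelLoc q) N) :=
    Function.surjInv (H1mk_surjective (levelLoc q) N)
  have hlift : ∀ t, H1mk (levelLoc q) N (lift t) = t :=
    Function.surjInv_eq (H1mk_surjective (levelLoc q) N)
  -- a common level, also fixing `N`
  obtain ⟨U₁, hU₁, hU₁T⟩ := exists_common_open q
    (T.image fun t => ((lift t : ↥(Z1 (levelLoc q) N)) : Gq q → N)) (by
      intro c hc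
      obtain ⟨t, -, rfl⟩ := Finset.mem_image.1 hc
      exact (lift t).2.2)
  obtain ⟨U₀, hU₀, -, hfix⟩ := hN.exists_fixing (levelLoc q).isBasis (T := Set.univ)
    Set.finite_univ
  obtain ⟨W, hW, hWle⟩ := (levelLoc q).isBasis.directed U₁ hU₁ U₀ hU₀
  obtain ⟨L, hfd, hgal, hLW⟩ := exists_galois_level q hW
  have hLc : ∀ t ∈ T, InvOn₁ L.fixingSubgroup ((lift t : ↥(Z1 (levelLoc q) N)) : Gq q → N) :=
    fun t ht => (hU₁T _ (Finset.mem_image_of_mem _ ht)).mono (hLW.trans (hWle.trans inf_le_left))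
  have hLN : ∀ s ∈ L.fixingSubgroup, ∀ n : N, N.ρ s n = n :=
    fun s hs n => hfix s (hWle (hLW hs)).2 n (Set.mem_univ _)
  obtain ⟨τ, hτ⟩ := exists_thetaL_generator q L
  obtain ⟨φ, hφ⟩ := exists_isFrobLift q
  -- the normalising vectors
  have hex : ∀ t : H1 (levelLoc q) N, ∃ n : N, t ∈ T → ∀ σ : Iq q, thetaL q L σ = 1 →
      ((lift t : ↥(Z1 (levelLoc q) N)) : Gq q → N) σ = N.ρ σ n - n := by
    intro t
    by_cases ht : t ∈ T
    · obtain ⟨n, hn⟩ := exists_coboundary_on_ker q L p hpq hp (lift t).2.1 (hLc t ht)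
      exact ⟨n, fun _ => hn⟩
    · exact ⟨0, fun h => absurd h ht⟩
  choose nv hnv using hex
  -- the normalised cocycles
  let cn : H1 (levelLoc q) N → ↥(Z1 (levelLoc q) N) := fun t =>
    lift t - ⟨(d₀₁ N).hom (nv t), coboundaries₁_le_Z1 hN ⟨nv t, rfl⟩⟩
  have hcn : ∀ t g, ((cn t : ↥(Z1 (levelLoc q) N)) : Gq q → N) g =
      ((lift t : ↥(Z1 (levelLoc q) N)) : Gq q → N) g - (N.ρ g (nv t) - nv t) := by
    intro t g
    change (((lift t : ↥(Z1 (levelLoc q) N)) : Gq q → N) - (d₀₁ N).hom (nv t)) g = _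
    rw [Pi.sub_apply, d₀₁_hom_apply]
  have hcnmk : ∀ t, H1mk (levelLoc q) N (cn t) = t := by
    intro t
    rw [map_sub, hlift, sub_eq_self, H1mk_eq_zero_iff]
    exact ⟨nv t, rfl⟩
  haveI := Fintype.ofFinite N
  have hcard : Nat.card N ^ 2 = (Finset.univ : Finset (N × N)).card := by
    rw [Finset.card_univ, Fintype.card_prod, Nat.card_eq_fintype_card, sq]
  rw [hcard]
  refine Finset.card_le_card_of_injOn
    (fun t => (((cn t : ↥(Z1 (levelLoc q) N)) : Gq q → N) φ,
      ((cn t : ↥(Z1 (levelLoc q) N)) : Gq q → N) τ)) (fun _ _ => Finset.mem_univ _) ?_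
  intro t ht t' ht' heq
  have heq1 : ((cn t : ↥(Z1 (levelLoc q) N)) : Gq q → N) φ =
      ((cn t' : ↥(Z1 (levelLoc q) N)) : Gq q → N) φ := congrArg Prod.fst heq
  have heq2 : ((cn t : ↥(Z1 (levelLoc q) N)) : Gq q → N) τ =
      ((cn t' : ↥(Z1 (levelLoc q) N)) : Gq q → N) τ := congrArg Prod.snd heq
  have hd : ∀ g, ((cn t - cn t' : ↥(Z1 (levelLoc q) N)) : Gq q → N) g =
      ((cn t : ↥(Z1 (levelLoc q) N)) : Gq q → N) g -
        ((cn t' : ↥(Z1 (levelLoc q) N)) : Gq q → N) g := fun g => rfl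
  have hLcn : ∀ t ∈ T, InvOn₁ L.fixingSubgroup ((cn t : ↥(Z1 (levelLoc q) N)) : Gq q → N) := by
    intro t ht g s hs
    rw [hcn, hcn, hLc t ht g s hs, map_mul, Module.End.mul_apply, hLN s hs]
  have hkercn : ∀ t ∈ T, ∀ σ : Iq q, thetaL q L σ = 1 →
      ((cn t : ↥(Z1 (levelLoc q) N)) : Gq q → N) σ = 0 := by
    intro t ht σ hσ
    rw [hcn, hnv t ht σ hσ, sub_self]
  have hzero : ∀ g, ((cn t - cn t' : ↥(Z1 (levelLoc q) N)) : Gq q → N) g = 0 := by
    refine eq_zero_of_vanishing q L (cn t - cn t').2.1 ?_ ?_ τ hτ ?_ hφ ?_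
    · intro g s hs
      rw [hd, hd, hLcn t ht g s hs, hLcn t' ht' g s hs]
    · intro σ hσ
      rw [hd, hkercn t ht σ hσ, hkercn t' ht' σ hσ, sub_self]
    · rw [hd, heq2, sub_self]
    · rw [hd, heq1, sub_self]
  have hz : cn t - cn t' = 0 := Subtype.ext (funext hzero)
  rw [← hcnmk t, ← hcnmk t', sub_eq_zero.1 hz]

end

end Fermat.Agent.TW.LOC.FiniteH1q4
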