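/-
Programme T (S56), chapter LOC, helper2: the algebra behind (UN1) "unipotent on inertia ⇒ unramified
class" (cocycle form, finite level; no number theory).

`k` a field, `M2 = Matrix (Fin 2) (Fin 2) k`.

* `nilpotent_normal_form` : `N ≠ 0`, `N * N = 0` ⇒ `∃ P Q`, `P * Q = 1`, `Q * P = 1`,
  `P * N * Q = !![0,1;0,0]`.
* `exists_conj_sub_eq` (the linear algebra of `H¹(ℤ_p(1), ad⁰) = ad⁰/(u-1)`), `2 ≠ 0` in `k`:
  if `N ≠ 0`, `N * N = 0`, and `X` has `trace X = 0` and `trace (X * N) = 0`, then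
  `∃ Y, trace Y = 0 ∧ X = (1 + N) * Y * (1 - N) - Y`   (`1 - N = (1 + N)⁻¹`).
* `cocycle_eq_coboundary` (group theory): `G` a group in which every element is `x * τ ^ n`
  (`n : ℕ`) with `x` in a normal subgroup `K`; `A` an additive group with a `G`-action such that `K`
  acts trivially and the only homomorphism `K → A` is `0`; a 1-cocycle `c : G → A`
  (`c (g * h) = c g + g • c h`) with `c τ = τ • m - m` is the coboundary of `m`.
* `hom_eq_zero_of_coprime` : a homomorphism from a finite group of order prime to `p` to an additive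
  group killed by `p` is zero.
* `UN1_finite` : the combination, for `ρ : G →* GL (Fin 2) k` with `ρ x = 1` on `K`,
  `ρ τ = 1 + N` unipotent non-trivial, `p • (1 : k) = 0` (`p` odd prime), `K` finite of order prime
  to `p`, `G = K ⟨τ⟩`: a cocycle `c : G → M2` for the adjoint action
  (`c (g * h) = c g + ρ g * c h * (ρ g)⁻¹`) with `trace (c τ) = 0` and `trace (c τ * N) = 0` is a
  coboundary: `∃ Y, trace Y = 0 ∧ ∀ g, c g = ρ g * Y * (ρ g)⁻¹ - Y`.
-/
import Mathlib

set_option autoImplicit false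
set_option linter.style.haveILetI false

open Matrix

namespace Fermat.Agent.TW.LOC.UnipCocycle2

section LinearAlgebra

variable {k : Type*} [Field k]

local notation "M2" => Matrix (Fin 2) (Fin 2) k

theorem normal_form_entries (a b c d : k) (hN : (!![a, b; c, d] : M2) ≠ 0)
    (h : (!![a, b; c, d] : M2) * !![a, b; c, d] = 0) :
    ∃ P Q : M2, P * Q = 1 ∧ Q * P = 1 ∧ P * !![a, b; c, d] * Q = !![0, 1; 0, 0] := by
  rw [Matrix.mul_fin_two] at h
  have h00 : a * a + b * c = 0 := by simpa using congrFun (congrFun h 0) 0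
  have h10 : c * a + d * c = 0 := by simpa using congrFun (congrFun h 1) 0
  have h11 : c * b + d * d = 0 := by simpa using congrFun (congrFun h 1) 1
  by_cases hc : c = 0
  · subst hc
    have ha : a = 0 := by
      have : a * a = 0 := by linear_combination h00
      exact mul_self_eq_zero.1 this
    have hd : d = 0 := by
      have : d * d = 0 := by linear_combination h11
      exact mul_self_eq_zero.1 this
    subst ha hd
    have hb : b ≠ 0 := by
      rintro rfl
      apply hN
      ext i j; fin_cases i <;> fin_cases j <;> rfl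
    refine ⟨!![b⁻¹, 0; 0, 1], !![b, 0; 0, 1], ?_, ?_, ?_⟩
    · rw [Matrix.mul_fin_two, Matrix.one_fin_two]; simp [hb]
    · rw [Matrix.mul_fin_two, Matrix.one_fin_two]; simp [hb]
    · rw [Matrix.mul_fin_two, Matrix.mul_fin_two]; simp [hb]
  · have hd : d = -a := by
      have : c * (a + d) = 0 := by linear_combination h10
      rcases mul_eq_zero.1 this with h | h
      · exact (hc h).elim
      · linear_combination h
    subst hd
    refine ⟨!![0, c⁻¹; 1, - a * c⁻¹], !![a, 1; c, 0], ?_, ?_, ?_⟩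
    · rw [Matrix.mul_fin_two, Matrix.one_fin_two]; simp [hc]
    · rw [Matrix.mul_fin_two, Matrix.one_fin_two]; simp [hc]
    · rw [Matrix.mul_fin_two, Matrix.mul_fin_two]
      ext i j
      fin_cases i <;> fin_cases j <;> simp
      all_goals (field_simp; first | done | linear_combination h00 | ring)

/-- Normal form of a nonzero square-zero `2 × 2` matrix. -/
theorem nilpotent_normal_form {N : M2} (hN : N ≠ 0) (h : N * N = 0) :
    ∃ P Q : M2, P * Q = 1 ∧ Q * P = 1 ∧ P * N * Q = !![0, 1; 0, 0] := by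
  have e : N = !![N 0 0, N 0 1; N 1 0, N 1 1] := Matrix.eta_fin_two N
  rw [e] at hN h ⊢
  exact normal_form_entries _ _ _ _ hN h

/-- The normal-form case of `exists_conj_sub_eq`. -/
theorem exists_conj_sub_eq_normal (h2 : (2 : k) ≠ 0) (x1 x2 x3 x4 : k)
    (ht : (!![x1, x2; x3, x4] : M2).trace = 0)
    (htN : ((!![x1, x2; x3, x4] : M2) * !![0, 1; 0, 0]).trace = 0) :
    ∃ Y : M2, Y.trace = 0 ∧
      (!![x1, x2; x3, x4] : M2) = (1 + !![0, 1; 0, 0]) * Y * (1 - !![0, 1; 0, 0]) - Y := by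
  rw [Matrix.mul_fin_two, Matrix.trace_fin_two_of] at htN
  rw [Matrix.trace_fin_two_of] at ht
  have hx3 : x3 = 0 := by linear_combination htN
  have hx4 : x4 = -x1 := by linear_combination ht
  subst hx3 hx4
  refine ⟨!![-(x1 + x2) / 2, 0; x1, (x1 + x2) / 2], ?_, ?_⟩
  · rw [Matrix.trace_fin_two_of]; ring
  · ext i j
    fin_cases i <;> fin_cases j <;>
      simp [Matrix.mul_apply, Fin.sum_univ_two, Matrix.one_apply, Matrix.add_apply,
        Matrix.sub_apply]
    all_goals (field_simp; first | done | ring)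

/-- **`ad⁰ / (u - 1) ad⁰` is detected by `X ↦ trace (X N)`.** -/
theorem exists_conj_sub_eq (h2 : (2 : k) ≠ 0) {N X : M2} (hN : N ≠ 0) (hNN : N * N = 0)
    (hX : X.trace = 0) (hXN : (X * N).trace = 0) :
    ∃ Y : M2, Y.trace = 0 ∧ X = (1 + N) * Y * (1 - N) - Y := by
  obtain ⟨P, Q, hPQ, hQP, hE⟩ := nilpotent_normal_form hN hNN
  set E : M2 := !![0, 1; 0, 0] with hEdef
  set X' : M2 := P * X * Q with hX'
  have hN' : N = Q * E * P := by
    rw [← hE]
    calc N = (Q * P) * N * (Q * P) := by rw [hQP, one_mul, mul_one]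
      _ = Q * (P * N * Q) * P := by simp only [mul_assoc]
  have ht' : X'.trace = 0 := by
    rw [hX', Matrix.trace_mul_cycle, hQP, one_mul, hX]
  have htN' : (X' * E).trace = 0 := by
    have : X' * E = P * (X * N) * Q := by
      rw [hX', hN']
      calc P * X * Q * E = P * X * (Q * E * (P * Q)) := by rw [hPQ, mul_one]; simp only [mul_assoc]
        _ = P * (X * (Q * E * P)) * Q := by simp only [mul_assoc]
    rw [this, Matrix.trace_mul_cycle, hQP, one_mul, hXN]
  have e' : X' = !![X' 0 0, X' 0 1; X' 1 0, X' 1 1] := Matrix.eta_fin_two X'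
  rw [e'] at ht' htN'
  obtain ⟨Y', hY', hXY'⟩ := exists_conj_sub_eq_normal h2 _ _ _ _ ht' htN'
  rw [← e'] at hXY'
  refine ⟨Q * Y' * P, ?_, ?_⟩
  · rw [Matrix.trace_mul_cycle, hPQ, one_mul, hY']
  · have h1 : (1 + N) = Q * (1 + E) * P := by
      rw [hN', mul_add, add_mul, mul_one, hQP]
    have h3 : (1 - N) = Q * (1 - E) * P := by
      rw [hN', mul_sub, sub_mul, mul_one, hQP]
    have hX2 : X = Q * X' * P := by
      rw [hX']
      calc X = (Q * P) * X * (Q * P) := by rw [hQP, one_mul, mul_one]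
        _ = Q * (P * X * Q) * P := by simp only [mul_assoc]
    rw [hX2, hXY', h1, h3]
    calc Q * ((1 + E) * Y' * (1 - E) - Y') * P
        = Q * (1 + E) * Y' * (1 - E) * P - Q * Y' * P := by
          rw [mul_sub, sub_mul]; simp only [mul_assoc]
      _ = Q * (1 + E) * (P * Q) * Y' * ((P * Q) * (1 - E)) * P - Q * Y' * P := by
          rw [hPQ, mul_one, one_mul]
      _ = Q * (1 + E) * P * (Q * Y' * P) * (Q * (1 - E) * P) - Q * Y' * P := by
          simp only [mul_assoc]

end LinearAlgebra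

section GroupTheory

variable {G A : Type*} [Group G] [AddCommGroup A] [DistribMulAction G A]

/-- A homomorphism from a finite group of order prime to `p` to an additive group killed by `p`
is zero. -/
theorem hom_eq_zero_of_coprime {K B : Type*} [Group K] [Finite K] [AddCommGroup B] (p : ℕ)
    (hp : (Nat.card K).Coprime p) (hB : ∀ b : B, p • b = 0) (f : K → B)
    (hf : ∀ x y, f (x * y) = f x + f y) (x : K) : f x = 0 := by
  have hpow : ∀ n : ℕ, f (x ^ n) = n • f x := by
    intro n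
    induction n with
    | zero =>
      have h1 : f 1 = f 1 + f 1 := by simpa using hf 1 1
      have : f 1 = 0 := by simpa using h1
      simp [this]
    | succ n ih => rw [pow_succ, hf, ih, succ_nsmul]
  have h1 : (Nat.card K) • f x = 0 := by
    rw [← hpow, pow_card_eq_one']
    have h1 : f 1 = f 1 + f 1 := by simpa using hf 1 1
    simpa using h1
  have h2 : p • f x = 0 := hB _
  obtain ⟨a, b, hab⟩ : ∃ a b : ℤ, a * (Nat.card K : ℤ) + b * (p : ℤ) = 1 := by
    have := Nat.Coprime.isCoprime hp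
    obtain ⟨a, b, h⟩ := this
    exact ⟨a, b, h⟩
  have : (1 : ℤ) • f x = 0 := by
    rw [← hab, add_smul, mul_smul, mul_smul, natCast_zsmul, natCast_zsmul, h1, h2]
    simp
  simpa using this

/-- A cocycle on `G = K ⟨τ⟩` which is trivial-on-`K`-by-force and is the coboundary of `m` at `τ`
is the coboundary of `m`. -/
theorem cocycle_eq_coboundary (K : Subgroup G) (τ : G)
    (hgen : ∀ g : G, ∃ x ∈ K, ∃ n : ℕ, g = x * τ ^ n)
    (hKA : ∀ x ∈ K, ∀ a : A, x • a = a)
    (hhom : ∀ f : K → A, (∀ x y, f (x * y) = f x + f y) → ∀ x, f x = 0)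
    (c : G → A) (hc : ∀ g h, c (g * h) = c g + g • c h) (m : A) (hm : c τ = τ • m - m) :
    ∀ g, c g = g • m - m := by
  -- `c' = c - dm` is a cocycle vanishing at `τ`
  set c' : G → A := fun g => c g - (g • m - m) with hc'
  have hcoc : ∀ g h, c' (g * h) = c' g + g • c' h := by
    intro g h
    simp only [hc', hc, mul_smul, smul_sub]
    abel
  have hτ : c' τ = 0 := by simp only [hc', hm, sub_self]
  have hone : c' 1 = 0 := by
    have h := hcoc 1 1
    simp only [mul_one, one_smul] at h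
    simpa using h
  have hpow : ∀ n : ℕ, c' (τ ^ n) = 0 := by
    intro n
    induction n with
    | zero => simpa using hone
    | succ n ih => rw [pow_succ, hcoc, ih, hτ, smul_zero, add_zero]
  have hK : ∀ x ∈ K, c' x = 0 := by
    intro x hx
    have := hhom (fun y : K => c' (y : G)) (fun y z => by
      show c' ((y : G) * (z : G)) = _
      rw [hcoc, hKA y y.2]) ⟨x, hx⟩
    simpa using this
  intro g
  obtain ⟨x, hx, n, rfl⟩ := hgen g
  have : c' (x * τ ^ n) = 0 := by rw [hcoc, hK x hx, hpow, smul_zero, add_zero]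
  have h2 : c (x * τ ^ n) - ((x * τ ^ n) • m - m) = 0 := this
  exact sub_eq_zero.1 h2

end GroupTheory

section Combination

variable {k : Type*} [Field k] {G : Type*} [Group G]

local notation "M2" => Matrix (Fin 2) (Fin 2) k

/-- **(UN1), finite level, cocycle form.** -/
theorem UN1_finite (p : ℕ) (hp2 : (2 : k) ≠ 0) (hpk : (p : k) = 0)
    (K : Subgroup G) [Finite K] (hKp : (Nat.card K).Coprime p) (τ : G)
    (hgen : ∀ g : G, ∃ x ∈ K, ∃ n : ℕ, g = x * τ ^ n)
    (ρ : G →* GL (Fin 2) k) (hρK : ∀ x ∈ K, ρ x = 1)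
    {N : M2} (hN : N ≠ 0) (hNN : N * N = 0) (hρτ : ((ρ τ : GL (Fin 2) k) : M2) = 1 + N)
    (c : G → M2)
    (hc : ∀ g h, c (g * h) = c g + (ρ g : M2) * c h * ((ρ g)⁻¹ : GL (Fin 2) k))
    (hct : (c τ).trace = 0) (hcN : (c τ * N).trace = 0) :
    ∃ Y : M2, Y.trace = 0 ∧ ∀ g, c g = (ρ g : M2) * Y * ((ρ g)⁻¹ : GL (Fin 2) k) - Y := by
  classical
  obtain ⟨Y, hY, hXY⟩ := exists_conj_sub_eq hp2 hN hNN hct hcN
  refine ⟨Y, hY, ?_⟩
  -- the adjoint action
  letI act : DistribMulAction G M2 :=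
    { smul := fun g X => (ρ g : M2) * X * ((ρ g)⁻¹ : GL (Fin 2) k)
      one_smul := fun X => by
        show ((ρ 1 : GL (Fin 2) k) : M2) * X * ((ρ 1)⁻¹ : GL (Fin 2) k) = X
        rw [map_one]; simp
      mul_smul := fun g h X => by
        show ((ρ (g * h) : GL (Fin 2) k) : M2) * X * ((ρ (g * h))⁻¹ : GL (Fin 2) k) =
          (ρ g : M2) * ((ρ h : M2) * X * ((ρ h)⁻¹ : GL (Fin 2) k)) * ((ρ g)⁻¹ : GL (Fin 2) k)
        rw [map_mul, _root_.mul_inv_rev, Units.val_mul, Units.val_mul]
        simp only [mul_assoc]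
      smul_zero := fun g => by
        show (ρ g : M2) * 0 * ((ρ g)⁻¹ : GL (Fin 2) k) = 0
        simp
      smul_add := fun g X Z => by
        show (ρ g : M2) * (X + Z) * ((ρ g)⁻¹ : GL (Fin 2) k) =
          (ρ g : M2) * X * ((ρ g)⁻¹ : GL (Fin 2) k) + (ρ g : M2) * Z * ((ρ g)⁻¹ : GL (Fin 2) k)
        rw [mul_add, add_mul] }
  have hsmul : ∀ (g : G) (X : M2), g • X = (ρ g : M2) * X * ((ρ g)⁻¹ : GL (Fin 2) k) :=
    fun _ _ => rfl
  have hinv : (((ρ τ)⁻¹ : GL (Fin 2) k) : M2) = 1 - N := by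
    have h1 : ((ρ τ : GL (Fin 2) k) : M2) * (1 - N) = 1 := by
      rw [hρτ, add_mul, one_mul, mul_sub, mul_one, hNN]; abel
    have h2 : (((ρ τ)⁻¹ : GL (Fin 2) k) : M2) * ((ρ τ : GL (Fin 2) k) : M2) = 1 := by
      rw [← Units.val_mul, inv_mul_cancel]; rfl
    calc (((ρ τ)⁻¹ : GL (Fin 2) k) : M2)
        = (((ρ τ)⁻¹ : GL (Fin 2) k) : M2) * (((ρ τ : GL (Fin 2) k) : M2) * (1 - N)) := by
          rw [h1, mul_one]
      _ = 1 - N := by rw [← mul_assoc, h2, one_mul]
  have hpM : ∀ X : M2, p • X = 0 := by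
    intro X
    rw [← Nat.cast_smul_eq_nsmul k, hpk, zero_smul]
  have key := cocycle_eq_coboundary (G := G) (A := M2) K τ hgen
    (fun x hx X => by rw [hsmul, hρK x hx]; simp)
    (fun f hf x => hom_eq_zero_of_coprime p hKp hpM f hf x)
    c (fun g h => by rw [hc, hsmul]) Y (by rw [hsmul, hρτ, hinv]; exact hXY)
  intro g
  rw [key g, hsmul]

end Combination

end Fermat.Agent.TW.LOC.UnipCocycle2
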