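/-
Programme T (S56, Taylor–Wiles primes), chapter LOC, item (UN) of `T/iface/LOC` — helper4.

THE UNIPOTENT CONDITION AT A PRIME `q ≠ p` OF `Smin` (profinite wrapper of `UnipCocycle2`), in the
matrix model of `TW/DEF/LiftCocycle1`: `k` a field of characteristic `p ≠ 2`, `rbar : GQ →* M2 k`,
`r : GQ →* M2 k[ε]` a lift.

* `pow_eq_of_sub_one_sq`, `pow_eq_one_of_sub_one_sq` : `(u - 1)² = 0 ⇒ u ^ n = 1 + n (u - 1)`;
* `rI q r : Iq q →* (M2 k[ε])ˣ`, `isPGroup_range_rI`, `isLevelOnIq_rI`;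
* `exists_generator` : if `r` is unipotent on `Iq` (`(r τ - 1)² = 0`) and of finite level, there is
  `τ₀ ∈ Iq` such that every `r τ` (`τ ∈ Iq`) is `r (τ₀ ^ m)`  (tame inertia, `TameProfinite4`);
* **`exists_coboundary_on_Iq`** : if moreover `rbar` is ramified at `q` (`∃ τ ∈ Iq, rbar τ ≠ 1`) and
  the lift cocycle has trace zero, then `∃ Y, trace Y = 0 ∧ ∀ τ ∈ Iq,
  liftCocycle rbar r τ = rbar τ * Y * rbar τ⁻¹ - Y`;
* **`resq1_liftClass_mem_H1ur`** : hence `resq1 S (ad0Rep rbar) q (liftClass S h hlev htr) ∈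
  H1ur q (Mq (ad0Rep rbar) q)`;
* `sub_one_sq_of_isUnipotentOnInertiaAt` : the Prelude's `(ofMatrix r hr).IsUnipotentOnInertiaAt q`
  gives `(r τ - 1)² = 0` on `Iq` (Cayley–Hamilton);
* **`resq1_liftClass_mem_H1ur_of_isUnipotent`** : the `hL`-shape of `TW/DEF/TangentCardSO8` at `q`;
* `card_H1ur_ad0 : #H¹_ur(ℚ_q, ad⁰ρ̄) = #H⁰(ℚ_q, ad⁰ρ̄)` (from `UnramGq4.card_H1ur`).
-/
import Mathlib
import Fermat.Agent.TW.DEF.Basic1
import Fermat.Agent.TW.DEF.LiftCocycle1
import Fermat.Agent.TW.LOC.Defs2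
import Fermat.Agent.TW.LOC.UnipCocycle2
import Fermat.Agent.TW.LOC.TameProfinite4
import Fermat.Agent.TW.LOC.UnramGq4
import Fermat.Agent.TW.LOC.TWLocalAd4
import Fermat.Agent.S53.Defs
import Fermat.Prelude.Def_GaloisRep_LocalConditions

set_option autoImplicit false
set_option linter.unusedSectionVars false
set_option linter.style.haveILetI false

open Fermat.Agent.PT.PRO.LevelCoh28 Fermat.Agent.PT.GLUE.Objects21
open Fermat.Agent.TW.LOC.Defs2
open Fermat.Agent.TW.LOC.TameProfinite4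
open Fermat.Agent.TW.DEF.Basic1 (GQ M2 Mq Hq1 ad0Rep ad0Val ad0Val_injective ad0Val_ρ_apply
  trace_ad0Val rbar_mul_inv rbar_inv_mul resq1 resZ1 resZ1_apply resq1_mk' isLevelHom_rq mem_sl2_iff)
open Fermat.Agent.TW.DEF.LiftCocycle1

namespace Fermat.Agent.TW.LOC.UnipLocal4

noncomputable section

/-! ### Ring-theoretic preliminaries -/

section Ring

variable {R : Type*} [Ring R]

theorem pow_eq_of_sub_one_sq {u : R} (hu : (u - 1) * (u - 1) = 0) (n : ℕ) :
    u ^ n = 1 + n • (u - 1) := by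
  induction n with
  | zero => simp
  | succ n ih =>
    have e : u ^ n * u = u ^ n * (u - 1) + u ^ n := by
      rw [mul_sub, mul_one, sub_add_cancel]
    rw [pow_succ, e, ih, add_mul, one_mul, smul_mul_assoc, hu, smul_zero, add_zero, succ_nsmul]
    abel

theorem pow_eq_one_of_sub_one_sq {u : R} (hu : (u - 1) * (u - 1) = 0) {p : ℕ}
    (hp : ∀ x : R, p • x = 0) : u ^ p = 1 := by
  rw [pow_eq_of_sub_one_sq hu, hp, add_zero]

end Ring

section Dual

variable {k : Type} [CommRing k]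

theorem fstM_sub (A B : M2 (DualNumber k)) : fstM (A - B) = fstM A - fstM B := by
  ext i j; simp

theorem sndM_sub (A B : M2 (DualNumber k)) : sndM (A - B) = sndM A - sndM B := by
  ext i j; simp

theorem nsmul_eq_zero_dual (p : ℕ) [CharP k p] (x : M2 (DualNumber k)) : p • x = 0 := by
  ext i j
  · simp
  · simp

theorem sndM_pow_eq_zero {A : M2 (DualNumber k)} (hA : sndM A = 0) (n : ℕ) :
    sndM (A ^ n) = 0 := by
  induction n with
  | zero => simp
  | succ n ih => rw [pow_succ, sndM_mul, ih, hA, zero_mul, mul_zero, add_zero]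

end Dual

/-! ### The main computation -/

section Main

variable (q : ℕ) [Fact q.Prime] {k : Type} [Field k] (p : ℕ) [Fact p.Prime] [CharP k p]
variable {rbar : GQ →* M2 k} {r : GQ →* M2 (DualNumber k)}

/-- The restriction of `r` to `Iq`, with values in the unit group. -/
def rI (r : GQ →* M2 (DualNumber k)) : Iq q →* (M2 (DualNumber k))ˣ :=
  ((r.comp (rq q)).comp (Iq q).subtype).toHomUnits

theorem coe_rI (τ : Iq q) : ((rI q r τ : (M2 (DualNumber k))ˣ) : M2 (DualNumber k)) =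
    r (rq q τ) := rfl

theorem isPGroup_range_rI
    (hunip : ∀ τ ∈ Iq q, (r (rq q τ) - 1) * (r (rq q τ) - 1) = 0) :
    IsPGroup p (rI q r).range := by
  rintro ⟨_, τ, rfl⟩
  refine ⟨1, Subtype.ext (Units.ext ?_)⟩
  rw [pow_one, Subgroup.coe_pow, Units.val_pow_eq_pow_val, coe_rI]
  exact pow_eq_one_of_sub_one_sq (hunip τ τ.2) (nsmul_eq_zero_dual p)

theorem isLevelOnIq_rI (hlev : ∃ U ∈ (levelLoc q).sets, ∀ s ∈ U, r (rq q s) = 1) :
    IsLevelOnIq q (rI q r) := by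
  obtain ⟨U, hU, h1⟩ := hlev
  exact ⟨U, hU, fun σ hσ => Units.ext (h1 _ hσ)⟩

/-- All values of `r` on `Iq` are (natural) powers of one of them. -/
theorem exists_generator (hpq : p ≠ q)
    (hlev : ∃ U ∈ (levelLoc q).sets, ∀ s ∈ U, r (rq q s) = 1)
    (hunip : ∀ τ ∈ Iq q, (r (rq q τ) - 1) * (r (rq q τ) - 1) = 0) :
    ∃ τ₀ : Iq q, ∀ τ : Iq q, ∃ m : ℕ, r (rq q τ) = r (rq q (τ₀ ^ m : Iq q)) := by
  obtain ⟨τ₀, hτ₀⟩ := exists_range_eq_zpowers q p hpq (rI q r) (isLevelOnIq_rI q hlev)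
    (isPGroup_range_rI q p hunip)
  refine ⟨τ₀, fun τ => ?_⟩
  have hmem : rI q r τ ∈ Subgroup.zpowers (rI q r τ₀) := by
    rw [← hτ₀]; exact ⟨τ, rfl⟩
  obtain ⟨n, hn⟩ := Subgroup.mem_zpowers_iff.1 hmem
  have hp1 : rI q r τ₀ ^ (p : ℤ) = 1 := by
    rw [zpow_natCast]
    apply Units.ext
    rw [Units.val_pow_eq_pow_val, coe_rI]
    exact pow_eq_one_of_sub_one_sq (hunip τ₀ τ₀.2) (nsmul_eq_zero_dual p)
  have hpos : (0 : ℤ) ≤ n % (p : ℤ) :=
    Int.emod_nonneg _ (by exact_mod_cast (Fact.out : p.Prime).ne_zero)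
  refine ⟨(n % (p : ℤ)).toNat, ?_⟩
  have h2 : rI q r τ = rI q r (τ₀ ^ (n % (p : ℤ)).toNat) := by
    rw [map_pow, ← zpow_natCast, Int.toNat_of_nonneg hpos, ← zpow_eq_zpow_emod _ hp1, hn]
  exact congrArg Units.val h2


/-- **(UN1), profinite form, matrix model.**  If the dual-number lift `r` of `rbar` is unipotent on
`Iq` (`(r τ - 1)² = 0`), `rbar` is ramified at `q`, and the lift cocycle has trace zero, then the lift
cocycle restricted to `Iq` is the coboundary of a trace-zero matrix. -/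
theorem exists_coboundary_on_Iq (hpq : p ≠ q) (hp2 : p ≠ 2) (h : IsLiftOf rbar r)
    (hlev : ∃ U ∈ (levelLoc q).sets, ∀ s ∈ U, r (rq q s) = 1)
    (htr : ∀ σ, (liftCocycle rbar r σ).trace = 0)
    (hunip : ∀ τ ∈ Iq q, (r (rq q τ) - 1) * (r (rq q τ) - 1) = 0)
    (hram : ∃ τ ∈ Iq q, rbar (rq q τ) ≠ 1) :
    ∃ Y : M2 k, Y.trace = 0 ∧ ∀ τ ∈ Iq q,
      liftCocycle rbar r (rq q τ) = rbar (rq q τ) * Y * rbar (rq q τ)⁻¹ - Y := by
  have h2 : (2 : k) ≠ 0 := by
    intro h0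
    have h3 : ((2 : ℕ) : k) = 0 := by exact_mod_cast h0
    rw [CharP.cast_eq_zero_iff k p] at h3
    exact hp2 ((Nat.prime_dvd_prime_iff_eq (Fact.out : p.Prime) Nat.prime_two).1 h3)
  obtain ⟨τ₀, hgen⟩ := exists_generator q p hpq hlev hunip
  set T : M2 (DualNumber k) := r (rq q τ₀) with hT
  set A : M2 k := rbar (rq q τ₀) with hA
  set A' : M2 k := rbar (rq q τ₀)⁻¹ with hA'
  set N : M2 k := A - 1 with hN
  set B : M2 k := sndM T with hB
  have hfT : fstM T = A := h _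
  have hTT : (T - 1) * (T - 1) = 0 := hunip τ₀ τ₀.2
  have hf1 : fstM (T - 1) = N := by rw [fstM_sub, hfT, fstM_one]
  have hs1 : sndM (T - 1) = B := by rw [sndM_sub, sndM_one, sub_zero]
  have hNN : N * N = 0 := by
    have := congrArg fstM hTT
    rwa [fstM_mul, hf1, show fstM (0 : M2 (DualNumber k)) = 0 from by ext i j; simp] at this
  have hNB : N * B + B * N = 0 := by
    have := congrArg sndM hTT
    rwa [sndM_mul, hf1, hs1, show sndM (0 : M2 (DualNumber k)) = 0 from by ext i j; simp] at this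
  have hAN : A = 1 + N := by rw [hN]; abel
  have hAA' : A * A' = 1 := rbar_mul_inv rbar _
  have hA'N : A' = 1 - N := by
    have h1 : (1 - N) * A = 1 := by
      rw [hAN, sub_mul, one_mul, mul_add, mul_one, hNN]; abel
    calc A' = (1 - N) * A * A' := by rw [h1, one_mul]
      _ = 1 - N := by rw [mul_assoc, hAA', mul_one]
  -- `N ≠ 0`
  have hN0 : N ≠ 0 := by
    intro hN0
    obtain ⟨τ, hτ, hne⟩ := hram
    obtain ⟨m, hm⟩ := hgen ⟨τ, hτ⟩
    apply hne
    have h1 := congrArg fstM hm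
    rw [h _, h _] at h1
    have hA1 : A = 1 := by rw [hAN, hN0, add_zero]
    change rbar (rq q τ) = rbar (rq q ((τ₀ ^ m : Iq q) : Gq q)) at h1
    rw [h1, Subgroup.coe_pow, map_pow, map_pow, ← hA, hA1, one_pow]
  -- the cocycle at `τ₀`
  have hc0 : liftCocycle rbar r (rq q τ₀) = B * (1 - N) := by
    rw [liftCocycle, ← hA'N]
  have htrBN : (B * N).trace = 0 := by
    have h1 : (N * B + B * N).trace = 0 := by rw [hNB, Matrix.trace_zero]
    rw [Matrix.trace_add, Matrix.trace_mul_comm N B] at h1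
    have h3 : (2 : k) * (B * N).trace = 0 := by rw [two_mul]; exact h1
    exact (mul_eq_zero.1 h3).resolve_left h2
  have hcN : (liftCocycle rbar r (rq q τ₀) * N).trace = 0 := by
    rw [hc0, mul_assoc, sub_mul, one_mul, hNN, sub_zero, htrBN]
  obtain ⟨Y, hY, hXY⟩ := Fermat.Agent.TW.LOC.UnipCocycle2.exists_conj_sub_eq h2 hN0 hNN
    (htr (rq q τ₀)) hcN
  refine ⟨Y, hY, fun τ hτ => ?_⟩
  -- the conjugated lift
  have h' : IsLiftOf rbar (conjEps Y r) := isLiftOf_conjEps h Y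
  have hz0 : liftCocycle rbar (conjEps Y r) (rq q τ₀) = 0 := by
    rw [liftCocycle_conjEps h, hXY, ← hAN, ← hA'N]
    exact sub_self _
  have hs0 : sndM (conjEps Y r (rq q τ₀)) = 0 := by
    rw [sndM_eq (rbar := rbar), hz0, zero_mul]
  obtain ⟨m, hm⟩ := hgen ⟨τ, hτ⟩
  have hs : sndM (conjEps Y r (rq q τ)) = 0 := by
    change r (rq q τ) = r (rq q ((τ₀ ^ m : Iq q) : Gq q)) at hm
    rw [conjEps_apply, hm, ← conjEps_apply, Subgroup.coe_pow, map_pow, map_pow]
    exact sndM_pow_eq_zero hs0 m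
  have hz : liftCocycle rbar (conjEps Y r) (rq q τ) = 0 := by
    rw [liftCocycle, hs, zero_mul]
  rw [liftCocycle_conjEps h, sub_eq_zero] at hz
  exact hz

/-- **(UN)**: the class of a lift which is unipotent on inertia at a prime `q ≠ p` where `rbar` is
ramified restricts to an unramified class in `H¹(ℚ_q, ad⁰ρ̄)`. -/
theorem resq1_liftClass_mem_H1ur (S : Finset Nat.Primes) (hpq : p ≠ q) (hp2 : p ≠ 2)
    (h : IsLiftOf rbar r) (hlevS : ∃ U ∈ (levelS S).sets, ∀ s ∈ U, r s = 1)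
    (htr : ∀ σ, (liftCocycle rbar r σ).trace = 0)
    (hunip : ∀ τ ∈ Iq q, (r (rq q τ) - 1) * (r (rq q τ) - 1) = 0)
    (hram : ∃ τ ∈ Iq q, rbar (rq q τ) ≠ 1) :
    resq1 S (ad0Rep rbar) q (liftClass S h hlevS htr) ∈ H1ur q (Mq (ad0Rep rbar) q) := by
  have hlev : ∃ U ∈ (levelLoc q).sets, ∀ s ∈ U, r (rq q s) = 1 := by
    obtain ⟨U, hU, h1⟩ := hlevS
    obtain ⟨V, hV, hVU⟩ := isLevelHom_rq S q U hU
    exact ⟨V, hV, fun s hs => h1 _ (hVU hs)⟩
  obtain ⟨Y, hY, hc⟩ := exists_coboundary_on_Iq q p hpq hp2 h hlev htr hunip hram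
  refine ⟨resZ1 S (ad0Rep rbar) q ⟨liftCocycle0 rbar r htr, liftCocycle0_mem_Z1 S h hlevS htr⟩,
    rfl, (⟨Y, (mem_sl2_iff Y).2 hY⟩ : ad0Rep rbar), fun τ hτ => ?_⟩
  apply ad0Val_injective
  rw [resZ1_apply, map_sub]
  exact hc τ hτ

end Main

/-! ### From the Prelude's `IsUnipotentOnInertiaAt` -/

section Prelude

open Fermat.Agent.S53 (MatCont ofMatrix)

variable (q : ℕ) [Fact q.Prime] {A : Type} [CommRing A] [IsLocalRing A]

theorem sub_one_sq_of_charpoly {M : M2 A} (hM : M.charpoly = (Polynomial.X - 1) ^ 2) :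
    (M - 1) * (M - 1) = 0 := by
  have h1 := Matrix.aeval_self_charpoly M
  rw [hM] at h1
  simpa [sq] using h1

theorem sub_one_sq_of_isUnipotentOnInertiaAt {r : GQ →* M2 A} (hr : MatCont r)
    (hu : (ofMatrix r hr).IsUnipotentOnInertiaAt q) (τ : Gq q) (hτ : τ ∈ Iq q) :
    (r (rq q τ) - 1) * (r (rq q τ) - 1) = 0 := by
  apply sub_one_sq_of_charpoly
  rw [← hu (padicPlace q) (liesOverPrime_padicPlace q) _ (rq_mem_inertia q hτ)]
  exact (Matrix.charpoly_toLin' (r (rq q τ))).symm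


/-- **(UN)** in the shape of the `hL` hypothesis of `TW/DEF/TangentCardSO8`, at a prime `q ≠ p`
where `rbar` is ramified: lifts which are unipotent on inertia at `q` (Prelude) have classes which
are unramified at `q`. -/
theorem resq1_liftClass_mem_H1ur_of_isUnipotent {k : Type} [Field k] (p : ℕ) [Fact p.Prime]
    [CharP k p] {rbar : GQ →* M2 k} {r : GQ →* M2 (DualNumber k)} (S : Finset Nat.Primes)
    (hpq : p ≠ q) (hp2 : p ≠ 2) (hr : MatCont r) (h : IsLiftOf rbar r)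
    (hlevS : ∃ U ∈ (levelS S).sets, ∀ s ∈ U, r s = 1)
    (htr : ∀ σ, (liftCocycle rbar r σ).trace = 0)
    (hu : (ofMatrix r hr).IsUnipotentOnInertiaAt q)
    (hram : ∃ τ ∈ Iq q, rbar (rq q τ) ≠ 1) :
    resq1 S (ad0Rep rbar) q (liftClass S h hlevS htr) ∈ H1ur q (Mq (ad0Rep rbar) q) :=
  resq1_liftClass_mem_H1ur q p S hpq hp2 h hlevS htr
    (sub_one_sq_of_isUnipotentOnInertiaAt q hr hu) hram

/-- The size of the unramified condition: `#H¹_ur(ℚ_q, ad⁰ρ̄) = #H⁰(ℚ_q, ad⁰ρ̄)`. -/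
theorem card_H1ur_ad0 {k : Type} [Field k] [Finite k] {rbar : GQ →* M2 k}
    (hlev : ∃ U ∈ (levelLoc q).sets, ∀ s ∈ U, rbar (rq q s) = 1) :
    Nat.card (H1ur q (Mq (ad0Rep rbar) q)) = Nat.card (Mq (ad0Rep rbar) q).ρ.invariants := by
  haveI : Finite (Mq (ad0Rep rbar) q) := Finite.of_injective _ (ad0Val_injective rbar)
  rw [Fermat.Agent.TW.LOC.UnramGq4.card_H1ur q (Mq (ad0Rep rbar) q)
    (Fermat.Agent.TW.LOC.TWLocalAd4.isDiscrete_Mq_ad0 hlev)]
  exact Nat.card_congr (Equiv.subtypeEquivRight fun X =>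
    (Representation.mem_invariants _ X).symm)

end Prelude

end

end Fermat.Agent.TW.LOC.UnipLocal4
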