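/-
Programme T (towards S56), chapter LOC, helper2.

`CupAlgebra2`: elementary algebra of the evaluation pairing `N × N^∨(χ) → k(χ)` on raw 1-cochains
(any group `G`, any commutative ring `k`, `N : Rep k G`, `χ : G →* kˣ`, `N' = N.dualTwist χ`):

* `dualTwist_apply_apply`, `dualTwist_apply_ρ`: `(g • a)(n) = χ(g) a(g⁻¹ n)`, `(g • a)(g • n) = χ(g) a(n)`;
* `eval_equivariant`: the evaluation map `N → N''` is equivariant;
* `cup_comm`: graded commutativity of the cup product on 1-cocycles, raw form: for 1-cocycles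
  `x` of `N` and `y` of `N'`, with `w g = (y g)(x g)`,
  `(y g)(g • x h) + (g • y h)(x g) = w (g h) - w g - χ(g) w h`.
-/
import Mathlib
import Fermat.Prelude.Def_GroupCohomology_Selmer

set_option autoImplicit false

namespace Fermat.Agent.TW.LOC.CupAlgebra2

universe u

variable {k G : Type u} [CommRing k] [Group G] (N : Rep.{u} k G) (χ : G →* kˣ)

theorem dualTwist_apply_apply (g : G) (a : Module.Dual k N) (n : N) :
    ((N.dualTwist χ).ρ g a) n = (χ g : k) * a (N.ρ g⁻¹ n) := by
  rw [Rep.dualTwist_ρ_apply]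
  rfl

theorem dualTwist_apply_ρ (g : G) (a : Module.Dual k N) (n : N) :
    ((N.dualTwist χ).ρ g a) (N.ρ g n) = (χ g : k) * a n := by
  rw [dualTwist_apply_apply]
  congr 2
  have : N.ρ g⁻¹ (N.ρ g n) = (N.ρ (g⁻¹ * g)) n := by rw [map_mul]; rfl
  rw [this, inv_mul_cancel, map_one]
  rfl

/-- The evaluation map `N → N''` is equivariant (`N'' = (N^∨(χ))^∨(χ)`). -/
theorem eval_equivariant (g : G) (n : N) :
    Module.Dual.eval k N (N.ρ g n) =
      ((N.dualTwist χ).dualTwist χ).ρ g (Module.Dual.eval k N n) := by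
  apply LinearMap.ext
  intro a
  rw [dualTwist_apply_apply, Module.Dual.eval_apply, Module.Dual.eval_apply, dualTwist_apply_apply,
    inv_inv, ← mul_assoc, ← Units.val_mul, ← map_mul, mul_inv_cancel, map_one, Units.val_one,
    one_mul]

/-- **Graded commutativity of the cup product on 1-cocycles**, raw form. -/
theorem cup_comm (x : G → N) (y : G → Module.Dual k N)
    (hx : ∀ g h, x (g * h) = x g + N.ρ g (x h))
    (hy : ∀ g h, y (g * h) = y g + (N.dualTwist χ).ρ g (y h)) (g h : G) :
    (y g) (N.ρ g (x h)) + ((N.dualTwist χ).ρ g (y h)) (x g) =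
      (y (g * h)) (x (g * h)) - (y g) (x g) - (χ g : k) * (y h) (x h) := by
  rw [hx, hy, LinearMap.add_apply, map_add, map_add, dualTwist_apply_ρ]
  ring

end Fermat.Agent.TW.LOC.CupAlgebra2
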