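/-
Programme T (towards S56), chapter LOC, helper2.

`CupDuality2`: **local Tate duality (LD11) in cup-product / raw-cochain form**, obtained by
CONVERSION of the local duality of the inherited Poitou–Tate library (no new arithmetic):

* `PT/GLUE/LocalHypR11.pair11_right_kernel_local`: the pairing
  `ℍ¹(K(P; ℚ̄_qˣ)) × H¹(Γ_q, A) → H²(Γ_q, ℚ̄_qˣ)` has trivial right kernel (`A` killed by `p`,
  `P` a resolution of `A` by finitely generated free `ℤ`-modules);
* `PT/PRO/KerIso7.compare1_bijective`: `H¹(Γ_q, N) ≅ ℍ¹(K(P; ℚ̄_qˣ))` for `A = N^∨(1)`,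
  `[x] ↦ [(κ ∘ x, 0)]`, `κ(n)(e) = j (π(e)(n))`;
* the cochain formula `ExtPairing4.Pairing.p11`, which on `(κ ∘ x, 0)` and a lift of `y` reads
  `(g, h) ↦ j ((g • y h) (x g))`, i.e. `j ∘ (x ∪ y)`.

Notation: `Γ_q = Gal(ℚ̄_q/ℚ_q)`, level basis `levelLoc q`, `χ_q = chiq q p` the mod `p` cyclotomic
character of `Γ_q`, `N : Rep (ZMod p) Γ_q` finite-dimensional and discrete, `N' = N.dualTwist χ_q`
(carrier `Module.Dual (ZMod p) N`, `g • a = χ_q(g) • (a ∘ g⁻¹)`).

Main results (all in RAW cochain form, so that they feed any model of the cup product whose cochain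
formula is `(x ∪ y)(g, h) = ⟨x g, g • y h⟩`):

* `cup_right_kernel`: a level 1-cocycle `y` of `N'` such that for every level 1-cocycle `x` of `N`
  the 2-cochain `(g, h) ↦ (g • y h) (x g)` is the coboundary of a level 1-cochain of `𝔽_p(χ_q)`,
  is a coboundary.
* `cup_left_kernel`: a level 1-cocycle `x` of `N` such that for every level 1-cocycle `y` of `N'`
  the 2-cochain `(g, h) ↦ (g • y h) (x g)` is the coboundary of a level 1-cochain of `𝔽_p(χ_q)`,
  is a coboundary.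
  (Deduced from `cup_right_kernel` for `N'` and `N'' ≅ N`, and graded commutativity
  `(g • y h)(x g) + (y g)(g • x h) = -d(g ↦ (y g)(x g))`.)
* `LD11_right`, `LD11_left`: the same two statements in the vocabulary of `PT/PRO/LevelCoh28`
  (the framework of Programme T): `y ∈ Z1 (levelLoc q) N'`, `cupEval x y ∈ B2 (levelLoc q) (muq q p)`
  for all `x ∈ Z1 (levelLoc q) N` imply `y ∈ coboundaries₁ N'`, and symmetrically; here
  `muq q p = groupCohomology.ofChar (chiq q p)` and `cupEval x y (g, h) = (g • y h) (x g)`.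
-/
import Mathlib
import Fermat.Agent.PT.GLUE.LocalHypR11
import Fermat.Agent.PT.PRO.KerIsoMain7
import Fermat.Agent.PT.PRO.KerIsoGal7
import Fermat.Agent.PT.BR.DualTwist7
import Fermat.Agent.TW.LOC.Defs2
import Fermat.Agent.TW.LOC.CupAlgebra2

set_option autoImplicit false

namespace Fermat.Agent.TW.LOC.CupDuality2

open Function ExtCitation
open Fermat.Agent.PT.PRO Fermat.Agent.PT.PRO.HyperLevel25 Fermat.Agent.PT.PRO.Resolved4
open Fermat.Agent.PT.PRO.ExtPairing4 Fermat.Agent.PT.PRO.ExtPairingB4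
open Fermat.Agent.PT.PRO.KerIso7 Fermat.Agent.PT.PRO.KerIsoGal7 Fermat.Agent.PT.PRO.Setup20
open Fermat.Agent.PT.GLUE.Objects21 Fermat.Agent.PT.GLUE.LocalHypR11
open Fermat.Agent.TW.LOC.Defs2 Fermat.Agent.TW.LOC.CupAlgebra2

/-! ### A generic vanishing criterion for `pair11 (incl1 ·) ·` -/

section Generic

variable {k G : Type*} [CommRing k] [Group G] {𝒰 : Set (Subgroup G)}
variable {Y0 Y1 P1 P0 M C N : Type*}
  [AddCommGroup Y0] [Module k Y0] [AddCommGroup Y1] [Module k Y1]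
  [AddCommGroup P1] [Module k P1] [AddCommGroup P0] [Module k P0]
  [AddCommGroup M] [Module k M] [AddCommGroup C] [Module k C] [AddCommGroup N] [Module k N]
variable {Y : Cx k 𝒰 Y0 Y1} {P : Resolved k 𝒰 P1 P0 M} {ρC : Representation k G C}
variable (B : Pairing Y P ρC) (h𝒰 : IsLevelBasis 𝒰) (hC : HyperLevel25.IsDiscrete 𝒰 ρC)
variable {ρN : Representation k G N} (hN : HyperLevel25.IsDiscrete 𝒰 ρN) (ι0 : N →ₗ[k] Y0)
  (hι : ∀ g n, ι0 (ρN g n) = Y.ρ0 g (ι0 n)) (hfι : ∀ n, Y.f (ι0 n) = 0)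

/-- The pairing of `incl1 [z]` (`z` a level 1-cocycle of `N = ker (Y⁰ → Y¹)`) with `[x]` vanishes as
soon as the cup-type cochain `(g, h) ↦ β⁰ (ι (z g)) (g • x̃ h)` (`x̃` a lift of `x` to `P₀`) is the
coboundary of a level 1-cochain. -/
theorem pair11_incl1_eq_zero (z : (HyperCompare25.plainCpx h𝒰 ρN hN).Z1) (x : G → M)
    (hl : IsLevel₁ 𝒰 x) (hc : dOne P.ρM x = 0) (L : Lift1 P) (hL : L.Lifts x)
    (u : G → C) (hul : IsLevel₁ 𝒰 u)
    (hu : ∀ g h, dOne ρC u (g, h) = B.β0 (ι0 (z.1.1 g)) (P.ρ0 g (L.xt h))) :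
    pair11 B h𝒰 hC (HyperCompare25.incl1 Y h𝒰 hN ι0 hι hfι
      ((HyperCompare25.plainCpx h𝒰 ρN hN).π1 z)) (cl1 h𝒰 P.ρM P.discM x hl hc) = 0 := by
  have e1 : HyperCompare25.incl1 Y h𝒰 hN ι0 hι hfι ((HyperCompare25.plainCpx h𝒰 ρN hN).π1 z) =
      (HZ1.ofZ1 h𝒰 ((HyperCompare25.inclHom Y h𝒰 hN ι0 hι hfι).mapZ1 z)).cls h𝒰 := rfl
  rw [e1, pair11_cl1 B h𝒰 hC _ x hl hc L hL]
  unfold cls11
  rw [cl2_eq_zero_iff]
  refine ⟨u, hul, ?_⟩
  funext ⟨g, h⟩
  rw [hu g h]
  show _ = B.β0 (ι0 (z.1.1 g)) (P.ρ0 g (L.xt h)) + B.β1 0 (L.y' (g, h))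
  rw [map_zero, LinearMap.zero_apply, add_zero]

end Generic

variable (q : ℕ) [Fact q.Prime] (p : ℕ) [Fact p.Prime]

/-- The mod `p` cyclotomic character of `Γ_q = Gal(ℚ̄_q/ℚ_q)`. -/
noncomputable def chiq : (Gq q) →* (ZMod p)ˣ := (cycloChar p).comp (localGaloisToGlobal q)

theorem chiq_apply (s : Gq q) : chiq q p s = cycloChar p (localGaloisToGlobal q s) := rfl

/-- The level of `Γ_q` cut out by `ℚ(ζ_p)`. -/
noncomputable def zetaLevel : Subgroup (Gq q) :=
  (Fermat.Agent.S14.Fields.Kz p).fixingSubgroup.comap (localGaloisToGlobal q)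

theorem zetaLevel_mem : zetaLevel q p ∈ (levelLoc q).sets :=
  ⟨(Fermat.Agent.S14.Fields.Kz p).fixingSubgroup,
    ⟨Fermat.Agent.S14.Fields.Kz p, inferInstance, rfl⟩, rfl⟩

theorem chiq_eq_one_of_mem {s : Gq q} (hs : s ∈ zetaLevel q p) : chiq q p s = 1 :=
  Fermat.Agent.PT.BR.DualTwist7.cycloChar_eq_one_of_mem_fixingSubgroup_Kz p hs

/-! ### The dual module `N' = N^∨(1)` is discrete -/

section Main

variable (N : Rep.{0} (ZMod p) (Gq q)) [FiniteDimensional (ZMod p) N]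

theorem isDiscrete_dualTwist (hN : HyperLevel25.IsDiscrete (levelLoc q).sets N.ρ) :
    HyperLevel25.IsDiscrete (levelLoc q).sets (IntRep20.intRep (N.dualTwist (chiq q p))) := by
  intro a
  obtain ⟨V, hV, hVle⟩ :=
    trivLevels_cofinal (isLevelBasis_levelLoc q) hN _ (zetaLevel_mem q p)
  refine ⟨V, hV.1, fun s hs => ?_⟩
  have h1 : chiq q p s = 1 := chiq_eq_one_of_mem q p (hVle hs)
  have h2 : N.ρ s⁻¹ = LinearMap.id := by
    ext n
    exact hV.2.2 s⁻¹ (V.inv_mem hs) n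
  show (N.dualTwist (chiq q p)).ρ s a = a
  rw [Rep.dualTwist_ρ_apply, h1, h2]
  simp

/-- The pairing of `compare1 [z]` with `[y]` vanishes when the cup product of `z` and `y` is a level
coboundary in `𝔽_p(χ_q)`. -/
theorem pair11_compare1_eq_zero [Finite (N.dualTwist (chiq q p))] (hN : HyperLevel25.IsDiscrete (levelLoc q).sets N.ρ)
   (h0 : HyperLevel25.IsDiscrete (levelLoc q).sets
      (HpAt29.freeRes (IntRep20.intRep (N.dualTwist (chiq q p)))).ρ0)
   (y : (Gq q) → Module.Dual (ZMod p) N) (hyl : IsLevel₁ (levelLoc q).sets y)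
   (hyc' : dOne (toResolved (HpAt29.freeRes (IntRep20.intRep (N.dualTwist (chiq q p)))) h0).ρM y
      = 0) 
    (hpair : ∀ x : (Gq q) → N, IsLevel₁ (levelLoc q).sets x →
      (∀ g h, x (g * h) = x g + N.ρ g (x h)) →
      ∃ u : (Gq q) → ZMod p, IsLevel₁ (levelLoc q).sets u ∧ ∀ g h,
        ((N.dualTwist (chiq q p)).ρ g (y h)) (x g) =
          (chiq q p g : ZMod p) * u h - u (g * h) + u g) 
    (z : (HyperCompare25.plainCpx (isLevelBasis_levelLoc q) (intRep intSurj_int N.ρ) (isDiscrete_intRep intSurj_int hN)).Z1) :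
    pair11 (evalPairing (toResolved (HpAt29.freeRes (IntRep20.intRep (N.dualTwist (chiq q p)))) h0)
        (isLevelBasis_levelLoc q) (unitsLoc q).ρ (isDiscrete_unitsLoc' q))
      (isLevelBasis_levelLoc q) (isDiscrete_unitsLoc' q)
      (compare1 intSurj_int (isLevelBasis_levelLoc q)
      (toResolved (HpAt29.freeRes (IntRep20.intRep (N.dualTwist (chiq q p)))) h0) N.ρ hN
      (chiq q p) (KerIsoMain7.hA_freeRes N (chiq q p)) (isDiscrete_unitsLoc' q) (muLoc p q)
        ((HyperCompare25.plainCpx (isLevelBasis_levelLoc q) (intRep intSurj_int N.ρ) (isDiscrete_intRep intSurj_int hN)).π1 z))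
      (cl1 (isLevelBasis_levelLoc q) _ _ y hyl hyc') = 0 := by
  have hex := @Lift1.exists_lift ℤ (Gq q) _ _ (levelLoc q).sets _ _ _ _ _ _ _ _ _
    (toResolved (HpAt29.freeRes (IntRep20.intRep (N.dualTwist (chiq q p)))) h0) y hyl hyc'
  cases' hex with L hL
  have hxl : IsLevel₁ (levelLoc q).sets (z.1.1) := z.1.2
  have hxc := (HyperCompare25.mem_plain_Z1_iff _ _ _ z.1).1 z.2
  have hu' := hpair z.1.1 hxl (fun g h => by
    have h1 := congrFun hxc (g, h)
    have h2 : N.ρ g (z.1.1 h) - z.1.1 (g * h) + z.1.1 g = 0 := h1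
    rw [sub_add_eq_add_sub, sub_eq_zero] at h2
    rw [← h2, add_comm])
  cases' hu' with u hu'
  cases' hu' with hul hu
  refine pair11_incl1_eq_zero _ (isLevelBasis_levelLoc q) (isDiscrete_unitsLoc' q) _ _ _ _ z y
    hyl hyc' L hL (fun g => (muLoc p q).j (u g)) (hul.comp _) (fun g h => ?_)
  have hu' : (((N.dualTwist (chiq q p)).ρ g) (y h)) (z.1.1 g) =
      ((((cycloChar p).comp (localGaloisToGlobal q)) g : (ZMod p)ˣ) : ZMod p) * u h - u (g * h)
        + u g := hu g h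
  rw [dOne_apply, (muLoc p q).equiv, ← map_sub, ← map_add, ← hu', evalPairing_β0, kapRes_apply,
    (toResolved (HpAt29.freeRes (IntRep20.intRep (N.dualTwist (chiq q p)))) h0).π_comm, hL h]
  rfl

set_option maxHeartbeats 400000 in
/-- Auxiliary form of `cup_right_kernel` (finiteness and discreteness as hypotheses). -/
theorem cup_right_kernel_aux [Finite (N.dualTwist (chiq q p))]
    (hN : HyperLevel25.IsDiscrete (levelLoc q).sets N.ρ)
    (h0 : HyperLevel25.IsDiscrete (levelLoc q).sets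
      (HpAt29.freeRes (IntRep20.intRep (N.dualTwist (chiq q p)))).ρ0)
    (y : (Gq q) → Module.Dual (ZMod p) N) (hyl : IsLevel₁ (levelLoc q).sets y)
    (hyc : ∀ g h, y (g * h) = y g + (N.dualTwist (chiq q p)).ρ g (y h))
    (hpair : ∀ x : (Gq q) → N, IsLevel₁ (levelLoc q).sets x →
      (∀ g h, x (g * h) = x g + N.ρ g (x h)) →
      ∃ u : (Gq q) → ZMod p, IsLevel₁ (levelLoc q).sets u ∧ ∀ g h,
        ((N.dualTwist (chiq q p)).ρ g (y h)) (x g) =
          (chiq q p g : ZMod p) * u h - u (g * h) + u g) :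
    ∃ a : Module.Dual (ZMod p) N, ∀ g, y g = (N.dualTwist (chiq q p)).ρ g a - a := by
  have hpA : ∀ m : (N.dualTwist (chiq q p)), p • m = 0 := fun m => by
    rw [← Nat.cast_smul_eq_nsmul (ZMod p), ZMod.natCast_self, zero_smul]
  have hyc' : dOne (toResolved (HpAt29.freeRes (IntRep20.intRep (N.dualTwist (chiq q p)))) h0).ρM y
      = 0 := by
    funext ⟨g, h⟩
    show (N.dualTwist (chiq q p)).ρ g (y h) - y (g * h) + y g = 0
    rw [hyc]
    abel
  have h1 := pair11_right_kernel_local q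
    (toResolved (HpAt29.freeRes (IntRep20.intRep (N.dualTwist (chiq q p)))) h0) p hpA
  have h2 := h1 (cl1 (isLevelBasis_levelLoc q) _ _ y hyl hyc')
  have hb := compare1_bijective intSurj_int (isLevelBasis_levelLoc q)
    (toResolved (HpAt29.freeRes (IntRep20.intRep (N.dualTwist (chiq q p)))) h0) N.ρ hN
    (chiq q p) (KerIsoMain7.hA_freeRes N (chiq q p)) (isDiscrete_unitsLoc' q) (muLoc p q)
    (exists_zsmul_eq_unitsLoc p q)
  have key := h2 (fun ξ => by
    have h4 := hb.2 ξ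
    refine Exists.elim h4 (fun w hw => ?_)
    refine Exists.elim ((HyperCompare25.plainCpx (isLevelBasis_levelLoc q)
      (intRep intSurj_int N.ρ) (isDiscrete_intRep intSurj_int hN)).π1_surjective w) (fun z hz => ?_)
    subst hz
    subst hw
    exact pair11_compare1_eq_zero q p N hN h0 y hyl hyc' hpair z)
  obtain ⟨a, ha⟩ := (cl1_eq_zero_iff hyl hyc').1 key
  exact ⟨a, fun g => (congrFun ha g).symm⟩

/-- **Local Tate duality, right kernel, cup-product form.**  A level 1-cocycle `y` of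
`N' = N^∨(1)` whose cup product with every level 1-cocycle `x` of `N` is a level coboundary in
`𝔽_p(χ_q)` is a coboundary. -/
theorem cup_right_kernel (hN : HyperLevel25.IsDiscrete (levelLoc q).sets N.ρ)
    (y : (Gq q) → Module.Dual (ZMod p) N) (hyl : IsLevel₁ (levelLoc q).sets y)
    (hyc : ∀ g h, y (g * h) = y g + (N.dualTwist (chiq q p)).ρ g (y h))
    (hpair : ∀ x : (Gq q) → N, IsLevel₁ (levelLoc q).sets x →
      (∀ g h, x (g * h) = x g + N.ρ g (x h)) →
      ∃ u : (Gq q) → ZMod p, IsLevel₁ (levelLoc q).sets u ∧ ∀ g h,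
        ((N.dualTwist (chiq q p)).ρ g (y h)) (x g) =
          (chiq q p g : ZMod p) * u h - u (g * h) + u g) :
    ∃ a : Module.Dual (ZMod p) N, ∀ g, y g = (N.dualTwist (chiq q p)).ρ g a - a := by
  have hfinA : Finite (N.dualTwist (chiq q p)) := Module.finite_of_finite (ZMod p)
  exact cup_right_kernel_aux q p N hN
    (FreeRes29.isDiscrete_freeRep (isLevelBasis_levelLoc q) (isDiscrete_dualTwist q p N hN))
    y hyl hyc hpair

omit [FiniteDimensional (ZMod p) N] in
/-- The pointwise evaluation of two level cochains is a level cochain. -/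
theorem isLevel₁_eval {x : (Gq q) → N} {y : (Gq q) → Module.Dual (ZMod p) N}
    (hxl : IsLevel₁ (levelLoc q).sets x) (hyl : IsLevel₁ (levelLoc q).sets y) :
    IsLevel₁ (levelLoc q).sets (fun g => (y g) (x g)) := by
  obtain ⟨U, hU, hx⟩ := hxl
  obtain ⟨V, hV, hy⟩ := hyl
  obtain ⟨W, hW, hle⟩ := (isLevelBasis_levelLoc q).inf U hU V hV
  exact ⟨W, hW, fun g s hs => by
    show (y (g * s)) (x (g * s)) = (y g) (x g)
    rw [hx g s (hle hs).1, hy g s (hle hs).2]⟩

/-- **Local Tate duality, left kernel, cup-product form.**  A level 1-cocycle `x` of `N` whose cup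
product with every level 1-cocycle `y` of `N' = N^∨(1)` is a level coboundary in `𝔽_p(χ_q)` is a
coboundary. -/
theorem cup_left_kernel (hN : HyperLevel25.IsDiscrete (levelLoc q).sets N.ρ)
    (x : (Gq q) → N) (hxl : IsLevel₁ (levelLoc q).sets x)
    (hxc : ∀ g h, x (g * h) = x g + N.ρ g (x h))
    (hpair : ∀ y : (Gq q) → Module.Dual (ZMod p) N, IsLevel₁ (levelLoc q).sets y →
      (∀ g h, y (g * h) = y g + (N.dualTwist (chiq q p)).ρ g (y h)) →
      ∃ u : (Gq q) → ZMod p, IsLevel₁ (levelLoc q).sets u ∧ ∀ g h,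
        ((N.dualTwist (chiq q p)).ρ g (y h)) (x g) =
          (chiq q p g : ZMod p) * u h - u (g * h) + u g) :
    ∃ n : N, ∀ g, x g = N.ρ g n - n := by
  have hN₂ : HyperLevel25.IsDiscrete (levelLoc q).sets (N.dualTwist (chiq q p)).ρ :=
    fun a => isDiscrete_dualTwist q p N hN a
  obtain ⟨a₂, ha₂⟩ := cup_right_kernel q p (N.dualTwist (chiq q p)) hN₂
    (fun g => Module.Dual.eval (ZMod p) N (x g)) (hxl.comp _)
    (fun g h => by
      show Module.Dual.eval (ZMod p) N (x (g * h)) = _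
      rw [hxc, map_add, eval_equivariant N (chiq q p)])
    (fun y hyl hyc => by
      obtain ⟨u, hul, hu⟩ := hpair y hyl hyc
      refine ⟨fun g => -((y g) (x g) + u g),
        ((isLevelBasis_levelLoc q).isLevel₁_add (isLevel₁_eval q p N hxl hyl) hul).comp
          (fun v => -v), fun g h => ?_⟩
      have h1 := cup_comm N (chiq q p) x y hxc hyc g h
      rw [hu g h] at h1
      show (((N.dualTwist (chiq q p)).dualTwist (chiq q p)).ρ g
        (Module.Dual.eval (ZMod p) N (x h))) (y g) = _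
      rw [← eval_equivariant N (chiq q p), Module.Dual.eval_apply]
      linear_combination h1)
  obtain ⟨n, hn⟩ := (Module.evalEquiv (ZMod p) N).surjective a₂
  refine ⟨n, fun g => ?_⟩
  apply (Module.evalEquiv (ZMod p) N).injective
  have h2 := ha₂ g
  rw [← hn] at h2
  rw [map_sub]
  simp only [Module.evalEquiv_apply] at h2 ⊢
  rw [eval_equivariant N (chiq q p)]
  exact h2

/-! ### The same statements in the vocabulary of `LevelCoh28` (framework of Programme T) -/

section LevelCohForm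

open groupCohomology

/-- `𝔽_p(χ_q) = μ_p` as a representation of `Γ_q`. -/
noncomputable abbrev muq : Rep.{0} (ZMod p) (Gq q) := groupCohomology.ofChar (chiq q p)

theorem muq_ρ_apply (g : Gq q) (a : ZMod p) : (muq q p).ρ g a = (chiq q p g : ZMod p) * a := rfl

/-- The cup cochain of the evaluation pairing `N × N^∨(1) → μ_p`:
`(x ∪ y)(g, h) = (g • y h)(x g)`. -/
noncomputable def cupEval (x : (Gq q) → N) (y : (Gq q) → (N.dualTwist (chiq q p))) :
    (Gq q) × (Gq q) → muq q p :=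
  fun gh => ((N.dualTwist (chiq q p)).ρ gh.1 (y gh.2)) (x gh.1)

omit [FiniteDimensional (ZMod p) N] in
theorem cupEval_apply (x : (Gq q) → N) (y : (Gq q) → (N.dualTwist (chiq q p))) (g h : Gq q) :
    cupEval q p N x y (g, h) = ((N.dualTwist (chiq q p)).ρ g (y h)) (x g) := rfl

omit [FiniteDimensional (ZMod p) N] in
theorem mem_B2_muq_iff (f : (Gq q) × (Gq q) → muq q p) :
    f ∈ LevelCoh28.B2 (levelLoc q) (muq q p) ↔
      ∃ u : (Gq q) → ZMod p, IsLevel₁ (levelLoc q).sets u ∧ ∀ g h,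
        f (g, h) = (chiq q p g : ZMod p) * u h - u (g * h) + u g := by
  rw [LevelCoh28.mem_B2_iff]
  constructor
  · rintro ⟨u, hul, rfl⟩
    exact ⟨u, hul, fun g h => by rw [d₁₂_hom_apply]; rfl⟩
  · rintro ⟨u, hul, hu⟩
    refine ⟨u, hul, ?_⟩
    funext ⟨g, h⟩
    rw [d₁₂_hom_apply, hu g h]
    rfl

omit [FiniteDimensional (ZMod p) N] in
theorem mem_Z1_iff' (A : Rep.{0} (ZMod p) (Gq q)) (x : (Gq q) → A) :
    x ∈ LevelCoh28.Z1 (levelLoc q) A ↔
      IsLevel₁ (levelLoc q).sets x ∧ ∀ g h, x (g * h) = x g + A.ρ g (x h) := by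
  rw [LevelCoh28.mem_Z1_iff, mem_cocycles₁_iff]
  constructor
  · rintro ⟨h1, h2⟩
    exact ⟨h2, fun g h => by rw [h1 g h, add_comm]⟩
  · rintro ⟨h1, h2⟩
    exact ⟨fun g h => by rw [h2 g h, add_comm], h1⟩

/-- **(LD11), right kernel**: if `y ∈ Z¹(Γ_q, N^∨(1))` cups to a level coboundary with every
`x ∈ Z¹(Γ_q, N)`, then `y` is a coboundary. -/
theorem LD11_right (hN : LevelCoh28.IsDiscrete (levelLoc q).sets N)
    {y : (Gq q) → (N.dualTwist (chiq q p))}
    (hy : y ∈ LevelCoh28.Z1 (levelLoc q) (N.dualTwist (chiq q p)))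
    (h : ∀ x ∈ LevelCoh28.Z1 (levelLoc q) N,
      cupEval q p N x y ∈ LevelCoh28.B2 (levelLoc q) (muq q p)) :
    y ∈ coboundaries₁ (N.dualTwist (chiq q p)) := by
  obtain ⟨hyl, hyc⟩ := (mem_Z1_iff' q p (N.dualTwist (chiq q p)) y).1 hy
  obtain ⟨a, ha⟩ := cup_right_kernel q p N hN y hyl hyc (fun x hxl hxc => by
    obtain ⟨u, hul, hu⟩ := (mem_B2_muq_iff q p _).1 (h x ((mem_Z1_iff' q p N x).2 ⟨hxl, hxc⟩))
    exact ⟨u, hul, fun g h => hu g h⟩)
  refine ⟨a, ?_⟩
  funext g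
  rw [d₀₁_hom_apply]
  exact (ha g).symm

/-- **(LD11), left kernel**: if `x ∈ Z¹(Γ_q, N)` cups to a level coboundary with every
`y ∈ Z¹(Γ_q, N^∨(1))`, then `x` is a coboundary. -/
theorem LD11_left (hN : LevelCoh28.IsDiscrete (levelLoc q).sets N)
    {x : (Gq q) → N} (hx : x ∈ LevelCoh28.Z1 (levelLoc q) N)
    (h : ∀ y ∈ LevelCoh28.Z1 (levelLoc q) (N.dualTwist (chiq q p)),
      cupEval q p N x y ∈ LevelCoh28.B2 (levelLoc q) (muq q p)) :
    x ∈ coboundaries₁ N := by
  obtain ⟨hxl, hxc⟩ := (mem_Z1_iff' q p N x).1 hx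
  obtain ⟨n, hn⟩ := cup_left_kernel q p N hN x hxl hxc (fun y hyl hyc => by
    obtain ⟨u, hul, hu⟩ := (mem_B2_muq_iff q p _).1
      (h y ((mem_Z1_iff' q p (N.dualTwist (chiq q p)) y).2 ⟨hyl, hyc⟩))
    exact ⟨u, hul, fun g h => hu g h⟩)
  refine ⟨n, ?_⟩
  funext g
  rw [d₀₁_hom_apply]
  exact (hn g).symm

end LevelCohForm

end Main

end Fermat.Agent.TW.LOC.CupDuality2
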