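/-
Programme T (S56, Taylor–Wiles primes), chapter LOC, item L4 (Kummer theory), part 2 — helper4.

RAW KUMMER THEORY ON AN ARBITRARY SUBGROUP `N ≤ Γ_q = Gq q` (so `N = F.fixingSubgroup` covers every
finite `F/ℚ_q` inside `Ω = PadicAlgCl q`; `N = ⊤` is `F = ℚ_q`).  `χ = chiq q p` (mod `p` cyclotomic
character, `CupDuality2`), `μ_p(Ω) ≅ ZMod p` via `jm q p : ZMod p → Ωˣ` (multiplicative form of
`KerIsoGal7.muLoc p q`): `jm_add`, `jm_injective`, `jm_pow`, `exists_jm_eq`, `smul_jm : g • jm a =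
jm (χ g * a)`.  Level cochains are `HyperLevel25.IsLevel₁ (levelLoc q).sets` (= `LevelCoh28.IsLevel₁`).

* `h90_sub N : H90 (levelLoc q).sets N (unitsLoc q).ρ`, `hilbert90_mul` (Hilbert 90 on ANY subgroup);
* **(K1) `exists_root_of_cocycle`** : a level cochain `c : Γ_q → ZMod p` with
  `c (n n') = c n + χ n * c n'` on `N` is `jm (c n) = n • β / β` on `N`, and `β ^ p` is `N`-fixed;
* (K2) `kumFun q p β : Γ_q → ZMod p` (`jm_kumFun`, `kumFun_eq_iff`), `isLevel₁_kumFun`,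
  `kumFun_mul` (cocycle), `kumFun_mul_left` (additive in `β`), `kumFun_eq_zero`, `kumFun_jm`,
  `kumFun_conj : kumFun (g • β) (g n g⁻¹) = χ g * kumFun β n`;
* **(K3) `kumFun_coboundary_iff`** : `kumFun β` is a coboundary on `N` iff `β ^ p = γ ^ p` with `γ`
  `N`-fixed;
* `IsKumRep q p N c β`, `exists_isKumRep`, `isKumRep_kumFun`, `IsKumRep.mul`, `IsKumRep.exists_fixed`,
  `IsKumRep.coboundary_iff`: i.e. `H¹(N, μ_p) ≅ (Ω^N)ˣ / p` in raw form.
-/
import Mathlib
import Fermat.Agent.TW.LOC.Defs2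
import Fermat.Agent.TW.LOC.CupDuality2
import Fermat.Agent.PT.BR.InfLocal13
import Fermat.Agent.PT.PRO.KerIsoGal7

set_option autoImplicit false
set_option linter.unusedSectionVars false
set_option linter.style.haveILetI false

open ExtCitation
open Fermat.Agent.PT.PRO Fermat.Agent.PT.PRO.HyperLevel25 Fermat.Agent.PT.PRO.InfLevel13
open Fermat.Agent.PT.PRO.KerIso7 Fermat.Agent.PT.PRO.KerIsoGal7
open Fermat.Agent.PT.GLUE.Objects21 Fermat.Agent.PT.BR Fermat.Agent.PT.BR.LocInj13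
open Fermat.Agent.TW.LOC.Defs2 Fermat.Agent.TW.LOC.CupDuality2

namespace Fermat.Agent.TW.LOC.KummerRaw4

noncomputable section

variable (q : ℕ) [Fact q.Prime] (p : ℕ) [Fact p.Prime]

local notation "Ω" => PadicAlgCl q
local notation "Qbar" => AlgebraicClosure ℚ

/-! ### Hilbert 90 on an arbitrary subgroup -/

/-- **Hilbert 90 for `(N, ℚ̄_qˣ)`**, `N` an ARBITRARY subgroup of `Γ_q`. -/
theorem h90_sub (N : Subgroup (Gq q)) : H90 (levelLoc q).sets N (unitsLoc q).ρ := by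
  intro c hc hcoc
  have h𝒰 : HyperLevel25.IsLevelBasis (levelLoc q).sets :=
    LevelCompare13.isLevelBasis_iff.1 (levelLoc q).isBasis
  have hρ : HyperLevel25.IsDiscrete (levelLoc q).sets (unitsLoc q).ρ := isDiscrete_unitsLoc q
  obtain ⟨W, hW, -, hinv, hfix⟩ := h𝒰.exists_normal_fixing hρ hc
  obtain ⟨_, ⟨F, hF, rfl⟩, rfl⟩ := hW
  have hFfin : FiniteDimensional ℚ F := hF
  rw [LevelBridge13.comap_fixingSubgroup_eq] at hinv hfix
  let cm : Gq q → (PadicAlgCl q)ˣ := fun g => Additive.toMul (α := (PadicAlgCl q)ˣ) (c g)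
  obtain ⟨β, hβ⟩ := InfGalois13.hilbert90_level N (localField q F) cm
    (fun g s hs => congrArg (Additive.toMul (α := (PadicAlgCl q)ˣ)) (hinv g s hs))
    (fun g => by
      rw [← InfiniteGalois.fixedField_fixingSubgroup (localField q F),
        IntermediateField.mem_fixedField_iff]
      intro s hs
      have := congrArg (fun a => ((Additive.toMul (α := (PadicAlgCl q)ˣ) a : (PadicAlgCl q)ˣ) :
        PadicAlgCl q)) (hfix g s hs)
      exact this)
    (fun n hn n' hn' => by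
      have := congrArg (Additive.toMul (α := (PadicAlgCl q)ˣ)) (hcoc n hn n' hn')
      exact this)
  refine ⟨Additive.ofMul β, fun n hn => ?_⟩
  have := hβ n hn
  apply Additive.toMul.injective
  exact this

/-- Hilbert 90 on a subgroup, multiplicative form. -/
theorem hilbert90_mul (N : Subgroup (Gq q)) (c : Gq q → Ωˣ)
    (hc : IsLevel₁ (levelLoc q).sets c)
    (hcoc : ∀ n ∈ N, ∀ n' ∈ N, c (n * n') = n • c n' * c n) :
    ∃ β : Ωˣ, ∀ n ∈ N, c n = n • β / β := by
  obtain ⟨w, hw⟩ := h90_sub q N (fun g => Additive.ofMul (c g)) (hc.comp _)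
    (fun n hn n' hn' => congrArg Additive.ofMul (hcoc n hn n' hn'))
  exact ⟨Additive.toMul w, fun n hn => congrArg Additive.toMul (hw n hn)⟩

/-! ### `μ_p ⊆ ℚ̄_qˣ` -/

/-- The isomorphism `ZMod p ≃ μ_p(ℚ̄_q)`, `a ↦ ζ ^ a` (multiplicative form of `muLoc.j`). -/
def jm (a : ZMod p) : Ωˣ := Additive.toMul ((muLoc p q).j a)

theorem jm_add (a b : ZMod p) : jm q p (a + b) = jm q p a * jm q p b := by
  unfold jm
  rw [map_add]
  rfl

theorem jm_zero : jm q p 0 = 1 := by
  unfold jm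
  rw [map_zero]
  rfl

theorem jm_neg (a : ZMod p) : jm q p (-a) = (jm q p a)⁻¹ := by
  unfold jm
  rw [map_neg]
  rfl

theorem jm_sub (a b : ZMod p) : jm q p (a - b) = jm q p a / jm q p b := by
  rw [sub_eq_add_neg, jm_add, jm_neg, div_eq_mul_inv]

theorem jm_injective : Function.Injective (jm q p) := fun _ _ h =>
  (muLoc p q).inj (Additive.toMul.injective h)

theorem jm_pow (a : ZMod p) : jm q p a ^ p = 1 := by
  have h : p • (muLoc p q).j a = 0 := by
    rw [← map_nsmul, nsmul_eq_mul, ZMod.natCast_self, zero_mul, map_zero]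
  exact congrArg Additive.toMul h

theorem exists_jm_eq {u : Ωˣ} (hu : u ^ p = 1) : ∃ a, jm q p a = u := by
  obtain ⟨a, ha⟩ := (muLoc p q).surj (Additive.ofMul u) (congrArg Additive.ofMul hu)
  exact ⟨a, congrArg Additive.toMul ha⟩

theorem smul_jm (g : Gq q) (a : ZMod p) :
    g • jm q p a = jm q p ((chiq q p g : ZMod p) * a) :=
  congrArg Additive.toMul ((muLoc p q).equiv g a)

/-! ### (K1) cocycles on `N` come from `p`-th roots -/

/-- **(K1)** A level cochain `c : Γ_q → ZMod p` which is a `χ`-cocycle on the subgroup `N` is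
`n ↦ n β / β` on `N`, for some `β ∈ ℚ̄_qˣ`; then `β ^ p` is `N`-fixed. -/
theorem exists_root_of_cocycle (N : Subgroup (Gq q)) (c : Gq q → ZMod p)
    (hc : IsLevel₁ (levelLoc q).sets c)
    (hcoc : ∀ n ∈ N, ∀ n' ∈ N, c (n * n') = c n + (chiq q p n : ZMod p) * c n') :
    ∃ β : Ωˣ, (∀ n ∈ N, jm q p (c n) = n • β / β) ∧ ∀ n ∈ N, n • β ^ p = β ^ p := by
  obtain ⟨β, hβ⟩ := hilbert90_mul q N (fun g => jm q p (c g)) (hc.comp (jm q p))
    (fun n hn n' hn' => by
      show jm q p (c (n * n')) = n • jm q p (c n') * jm q p (c n)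
      rw [hcoc n hn n' hn', jm_add, smul_jm, mul_comm])
  refine ⟨β, hβ, fun n hn => ?_⟩
  have h1 : (n • β / β) ^ p = 1 := by rw [← hβ n hn, jm_pow]
  rw [div_pow, div_eq_one] at h1
  rw [smul_pow', h1]

/-! ### (K2) the Kummer cochain of a `p`-th root -/

open Classical in
/-- Auxiliary: `x ↦ a` with `ζ ^ a = x / β`. -/
def kumAux (β x : Ωˣ) : ZMod p :=
  if h : (x / β) ^ p = 1 then (exists_jm_eq q p h).choose else 0

/-- The Kummer cochain of `β ∈ ℚ̄_qˣ`: `g ↦ a` with `ζ ^ a = g β / β` (junk `0` if `g` does not fix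
`β ^ p`). -/
def kumFun (β : Ωˣ) (g : Gq q) : ZMod p := kumAux q p β (g • β)

theorem pow_div_eq_one_iff (β : Ωˣ) (g : Gq q) : (g • β / β) ^ p = 1 ↔ g • β ^ p = β ^ p := by
  rw [div_pow, div_eq_one, smul_pow']

/-- The defining property of `kumFun`. -/
theorem jm_kumFun {β : Ωˣ} {g : Gq q} (h : g • β ^ p = β ^ p) :
    jm q p (kumFun q p β g) = g • β / β := by
  have h' : (g • β / β) ^ p = 1 := (pow_div_eq_one_iff q p β g).2 h
  unfold kumFun kumAux
  rw [dif_pos h']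
  exact (exists_jm_eq q p h').choose_spec

/-- Characterisation of the value of `kumFun`. -/
theorem kumFun_eq_iff {β : Ωˣ} {g : Gq q} (h : g • β ^ p = β ^ p) (a : ZMod p) :
    kumFun q p β g = a ↔ g • β / β = jm q p a := by
  rw [← jm_kumFun q p h]
  exact ⟨fun h1 => by rw [h1], fun h1 => jm_injective q p h1⟩

/-- `kumFun β` is a level cochain. -/
theorem isLevel₁_kumFun (β : Ωˣ) : IsLevel₁ (levelLoc q).sets (kumFun q p β) := by
  obtain ⟨U, hU, hfix⟩ := isDiscrete_unitsLoc q (Additive.ofMul β)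
  refine ⟨U, hU, fun g s hs => ?_⟩
  have h1 : s • β = β := congrArg Additive.toMul (hfix s hs)
  unfold kumFun
  rw [mul_smul, h1]

/-- `kumFun β` is a `χ`-cocycle on the stabiliser of `β ^ p`. -/
theorem kumFun_mul {β : Ωˣ} {g h : Gq q} (hg : g • β ^ p = β ^ p) (hh : h • β ^ p = β ^ p) :
    kumFun q p β (g * h) = kumFun q p β g + (chiq q p g : ZMod p) * kumFun q p β h := by
  have hgh : (g * h) • β ^ p = β ^ p := by rw [mul_smul, hh, hg]
  rw [kumFun_eq_iff q p hgh, jm_add, ← smul_jm, jm_kumFun q p hg, jm_kumFun q p hh, mul_smul,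
    smul_div']
  rw [div_mul_div_comm, mul_comm (g • β), mul_div_mul_right_eq_div]

/-- Additivity in `β`. -/
theorem kumFun_mul_left {β β' : Ωˣ} {g : Gq q} (hβ : g • β ^ p = β ^ p)
    (hβ' : g • β' ^ p = β' ^ p) :
    kumFun q p (β * β') g = kumFun q p β g + kumFun q p β' g := by
  have h : g • (β * β') ^ p = (β * β') ^ p := by rw [mul_pow, smul_mul', hβ, hβ']
  rw [kumFun_eq_iff q p h, jm_add, jm_kumFun q p hβ, jm_kumFun q p hβ', smul_mul',
    div_mul_div_comm]

/-- `kumFun β` vanishes on the stabiliser of `β`. -/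
theorem kumFun_eq_zero {β : Ωˣ} {g : Gq q} (h : g • β = β) : kumFun q p β g = 0 := by
  have h' : g • β ^ p = β ^ p := by rw [smul_pow', h]
  rw [kumFun_eq_iff q p h', jm_zero, h, div_self']

/-- The Kummer cochain of a `p`-th root of unity is a coboundary. -/
theorem kumFun_jm (a : ZMod p) (g : Gq q) :
    kumFun q p (jm q p a) g = (chiq q p g : ZMod p) * a - a := by
  have h' : g • jm q p a ^ p = jm q p a ^ p := by rw [jm_pow, smul_one]
  rw [kumFun_eq_iff q p h', jm_sub, smul_jm]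

/-- Conjugation: `kumFun (g β) (g n g⁻¹) = χ(g) · kumFun β n`. -/
theorem kumFun_conj {β : Ωˣ} (g : Gq q) {n : Gq q} (hn : n • β ^ p = β ^ p) :
    kumFun q p (g • β) (g * n * g⁻¹) = (chiq q p g : ZMod p) * kumFun q p β n := by
  have h' : (g * n * g⁻¹) • (g • β) ^ p = (g • β) ^ p := by
    rw [← smul_pow', mul_smul, mul_smul, inv_smul_smul, hn]
  rw [kumFun_eq_iff q p h', ← smul_jm, jm_kumFun q p hn, mul_smul, mul_smul, inv_smul_smul,
    smul_div']

/-! ### (K3) coboundaries -/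

/-- **(K3)** `kumFun β` is a coboundary on `N` iff `β ^ p` is the `p`-th power of an `N`-fixed
element. -/
theorem kumFun_coboundary_iff (N : Subgroup (Gq q)) {β : Ωˣ} (hβ : ∀ n ∈ N, n • β ^ p = β ^ p) :
    (∃ a : ZMod p, ∀ n ∈ N, kumFun q p β n = (chiq q p n : ZMod p) * a - a) ↔
      ∃ γ : Ωˣ, (∀ n ∈ N, n • γ = γ) ∧ γ ^ p = β ^ p := by
  constructor
  · rintro ⟨a, ha⟩
    refine ⟨β / jm q p a, fun n hn => ?_, by rw [div_pow, jm_pow, div_one]⟩
    have h1 := (kumFun_eq_iff q p (hβ n hn) _).1 (ha n hn)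
    rw [jm_sub, ← smul_jm] at h1
    rw [smul_div']
    rw [div_eq_div_iff_mul_eq_mul] at h1 ⊢
    rw [h1, mul_comm]
  · rintro ⟨γ, hγ, hγp⟩
    have h1 : (β / γ) ^ p = 1 := by rw [div_pow, hγp, div_self']
    obtain ⟨a, ha⟩ := exists_jm_eq q p h1
    refine ⟨a, fun n hn => ?_⟩
    rw [kumFun_eq_iff q p (hβ n hn), jm_sub, ← smul_jm, ha, smul_div', hγ n hn]
    rw [div_div_div_cancel_right]

/-! ### Summary: Kummer representatives of cocycles on `N` -/

/-- `β` is a Kummer representative on `N` of the cochain `c`: `β ^ p` is `N`-fixed and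
`c n = kumFun β n` (i.e. `ζ ^ (c n) = n β / β`) for `n ∈ N`. -/
def IsKumRep (N : Subgroup (Gq q)) (c : Gq q → ZMod p) (β : Ωˣ) : Prop :=
  (∀ n ∈ N, n • β ^ p = β ^ p) ∧ ∀ n ∈ N, c n = kumFun q p β n

/-- **(K1')** Every level cochain which is a `χ`-cocycle on `N` has a Kummer representative. -/
theorem exists_isKumRep (N : Subgroup (Gq q)) (c : Gq q → ZMod p)
    (hc : IsLevel₁ (levelLoc q).sets c)
    (hcoc : ∀ n ∈ N, ∀ n' ∈ N, c (n * n') = c n + (chiq q p n : ZMod p) * c n') :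
    ∃ β : Ωˣ, IsKumRep q p N c β := by
  obtain ⟨β, h1, h2⟩ := exists_root_of_cocycle q p N c hc hcoc
  exact ⟨β, h2, fun n hn => ((kumFun_eq_iff q p (h2 n hn) _).2 (h1 n hn).symm).symm⟩

/-- `kumFun β` is represented by `β`, level, and a `χ`-cocycle on `N` (if `β ^ p` is `N`-fixed). -/
theorem isKumRep_kumFun (N : Subgroup (Gq q)) {β : Ωˣ} (hβ : ∀ n ∈ N, n • β ^ p = β ^ p) :
    IsKumRep q p N (kumFun q p β) β := ⟨hβ, fun _ _ => rfl⟩

theorem IsKumRep.mul {N : Subgroup (Gq q)} {c c' : Gq q → ZMod p} {β β' : Ωˣ}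
    (h : IsKumRep q p N c β) (h' : IsKumRep q p N c' β') : IsKumRep q p N (c + c') (β * β') :=
  ⟨fun n hn => by rw [mul_pow, smul_mul', h.1 n hn, h'.1 n hn], fun n hn => by
    rw [Pi.add_apply, h.2 n hn, h'.2 n hn, kumFun_mul_left q p (h.1 n hn) (h'.1 n hn)]⟩

/-- Two Kummer representatives of the same cochain differ by an `N`-fixed element. -/
theorem IsKumRep.exists_fixed {N : Subgroup (Gq q)} {c : Gq q → ZMod p} {β β' : Ωˣ}
    (h : IsKumRep q p N c β) (h' : IsKumRep q p N c β') :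
    ∃ γ : Ωˣ, (∀ n ∈ N, n • γ = γ) ∧ β = β' * γ := by
  refine ⟨β / β', fun n hn => ?_, by rw [mul_div_cancel]⟩
  have h1 := jm_kumFun q p (h.1 n hn)
  have h2 := jm_kumFun q p (h'.1 n hn)
  rw [← h.2 n hn] at h1
  rw [← h'.2 n hn, h1] at h2
  rw [smul_div']
  rw [div_eq_div_iff_mul_eq_mul] at h2 ⊢
  rw [h2, mul_comm]

/-- A cochain with Kummer representative `β` is a coboundary on `N` iff `β ^ p` is the `p`-th power
of an `N`-fixed element. -/
theorem IsKumRep.coboundary_iff {N : Subgroup (Gq q)} {c : Gq q → ZMod p} {β : Ωˣ}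
    (h : IsKumRep q p N c β) :
    (∃ a : ZMod p, ∀ n ∈ N, c n = (chiq q p n : ZMod p) * a - a) ↔
      ∃ γ : Ωˣ, (∀ n ∈ N, n • γ = γ) ∧ γ ^ p = β ^ p := by
  rw [← kumFun_coboundary_iff q p N h.1]
  constructor
  · rintro ⟨a, ha⟩
    exact ⟨a, fun n hn => by rw [← h.2 n hn, ha n hn]⟩
  · rintro ⟨a, ha⟩
    exact ⟨a, fun n hn => by rw [h.2 n hn, ha n hn]⟩

end

end Fermat.Agent.TW.LOC.KummerRaw4



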