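/-
Programme T (S56, Taylor–Wiles primes), chapter LOC, item L4 (Kummer at `q = p`), part 1 — helper4.

INDEX OF THE `p`-TH POWERS IN THE MULTIPLICATIVE GROUP OF A `q`-ADIC FIELD (abstract model of
`PT/LOC/Interface12`: `E` with `[Field E] [Algebra ℚ_[q] E] [FiniteDimensional ℚ_[q] E]`,
`𝒪 = intRing q E`), from `PT/GLOB/LocalPowerIndex5` (`index_powRange_units`,
`index_powRange_of_exact`) and `PT/LOC/Structure14` (`ordHom`).

* `isAdicComplete_span_intRing : IsAdicComplete (Ideal.span {(q : 𝒪)}) 𝒪`, `natCast_q_regular`;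
* `card_quotient_intRing : Nat.card (𝒪 ⧸ span {q}) = q ^ finrank ℚ_[q] E`;
* `unitsIncl : 𝒪ˣ →* Eˣ`, `range_unitsIncl = unitGroup q E`, `unitsEquivKer : 𝒪ˣ ≃* (ordHom q E).ker`;
* **`index_powRange_qadic (hp : p.Prime) (hp2 : p ≠ 2) : (powMonoidHom p : Eˣ →* Eˣ).range.index =
    p * (if q = p then q ^ finrank ℚ_[q] E else 1) * Nat.card (powMonoidHom p : Eˣ →* Eˣ).ker`**,
  `finite_powKer_qadic`, `index_powRange_qadic_ne_zero` (`Eˣ/p` is finite);
* `E = ℚ_p`: `padic_eq_one_of_pow_eq_one` (no `p`-th roots of unity, `p` odd), `card_powKer_padic`,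
  **`index_powRange_padic : (powMonoidHom p : ℚ_[p]ˣ →* ℚ_[p]ˣ).range.index = p ^ 2`**.
-/
import Mathlib
import Fermat.Agent.PT.LOC.Interface12
import Fermat.Agent.PT.LOC.Structure14
import Fermat.Agent.PT.LOC.StructureTower27
import Fermat.Agent.PT.GLOB.LocalPowerIndex5
import Fermat.Agent.PT.GLOB.PowerNearOneGen16
import Fermat.Agent.PT.GLOB.LamIndex5

set_option autoImplicit false
set_option linter.unusedSectionVars false
set_option linter.style.haveILetI false

open scoped Fermat.Agent.PT.LOC.Interface12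
open Fermat.Agent.PT.LOC.Interface12 Fermat.Agent.PT.LOC.Structure14
  Fermat.Agent.PT.LOC.StructureTower27
open Fermat.Agent.PT.GLOB.LocalPowerIndex5 Fermat.Agent.PT.GLOB.PowerNearOne16
  Fermat.Agent.PT.GLOB.PowerNearOneGen16

namespace Fermat.Agent.TW.LOC.PowIndexLoc4

noncomputable section

variable (q : ℕ) [Fact q.Prime] (E : Type) [Field E] [Algebra ℚ_[q] E] [FiniteDimensional ℚ_[q] E]

local notation "𝒪" => intRing q E

/-- `𝒪` is `q`-adically complete (as a ring, for the principal ideal `(q)`). -/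
instance isAdicComplete_span_intRing :
    IsAdicComplete (Ideal.span {(q : intRing q E)}) (intRing q E) := by
  have h0 : IsAdicComplete (Ideal.span {(q : ℤ_[q])}) ℤ_[q] := by
    rw [← PadicInt.maximalIdeal_eq_span_p]
    infer_instance
  have h1 : IsAdicComplete (Ideal.span {(q : ℤ_[q])}) (intRing q E) :=
    isAdicComplete_of_finite_free (Ideal.span {(q : ℤ_[q])}) (intRing q E)
  have h2 : (Ideal.span {(q : ℤ_[q])}).map (algebraMap ℤ_[q] (intRing q E)) =
      Ideal.span {(q : intRing q E)} := by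
    rw [Ideal.map_span, Set.image_singleton, map_natCast]
  rw [← h2]
  exact (IsAdicComplete.map_algebraMap_iff (I := Ideal.span {(q : ℤ_[q])})
    (M := intRing q E) (S := intRing q E)).2 h1

theorem natCast_q_regular (x : intRing q E) (h : (q : intRing q E) * x = 0) : x = 0 := by
  rcases mul_eq_zero.1 h with h1 | h1
  · exfalso
    have h2 : ((q : intRing q E) : E) = 0 := by rw [h1]; rfl
    have h3 : ((q : ℕ) : E) = 0 := by simpa using h2
    have : ((q : ℕ) : ℚ_[q]) = 0 := by
      apply (algebraMap ℚ_[q] E).injective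
      rw [map_natCast, map_zero]
      exact h3
    exact (Fact.out : q.Prime).ne_zero (by exact_mod_cast this)
  · exact h1

/-! ### `#(𝒪 / q 𝒪) = q ^ [E : ℚ_q]` -/

/-- The index set of a chosen `ℤ_q`-basis of `𝒪`. -/
abbrev Idx : Type := Module.Free.ChooseBasisIndex ℤ_[q] (intRing q E)

/-- Coordinates in the chosen basis. -/
def coordEquiv : intRing q E ≃ₗ[ℤ_[q]] (Idx q E → ℤ_[q]) :=
  (Module.Free.chooseBasis ℤ_[q] (intRing q E)).equivFun

theorem coordEquiv_natCast_mul (n : ℕ) (x : intRing q E) :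
    coordEquiv q E ((n : intRing q E) * x) = n • coordEquiv q E x := by
  rw [← nsmul_eq_mul, map_nsmul]

/-- Reduction modulo `q` in coordinates. -/
def redInt : intRing q E →+ (Idx q E → ZMod q) where
  toFun x i := PadicInt.toZMod (coordEquiv q E x i)
  map_zero' := by
    funext i
    simp
  map_add' x y := by
    funext i
    simp

theorem redInt_apply (x : intRing q E) (i : Idx q E) :
    redInt q E x i = PadicInt.toZMod (coordEquiv q E x i) := rfl

theorem redInt_surjective : Function.Surjective (redInt q E) := by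
  intro g
  have hs : ∀ i, ∃ c : ℤ_[q], PadicInt.toZMod c = g i := fun i =>
    ZMod.ringHom_surjective PadicInt.toZMod (g i)
  choose c hc using hs
  refine ⟨(coordEquiv q E).symm c, ?_⟩
  funext i
  rw [redInt_apply, LinearEquiv.apply_symm_apply, hc]

theorem ker_redInt :
    (redInt q E).ker = (Ideal.span {(q : intRing q E)}).toAddSubgroup := by
  ext x
  rw [AddMonoidHom.mem_ker, Submodule.mem_toAddSubgroup, Ideal.mem_span_singleton']
  constructor
  · intro h
    have h1 : ∀ i, ∃ w : ℤ_[q], coordEquiv q E x i = (q : ℤ_[q]) * w := fun i =>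
      (Fermat.Agent.PT.GLOB.LamIndex5.toZMod_eq_zero_iff q _).mp (congrFun h i)
    choose w hw using h1
    refine ⟨(coordEquiv q E).symm w, ?_⟩
    apply (coordEquiv q E).injective
    rw [mul_comm, coordEquiv_natCast_mul, LinearEquiv.apply_symm_apply]
    funext i
    rw [Pi.smul_apply, nsmul_eq_mul, hw i]
  · rintro ⟨y, rfl⟩
    funext i
    rw [redInt_apply, mul_comm, coordEquiv_natCast_mul, Pi.smul_apply, nsmul_eq_mul, map_mul,
      map_natCast, ZMod.natCast_self, zero_mul]
    rfl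

theorem finrank_intRing : Module.finrank ℤ_[q] (intRing q E) = Module.finrank ℚ_[q] E :=
  IsIntegralClosure.rank ℤ_[q] ℚ_[q] E (intRing q E)

/-- `#(𝒪 / q 𝒪) = q ^ [E : ℚ_q]`. -/
theorem card_quotient_intRing :
    Nat.card (intRing q E ⧸ Ideal.span {(q : intRing q E)}) = q ^ Module.finrank ℚ_[q] E := by
  have h1 : Nat.card (intRing q E ⧸ Ideal.span {(q : intRing q E)}) =
      (Ideal.span {(q : intRing q E)}).toAddSubgroup.index := rfl
  rw [h1, ← ker_redInt, AddSubgroup.index_ker,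
    AddMonoidHom.range_eq_top.mpr (redInt_surjective q E),
    Nat.card_congr (AddSubgroup.topEquiv (G := Idx q E → ZMod q)).toEquiv, Nat.card_pi]
  simp only [Nat.card_zmod, Finset.prod_const, Finset.card_univ]
  rw [← finrank_intRing, Module.finrank_eq_card_chooseBasisIndex]

instance finite_quotient_intRing : Finite (intRing q E ⧸ Ideal.span {(q : intRing q E)}) := by
  apply Nat.finite_of_card_ne_zero
  rw [card_quotient_intRing]
  exact pow_ne_zero _ (Fact.out : q.Prime).ne_zero

/-! ### The units of `𝒪` -/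

/-- `𝒪ˣ → Eˣ`. -/
def unitsIncl : (intRing q E)ˣ →* Eˣ := Units.map ((intRing q E).val : intRing q E →* E)

theorem coe_unitsIncl (u : (intRing q E)ˣ) : ((unitsIncl q E u : Eˣ) : E) = ((u : intRing q E) : E) :=
  rfl

theorem unitsIncl_injective : Function.Injective (unitsIncl q E) := by
  intro u v h
  apply Units.ext
  apply Subtype.ext
  have := congrArg (fun x : Eˣ => (x : E)) h
  simpa [coe_unitsIncl] using this

theorem range_unitsIncl : (unitsIncl q E).range = unitGroup q E := by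
  ext x
  constructor
  · rintro ⟨u, rfl⟩
    refine ⟨?_, ?_⟩
    · rw [coe_unitsIncl]; exact (u : intRing q E).2
    · have : ((unitsIncl q E u)⁻¹ : Eˣ) = unitsIncl q E u⁻¹ := (map_inv _ _).symm
      rw [this, coe_unitsIncl]
      exact ((u⁻¹ : (intRing q E)ˣ) : intRing q E).2
  · rintro ⟨h1, h2⟩
    refine ⟨⟨⟨(x : E), h1⟩, ⟨((x⁻¹ : Eˣ) : E), h2⟩, ?_, ?_⟩, ?_⟩
    · apply Subtype.ext
      simp
    · apply Subtype.ext
      simp
    · apply Units.ext
      rfl

/-- `𝒪ˣ ≃* ker ord`. -/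
def unitsEquivKer : (intRing q E)ˣ ≃* (ordHom q E).ker :=
  (MonoidHom.ofInjective (unitsIncl_injective q E)).trans
    (MulEquiv.subgroupCongr ((range_unitsIncl q E).trans (ker_ordHom q E).symm))

theorem index_powRange_mulInt (p : ℕ) [NeZero p] :
    (powMonoidHom p : Multiplicative ℤ →* Multiplicative ℤ).range.index = p := by
  rw [index_powRange_congr p (MulEquiv.funUnique Unit (Multiplicative ℤ)),
    index_powRange_pi Unit p]
  simp

theorem pow_eq_one_mulInt (p : ℕ) (hp : p ≠ 0) (z : Multiplicative ℤ) (hz : z ^ p = 1) : z = 1 := by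
  have h2 : p • Multiplicative.toAdd z = 0 := by
    rw [← toAdd_pow, hz]; rfl
  rw [nsmul_eq_mul] at h2
  have h3 : Multiplicative.toAdd z = 0 := by
    rcases mul_eq_zero.mp h2 with h | h
    · exact absurd (by exact_mod_cast h) hp
    · exact h
  exact toAdd_eq_zero.mp h3

/-- **Index of the `p`-th powers in `Eˣ`** for a `q`-adic field `E` and an odd prime `p`:
`[Eˣ : Eˣ^p] = p · (q^[E:ℚ_q] if q = p) · #μ_p(E)`. -/
theorem index_powRange_qadic {p : ℕ} (hp : p.Prime) (hp2 : p ≠ 2) :
    (powMonoidHom p : Eˣ →* Eˣ).range.index =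
      p * (if q = p then q ^ Module.finrank ℚ_[q] E else 1) *
        Nat.card (powMonoidHom p : Eˣ →* Eˣ).ker := by
  have : NeZero p := ⟨hp.ne_zero⟩
  have htf := pow_eq_one_mulInt p hp.ne_zero
  rw [index_powRange_of_exact p (ordHom q E) (ordHom_surjective q E) htf,
    card_powKer_of_exact p (ordHom q E) htf,
    index_powRange_congr p (unitsEquivKer q E), card_powKer_congr p (unitsEquivKer q E),
    index_powRange_mulInt,
    index_powRange_units (Λ := intRing q E) q hp hp2 Fact.out (natCast_q_regular q E),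
    card_quotient_intRing]
  ring

include q in
/-- The `p`-torsion of `Eˣ` is finite. -/
theorem finite_powKer_qadic {p : ℕ} (hp : p.Prime) (hp2 : p ≠ 2) :
    Finite (powMonoidHom p : Eˣ →* Eˣ).ker := by
  have := finite_powKer_units (Λ := intRing q E) q hp hp2 Fact.out (natCast_q_regular q E)
  apply Nat.finite_of_card_ne_zero
  rw [card_powKer_of_exact p (ordHom q E) (pow_eq_one_mulInt p hp.ne_zero),
    card_powKer_congr p (unitsEquivKer q E)]
  exact Nat.card_pos.ne'

include q in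
/-- The `p`-th powers have finite index in `Eˣ`. -/
theorem index_powRange_qadic_ne_zero {p : ℕ} (hp : p.Prime) (hp2 : p ≠ 2) :
    (powMonoidHom p : Eˣ →* Eˣ).range.index ≠ 0 := by
  have := finite_powKer_qadic q E hp hp2
  rw [index_powRange_qadic q E hp hp2]
  refine mul_ne_zero (mul_ne_zero hp.ne_zero ?_) Nat.card_pos.ne'
  split_ifs
  · exact pow_ne_zero _ (Fact.out : q.Prime).ne_zero
  · exact one_ne_zero

/-! ### The case `E = ℚ_p` -/

section Qp

variable (p : ℕ) [hp : Fact p.Prime]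

/-- `ℤ_p` has no nontrivial `p`-th roots of unity (`p` odd). -/
theorem padicInt_eq_one_of_pow_eq_one (hp2 : p ≠ 2) (u : ℤ_[p]ˣ) (hu : u ^ p = 1) : u = 1 := by
  have hc : IsAdicComplete (Ideal.span {(p : ℤ_[p])}) ℤ_[p] := by
    rw [← PadicInt.maximalIdeal_eq_span_p]
    infer_instance
  have hreg : ∀ x : ℤ_[p], (p : ℤ_[p]) * x = 0 → x = 0 := by
    intro x hx
    rcases mul_eq_zero.1 hx with h | h
    · exact absurd (by exact_mod_cast h) hp.out.ne_zero
    · exact h
  refine eq_one_of_pow_eq_one (Λ := ℤ_[p]) p hp.out hp2 hp.out hreg u ?_ hu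
  rw [mem_U_one, ← PadicInt.maximalIdeal_eq_span_p, ← PadicInt.ker_toZMod, RingHom.mem_ker,
    map_sub, map_one, sub_eq_zero]
  have h1 : (PadicInt.toZMod (u : ℤ_[p])) ^ p = 1 := by
    rw [← map_pow, ← Units.val_pow_eq_pow_val, hu, Units.val_one, map_one]
  rwa [ZMod.pow_card] at h1

/-- `ℚ_p` has no nontrivial `p`-th roots of unity (`p` odd). -/
theorem padic_eq_one_of_pow_eq_one (hp2 : p ≠ 2) (x : ℚ_[p]ˣ) (hx : x ^ p = 1) : x = 1 := by
  have hn : ‖(x : ℚ_[p])‖ = 1 := by
    have h1 : ‖(x : ℚ_[p])‖ ^ p = 1 := by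
      rw [← norm_pow, ← Units.val_pow_eq_pow_val, hx, Units.val_one, norm_one]
    exact (pow_eq_one_iff_of_nonneg (norm_nonneg _) hp.out.ne_zero).1 h1
  let u : ℤ_[p]ˣ := PadicInt.mkUnits hn
  have hu : ((u : ℤ_[p]) : ℚ_[p]) = x := rfl
  have hup : u ^ p = 1 := by
    apply Units.ext
    apply Subtype.ext
    rw [Units.val_pow_eq_pow_val, PadicInt.coe_pow, hu, ← Units.val_pow_eq_pow_val, hx]
    rfl
  have h1 := padicInt_eq_one_of_pow_eq_one p hp2 u hup
  apply Units.ext
  rw [← hu, h1]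
  rfl

theorem card_powKer_padic (hp2 : p ≠ 2) :
    Nat.card (powMonoidHom p : ℚ_[p]ˣ →* ℚ_[p]ˣ).ker = 1 := by
  rw [Nat.card_eq_one_iff_unique]
  refine ⟨⟨fun a b => ?_⟩, ⟨1⟩⟩
  apply Subtype.ext
  rw [padic_eq_one_of_pow_eq_one p hp2 a.1 a.2, padic_eq_one_of_pow_eq_one p hp2 b.1 b.2]

/-- **`[ℚ_pˣ : ℚ_pˣ^p] = p²`** for an odd prime `p`. -/
theorem index_powRange_padic (hp2 : p ≠ 2) :
    (powMonoidHom p : ℚ_[p]ˣ →* ℚ_[p]ˣ).range.index = p ^ 2 := by
  rw [index_powRange_qadic p ℚ_[p] hp.out hp2, if_pos rfl, card_powKer_padic p hp2,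
    Module.finrank_self]
  ring

end Qp

end

end Fermat.Agent.TW.LOC.PowIndexLoc4
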