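/-
Programme T (S56, Taylor–Wiles primes), chapter LOC, item L4 (Kummer theory), part 3 — helper4.

`H¹(Γ_q, 𝔽_p(ω̄)) ≅ ℚ_qˣ / p` AND THE COUNT `#H¹(Γ_p, k(ω̄)) = (#k)²`.

`muA q p = Mu1.muRep (chiq q p) : Rep (ZMod p) (Gq q)` (`ZMod p` with the mod `p` cyclotomic action).

* `iota q : ℚ_[q]ˣ →* Ωˣ`, `exists_iota_eq` (Galois descent), `root q p` (a chosen `p`-th root);
  `mem_cocycles₁_muA_iff`, `mem_coboundaries₁_muA_iff` (raw form of cocycles of `muA`);
* `kumZ q p x : Z1 (levelLoc q) (muA q p)` (Kummer cocycle of `x ∈ ℚ_qˣ`),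
  `kumHom q p : ℚ_[q]ˣ →* Multiplicative (H1 (levelLoc q) (muA q p))`, `ker_kumHom` (= `p`-th powers),
  `kumHom_surjective` (Hilbert 90), **`kumEquiv q p : ℚ_[q]ˣ ⧸ (powMonoidHom p).range ≃*
  Multiplicative (H1 (levelLoc q) (muA q p))`**, `card_H1_muA`;
* `card_H1_muA_self p (hp2 : p ≠ 2) : Nat.card (H1 (levelLoc p) (muA p p)) = p ^ 2`;
* `card_H1_of_equiv_pi` : `H¹` of a finite power (`M ≅ A^ι` equivariantly ⇒ `#H¹(M) = #H¹(A)^#ι`,
  via `piH1` bijective);
* `card_H1_coeff` : `#H¹(Γ_q, k(ω̄)) = #H¹(Γ_q, 𝔽_p(ω̄)) ^ [k : 𝔽_p]`;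
* **`card_H1_cyclo p N e (hp2 : p ≠ 2) (hfree : ∀ n : N, ∃! a : k, a • e = n)
    (hρ : ∀ g, N.ρ g e = algebraMap (ZMod p) k (chiq p p g : ZMod p) • e) :
    Nat.card (H1 (levelLoc p) N) = Nat.card k ^ 2`** and `finite_H1_cyclo`
  (`k` a finite commutative `ZMod p`-algebra, `N : Rep k (Gq p)`): the input of L5 (strict ordinary
  condition at `p`).
-/
import Mathlib
import Fermat.Agent.TW.LOC.KummerRaw4
import Fermat.Agent.TW.LOC.PowIndexLoc4
import Fermat.Agent.TW.DEF.Mu1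
import Fermat.Agent.TW.DEF.ScalarRes8
import Fermat.Agent.PT.PRO.UnitsLocDiv9

set_option autoImplicit false
set_option linter.unusedSectionVars false
set_option linter.style.haveILetI false

open groupCohomology
open Fermat.Agent.PT.PRO Fermat.Agent.PT.PRO.LevelCoh28
open Fermat.Agent.PT.GLUE.Objects21
open Fermat.Agent.TW.LOC.Defs2 Fermat.Agent.TW.LOC.CupDuality2 Fermat.Agent.TW.LOC.KummerRaw4
open Fermat.Agent.TW.DEF.Mu1

namespace Fermat.Agent.TW.LOC.KummerCard4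

noncomputable section

variable (q : ℕ) [Fact q.Prime] (p : ℕ) [Fact p.Prime]

local notation "Ω" => PadicAlgCl q

local instance isGaloisPadicK4 : IsGalois ℚ_[q] (PadicAlgCl q) :=
  IsAlgClosure.isGalois ℚ_[q] (PadicAlgCl q)

/-- `𝔽_p(ω̄)` as a `Γ_q`-module. -/
abbrev muA : Rep.{0} (ZMod p) (Gq q) := muRep (chiq q p)

theorem isDiscrete_muA : IsDiscrete (levelLoc q).sets (muA q p) :=
  isDiscrete_muRep _ ⟨zetaLevel q p, zetaLevel_mem q p, fun _ hs => chiq_eq_one_of_mem q p hs⟩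

/-! ### `ℚ_qˣ ⊆ Ωˣ` -/

/-- `ℚ_qˣ → Ωˣ`. -/
def iota : ℚ_[q]ˣ →* Ωˣ := Units.map ((algebraMap ℚ_[q] Ω : ℚ_[q] →+* Ω) : ℚ_[q] →* Ω)

theorem coe_iota (x : ℚ_[q]ˣ) : ((iota q x : Ωˣ) : Ω) = algebraMap ℚ_[q] Ω (x : ℚ_[q]) := rfl

theorem iota_injective : Function.Injective (iota q) := by
  intro x y h
  apply Units.ext
  apply (algebraMap ℚ_[q] Ω).injective
  rw [← coe_iota, ← coe_iota, h]

theorem smul_iota (g : Gq q) (x : ℚ_[q]ˣ) : g • iota q x = iota q x := by
  apply Units.ext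
  exact g.commutes (x : ℚ_[q])

theorem exists_iota_eq {y : Ωˣ} (hy : ∀ g : Gq q, g • y = y) : ∃ x : ℚ_[q]ˣ, iota q x = y := by
  have h1 : (y : Ω) ∈ Set.range (algebraMap ℚ_[q] Ω) :=
    (InfiniteGalois.mem_range_algebraMap_iff_fixed (k := ℚ_[q]) (K := Ω) (y : Ω)).2
      fun g => congrArg (fun u : Ωˣ => (u : Ω)) (hy g)
  obtain ⟨a, ha⟩ := h1
  have ha0 : a ≠ 0 := by
    rintro rfl
    rw [map_zero] at ha
    exact y.ne_zero ha.symm
  exact ⟨Units.mk0 a ha0, Units.ext ha⟩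

/-- A chosen `p`-th root. -/
def root (y : Ωˣ) : Ωˣ :=
  (Fermat.Agent.PT.PRO.UnitsLocDiv9.exists_pow_eq q (Fact.out : p.Prime).pos y).choose

theorem root_pow (y : Ωˣ) : root q p y ^ p = y :=
  (Fermat.Agent.PT.PRO.UnitsLocDiv9.exists_pow_eq q (Fact.out : p.Prime).pos y).choose_spec

/-! ### Cocycles of `𝔽_p(ω̄)` in raw form -/

theorem mem_cocycles₁_muA_iff (c : Gq q → ZMod p) :
    c ∈ cocycles₁ (muA q p) ↔ ∀ g h, c (g * h) = c g + (chiq q p g : ZMod p) * c h := by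
  rw [mem_cocycles₁_iff]
  constructor
  · intro h g g'
    rw [h g g', add_comm]
    rfl
  · intro h g g'
    rw [h g g', add_comm]
    rfl

theorem mem_coboundaries₁_muA_iff (c : Gq q → ZMod p) :
    c ∈ coboundaries₁ (muA q p) ↔ ∃ a : ZMod p, ∀ g, c g = (chiq q p g : ZMod p) * a - a := by
  constructor
  · rintro ⟨a, rfl⟩
    exact ⟨a, fun g => by rw [d₀₁_hom_apply]; rfl⟩
  · rintro ⟨a, ha⟩
    refine ⟨a, ?_⟩
    funext g
    rw [d₀₁_hom_apply, ha g]
    rfl

/-- The Kummer cocycle of a `β` with `β ^ p ∈ ℚ_q`. -/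
theorem kumFun_mem_Z1 {β : Ωˣ} (hβ : ∀ g : Gq q, g • β ^ p = β ^ p) :
    kumFun q p β ∈ Z1 (levelLoc q) (muA q p) := by
  rw [mem_Z1_iff]
  refine ⟨(mem_cocycles₁_muA_iff q p _).2 fun g h => kumFun_mul q p (hβ g) (hβ h), ?_⟩
  exact (LevelCompare13.isLevel₁_iff _).2 (isLevel₁_kumFun q p β)

theorem smul_root_pow (x : ℚ_[q]ˣ) (g : Gq q) :
    g • root q p (iota q x) ^ p = root q p (iota q x) ^ p := by
  rw [root_pow, smul_iota]

/-- The Kummer cocycle of `x ∈ ℚ_qˣ`. -/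
def kumZ (x : ℚ_[q]ˣ) : ↥(Z1 (levelLoc q) (muA q p)) :=
  ⟨kumFun q p (root q p (iota q x)), kumFun_mem_Z1 q p (smul_root_pow q p x)⟩

/-- Two `p`-th roots of the same element give cohomologous Kummer cocycles. -/
theorem kumFun_sub_mem_coboundaries {β β' : Ωˣ} (hβ : ∀ g : Gq q, g • β ^ p = β ^ p)
    (h : β ^ p = β' ^ p) : kumFun q p β - kumFun q p β' ∈ coboundaries₁ (muA q p) := by
  have h1 : (β / β') ^ p = 1 := by rw [div_pow, h, div_self']
  obtain ⟨a, ha⟩ := exists_jm_eq q p h1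
  rw [mem_coboundaries₁_muA_iff]
  refine ⟨a, fun g => ?_⟩
  have hβ' : g • β' ^ p = β' ^ p := by rw [← h]; exact hβ g
  have hj : g • jm q p a ^ p = jm q p a ^ p := by rw [jm_pow, smul_one]
  have h2 : β = β' * jm q p a := by rw [ha, mul_div_cancel]
  rw [Pi.sub_apply]
  conv_lhs => rw [h2]
  rw [kumFun_mul_left q p hβ' hj, kumFun_jm, add_sub_cancel_left]

/-! ### The Kummer isomorphism `ℚ_qˣ / p ≃ H¹(Γ_q, 𝔽_p(ω̄))` -/

theorem kumZ_mul_sub (x y : ℚ_[q]ˣ) :
    ((kumZ q p (x * y) - (kumZ q p x + kumZ q p y) : ↥(Z1 (levelLoc q) (muA q p))) : Gq q → ZMod p) ∈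
      coboundaries₁ (muA q p) := by
  have h1 : ((kumZ q p (x * y) - (kumZ q p x + kumZ q p y) : ↥(Z1 (levelLoc q) (muA q p))) :
      Gq q → ZMod p) = kumFun q p (root q p (iota q (x * y))) -
        kumFun q p (root q p (iota q x) * root q p (iota q y)) := by
    funext g
    have : kumFun q p (root q p (iota q x) * root q p (iota q y)) g =
        kumFun q p (root q p (iota q x)) g + kumFun q p (root q p (iota q y)) g :=
      kumFun_mul_left q p (smul_root_pow q p x g) (smul_root_pow q p y g)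
    rw [Pi.sub_apply, this]
    rfl
  rw [h1]
  refine kumFun_sub_mem_coboundaries q p (smul_root_pow q p (x * y)) ?_
  rw [mul_pow, root_pow, root_pow, root_pow, map_mul]

/-- The Kummer map `ℚ_qˣ → H¹(Γ_q, 𝔽_p(ω̄))`. -/
def kumHom : ℚ_[q]ˣ →* Multiplicative (H1 (levelLoc q) (muA q p)) where
  toFun x := Multiplicative.ofAdd (H1mk (levelLoc q) (muA q p) (kumZ q p x))
  map_one' := by
    have h := kumZ_mul_sub q p 1 1
    rw [← H1mk_eq_zero_iff, map_sub, map_add, mul_one, sub_add_cancel_left, neg_eq_zero] at h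
    rw [h]
    rfl
  map_mul' x y := by
    have h := kumZ_mul_sub q p x y
    rw [← H1mk_eq_zero_iff, map_sub, sub_eq_zero] at h
    rw [h, map_add]
    rfl

theorem kumHom_apply (x : ℚ_[q]ˣ) :
    Multiplicative.toAdd (kumHom q p x) = H1mk (levelLoc q) (muA q p) (kumZ q p x) := rfl

/-- The kernel of the Kummer map is the group of `p`-th powers. -/
theorem ker_kumHom : (kumHom q p).ker = (powMonoidHom p : ℚ_[q]ˣ →* ℚ_[q]ˣ).range := by
  ext x
  rw [MonoidHom.mem_ker]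
  have h0 : kumHom q p x = 1 ↔ H1mk (levelLoc q) (muA q p) (kumZ q p x) = 0 := Iff.rfl
  rw [h0, H1mk_eq_zero_iff, mem_coboundaries₁_muA_iff]
  have h1 := kumFun_coboundary_iff q p ⊤ (β := root q p (iota q x))
    (fun n _ => smul_root_pow q p x n)
  constructor
  · rintro ⟨a, ha⟩
    obtain ⟨γ, hγ, hγp⟩ := h1.1 ⟨a, fun n _ => ha n⟩
    obtain ⟨y, rfl⟩ := exists_iota_eq q (fun g => hγ g (Subgroup.mem_top g))
    refine ⟨y, ?_⟩
    apply iota_injective q
    rw [powMonoidHom_apply, map_pow, hγp, root_pow]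
  · rintro ⟨y, rfl⟩
    obtain ⟨a, ha⟩ := h1.2 ⟨iota q y, fun n _ => smul_iota q n y, by
      rw [root_pow, powMonoidHom_apply, map_pow]⟩
    exact ⟨a, fun g => ha g (Subgroup.mem_top g)⟩

/-- The Kummer map is surjective (Hilbert 90). -/
theorem kumHom_surjective : Function.Surjective (kumHom q p) := by
  intro t
  obtain ⟨c, hc⟩ := H1mk_surjective (levelLoc q) (muA q p) (Multiplicative.toAdd t)
  obtain ⟨hc1, hc2⟩ := (mem_Z1_iff (levelLoc q) (muA q p) _).1 c.2
  obtain ⟨β, hβ⟩ := exists_isKumRep q p ⊤ (c : Gq q → ZMod p)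
    ((LevelCompare13.isLevel₁_iff _).1 hc2)
    (fun n _ n' _ => (mem_cocycles₁_muA_iff q p _).1 hc1 n n')
  have hβfix : ∀ g : Gq q, g • β ^ p = β ^ p := fun g => hβ.1 g (Subgroup.mem_top g)
  obtain ⟨x, hx⟩ := exists_iota_eq q hβfix
  refine ⟨x, ?_⟩
  apply Multiplicative.toAdd.injective
  rw [kumHom_apply, ← hc, ← sub_eq_zero, ← map_sub, H1mk_eq_zero_iff]
  have h1 : ((kumZ q p x - c : ↥(Z1 (levelLoc q) (muA q p))) : Gq q → ZMod p) =
      kumFun q p (root q p (iota q x)) - kumFun q p β := by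
    funext g
    rw [Pi.sub_apply, ← hβ.2 g (Subgroup.mem_top g)]
    rfl
  rw [h1]
  exact kumFun_sub_mem_coboundaries q p (smul_root_pow q p x) (by rw [root_pow, hx])

/-- **Kummer theory for `ℚ_q`**: `ℚ_qˣ / (ℚ_qˣ)^p ≃ H¹(Γ_q, 𝔽_p(ω̄))`. -/
def kumEquiv : ℚ_[q]ˣ ⧸ (powMonoidHom p : ℚ_[q]ˣ →* ℚ_[q]ˣ).range ≃*
    Multiplicative (H1 (levelLoc q) (muA q p)) :=
  (QuotientGroup.quotientMulEquivOfEq (ker_kumHom q p).symm).trans
    (QuotientGroup.quotientKerEquivOfSurjective (kumHom q p) (kumHom_surjective q p))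

theorem card_H1_muA :
    Nat.card (H1 (levelLoc q) (muA q p)) = (powMonoidHom p : ℚ_[q]ˣ →* ℚ_[q]ˣ).range.index := by
  rw [Subgroup.index, Nat.card_congr (kumEquiv q p).toEquiv]
  exact Nat.card_congr Multiplicative.toAdd

/-! ### `q = p` -/

section Qp

variable (p : ℕ) [Fact p.Prime]

/-- **`#H¹(Γ_p, 𝔽_p(ω̄)) = p²`** (`p` odd). -/
theorem card_H1_muA_self (hp2 : p ≠ 2) : Nat.card (H1 (levelLoc p) (muA p p)) = p ^ 2 := by
  rw [card_H1_muA, Fermat.Agent.TW.LOC.PowIndexLoc4.index_powRange_padic p hp2]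

theorem finite_H1_muA_self (hp2 : p ≠ 2) : Finite (H1 (levelLoc p) (muA p p)) := by
  apply Nat.finite_of_card_ne_zero
  rw [card_H1_muA_self p hp2]
  exact pow_ne_zero _ (Fact.out : p.Prime).ne_zero

end Qp

/-! ### `H¹` of a finite power -/

section Power

variable {F G : Type} [CommRing F] [Group G] (𝓑 : LevelBasis G) (A M : Rep.{0} F G)
  {ι : Type} [Fintype ι] [DecidableEq ι]
  (E : M ≃ₗ[F] (ι → A)) (hE : ∀ g m i, E (M.ρ g m) i = A.ρ g (E m i))

/-- The `i`-th coordinate. -/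
def prI (i : ι) : M →ₗ[F] A := (LinearMap.proj i).comp E.toLinearMap

/-- The `i`-th inclusion. -/
def inI (i : ι) : A →ₗ[F] M := E.symm.toLinearMap.comp (LinearMap.single F (fun _ : ι => A) i)

theorem prI_apply (i : ι) (m : M) : prI A M E i m = E m i := rfl

theorem E_inI (i : ι) (a : A) : E (inI A M E i a) = Pi.single i a := by
  unfold inI
  simp

include hE in
theorem prI_ρ (i : ι) (g : G) (m : M) : prI A M E i (M.ρ g m) = A.ρ g (prI A M E i m) :=
  hE g m i

include hE in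
theorem inI_ρ (i : ι) (g : G) (a : A) : inI A M E i (A.ρ g a) = M.ρ g (inI A M E i a) := by
  apply E.injective
  funext j
  rw [E_inI, hE, E_inI]
  by_cases h : j = i
  · subst h; simp
  · simp [Pi.single_eq_of_ne h]

theorem sum_inI_prI (m : M) : ∑ i, inI A M E i (prI A M E i m) = m := by
  apply E.injective
  rw [map_sum]
  funext j
  rw [Finset.sum_apply]
  simp only [E_inI, prI_apply]
  rw [Finset.sum_eq_single j]
  · simp
  · intro i _ hij
    exact Pi.single_eq_of_ne hij.symm _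
  · intro h; exact absurd (Finset.mem_univ j) h

/-- `H¹(M) → ∏ H¹(A)`. -/
def piH1 : H1 𝓑 M →ₗ[F] (ι → H1 𝓑 A) :=
  LinearMap.pi fun i => mapH1 (𝓑 := 𝓑) (prI A M E i) (prI_ρ A M E hE i)

include hE in
theorem piH1_injective : Function.Injective (piH1 𝓑 A M E hE) := by
  rw [← LinearMap.ker_eq_bot, eq_bot_iff]
  intro x hx
  rw [Submodule.mem_bot]
  obtain ⟨c, rfl⟩ := H1mk_surjective 𝓑 M x
  rw [LinearMap.mem_ker] at hx
  have h1 : ∀ i, ∃ a : A, (d₀₁ A).hom a = prI A M E i ∘ (c : G → M) := by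
    intro i
    have := congrFun hx i
    change mapH1 (𝓑 := 𝓑) (prI A M E i) (prI_ρ A M E hE i) (H1mk 𝓑 M c) = 0 at this
    rw [mapH1_mk, H1mk_eq_zero_iff] at this
    exact this
  choose a ha using h1
  rw [H1mk_eq_zero_iff]
  refine ⟨E.symm a, ?_⟩
  funext g
  apply E.injective
  funext i
  have := congrFun (ha i) g
  rw [d₀₁_hom_apply] at this ⊢
  rw [Function.comp_apply, prI_apply] at this
  rw [← this, map_sub, Pi.sub_apply, hE, LinearEquiv.apply_symm_apply]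

include hE in
theorem piH1_surjective : Function.Surjective (piH1 𝓑 A M E hE) := by
  intro y
  have h1 : ∀ i, ∃ c : ↥(Z1 𝓑 A), H1mk 𝓑 A c = y i := fun i => H1mk_surjective 𝓑 A (y i)
  choose c hc using h1
  refine ⟨H1mk 𝓑 M (∑ i, mapZ1 (𝓑 := 𝓑) (inI A M E i) (inI_ρ A M E hE i) (c i)), ?_⟩
  funext j
  change mapH1 (𝓑 := 𝓑) (prI A M E j) (prI_ρ A M E hE j) (H1mk 𝓑 M _) = y j
  rw [mapH1_mk, ← hc j]
  congr 1
  apply Subtype.ext
  funext g
  change prI A M E j (((∑ i, mapZ1 (𝓑 := 𝓑) (inI A M E i) (inI_ρ A M E hE i) (c i) :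
    ↥(Z1 𝓑 M)) : G → M) g) = _
  have h2 : ((∑ i, mapZ1 (𝓑 := 𝓑) (inI A M E i) (inI_ρ A M E hE i) (c i) : ↥(Z1 𝓑 M)) :
      G → M) g = ∑ i, inI A M E i ((c i : G → A) g) := by
    rw [Submodule.coe_sum, Finset.sum_apply]
    rfl
  rw [h2, map_sum, Finset.sum_eq_single j]
  · rw [prI_apply, E_inI, Pi.single_eq_same]
  · intro i _ hij
    rw [prI_apply, E_inI, Pi.single_eq_of_ne hij.symm]
  · intro h; exact absurd (Finset.mem_univ j) h

include hE in
/-- `#H¹(M) = #H¹(A) ^ #ι` for `M ≅ A^ι`. -/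
theorem card_H1_of_equiv_pi : Nat.card (H1 𝓑 M) = Nat.card (H1 𝓑 A) ^ Fintype.card ι := by
  rw [Nat.card_congr (Equiv.ofBijective _ ⟨piH1_injective 𝓑 A M E hE, piH1_surjective 𝓑 A M E hE⟩),
    Nat.card_pi, Finset.prod_const, Finset.card_univ]

end Power

/-! ### Coefficients `k(ω̄)`, `k` a finite `𝔽_p`-algebra -/

section Coeff

open Fermat.Agent.TW.DEF.ScalarRes8

variable {q}
variable {k : Type} [CommRing k] [Finite k] [Algebra (ZMod p) k]
  (N : Rep.{0} k (Gq q)) (e : N)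
  (hfree : ∀ n : N, ∃! a : k, a • e = n)
  (hρ : ∀ g : Gq q, N.ρ g e = algebraMap (ZMod p) k (chiq q p g : ZMod p) • e)

/-- The coordinate of `n ∈ N = k e`. -/
def coef (n : N) : k := (hfree n).choose

theorem coef_smul (n : N) : coef N e hfree n • e = n := (hfree n).choose_spec.1

theorem coef_eq {n : N} {a : k} (h : a • e = n) : coef N e hfree n = a :=
  ((hfree n).choose_spec.2 a h).symm

theorem coef_smul_e (a : k) : coef N e hfree (a • e) = a := coef_eq N e hfree rfl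

theorem coef_add (m n : N) : coef N e hfree (m + n) = coef N e hfree m + coef N e hfree n :=
  coef_eq N e hfree (by rw [add_smul, coef_smul, coef_smul])

theorem coef_smul' (a : k) (n : N) : coef N e hfree (a • n) = a * coef N e hfree n :=
  coef_eq N e hfree (by rw [mul_smul, coef_smul])

include hρ in
theorem coef_ρ (g : Gq q) (n : N) :
    coef N e hfree (N.ρ g n) = (chiq q p g : ZMod p) • coef N e hfree n := by
  apply coef_eq
  conv_rhs => rw [← coef_smul N e hfree n]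
  rw [map_smul, hρ g, smul_smul, Algebra.smul_def, mul_comm]

/-- A basis of `k` over `𝔽_p`. -/
abbrev bk : Module.Basis (Fin (Module.finrank (ZMod p) k)) (ZMod p) k :=
  Module.finBasis (ZMod p) k

/-- `N ≅ 𝔽_p(ω̄)^d` as `𝔽_p[Γ_q]`-modules. -/
def coordE : (resScalars (ZMod p) N) ≃ₗ[ZMod p]
    (Fin (Module.finrank (ZMod p) k) → muA q p) where
  toFun n := (bk p (k := k)).equivFun (coef N e hfree n)
  map_add' m n := by
    have : coef N e hfree ((m + n : resScalars (ZMod p) N) : N) =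
        coef N e hfree m + coef N e hfree n := coef_add N e hfree m n
    rw [this, map_add]
  map_smul' a n := by
    have : coef N e hfree ((a • n : resScalars (ZMod p) N) : N) = a • coef N e hfree n := by
      rw [resScalars_smul, coef_smul', Algebra.smul_def]
    rw [this, map_smul]
    rfl
  invFun f := ((bk p (k := k)).equivFun.symm f • e : N)
  left_inv n := by
    show ((bk p (k := k)).equivFun.symm ((bk p (k := k)).equivFun (coef N e hfree n)) • e : N) = n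
    rw [LinearEquiv.symm_apply_apply]
    exact coef_smul N e hfree n
  right_inv f := by
    show (bk p (k := k)).equivFun (coef N e hfree ((bk p (k := k)).equivFun.symm f • e)) = f
    rw [coef_smul_e, LinearEquiv.apply_symm_apply]

include hρ in
theorem coordE_ρ (g : Gq q) (n : resScalars (ZMod p) N)
    (i : Fin (Module.finrank (ZMod p) k)) :
    coordE p N e hfree ((resScalars (ZMod p) N).ρ g n) i =
      (muA q p).ρ g (coordE p N e hfree n i) := by
  show (bk p (k := k)).equivFun (coef N e hfree (N.ρ g n)) i =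
    (muA q p).ρ g ((bk p (k := k)).equivFun (coef N e hfree n) i)
  have h := coef_ρ p N e hfree hρ g n
  refine (congrFun (congrArg (bk p (k := k)).equivFun h) i).trans ?_
  rw [map_smul, muRep_ρ_apply]
  rfl

include hfree hρ in
/-- `#H¹(Γ_q, k(ω̄)) = #H¹(Γ_q, 𝔽_p(ω̄)) ^ [k : 𝔽_p]`. -/
theorem card_H1_coeff :
    Nat.card (H1 (levelLoc q) N) =
      Nat.card (H1 (levelLoc q) (muA q p)) ^ Module.finrank (ZMod p) k := by
  rw [Nat.card_congr (h1Equiv (ZMod p) (levelLoc q) N).toEquiv,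
    card_H1_of_equiv_pi (levelLoc q) (muA q p) (resScalars (ZMod p) N) (coordE p N e hfree)
      (coordE_ρ p N e hfree hρ), Fintype.card_fin]

end Coeff

/-! ### The result for `L5`: `#H¹(Γ_p, k(ω̄)) = (#k)²` -/

section Final

variable (p : ℕ) [Fact p.Prime] {k : Type} [CommRing k] [Finite k] [Algebra (ZMod p) k]
  (N : Rep.{0} k (Gq p)) (e : N)

/-- **`#H¹(Γ_p, k(ω̄)) = (#k)²`** for an odd prime `p`, `k` a finite `𝔽_p`-algebra, `N = k e` free
of rank one with `Γ_p` acting through the mod `p` cyclotomic character. -/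
theorem card_H1_cyclo (hp2 : p ≠ 2) (hfree : ∀ n : N, ∃! a : k, a • e = n)
    (hρ : ∀ g : Gq p, N.ρ g e = algebraMap (ZMod p) k (chiq p p g : ZMod p) • e) :
    Nat.card (H1 (levelLoc p) N) = Nat.card k ^ 2 := by
  rw [card_H1_coeff p N e hfree hρ, card_H1_muA_self p hp2,
    Module.natCard_eq_pow_finrank (K := ZMod p) (V := k), Nat.card_zmod, ← pow_mul, ← pow_mul,
    mul_comm]

theorem finite_H1_cyclo (hp2 : p ≠ 2) (hfree : ∀ n : N, ∃! a : k, a • e = n)
    (hρ : ∀ g : Gq p, N.ρ g e = algebraMap (ZMod p) k (chiq p p g : ZMod p) • e) :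
    Finite (H1 (levelLoc p) N) := by
  apply Nat.finite_of_card_ne_zero
  rw [card_H1_cyclo p N e hp2 hfree hρ]
  exact pow_ne_zero _ Nat.card_pos.ne'

end Final

end

end Fermat.Agent.TW.LOC.KummerCard4






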