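/-
Programme T (S56), chapter T/LOC, brick L5 (strict-ordinary condition at `p`), linear algebra.
Owner: helper2.

`OrdLineAlg2`: `2 × 2` linear algebra over a field `k` around a line `k v ⊆ k²`.

* `perp v = (-v₁, v₀)`, the row vector orthogonal to `v`; `eq_smul_perp`, `eq_smul_of_perp`;
* `E0 v = v ⊗ perp v`, a generator of `W₀(v) = Hom(k²/kv, kv) ⊆ sl₂`: `trace_E0`, `E0_ne_zero`,
  `E0_smul`, `eq_smul_E0` (a matrix killing `v` and with image in `k v` is a multiple of `E0 v`);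
* `conj_E0`: if `R v = x v` and `R` acts on `k²/kv` by `z`, then `R (E0 v) R⁻¹ = (x/z) E0 v`;
* `exists_H0`: a trace-zero `H0` with `H0 v = v` such that `R H0 R⁻¹ - H0 ∈ k E0 v` for all such `R`;
* `strictOrd_cocycle`: the infinitesimal computation behind the strict-ordinary condition: if
  `(R + εs)(B₀ + εB₁) = (B₀ + εB₁)(T₀ + εT₁)` with `T₀` upper triangular and `T₁` strictly upper
  triangular then `s R⁻¹ + (R Y R⁻¹ - Y) ∈ k E0 (B₀ e₀)` for `Y = B₁ B₀⁻¹`.
-/
import Mathlib

set_option autoImplicit false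

namespace Fermat.Agent.TW.LOC.OrdLineAlg2

open Matrix

variable {k : Type} [Field k]

/-- The row vector orthogonal to `v`. -/
def perp (v : Fin 2 → k) : Fin 2 → k := ![-v 1, v 0]

@[simp] theorem perp_zero_apply (v : Fin 2 → k) : perp v 0 = -v 1 := rfl

@[simp] theorem perp_one_apply (v : Fin 2 → k) : perp v 1 = v 0 := rfl

theorem perp_dotProduct_self (v : Fin 2 → k) : perp v ⬝ᵥ v = 0 := by
  simp only [dotProduct, Fin.sum_univ_two, perp_zero_apply, perp_one_apply]
  ring

theorem self_dotProduct_perp (v : Fin 2 → k) : v ⬝ᵥ perp v = 0 := by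
  rw [dotProduct_comm, perp_dotProduct_self]

theorem perp_smul (t : k) (v : Fin 2 → k) : perp (t • v) = t • perp v := by
  funext i
  fin_cases i <;> simp [perp]

theorem perp_ne_zero {v : Fin 2 → k} (hv : v ≠ 0) : perp v ≠ 0 := by
  intro h
  apply hv
  funext i
  have h0 := congrFun h 0
  have h1 := congrFun h 1
  simp only [perp_zero_apply, perp_one_apply, Pi.zero_apply, neg_eq_zero] at h0 h1
  fin_cases i
  · exact h1
  · exact h0

/-- A row vector orthogonal to `v ≠ 0` is a multiple of `perp v`. -/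
theorem eq_smul_perp {v w : Fin 2 → k} (hv : v ≠ 0) (h : w ⬝ᵥ v = 0) : ∃ t : k, w = t • perp v := by
  simp only [dotProduct, Fin.sum_univ_two] at h
  by_cases h0 : v 0 = 0
  · have h1 : v 1 ≠ 0 := by
      intro h1
      apply hv
      funext i
      fin_cases i
      · exact h0
      · exact h1
    rw [h0, mul_zero, zero_add] at h
    have hw1 : w 1 = 0 := (mul_eq_zero.1 h).resolve_right h1
    refine ⟨-(w 0 / v 1), ?_⟩
    funext i
    fin_cases i
    · simp only [Fin.zero_eta, Pi.smul_apply, perp_zero_apply, smul_eq_mul]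
      field_simp
    · simp only [Fin.mk_one, Pi.smul_apply, perp_one_apply, smul_eq_mul, h0, mul_zero, hw1]
  · refine ⟨w 1 / v 0, ?_⟩
    funext i
    fin_cases i
    · simp only [Fin.zero_eta, Pi.smul_apply, perp_zero_apply, smul_eq_mul]
      field_simp
      linear_combination h
    · simp only [Fin.mk_one, Pi.smul_apply, perp_one_apply, smul_eq_mul]
      field_simp

/-- A vector `u` with `perp v ⬝ᵥ u = 0` is a multiple of `v`. -/
theorem eq_smul_of_perp {v u : Fin 2 → k} (hv : v ≠ 0) (h : perp v ⬝ᵥ u = 0) :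
    ∃ t : k, u = t • v := by
  have h' : perp u ⬝ᵥ v = 0 := by
    simp only [dotProduct, Fin.sum_univ_two, perp_zero_apply, perp_one_apply] at h ⊢
    linear_combination -h
  obtain ⟨t, ht⟩ := eq_smul_perp hv h'
  refine ⟨t, ?_⟩
  have h0 := congrFun ht 0
  have h1 := congrFun ht 1
  simp only [perp_zero_apply, perp_one_apply, Pi.smul_apply, smul_eq_mul] at h0 h1
  funext i
  fin_cases i
  · simpa using h1
  · simp only [Fin.mk_one, Pi.smul_apply, smul_eq_mul]
    linear_combination -h0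

/-- The generator `v ⊗ perp v` of `Hom(k²/kv, kv)`. -/
def E0 (v : Fin 2 → k) : Matrix (Fin 2) (Fin 2) k := vecMulVec v (perp v)

theorem trace_E0 (v : Fin 2 → k) : (E0 v).trace = 0 := by
  rw [E0, trace_vecMulVec, self_dotProduct_perp]

theorem E0_ne_zero {v : Fin 2 → k} (hv : v ≠ 0) : E0 v ≠ 0 :=
  vecMulVec_ne_zero hv (perp_ne_zero hv)

theorem E0_smul (t : k) (v : Fin 2 → k) : E0 (t • v) = (t * t) • E0 v := by
  rw [E0, E0, perp_smul, smul_vecMulVec, vecMulVec_smul, smul_smul]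

theorem E0_mulVec (v w : Fin 2 → k) : E0 v *ᵥ w = (perp v ⬝ᵥ w) • v := by
  rw [E0, vecMulVec_mulVec, op_smul_eq_smul]

theorem E0_mulVec_self (v : Fin 2 → k) : E0 v *ᵥ v = 0 := by
  rw [E0_mulVec, perp_dotProduct_self, zero_smul]

/-- A matrix killing `v` and with image in `k v` is a multiple of `E0 v`. -/
theorem eq_smul_E0 {v : Fin 2 → k} (hv : v ≠ 0) {Y : Matrix (Fin 2) (Fin 2) k}
    (h1 : Y *ᵥ v = 0) (h2 : perp v ᵥ* Y = 0) : ∃ t : k, Y = t • E0 v := by
  have hrow : ∀ i, ∃ t : k, Y i = t • perp v := fun i =>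
    eq_smul_perp hv (by simpa [mulVec] using congrFun h1 i)
  choose t ht using hrow
  have hY : Y = vecMulVec t (perp v) := by
    ext i j
    rw [vecMulVec_apply]
    have := congrFun (ht i) j
    simpa using this
  have h3 : (perp v ⬝ᵥ t) • perp v = 0 := by
    rw [← vecMul_vecMulVec, ← hY, h2]
  have h4 : perp v ⬝ᵥ t = 0 := by
    rcases smul_eq_zero.1 h3 with h | h
    · exact h
    · exact absurd h (perp_ne_zero hv)
  obtain ⟨s, hs⟩ := eq_smul_of_perp hv h4
  exact ⟨s, by rw [hY, hs, smul_vecMulVec, E0]⟩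

/-- `R (E0 v) R⁻¹ = (x / z) E0 v` if `R v = x v` and `R` induces `z` on `k² / k v`. -/
theorem conj_E0 {v : Fin 2 → k} {R R' : Matrix (Fin 2) (Fin 2) k} {x z : k} (hz : z ≠ 0)
    (hRR' : R * R' = 1) (h1 : R *ᵥ v = x • v) (h2 : perp v ᵥ* R = z • perp v) :
    R * E0 v * R' = (x / z) • E0 v := by
  have h3 : perp v ᵥ* R' = z⁻¹ • perp v := by
    have h4 : (perp v ᵥ* R) ᵥ* R' = perp v := by rw [vecMul_vecMul, hRR', vecMul_one]
    rw [h2, smul_vecMul] at h4
    exact ((inv_smul_eq_iff₀ hz).2 h4.symm).symm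
  rw [E0, mul_vecMulVec, vecMulVec_mul, h1, h3, smul_vecMulVec, vecMulVec_smul, smul_smul,
    div_eq_mul_inv, mul_comm]

/-- The eigenvalue of an invertible matrix on a nonzero vector is nonzero. -/
theorem eigen_ne_zero {v : Fin 2 → k} (hv : v ≠ 0) {R R' : Matrix (Fin 2) (Fin 2) k} {x : k}
    (hR'R : R' * R = 1) (h1 : R *ᵥ v = x • v) : x ≠ 0 := by
  rintro rfl
  apply hv
  have : R' *ᵥ (R *ᵥ v) = v := by rw [mulVec_mulVec, hR'R, one_mulVec]
  rw [h1, zero_smul, mulVec_zero] at this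
  exact this.symm

/-- A trace-zero matrix `H0` with `H0 v = v` which is invariant modulo `k E0 v` under conjugation
by every `R` stabilising the line `k v`. -/
theorem exists_H0 {v : Fin 2 → k} (hv : v ≠ 0) :
    ∃ H0 : Matrix (Fin 2) (Fin 2) k, H0.trace = 0 ∧ H0 *ᵥ v = v ∧
      ∀ (R R' : Matrix (Fin 2) (Fin 2) k) (x : k), R * R' = 1 → R' * R = 1 → R *ᵥ v = x • v →
        ∃ s : k, R * H0 * R' - H0 = s • E0 v := by
  obtain ⟨μ, hμ⟩ : ∃ μ : Fin 2 → k, μ ⬝ᵥ v = 1 := by
    by_cases h0 : v 0 = 0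
    · have h1 : v 1 ≠ 0 := by
        intro h1
        apply hv
        funext i
        fin_cases i
        · exact h0
        · exact h1
      exact ⟨![0, (v 1)⁻¹], by simp [dotProduct, Fin.sum_univ_two, h1]⟩
    · exact ⟨![(v 0)⁻¹, 0], by simp [dotProduct, Fin.sum_univ_two, h0]⟩
  refine ⟨(2 : k) • vecMulVec v μ - 1, ?_, ?_, ?_⟩
  · rw [trace_sub, trace_smul, trace_vecMulVec, dotProduct_comm, hμ, trace_one]
    simp
  · rw [sub_mulVec, smul_mulVec, vecMulVec_mulVec, one_mulVec, hμ]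
    funext i
    simp
    ring
  · intro R R' x hRR' hR'R h1
    have hx : x ≠ 0 := eigen_ne_zero hv hR'R h1
    have h2 : R' *ᵥ v = x⁻¹ • v := by
      have : R' *ᵥ (R *ᵥ v) = v := by rw [mulVec_mulVec, hR'R, one_mulVec]
      rw [h1, mulVec_smul] at this
      exact ((inv_smul_eq_iff₀ hx).2 this.symm).symm
    have h3 : (x • (μ ᵥ* R') - μ) ⬝ᵥ v = 0 := by
      rw [sub_dotProduct, smul_dotProduct, ← dotProduct_mulVec, h2, dotProduct_smul, hμ]
      simp [hx]
    obtain ⟨s, hs⟩ := eq_smul_perp hv h3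
    refine ⟨2 * s, ?_⟩
    have h4 : R * ((2 : k) • vecMulVec v μ - 1) * R' - ((2 : k) • vecMulVec v μ - 1) =
        (2 : k) • vecMulVec v (x • (μ ᵥ* R') - μ) := by
      rw [mul_sub, sub_mul, mul_one, hRR', mul_smul_comm, smul_mul_assoc, mul_vecMulVec,
        vecMulVec_mul, h1, smul_vecMulVec, vecMulVec_sub, vecMulVec_smul, smul_sub]
      abel
    rw [h4, hs, vecMulVec_smul, smul_smul, E0]

/-- **The infinitesimal computation behind the strict-ordinary condition.**  If
`(R + εs)(B₀ + εB₁) = (B₀ + εB₁)(T₀ + εT₁)` with `T₀ = [[x₀, β₀], [0, z₀]]`,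
`T₁ = [[0, β₁], [0, 0]]`, then with `Y = B₁ B₀⁻¹` the matrix `s R⁻¹ + (R Y R⁻¹ - Y)` is a multiple
of `E0 (B₀ e₀)`. -/
theorem strictOrd_cocycle {R R' s B0 B0' B1 : Matrix (Fin 2) (Fin 2) k} {x0 z0 β0 β1 : k}
    (hRR' : R * R' = 1) (hB : B0 * B0' = 1) (hB' : B0' * B0 = 1) (hz0 : z0 ≠ 0)
    (h0 : R * B0 = B0 * !![x0, β0; 0, z0])
    (h1 : s * B0 + R * B1 = B0 * !![0, β1; 0, 0] + B1 * !![x0, β0; 0, z0]) :
    ∃ t : k, s * R' + (R * (B1 * B0') * R' - B1 * B0') = t • E0 (fun i => B0 i 0) := by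
  have hR'R : R' * R = 1 := mul_eq_one_comm.1 hRR'
  -- `B₀ E₀₁ B₀⁻¹` is a multiple of `E0 (B₀ e₀)`
  have hE : ∃ t : k, B0 * !![0, 1; 0, 0] * B0' = t • E0 (fun i => B0 i 0) := by
    have hv : (fun i => B0 i 0) ≠ 0 := by
      intro h
      have h00 : B0 0 0 = 0 := congrFun h 0
      have h10 : B0 1 0 = 0 := congrFun h 1
      have hdet : B0.det = 0 := by rw [det_fin_two, h00, h10]; ring
      have : (B0 * B0').det = 1 := by rw [hB, det_one]
      rw [det_mul, hdet, zero_mul] at this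
      exact zero_ne_one this
    apply eq_smul_E0 hv
    · have : B0' *ᵥ (fun i => B0 i 0) = ![1, 0] := by
        funext i
        fin_cases i
        · have := congrFun (congrFun hB' 0) 0
          simpa [mul_apply, mulVec, dotProduct] using this
        · have := congrFun (congrFun hB' 1) 0
          simpa [mul_apply, mulVec, dotProduct] using this
      rw [← mulVec_mulVec, this, ← mulVec_mulVec]
      have : !![(0 : k), 1; 0, 0] *ᵥ ![1, 0] = 0 := by
        funext i
        fin_cases i <;> simp [mulVec, dotProduct, Fin.sum_univ_two]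
      rw [this, mulVec_zero]
    · have : perp (fun i => B0 i 0) ᵥ* B0 = ![0, B0.det] := by
        funext j
        fin_cases j
        · simp [vecMul, dotProduct, Fin.sum_univ_two]
          ring
        · simp [vecMul, dotProduct, Fin.sum_univ_two, det_fin_two]
          ring
      rw [← vecMul_vecMul, ← vecMul_vecMul, this]
      have : ![(0 : k), B0.det] ᵥ* !![(0 : k), 1; 0, 0] = 0 := by
        funext j
        fin_cases j <;> simp [vecMul, dotProduct, Fin.sum_univ_two]
      rw [this, zero_vecMul]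
  obtain ⟨t, ht⟩ := hE
  refine ⟨β1 / z0 * t, ?_⟩
  -- it suffices to compare after multiplying by the invertible `R B₀` on the right
  have hinj : ∀ X Z : Matrix (Fin 2) (Fin 2) k, X * (R * B0) = Z * (R * B0) → X = Z := by
    intro X Z h
    have h2 : X * (R * B0) * (B0' * R') = Z * (R * B0) * (B0' * R') := by rw [h]
    have h3 : R * B0 * (B0' * R') = 1 := by
      rw [mul_assoc, ← mul_assoc B0, hB, one_mul, hRR']
    rwa [mul_assoc, h3, mul_one, mul_assoc, h3, mul_one] at h2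
  apply hinj
  have hT : B0' * R * B0 = !![x0, β0; 0, z0] := by
    rw [mul_assoc, h0, ← mul_assoc, hB', one_mul]
  have hl : (s * R' + (R * (B1 * B0') * R' - B1 * B0')) * (R * B0) = B0 * !![0, β1; 0, 0] := by
    have e1 : s * R' * (R * B0) = s * B0 := by
      rw [mul_assoc, ← mul_assoc R', hR'R, one_mul]
    have e2 : R * (B1 * B0') * R' * (R * B0) = R * B1 := by
      rw [mul_assoc (R * (B1 * B0')), ← mul_assoc R', hR'R, one_mul, mul_assoc, mul_assoc, hB',
        mul_one]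
    have e3 : B1 * B0' * (R * B0) = B1 * !![x0, β0; 0, z0] := by
      rw [mul_assoc, ← mul_assoc B0', hT]
    rw [add_mul, sub_mul, e1, e2, e3]
    have := h1
    rw [← eq_sub_iff_add_eq] at this
    rw [this]
    abel
  rw [hl, ← smul_smul, ← ht, smul_mul_assoc, mul_assoc (B0 * _), ← mul_assoc B0', hT,
    mul_assoc B0, ← mul_smul_comm]
  congr 1
  ext i j
  fin_cases i <;> fin_cases j <;> simp [hz0]

/-- `perp (B₀ e₀) ᵥ* B₀ = (0, det B₀)`. -/
theorem perp_col_vecMul (B0 : Matrix (Fin 2) (Fin 2) k) :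
    perp (fun i => B0 i 0) ᵥ* B0 = ![0, B0.det] := by
  funext j
  fin_cases j
  · simp [vecMul, dotProduct, Fin.sum_univ_two]
    ring
  · simp [vecMul, dotProduct, Fin.sum_univ_two, det_fin_two]
    ring

/-- If `R B₀ = B₀ T₀` with `T₀` upper triangular, `R` has eigenvalue `x₀` on `B₀ e₀`. -/
theorem mulVec_col_of_tri {R B0 : Matrix (Fin 2) (Fin 2) k} {x0 z0 β0 : k}
    (h0 : R * B0 = B0 * !![x0, β0; 0, z0]) :
    R *ᵥ (fun i => B0 i 0) = x0 • (fun i => B0 i 0) := by
  funext i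
  have := congrFun (congrFun h0 i) 0
  simp only [mul_apply, Fin.sum_univ_two, of_apply, cons_val', cons_val_zero, cons_val_fin_one,
    cons_val_one, mul_zero, add_zero] at this
  simp only [mulVec, dotProduct, Fin.sum_univ_two, Pi.smul_apply, smul_eq_mul]
  rw [this, mul_comm]

/-- If `R B₀ = B₀ T₀` with `T₀` upper triangular, `R` acts by `z₀` on `k² / k B₀ e₀`. -/
theorem perp_vecMul_of_tri {R B0 B0' : Matrix (Fin 2) (Fin 2) k} {x0 z0 β0 : k}
    (hB : B0 * B0' = 1) (h0 : R * B0 = B0 * !![x0, β0; 0, z0]) :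
    perp (fun i => B0 i 0) ᵥ* R = z0 • perp (fun i => B0 i 0) := by
  have h1 : (perp (fun i => B0 i 0) ᵥ* R) ᵥ* B0 = (z0 • perp (fun i => B0 i 0)) ᵥ* B0 := by
    rw [vecMul_vecMul, h0, ← vecMul_vecMul, smul_vecMul, perp_col_vecMul]
    funext j
    fin_cases j <;> simp [vecMul, dotProduct, Fin.sum_univ_two, mul_comm]
  have h2 := congrArg (fun w => w ᵥ* B0') h1
  simp only [vecMul_vecMul, mul_assoc, hB, mul_one, vecMul_one] at h2
  exact h2

/-- The diagonal entries of an invertible upper triangular matrix are nonzero. -/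
theorem tri_diag_ne_zero {R R' B0 B0' : Matrix (Fin 2) (Fin 2) k} {x0 z0 β0 : k}
    (hRR' : R * R' = 1) (hB : B0 * B0' = 1) (hB' : B0' * B0 = 1)
    (h0 : R * B0 = B0 * !![x0, β0; 0, z0]) : x0 ≠ 0 ∧ z0 ≠ 0 := by
  have hT : B0' * R * B0 = !![x0, β0; 0, z0] := by
    rw [mul_assoc, h0, ← mul_assoc, hB', one_mul]
  have h1 : !![x0, β0; 0, z0] * (B0' * R' * B0) = 1 := by
    rw [← hT]
    calc B0' * R * B0 * (B0' * R' * B0) = B0' * (R * (B0 * B0') * R') * B0 := by
          simp only [mul_assoc]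
      _ = 1 := by rw [hB, mul_one, hRR', mul_one, hB']
  have h2 : (!![x0, β0; 0, z0] : Matrix (Fin 2) (Fin 2) k).det * (B0' * R' * B0).det = 1 := by
    rw [← det_mul, h1, det_one]
  have h3 : (!![x0, β0; 0, z0] : Matrix (Fin 2) (Fin 2) k).det = x0 * z0 := by
    rw [det_fin_two_of]
    ring
  rw [h3] at h2
  have h4 : x0 * z0 ≠ 0 := left_ne_zero_of_mul_eq_one h2
  exact ⟨left_ne_zero_of_mul h4, right_ne_zero_of_mul h4⟩

end Fermat.Agent.TW.LOC.OrdLineAlg2
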