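/-
Programme T (S56), chapter T/LOC, brick L5 (strict-ordinary condition at `p`).  Owner: helper2.

`StrictOrd2`: the local condition at `p` attached to the strict-ordinary deformation condition of
S56, in the matrix model of `TW/DEF` (`rbar : GQ →* M2 k`, lifts `r : GQ →* M2 k[ε]`).

* `chiK p : Gq p →* kˣ`, the mod `p` cyclotomic character of `Γ_p` with values in `k`
  (`CharP k p`); `muK p = Mu1.muRep (chiK p) = k(ω)`;
* `IsOrdLine p rbar v0 z0`: `k v0` is a `Γ_p`-stable line of `rbar` on which `Γ_p` acts by `ω z0`,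
  acting by `z0` on the quotient, `z0` trivial on inertia;
* `isOrdLine_unique`: the ordinary line is unique when `ω` is ramified at `p`;
* `phiE0`, `Lp p rbar hord`: the image of `H¹(Γ_p, W₀) → H¹(Γ_p, ad⁰ρ̄)`, `W₀ = k E0 v0 ≅ k(ω)`;
* `exists_triangular`: matrix form of `GaloisRepAdic.IsStrictOrdinaryAt` over `k[ε]`;
* **`resq1_liftClass_mem_Lp`**: the class of a strict-ordinary lift restricts into `Lp` (the shape
  of the hypothesis `hL` of `TW/DEF/TangentCardSO8` at `p`).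
-/
import Mathlib
import Fermat.Prelude.Def_GaloisRep_StrictOrdinary
import Fermat.Agent.S53.Defs
import Fermat.Agent.TW.DEF.Basic1
import Fermat.Agent.TW.DEF.LiftCocycle1
import Fermat.Agent.TW.DEF.Mu1
import Fermat.Agent.TW.DEF.DualLiftLevel8
import Fermat.Agent.TW.LOC.Defs2
import Fermat.Agent.TW.LOC.TameProfinite4
import Fermat.Agent.TW.LOC.TWLocalAd4
import Fermat.Agent.TW.LOC.OrdLineAlg2

set_option autoImplicit false

open groupCohomology Matrix
open Fermat.Agent.PT.PRO.LevelCoh28 Fermat.Agent.PT.GLUE.Objects21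
open Fermat.Agent.TW.DEF.Basic1 (GQ M2 Mq Hq1 ad0Rep ad0Val ad0Val_injective ad0Val_ρ_apply
  trace_ad0Val rbar_mul_inv rbar_inv_mul resq1 resZ1 resZ1_apply resq1_mk' isLevelHom_rq mem_sl2_iff
  sl2 isDiscrete_ad0Rep)
open Fermat.Agent.TW.DEF.LiftCocycle1 Fermat.Agent.TW.DEF.Mu1
open Fermat.Agent.TW.LOC.Defs2 Fermat.Agent.TW.LOC.OrdLineAlg2
open ExtCitation

namespace Fermat.Agent.TW.LOC.StrictOrd2

noncomputable section

/-! ### The cyclotomic character with values in `k` -/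

section Chi

variable (p : ℕ) [Fact p.Prime] {k : Type} [Field k] [CharP k p]

/-- The mod `p` cyclotomic character of `Γ_p` with values in `k`. -/
def chiK : Gq p →* kˣ :=
  (Units.map ((ZMod.castHom (dvd_refl p) k : ZMod p →+* k) : ZMod p →* k)).comp
    ((cycloChar p).comp (rq p))

theorem chiK_apply (τ : Gq p) :
    ((chiK p τ : kˣ) : k) = ZMod.castHom (dvd_refl p) k ((cycloChar p (rq p τ) : (ZMod p)ˣ) : ZMod p) :=
  rfl

/-- If `σ` acts on `μ_p` by the `a`-th power then `ω(σ) = a`. -/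
theorem cycloChar_eq_natCast {σ : GQ} {a : ℕ}
    (ha : ∀ μ : AlgebraicClosure ℚ, μ ^ p = 1 → σ μ = μ ^ a) :
    ((cycloChar p σ : (ZMod p)ˣ) : ZMod p) = (a : ZMod p) := by
  have : NeZero p := ⟨(Fact.out : p.Prime).ne_zero⟩
  symm
  apply modularCyclotomicCharacter.unique (AlgebraicClosure ℚ) (card_rootsOfUnity_eq_self p)
  intro t ht
  have ht' : (t : AlgebraicClosure ℚ) ^ p = 1 := by
    have := (mem_rootsOfUnity p t).1 ht
    rw [← Units.val_pow_eq_pow_val, this, Units.val_one]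
  have h1 := ha t ht'
  have h2 : (t : AlgebraicClosure ℚ) ^ a = (t : AlgebraicClosure ℚ) ^ (a : ZMod p).val := by
    rw [ZMod.val_natCast]
    conv_lhs => rw [← Nat.div_add_mod a p, pow_add, pow_mul, ht', one_pow, one_mul]
  rw [← h2]
  exact h1

theorem chiK_eq_natCast {τ : Gq p} {a : ℕ}
    (ha : ∀ μ : AlgebraicClosure ℚ, μ ^ p = 1 → rq p τ μ = μ ^ a) :
    ((chiK p τ : kˣ) : k) = (a : k) := by
  rw [chiK_apply, cycloChar_eq_natCast p ha, map_natCast]

/-- `k(ω)` as a representation of `Γ_p`. -/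
abbrev muK (k : Type) [Field k] [CharP k p] : Rep.{0} k (Gq p) := muRep (chiK p : Gq p →* kˣ)

end Chi

/-! ### Ordinary lines of `rbar` at `p` -/

section OrdLine

variable (p : ℕ) [Fact p.Prime] {k : Type} [Field k] [CharP k p]

/-- `k v0` is an ordinary line of `rbar` at `p`: `Γ_p` acts on it by `ω z0`, on the quotient by `z0`,
and `z0` is trivial on inertia. -/
structure IsOrdLine (rbar : GQ →* M2 k) (v0 : Fin 2 → k) (z0 : Gq p → k) : Prop where
  ne : v0 ≠ 0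
  z_ne : ∀ τ, z0 τ ≠ 0
  stable : ∀ τ : Gq p, rbar (rq p τ) *ᵥ v0 = (((chiK p τ : kˣ) : k) * z0 τ) • v0
  quot : ∀ τ : Gq p, perp v0 ᵥ* rbar (rq p τ) = z0 τ • perp v0
  unram : ∀ τ ∈ Iq p, z0 τ = 1

variable {p} {rbar : GQ →* M2 k} {v0 v0' : Fin 2 → k} {z0 z0' : Gq p → k}

/-- **Uniqueness of the ordinary line**, when `ω` is ramified at `p`. -/
theorem isOrdLine_unique (h : IsOrdLine p rbar v0 z0) (h' : IsOrdLine p rbar v0' z0')
    (hω : ∃ τ ∈ Iq p, ((chiK p τ : kˣ) : k) ≠ 1) : ∃ t : k, t ≠ 0 ∧ v0' = t • v0 := by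
  obtain ⟨τ, hτ, hne⟩ := hω
  have h1 : perp v0 ⬝ᵥ (rbar (rq p τ) *ᵥ v0') = perp v0 ⬝ᵥ v0' := by
    rw [dotProduct_mulVec, h.quot τ, h.unram τ hτ, one_smul]
  rw [h'.stable τ, h'.unram τ hτ, mul_one, dotProduct_smul, smul_eq_mul] at h1
  have h2 : perp v0 ⬝ᵥ v0' = 0 := by
    have h3 : (((chiK p τ : kˣ) : k) - 1) * (perp v0 ⬝ᵥ v0') = 0 := by
      rw [sub_mul, h1, one_mul, sub_self]
    exact (mul_eq_zero.1 h3).resolve_left (sub_ne_zero.2 hne)
  obtain ⟨t, ht⟩ := eq_smul_of_perp h.ne h2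
  refine ⟨t, ?_, ht⟩
  rintro rfl
  exact h'.ne (by rw [ht, zero_smul])

/-- The generator of `W₀` as an element of `ad⁰ρ̄`. -/
def e0 (rbar : GQ →* M2 k) (v0 : Fin 2 → k) : ad0Rep rbar :=
  ⟨E0 v0, (mem_sl2_iff _).2 (trace_E0 v0)⟩

@[simp] theorem ad0Val_e0 : ad0Val rbar (e0 rbar v0) = E0 v0 := rfl

/-- The map `k(ω) → ad⁰ρ̄`, `t ↦ t • E0 v0`. -/
def phiE0 (rbar : GQ →* M2 k) (v0 : Fin 2 → k) : muK p k →ₗ[k] Mq (ad0Rep rbar) p :=
  LinearMap.toSpanSingleton k (ad0Rep rbar) (e0 rbar v0)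

theorem phiE0_apply (t : k) : phiE0 (p := p) rbar v0 t = t • e0 rbar v0 := rfl

theorem ad0Val_phiE0 (t : k) : ad0Val rbar (phiE0 (p := p) rbar v0 t) = t • E0 v0 := by
  rw [phiE0_apply, map_smul, ad0Val_e0]

theorem phiE0_injective (hv : v0 ≠ 0) : Function.Injective (phiE0 (p := p) rbar v0) := by
  intro t t' htt'
  have h1 := congrArg (ad0Val rbar) htt'
  rw [ad0Val_phiE0, ad0Val_phiE0, ← sub_eq_zero, ← sub_smul] at h1
  rcases smul_eq_zero.1 h1 with h2 | h2
  · exact sub_eq_zero.1 h2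
  · exact absurd h2 (E0_ne_zero hv)

theorem phiE0_equivariant (h : IsOrdLine p rbar v0 z0) (τ : Gq p) (t : muK p k) :
    phiE0 rbar v0 ((muK p k).ρ τ t) = (Mq (ad0Rep rbar) p).ρ τ (phiE0 rbar v0 t) := by
  apply ad0Val_injective
  have h1 : ad0Val rbar ((Mq (ad0Rep rbar) p).ρ τ (phiE0 rbar v0 t)) =
      rbar (rq p τ) * ad0Val rbar (phiE0 (p := p) rbar v0 t) * rbar (rq p τ)⁻¹ := rfl
  rw [h1, ad0Val_phiE0, ad0Val_phiE0, muRep_ρ_apply, Matrix.mul_smul, Matrix.smul_mul,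
    conj_E0 (h.z_ne τ) (rbar_mul_inv rbar (rq p τ)) (h.stable τ) (h.quot τ),
    mul_div_assoc, div_self (h.z_ne τ), mul_one, smul_smul, mul_comm]

/-- **The strict-ordinary local condition at `p`**: the image of
`H¹(Γ_p, W₀) → H¹(Γ_p, ad⁰ρ̄)`, `W₀ = k E0 v0 ≅ k(ω)`. -/
def Lp (h : IsOrdLine p rbar v0 z0) : Submodule k (Hq1 (ad0Rep rbar) p) :=
  LinearMap.range (mapH1 (𝓑 := levelLoc p) (phiE0 rbar v0) (phiE0_equivariant h))

end OrdLine

/-! ### Matrix form of the strict-ordinary condition over the dual numbers -/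

section Triangular

open Fermat.Agent.S53 (MatCont ofMatrix ofMatrix_ρ_apply)

variable (p : ℕ) [Fact p.Prime] {k : Type} [Field k] [CharP k p]

theorem natCast_dual_eq_zero : ((p : ℕ) : DualNumber k) = 0 := by
  ext
  · simp
  · simp

/-- **Matrix form of `IsStrictOrdinaryAt`** over `A = k[ε]`, at the place `padicPlace p`: in a
suitable basis `Bm` of `A²`, `r` is upper triangular on `Γ_p` with diagonal `(x, z)`, `x = a z`
whenever `τ` acts on `μ_p` by the `a`-th power, and `z = 1` on inertia. -/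
theorem exists_triangular {r : GQ →* M2 (DualNumber k)} (hr : MatCont r)
    (hso : (ofMatrix r hr).IsStrictOrdinaryAt p) :
    ∃ Bm Bm' : M2 (DualNumber k), Bm * Bm' = 1 ∧ Bm' * Bm = 1 ∧
      ∀ τ : Gq p, ∃ x z β : DualNumber k, r (rq p τ) * Bm = Bm * !![x, β; 0, z] ∧
        (∀ a : ℕ, (∀ μ : AlgebraicClosure ℚ, μ ^ p = 1 → rq p τ μ = μ ^ a) →
          x = (a : DualNumber k) * z) ∧
        (τ ∈ Iq p → z = 1) := by
  obtain ⟨L, ⟨b, hLb⟩, hD, hI, hchar⟩ := hso.2 (padicPlace p) (Fermat.Agent.TW.LOC.TameProfinite4.liesOverPrime_padicPlace p)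
  let e : Module.Basis (Fin 2) (DualNumber k) (Fin 2 → DualNumber k) :=
    Pi.basisFun (DualNumber k) (Fin 2)
  let b' : Module.Basis (Fin 2) (DualNumber k) (Fin 2 → DualNumber k) := b
  have hBm : ∀ i j, e.toMatrix b' i j = b' j i := fun i j => by
    rw [Module.Basis.toMatrix_apply, Pi.basisFun_repr]
  refine ⟨e.toMatrix b', b'.toMatrix e, Module.Basis.toMatrix_mul_toMatrix_flip e b',
    Module.Basis.toMatrix_mul_toMatrix_flip b' e, fun τ => ?_⟩
  obtain ⟨x, z, hx, hz, hxz⟩ := hchar (rq p τ) (rq_mem_decomposition p τ)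
  have hb0 : b 0 ∈ L := by
    rw [hLb]
    exact Submodule.mem_span_singleton_self _
  have h1 : r (rq p τ) *ᵥ b' 0 = x • b' 0 := hx (b 0) hb0
  obtain ⟨β, hβ⟩ : ∃ β : DualNumber k, β • b' 0 = r (rq p τ) *ᵥ b' 1 - z • b' 1 := by
    have := hz (b 1)
    rw [hLb] at this
    exact Submodule.mem_span_singleton.1 this
  refine ⟨x, z, β, ?_, fun a ha => ?_, fun hτ => ?_⟩
  · refine Matrix.ext fun i j => ?_
    fin_cases j
    · have h2 := congrFun h1 i
      simp only [mulVec, dotProduct, Fin.sum_univ_two, Pi.smul_apply, smul_eq_mul] at h2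
      simp only [Fin.zero_eta, mul_apply, Fin.sum_univ_two, hBm, of_apply, cons_val', cons_val_zero,
        cons_val_fin_one, cons_val_one, mul_zero, add_zero]
      rw [h2, mul_comm]
    · have h2 := congrFun hβ i
      simp only [mulVec, dotProduct, Fin.sum_univ_two, Pi.smul_apply, smul_eq_mul,
        Pi.sub_apply] at h2
      simp only [Fin.mk_one, mul_apply, Fin.sum_univ_two, hBm, of_apply, cons_val', cons_val_zero,
        cons_val_fin_one, cons_val_one]
      linear_combination -h2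
  · have h2 := hxz 1 a (fun μ hμ => ha μ (by rwa [pow_one] at hμ))
    rw [pow_one, natCast_dual_eq_zero, Ideal.span_singleton_zero, Ideal.mem_bot, sub_eq_zero] at h2
    exact h2
  · have h2 := hI (rq p τ) (rq_mem_inertia p hτ) (b 1)
    have h3 := hz (b 1)
    have h4 : (z - 1) • b 1 ∈ L := by
      have : (z - 1) • b 1 = ((ofMatrix r hr).ρ (rq p τ) (b 1) - b 1) -
          ((ofMatrix r hr).ρ (rq p τ) (b 1) - z • b 1) := by
        rw [sub_smul, one_smul]
        abel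
      rw [this]
      exact L.sub_mem h2 h3
    rw [hLb] at h4
    obtain ⟨c, hc⟩ := Submodule.mem_span_singleton.1 h4
    have h5 := congrArg (fun v => b.repr v 1) hc
    simp only [map_smul, Module.Basis.repr_self, Finsupp.smul_apply, smul_eq_mul,
      Finsupp.single_apply] at h5
    simp only [Fin.isValue, zero_ne_one, if_false, mul_zero, if_true, mul_one] at h5
    exact sub_eq_zero.1 h5.symm

end Triangular

/-! ### The cocycle of a strict-ordinary lift -/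

section Key

variable {k : Type} [Field k]

theorem fstM_tri (x β z : DualNumber k) :
    fstM !![x, β; 0, z] = !![x.fst, β.fst; 0, z.fst] := by
  refine Matrix.ext fun i j => ?_
  fin_cases i <;> fin_cases j <;> simp [fstM]

theorem sndM_tri (x β z : DualNumber k) :
    sndM !![x, β; 0, z] = !![x.snd, β.snd; 0, z.snd] := by
  refine Matrix.ext fun i j => ?_
  fin_cases i <;> fin_cases j <;> simp [sndM]

theorem col_ne_zero {B0 B0' : M2 k} (hB' : B0' * B0 = 1) : (fun i => B0 i 0) ≠ 0 := by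
  intro h
  have h1 : (B0' * B0) 0 0 = 0 := by
    rw [Matrix.mul_apply, Fin.sum_univ_two]
    have h0 := congrFun h 0
    have h1 := congrFun h 1
    simp only [Pi.zero_apply] at h0 h1
    rw [h0, h1, mul_zero, mul_zero, add_zero]
  rw [hB', Matrix.one_apply_eq] at h1
  exact one_ne_zero h1

/-- **The key computation**: if `Rm` (lifting `R`) is upper triangular with diagonal `(x, z)` in the
basis `Bm`, `x = a z` with `a ∈ k`, and `det Rm` has no `ε`-part, then the `ε`-part of `Rm`, corrected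
by the coboundary of `Y = sndM Bm * fstM Bm'`, lies in the line `k E0 (Bm e₀ mod ε)`. -/
theorem strictOrd_dual (h2 : (2 : k) ≠ 0) {Rm Bm Bm' : M2 (DualNumber k)} {R' : M2 k}
    {x z β : DualNumber k} {a : k}
    (hRR' : fstM Rm * R' = 1) (hB : Bm * Bm' = 1) (hB' : Bm' * Bm = 1)
    (hT : Rm * Bm = Bm * !![x, β; 0, z]) (hx0 : x.fst = a * z.fst) (hx1 : x.snd = a * z.snd)
    (hdet : (Rm.det).snd = 0) :
    ∃ t : k, sndM Rm * R' + (fstM Rm * (sndM Bm * fstM Bm') * R' - sndM Bm * fstM Bm') =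
      t • E0 (fun i => fstM Bm i 0) := by
  have hB0 : fstM Bm * fstM Bm' = 1 := by rw [← fstM_mul, hB, fstM_one]
  have hB0' : fstM Bm' * fstM Bm = 1 := by rw [← fstM_mul, hB', fstM_one]
  have h0 : fstM Rm * fstM Bm = fstM Bm * !![x.fst, β.fst; 0, z.fst] := by
    rw [← fstM_mul, hT, fstM_mul, fstM_tri]
  obtain ⟨hx0ne, hz0ne⟩ := tri_diag_ne_zero hRR' hB0 hB0' h0
  -- the determinant
  have hd1 : Rm.det = x * z := by
    have h3 : Rm.det * Bm.det = Bm.det * (x * z) := by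
      rw [← Matrix.det_mul, hT, Matrix.det_mul, Matrix.det_fin_two_of, mul_zero, sub_zero]
    have h4 : Bm.det * Bm'.det = 1 := by rw [← Matrix.det_mul, hB, Matrix.det_one]
    calc Rm.det = Rm.det * (Bm.det * Bm'.det) := by rw [h4, mul_one]
      _ = (Rm.det * Bm.det) * Bm'.det := by ring
      _ = (Bm.det * Bm'.det) * (x * z) := by rw [h3]; ring
      _ = x * z := by rw [h4, one_mul]
  have hd2 : x.fst * z.snd + x.snd * z.fst = 0 := by
    have h3 := hdet
    rw [hd1, TrivSqZeroExt.snd_mul] at h3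
    simp only [smul_eq_mul, MulOpposite.smul_eq_mul_unop, MulOpposite.unop_op] at h3
    linear_combination h3
  have ha : a ≠ 0 := by
    rintro rfl
    exact hx0ne (by rw [hx0, zero_mul])
  have hz1 : z.snd = 0 := by
    rw [hx0, hx1] at hd2
    have h3 : (2 * a * z.fst) * z.snd = 0 := by linear_combination hd2
    exact (mul_eq_zero.1 h3).resolve_left (mul_ne_zero (mul_ne_zero h2 ha) hz0ne)
  have hx1' : x.snd = 0 := by rw [hx1, hz1, mul_zero]
  have h1 : sndM Rm * fstM Bm + fstM Rm * sndM Bm =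
      fstM Bm * !![0, β.snd; 0, 0] + sndM Bm * !![x.fst, β.fst; 0, z.fst] := by
    have h3 := congrArg sndM hT
    rw [sndM_mul, sndM_mul, sndM_tri, fstM_tri, hx1', hz1] at h3
    rw [← h3, add_comm]
  exact strictOrd_cocycle hRR' hB0 hB0' hz0ne h0 h1

end Key

section Lift

open Fermat.Agent.S53 (MatCont ofMatrix ofMatrix_ρ_apply)

variable {p : ℕ} [Fact p.Prime] {k : Type} [Field k] [CharP k p]
  {rbar : GQ →* M2 k} {r : GQ →* M2 (DualNumber k)}

theorem two_ne_zero_of_charP (hp2 : p ≠ 2) : (2 : k) ≠ 0 := by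
  intro h
  have h1 : ((2 : ℕ) : k) = 0 := by exact_mod_cast h
  have h2 := (CharP.cast_eq_zero_iff k p 2).1 h1
  have hp := (Fact.out : p.Prime)
  have h3 := (Nat.prime_dvd_prime_iff_eq hp Nat.prime_two).1 h2
  exact hp2 h3

/-- **A strict-ordinary lift of `rbar` gives an ordinary line of `rbar` at `p`, and its cocycle,
restricted to `Γ_p` and corrected by a coboundary, takes values in the line `k E0 v0`.** -/
theorem exists_ordLine_of_strictOrdinary (hp2 : p ≠ 2) (hr : MatCont r) (h : IsLiftOf rbar r)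
    (hdet : ∀ σ, ((r σ).det).snd = 0) (hso : (ofMatrix r hr).IsStrictOrdinaryAt p) :
    ∃ (v0 : Fin 2 → k) (z0 : Gq p → k) (Y : M2 k), IsOrdLine p rbar v0 z0 ∧
      ∀ τ : Gq p, ∃ t : k, liftCocycle rbar r (rq p τ) +
        (rbar (rq p τ) * Y * rbar (rq p τ)⁻¹ - Y) = t • E0 v0 := by
  haveI : NeZero p := ⟨(Fact.out : p.Prime).ne_zero⟩
  obtain ⟨Bm, Bm', hB, hB', hT⟩ := exists_triangular p hr hso
  choose x z β hT1 hT2 hT3 using hT
  have hB0 : fstM Bm * fstM Bm' = 1 := by rw [← fstM_mul, hB, fstM_one]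
  have hB0' : fstM Bm' * fstM Bm = 1 := by rw [← fstM_mul, hB', fstM_one]
  have h0 : ∀ τ, rbar (rq p τ) * fstM Bm =
      fstM Bm * !![(x τ).fst, (β τ).fst; 0, (z τ).fst] := fun τ => by
    rw [← h (rq p τ), ← fstM_mul, hT1 τ, fstM_mul, fstM_tri]
  have hxz : ∀ τ, ∃ a : ℕ, ((chiK p τ : kˣ) : k) = (a : k) ∧ x τ = (a : DualNumber k) * z τ :=
    fun τ => by
      obtain ⟨a, ha⟩ := Fermat.Agent.TW.DEF.DualLiftLevel8.exists_cyclotomic_exponent p (rq p τ)
      exact ⟨a, chiK_eq_natCast p ha, hT2 τ a ha⟩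
  refine ⟨fun i => fstM Bm i 0, fun τ => (z τ).fst, sndM Bm * fstM Bm', ⟨col_ne_zero hB0', ?_, ?_, ?_, ?_⟩,
    fun τ => ?_⟩
  · exact fun τ => (tri_diag_ne_zero (rbar_mul_inv rbar (rq p τ)) hB0 hB0' (h0 τ)).2
  · intro τ
    obtain ⟨a, ha1, ha2⟩ := hxz τ
    rw [mulVec_col_of_tri (h0 τ), ha2, ha1]
    simp
  · exact fun τ => perp_vecMul_of_tri hB0 (h0 τ)
  · intro τ hτ
    rw [hT3 τ hτ]
    rfl
  · obtain ⟨a, ha1, ha2⟩ := hxz τ
    have h3 := strictOrd_dual (two_ne_zero_of_charP (p := p) hp2) (Rm := r (rq p τ))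
      (R' := rbar (rq p τ)⁻¹) (a := (a : k))
      (by rw [h (rq p τ)]; exact rbar_mul_inv rbar (rq p τ)) hB hB' (hT1 τ)
      (by rw [ha2]; simp) (by rw [ha2]; simp) (hdet (rq p τ))
    rw [h (rq p τ)] at h3
    exact h3

end Lift

/-! ### Classes with values in the image of an injective equivariant map -/

section Range

variable {k G : Type} [CommRing k] [Group G] {𝓑 : LevelBasis G} {A B : Rep.{0} k G}
  (φ : A →ₗ[k] B) (hφ : ∀ g a, φ (A.ρ g a) = B.ρ g (φ a)) (hinj : Function.Injective φ)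

include hφ hinj in
/-- If `φ ∘ u` is a level cocycle (`φ` injective, equivariant) then so is `u`. -/
theorem mem_Z1_of_comp_mem {u : G → A} (hu : φ ∘ u ∈ Z1 𝓑 B) : u ∈ Z1 𝓑 A := by
  refine mem_Z1_of 𝓑 A ?_ (isLevel₁_of_comp (𝓑 := 𝓑) φ hinj hu.2)
  have h1 : φ ∘ (d₁₂ A).hom u = 0 := by
    rw [← d₁₂_comp φ hφ]
    exact d₁₂_eq_zero_of_mem_Z1 𝓑 B hu
  funext x
  apply hinj
  have := congrFun h1 x
  simp only [Function.comp_apply] at this
  rw [this]
  exact (map_zero φ).symm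

include hinj in
/-- A level cocycle of `B` which, up to a coboundary, takes values in the image of `φ`, has its
class in the range of `mapH1 φ`. -/
theorem H1mk_mem_range_mapH1 (hB : IsDiscrete 𝓑.sets B) (c : ↥(Z1 𝓑 B)) (Z : B) (u : G → A)
    (hu : ∀ g, φ (u g) = c.1 g + (B.ρ g Z - Z)) :
    H1mk 𝓑 B c ∈ LinearMap.range (mapH1 (𝓑 := 𝓑) φ hφ) := by
  have hd : (d₀₁ B).hom Z ∈ Z1 𝓑 B := coboundaries₁_le_Z1 hB ⟨Z, rfl⟩
  have h1 : φ ∘ u = c.1 + (d₀₁ B).hom Z := by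
    funext g
    rw [Function.comp_apply, hu g, Pi.add_apply, d₀₁_hom_apply]
  have h2 : φ ∘ u ∈ Z1 𝓑 B := by
    rw [h1]
    exact (Z1 𝓑 B).add_mem c.2 hd
  have hu' : u ∈ Z1 𝓑 A := mem_Z1_of_comp_mem φ hφ hinj h2
  refine ⟨H1mk 𝓑 A ⟨u, hu'⟩, ?_⟩
  rw [mapH1_mk]
  have h3 : mapZ1 (𝓑 := 𝓑) φ hφ ⟨u, hu'⟩ = c + ⟨(d₀₁ B).hom Z, hd⟩ := Subtype.ext h1
  rw [h3, map_add]
  have h4 : H1mk 𝓑 B ⟨(d₀₁ B).hom Z, hd⟩ = 0 :=
    (H1mk_eq_zero_iff 𝓑 B _).2 ⟨Z, rfl⟩
  rw [h4, add_zero]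

end Range

/-! ### The class of a strict-ordinary lift lies in `Lp` -/

section Main

open Fermat.Agent.S53 (MatCont ofMatrix ofMatrix_ρ_apply)

variable {p : ℕ} [Fact p.Prime] {k : Type} [Field k] [CharP k p]
  {rbar : GQ →* M2 k} {r : GQ →* M2 (DualNumber k)} {v0 : Fin 2 → k} {z0 : Gq p → k}

/-- `rbar` has finite level at `p` as soon as a lift `r` has finite level globally. -/
theorem isLevelAt_of_lift (S : Finset Nat.Primes) (h : IsLiftOf rbar r)
    (hlevS : ∃ U ∈ (levelS S).sets, ∀ s ∈ U, r s = 1) :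
    ∃ U ∈ (levelLoc p).sets, ∀ s ∈ U, rbar (rq p s) = 1 := by
  obtain ⟨U, hU, h1⟩ := hlevS
  obtain ⟨V, hV, hVU⟩ := isLevelHom_rq S p U hU
  refine ⟨V, hV, fun s hs => ?_⟩
  rw [← h (rq p s), h1 _ (hVU hs), fstM_one]

/-- **(L5, `hL`-shape)** The class of a strict-ordinary lift of `rbar` with `ε`-free determinant
restricts at `p` into `Lp`, the image of `H¹(Γ_p, k(ω)) → H¹(Γ_p, ad⁰ρ̄)` attached to the (unique)
ordinary line of `rbar` at `p`. -/
theorem resq1_liftClass_mem_Lp (hp2 : p ≠ 2) (S : Finset Nat.Primes) (hr : MatCont r)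
    (h : IsLiftOf rbar r) (hlevS : ∃ U ∈ (levelS S).sets, ∀ s ∈ U, r s = 1)
    (htr : ∀ σ, (liftCocycle rbar r σ).trace = 0)
    (hdet : ∀ σ, ((r σ).det).snd = 0) (hso : (ofMatrix r hr).IsStrictOrdinaryAt p)
    (hord : IsOrdLine p rbar v0 z0) (hω : ∃ τ ∈ Iq p, ((chiK p τ : kˣ) : k) ≠ 1) :
    resq1 S (ad0Rep rbar) p (liftClass S h hlevS htr) ∈ Lp hord := by
  obtain ⟨v0', z0', Y, hord', hY⟩ := exists_ordLine_of_strictOrdinary hp2 hr h hdet hso
  obtain ⟨t0, -, ht0⟩ := isOrdLine_unique hord hord' hω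
  have h2 : (2 : k) ≠ 0 := two_ne_zero_of_charP (p := p) hp2
  -- the trace-zero part of `Y`
  let Z0 : M2 k := Y - (Y.trace / 2) • (1 : M2 k)
  have hZ0 : Z0.trace = 0 := by
    simp only [Z0, Matrix.trace_sub, Matrix.trace_smul, Matrix.trace_one, Fintype.card_fin,
      smul_eq_mul]
    field_simp
    push_cast
    ring
  let Z : ad0Rep rbar := ⟨Z0, (mem_sl2_iff _).2 hZ0⟩
  have hZ : ad0Val rbar Z = Z0 := rfl
  have hconj : ∀ σ : GQ, rbar σ * Z0 * rbar σ⁻¹ - Z0 = rbar σ * Y * rbar σ⁻¹ - Y := by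
    intro σ
    simp only [Z0, Matrix.mul_sub, Matrix.sub_mul, Matrix.mul_smul, Matrix.smul_mul, mul_one,
      rbar_mul_inv]
    abel
  have hY' : ∀ τ : Gq p, ∃ t : k, liftCocycle rbar r (rq p τ) +
      (rbar (rq p τ) * Z0 * rbar (rq p τ)⁻¹ - Z0) = t • E0 v0 := by
    intro τ
    obtain ⟨t, ht⟩ := hY τ
    refine ⟨t * (t0 * t0), ?_⟩
    rw [hconj, ht, ht0, E0_smul, smul_smul]
  choose u hu using hY'
  have hB : IsDiscrete (levelLoc p).sets (Mq (ad0Rep rbar) p) :=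
    Fermat.Agent.TW.LOC.TWLocalAd4.isDiscrete_Mq_ad0 (isLevelAt_of_lift S h hlevS)
  rw [liftClass, resq1_mk', Lp]
  refine H1mk_mem_range_mapH1 (phiE0 rbar v0) (phiE0_equivariant hord) (phiE0_injective hord.ne) hB
    _ Z u (fun τ => ?_)
  apply ad0Val_injective
  rw [ad0Val_phiE0, ← hu τ, map_add, map_sub, resZ1_apply]
  rfl

end Main

end

end Fermat.Agent.TW.LOC.StrictOrd2
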