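/-
Programme T (S56), chapter T/LOC, brick L5 (strict-ordinary condition at `p`), part 2.  Owner: helper2.

* `exists_mem_Iq_chiq_ne_one`, `exists_mem_Iq_chiK_ne_one`: the mod `p` cyclotomic character is
  ramified at `p` (`p` odd);
* `finite_card_Lp_le`: `#Lp ≤ #k * #H⁰(ℚ_p, ad⁰ρ̄)`, given the Kummer input (L4)
  `#H¹(ℚ_p, k(ω)) ≤ #k²`;
* `LpSO p rbar`: the strict-ordinary local condition at `p` (`Lp` of the ordinary line if there is
  one, `⊥` otherwise), with `finite_card_LpSO_le` and the `hL`-shape `resq1_liftClass_mem_LpSO`.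
-/
import Mathlib
import Fermat.Agent.TW.LOC.StrictOrd2
import Fermat.Agent.TW.LOC.KummerRaw4
import Fermat.Agent.TW.LOC.UnramFixed4
import Fermat.Agent.TW.FLAT.KummerTop0

set_option autoImplicit false
set_option linter.unusedSectionVars false

open groupCohomology Matrix
open Fermat.Agent.PT.PRO.LevelCoh28 Fermat.Agent.PT.GLUE.Objects21
open Fermat.Agent.TW.DEF.Basic1 (GQ M2 Mq Hq1 ad0Rep ad0Val ad0Val_injective ad0Val_ρ_apply
  trace_ad0Val rbar_mul_inv rbar_inv_mul resq1 resZ1 resZ1_apply resq1_mk' isLevelHom_rq mem_sl2_iff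
  sl2 isDiscrete_ad0Rep)
open Fermat.Agent.TW.DEF.LiftCocycle1 Fermat.Agent.TW.DEF.Mu1
open Fermat.Agent.TW.LOC.Defs2 Fermat.Agent.TW.LOC.OrdLineAlg2 Fermat.Agent.TW.LOC.StrictOrd2
open ExtCitation

namespace Fermat.Agent.TW.LOC.StrictOrdCard2

noncomputable section

/-! ### `ω` is ramified at `p` -/

section Omega

open Fermat.Agent.TW.LOC.KummerRaw4 Fermat.Agent.TW.LOC.CupDuality2

variable (p : ℕ) [Fact p.Prime]

/-- The mod `p` cyclotomic character is ramified at `p` (`p` odd). -/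
theorem exists_mem_Iq_chiq_ne_one (hp2 : p ≠ 2) : ∃ τ ∈ Iq p, chiq p p τ ≠ 1 := by
  by_contra hcon
  have hcon : ∀ τ ∈ Iq p, chiq p p τ = 1 := fun τ hτ => by
    by_contra h
    exact hcon ⟨τ, hτ, h⟩
  have hp := (Fact.out : p.Prime)
  set ζ : PadicAlgCl p := ((jm p p 1 : (PadicAlgCl p)ˣ) : PadicAlgCl p) with hζdef
  have hζp : ζ ^ p = 1 := by
    rw [hζdef, ← Units.val_pow_eq_pow_val, jm_pow, Units.val_one]
  have hζ1 : ζ ≠ 1 := by
    intro h
    have h1 : jm p p 1 = 1 := Units.ext h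
    rw [← jm_zero p p] at h1
    exact one_ne_zero (jm_injective p p h1)
  have hprim : IsPrimitiveRoot ζ p := IsPrimitiveRoot.iff_orderOf.2 (orderOf_eq_prime hζp hζ1)
  have hfix : ∀ τ ∈ Iq p, τ (ζ - 1) = ζ - 1 := by
    intro τ hτ
    have h1 := smul_jm p p τ 1
    rw [hcon τ hτ, Units.val_one, one_mul] at h1
    have h2 := congrArg (fun u : (PadicAlgCl p)ˣ => (u : PadicAlgCl p)) h1
    rw [map_sub, map_one]
    exact congrArg (· - 1) h2
  have hlt : ‖ζ - 1‖ < 1 :=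
    Fermat.Agent.TW.FLAT.KummerTop0.norm_zeta_sub_one_lt_one hp hprim
      (Fermat.Agent.TW.FLAT.KummerTop0.norm_natCast_q_lt_one p)
  have h1 := Fermat.Agent.TW.LOC.UnramFixed4.norm_le_norm_q_of_fixed p (ζ - 1) hfix hlt
  rw [Fermat.Agent.TW.FLAT.KummerTop0.norm_natCast_eq hp hprim] at h1
  have hpos : 0 < ‖ζ - 1‖ := norm_pos_iff.2 (sub_ne_zero.2 hζ1)
  have h3 : 2 ≤ p - 1 := by
    have := hp.two_le
    omega
  have h4 : ‖ζ - 1‖ ^ (p - 1) ≤ ‖ζ - 1‖ ^ 2 := pow_le_pow_of_le_one hpos.le hlt.le h3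
  have h5 : ‖ζ - 1‖ ^ 2 < ‖ζ - 1‖ := by
    rw [sq]
    calc ‖ζ - 1‖ * ‖ζ - 1‖ < 1 * ‖ζ - 1‖ := mul_lt_mul_of_pos_right hlt hpos
      _ = _ := one_mul _
  linarith

variable {k : Type} [Field k] [CharP k p]

/-- `ω` with values in `k` is ramified at `p`. -/
theorem exists_mem_Iq_chiK_ne_one (hp2 : p ≠ 2) :
    ∃ τ ∈ Iq p, ((chiK p τ : kˣ) : k) ≠ 1 := by
  obtain ⟨τ, hτ, hne⟩ := exists_mem_Iq_chiq_ne_one p hp2
  refine ⟨τ, hτ, fun h => hne ?_⟩
  rw [chiK_apply, ← map_one (ZMod.castHom (dvd_refl p) k)] at h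
  have h1 := (ZMod.castHom (dvd_refl p) k).injective h
  exact Units.ext h1

end Omega

/-! ### The size of `Lp` -/

section Card

variable {p : ℕ} [Fact p.Prime] {k : Type} [Field k] [CharP k p]
  {rbar : GQ →* M2 k} {v0 : Fin 2 → k} {z0 : Gq p → k}

/-- `#k ≤ #W` for a submodule `W` of a `k`-vector space containing a nonzero vector. -/
theorem card_le_card_of_ne_zero {V : Type} [AddCommGroup V] [Module k V] [Finite V] {x : V}
    (hx : x ≠ 0) : Nat.card k ≤ Nat.card V := by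
  refine Nat.card_le_card_of_injective (fun β : k => β • x) fun β β' h => ?_
  have h1 : (β - β') • x = 0 := by rw [sub_smul, sub_eq_zero]; exact h
  exact sub_eq_zero.1 ((smul_eq_zero.1 h1).resolve_right hx)

/-- **The size of the strict-ordinary condition at `p`**, given the Kummer input (L4). -/
theorem finite_card_Lp_le [Finite k] (hord : IsOrdLine p rbar v0 z0)
    (hlev : ∃ U ∈ (levelLoc p).sets, ∀ s ∈ U, rbar (rq p s) = 1)
    (hL4 : Finite (H1 (levelLoc p) (muK p k)) ∧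
      Nat.card (H1 (levelLoc p) (muK p k)) ≤ Nat.card k ^ 2) :
    Finite ↥(Lp hord) ∧
      Nat.card ↥(Lp hord) ≤ Nat.card k * Nat.card ↥(Mq (ad0Rep rbar) p).ρ.invariants := by
  haveI := hL4.1
  have hB : IsDiscrete (levelLoc p).sets (Mq (ad0Rep rbar) p) :=
    Fermat.Agent.TW.LOC.TWLocalAd4.isDiscrete_Mq_ad0 hlev
  haveI hfinB : Finite (Mq (ad0Rep rbar) p) := Finite.of_injective _ (ad0Val_injective rbar)
  set f := mapH1 (𝓑 := levelLoc p) (phiE0 (p := p) rbar v0) (phiE0_equivariant hord) with hf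
  have hLp : Lp hord = LinearMap.range f := rfl
  haveI hfinL : Finite ↥(Lp hord) := by
    rw [hLp]
    exact Finite.of_surjective _ f.surjective_rangeRestrict
  refine ⟨hfinL, ?_⟩
  have hcardL : Nat.card ↥(Lp hord) ≤ Nat.card (H1 (levelLoc p) (muK p k)) := by
    rw [hLp]
    exact Nat.card_le_card_of_surjective _ f.surjective_rangeRestrict
  have hkpos : 0 < Nat.card k := Nat.card_pos
  -- the diagonal element `H0`
  obtain ⟨H0, hH0tr, hH0v, hH0⟩ := exists_H0 hord.ne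
  let h0 : ad0Rep rbar := ⟨H0, (mem_sl2_iff _).2 hH0tr⟩
  have hw : ∀ τ : Gq p, ∃ s : k,
      rbar (rq p τ) * H0 * rbar (rq p τ)⁻¹ - H0 = s • E0 v0 := fun τ =>
    hH0 _ _ _ (rbar_mul_inv rbar (rq p τ)) (rbar_inv_mul rbar (rq p τ)) (hord.stable τ)
  choose w hw using hw
  have hφw : (phiE0 (p := p) rbar v0) ∘ w = (d₀₁ (Mq (ad0Rep rbar) p)).hom h0 := by
    funext τ
    apply ad0Val_injective
    rw [Function.comp_apply, ad0Val_phiE0, ← hw τ, d₀₁_hom_apply, map_sub]
    rfl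
  have hd : (d₀₁ (Mq (ad0Rep rbar) p)).hom h0 ∈ Z1 (levelLoc p) (Mq (ad0Rep rbar) p) :=
    coboundaries₁_le_Z1 hB ⟨h0, rfl⟩
  have hwZ : w ∈ Z1 (levelLoc p) (muK p k) :=
    mem_Z1_of_comp_mem (phiE0 (p := p) rbar v0) (phiE0_equivariant hord)
      (phiE0_injective hord.ne) (hφw ▸ hd)
  set cw : H1 (levelLoc p) (muK p k) := H1mk (levelLoc p) (muK p k) ⟨w, hwZ⟩ with hcw
  have hfcw : f cw = 0 := by
    rw [hf, hcw, mapH1_mk]
    refine (H1mk_eq_zero_iff (levelLoc p) (Mq (ad0Rep rbar) p) _).2 ⟨h0, ?_⟩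
    exact hφw.symm
  by_cases hcw0 : cw = 0
  · -- `H0 - t E0` is an invariant
    obtain ⟨t, ht⟩ := (H1mk_eq_zero_iff (levelLoc p) (muK p k) _).1 hcw0
    have ht' : ∀ τ : Gq p, (muK p k).ρ τ t - t = w τ := fun τ => by
      have := congrFun ht τ
      rwa [d₀₁_hom_apply] at this
    let X : Mq (ad0Rep rbar) p := h0 - phiE0 (p := p) rbar v0 t
    have hXinv : X ∈ (Mq (ad0Rep rbar) p).ρ.invariants := by
      intro τ
      have h1 : (Mq (ad0Rep rbar) p).ρ τ X - X = 0 := by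
        have h2 := congrFun hφw τ
        rw [Function.comp_apply, d₀₁_hom_apply, ← ht' τ, map_sub, phiE0_equivariant hord] at h2
        simp only [X, map_sub]
        rw [← sub_eq_zero] at h2
        have h3 := neg_eq_zero.2 h2
        rw [← h3]
        abel
      exact sub_eq_zero.1 h1
    have hX0 : (⟨X, hXinv⟩ : ↥(Mq (ad0Rep rbar) p).ρ.invariants) ≠ 0 := by
      intro h
      have h1 : X = 0 := congrArg Subtype.val h
      have h2 : ad0Val rbar X *ᵥ v0 = v0 := by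
        simp only [X, map_sub]
        rw [Matrix.sub_mulVec, ad0Val_phiE0, Matrix.smul_mulVec, E0_mulVec_self, smul_zero,
          sub_zero]
        exact hH0v
      rw [h1, map_zero, Matrix.zero_mulVec] at h2
      exact hord.ne h2.symm
    have h3 : Nat.card k ≤ Nat.card ↥(Mq (ad0Rep rbar) p).ρ.invariants :=
      card_le_card_of_ne_zero hX0
    calc Nat.card ↥(Lp hord) ≤ Nat.card (H1 (levelLoc p) (muK p k)) := hcardL
      _ ≤ Nat.card k ^ 2 := hL4.2
      _ = Nat.card k * Nat.card k := sq _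
      _ ≤ Nat.card k * Nat.card ↥(Mq (ad0Rep rbar) p).ρ.invariants := Nat.mul_le_mul_left _ h3
  · -- the kernel of `f` contains the line `k cw`
    have hker : (⟨cw, LinearMap.mem_ker.2 hfcw⟩ : ↥(LinearMap.ker f)) ≠ 0 := fun h =>
      hcw0 (congrArg Subtype.val h)
    have h3 : Nat.card k ≤ Nat.card ↥(LinearMap.ker f) := card_le_card_of_ne_zero hker
    have h4 : Nat.card (H1 (levelLoc p) (muK p k)) =
        Nat.card ↥(LinearMap.ker f) * Nat.card ↥(Lp hord) := by
      rw [Submodule.card_eq_card_quotient_mul_card (LinearMap.ker f), hLp]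
      congr 1
      exact Nat.card_congr f.quotKerEquivRange.toEquiv
    have h5 : Nat.card k * Nat.card ↥(Lp hord) ≤ Nat.card k * Nat.card k := by
      calc Nat.card k * Nat.card ↥(Lp hord) ≤
            Nat.card ↥(LinearMap.ker f) * Nat.card ↥(Lp hord) := Nat.mul_le_mul_right _ h3
        _ = Nat.card (H1 (levelLoc p) (muK p k)) := h4.symm
        _ ≤ Nat.card k ^ 2 := hL4.2
        _ = Nat.card k * Nat.card k := sq _
    have h6 : Nat.card ↥(Lp hord) ≤ Nat.card k := Nat.le_of_mul_le_mul_left h5 hkpos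
    have h7 : 0 < Nat.card ↥(Mq (ad0Rep rbar) p).ρ.invariants := Nat.card_pos
    calc Nat.card ↥(Lp hord) ≤ Nat.card k := h6
      _ = Nat.card k * 1 := (mul_one _).symm
      _ ≤ Nat.card k * Nat.card ↥(Mq (ad0Rep rbar) p).ρ.invariants := Nat.mul_le_mul_left _ h7

end Card

/-! ### The packaged local condition -/

section Packaged

open Fermat.Agent.S53 (MatCont ofMatrix ofMatrix_ρ_apply)

variable (p : ℕ) [Fact p.Prime] {k : Type} [Field k] [CharP k p]

open Classical in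
/-- **The strict-ordinary local condition at `p`**: `Lp` of an ordinary line of `rbar` at `p` (unique
when it exists, `p` odd), `⊥` if there is none. -/
def LpSO (rbar : GQ →* M2 k) : Submodule k (Hq1 (ad0Rep rbar) p) :=
  if h : ∃ (v0 : Fin 2 → k) (z0 : Gq p → k), IsOrdLine p rbar v0 z0 then
    Lp h.choose_spec.choose_spec else ⊥

variable {p} {rbar : GQ →* M2 k} {r : GQ →* M2 (DualNumber k)}

/-- `LpSO` is finite with `#LpSO ≤ #k * #H⁰(ℚ_p, ad⁰ρ̄)`, given the Kummer input (L4). -/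
theorem finite_card_LpSO_le [Finite k]
    (hlev : ∃ U ∈ (levelLoc p).sets, ∀ s ∈ U, rbar (rq p s) = 1)
    (hL4 : Finite (H1 (levelLoc p) (muK p k)) ∧
      Nat.card (H1 (levelLoc p) (muK p k)) ≤ Nat.card k ^ 2) :
    Finite ↥(LpSO p rbar) ∧
      Nat.card ↥(LpSO p rbar) ≤ Nat.card k * Nat.card ↥(Mq (ad0Rep rbar) p).ρ.invariants := by
  unfold LpSO
  split_ifs with h
  · exact finite_card_Lp_le h.choose_spec.choose_spec hlev hL4
  · refine ⟨inferInstance, ?_⟩
    have h1 : Nat.card ↥(⊥ : Submodule k (Hq1 (ad0Rep rbar) p)) = 1 := Nat.card_unique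
    rw [h1]
    haveI : Finite (Mq (ad0Rep rbar) p) := Finite.of_injective _ (ad0Val_injective rbar)
    exact Nat.mul_pos Nat.card_pos Nat.card_pos

/-- **(L5, `hL`-shape)** The class of a strict-ordinary lift with cyclotomic determinant restricts at
`p` into `LpSO p rbar`. -/
theorem resq1_liftClass_mem_LpSO (hp2 : p ≠ 2) (S : Finset Nat.Primes) (hr : MatCont r)
    (h : IsLiftOf rbar r) (hlevS : ∃ U ∈ (levelS S).sets, ∀ s ∈ U, r s = 1)
    (htr : ∀ σ, (liftCocycle rbar r σ).trace = 0)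
    (hdetc : (ofMatrix r hr).DetIsCyclotomic p) (hso : (ofMatrix r hr).IsStrictOrdinaryAt p) :
    resq1 S (ad0Rep rbar) p (liftClass S h hlevS htr) ∈ LpSO p rbar := by
  have hdet : ∀ σ, ((r σ).det).snd = 0 :=
    Fermat.Agent.TW.DEF.DualLiftLevel8.snd_det_eq_zero_of_ofMatrix_detIsCyclotomic
      (Fact.out : p.Prime).ne_zero hr hdetc
  obtain ⟨v0', z0', -, hord', -⟩ := exists_ordLine_of_strictOrdinary hp2 hr h hdet hso
  have hex : ∃ (v0 : Fin 2 → k) (z0 : Gq p → k), IsOrdLine p rbar v0 z0 := ⟨v0', z0', hord'⟩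
  unfold LpSO
  rw [dif_pos hex]
  exact resq1_liftClass_mem_Lp hp2 S hr h hlevS htr hdet hso hex.choose_spec.choose_spec
    (exists_mem_Iq_chiK_ne_one p hp2)

end Packaged

end

end Fermat.Agent.TW.LOC.StrictOrdCard2
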