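/-
Programme T (S56), chapter T/LOC, brick L5 (strict-ordinary condition at `p`), final form.
Owner: helper2.

The Kummer input (L4, helper4's `KummerCard4.card_H1_cyclo`) is plugged into `StrictOrdCard2`:

* `card_H1_muK`: `#H¹(Γ_p, k(ω)) = #k²`;
* `finite_LpSO`, `card_LpSO_le`: `LpSO p rbar` is finite with `#LpSO ≤ #k * #H⁰(ℚ_p, ad⁰ρ̄)`.

Together with `StrictOrdCard2.resq1_liftClass_mem_LpSO` this is the (LOC-SO) package of
`TW/ASM/AssemblySO8` / `AssemblyRel8`.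
-/
import Mathlib
import Fermat.Agent.TW.LOC.StrictOrdCard2
import Fermat.Agent.TW.LOC.KummerCard4

set_option autoImplicit false
set_option linter.unusedSectionVars false

open groupCohomology Matrix
open Fermat.Agent.PT.PRO.LevelCoh28 Fermat.Agent.PT.GLUE.Objects21
open Fermat.Agent.TW.DEF.Basic1 (GQ M2 Mq Hq1 ad0Rep)
open Fermat.Agent.TW.DEF.Mu1
open Fermat.Agent.TW.LOC.Defs2 Fermat.Agent.TW.LOC.StrictOrd2 Fermat.Agent.TW.LOC.StrictOrdCard2
open ExtCitation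

namespace Fermat.Agent.TW.LOC.StrictOrdFinal2

noncomputable section

variable {p : ℕ} [Fact p.Prime] {k : Type} [Field k] [CharP k p] [Finite k]

/-- **(L4 for `muK`)** `H¹(Γ_p, k(ω))` is finite of order `#k²` (`p` odd). -/
theorem finite_card_H1_muK (hp2 : p ≠ 2) :
    Finite (H1 (levelLoc p) (muK p k)) ∧ Nat.card (H1 (levelLoc p) (muK p k)) = Nat.card k ^ 2 := by
  letI : Algebra (ZMod p) k := ZMod.algebra k p
  have hfree : ∀ n : muK p k, ∃! a : k, a • (1 : k) = n := fun n =>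
    ⟨n, by simp, fun a ha => by simpa using ha⟩
  have hρ : ∀ g : Gq p, (muK p k).ρ g (1 : k) =
      algebraMap (ZMod p) k (Fermat.Agent.TW.LOC.CupDuality2.chiq p p g : ZMod p) • (1 : k) := by
    intro g
    rw [muRep_ρ_apply, chiK_apply, mul_one, smul_eq_mul, mul_one]
    rfl
  exact ⟨Fermat.Agent.TW.LOC.KummerCard4.finite_H1_cyclo p (muK p k) (1 : k) hp2 hfree hρ,
    Fermat.Agent.TW.LOC.KummerCard4.card_H1_cyclo p (muK p k) (1 : k) hp2 hfree hρ⟩

variable {rbar : GQ →* M2 k}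

/-- **(LOC-SO, finiteness)** -/
theorem finite_LpSO (hp2 : p ≠ 2)
    (hlev : ∃ U ∈ (levelLoc p).sets, ∀ s ∈ U, rbar (rq p s) = 1) :
    Finite ↥(LpSO p rbar) :=
  (finite_card_LpSO_le hlev
    ⟨(finite_card_H1_muK hp2).1, le_of_eq (finite_card_H1_muK hp2).2⟩).1

/-- **(LOC-SO, size)** `#LpSO ≤ #k * #H⁰(ℚ_p, ad⁰ρ̄)`. -/
theorem card_LpSO_le (hp2 : p ≠ 2)
    (hlev : ∃ U ∈ (levelLoc p).sets, ∀ s ∈ U, rbar (rq p s) = 1) :
    Nat.card ↥(LpSO p rbar) ≤
      Nat.card k * Nat.card ↥(Mq (ad0Rep rbar) p).ρ.invariants :=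
  (finite_card_LpSO_le hlev
    ⟨(finite_card_H1_muK hp2).1, le_of_eq (finite_card_H1_muK hp2).2⟩).2

end

end Fermat.Agent.TW.LOC.StrictOrdFinal2
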