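/-
Programme T (towards S56), chapter LOC, helper2.

`CupDualityMu2`: **(LOC-2)** in the exact vocabulary of `TW/DEF/Mu1` (helper1): the local Tate cup
product

  `Mu1.cupq p M q hMq' : Hq1 M q →ₗ Hq1 (M.dualTwist (cycloChar p)) q →ₗ Hq2 (muP p) q`

is nondegenerate ON BOTH SIDES, for every prime `q` (including `q = p`), every prime `p`, and every
finite-dimensional `M : Rep (ZMod p) GQ` whose restriction to `Gq q` is discrete:

* `cupq_right_nondegenerate`: `(∀ x, cupq x y = 0) → y = 0`  (this is the hypothesis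
  "right-nondegenerate" of `GWNumeric1.dualCond_eq_bot_of_top`, needed at the Taylor–Wiles primes);
* `cupq_left_nondegenerate`:  `(∀ y, cupq x y = 0) → x = 0`.

Proof: `CupDuality2.cup_right_kernel / cup_left_kernel` for `N := Mq M q`, after identifying the
restriction of `M.dualTwist (cycloChar p)` with `N.dualTwist (chiq q p)` (same carrier, pointwise
the same action: `Mu1.res_dualTwist_ρ`).
-/
import Mathlib
import Fermat.Agent.TW.DEF.Mu1
import Fermat.Agent.TW.LOC.CupDuality2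

set_option autoImplicit false
set_option linter.unusedSectionVars false

namespace Fermat.Agent.TW.LOC.CupDualityMu2

open ExtCitation groupCohomology
open Fermat.Agent.PT.PRO Fermat.Agent.PT.PRO.LevelCoh28
open Fermat.Agent.PT.GLUE.Objects21
open Fermat.Agent.TW.DEF.Basic1 Fermat.Agent.TW.DEF.Cup1 Fermat.Agent.TW.DEF.Mu1
open Fermat.Agent.TW.LOC.CupDuality2

variable (p : ℕ) [Fact p.Prime] (M : Rep.{0} (ZMod p) GQ) (q : ℕ) [Fact q.Prime]

/-- The restricted dual twist and the dual twist of the restriction act in the same way. -/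
theorem res_dualTwist_apply (g : Gq q) (f : Mq (M.dualTwist (cycloChar p)) q) :
    (Mq (M.dualTwist (cycloChar p)) q).ρ g f = ((Mq M q).dualTwist (chiq q p)).ρ g f :=
  res_dualTwist_ρ (rq q) (cycloChar p) M g f

/-- The restriction of a finite-dimensional module is finite-dimensional. -/
theorem finiteDimensional_Mq [hfd : FiniteDimensional (ZMod p) M] :
    FiniteDimensional (ZMod p) (Mq M q) := hfd

/-- A level 1-cocycle of the restricted dual twist, in raw form. -/
theorem raw_of_mem_Z1_dual {y : Gq q → (Mq (M.dualTwist (cycloChar p)) q)}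
    (hy : y ∈ Z1 (levelLoc q) (Mq (M.dualTwist (cycloChar p)) q)) :
    HyperLevel25.IsLevel₁ (levelLoc q).sets y ∧
      ∀ g h, y (g * h) = y g + ((Mq M q).dualTwist (chiq q p)).ρ g (y h) := by
  obtain ⟨hy1, hy2⟩ := (LevelCoh28.mem_Z1_iff (levelLoc q) (Mq (M.dualTwist (cycloChar p)) q) y).1 hy
  refine ⟨hy2, fun g h => ?_⟩
  have h1 := (groupCohomology.mem_cocycles₁_iff (A := Mq (M.dualTwist (cycloChar p)) q) y).1 hy1 g h
  rw [h1, add_comm, res_dualTwist_apply]

/-- A level 1-cocycle of the restriction, in raw form. -/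
theorem raw_of_mem_Z1 {x : Gq q → (Mq M q)} (hx : x ∈ Z1 (levelLoc q) (Mq M q)) :
    HyperLevel25.IsLevel₁ (levelLoc q).sets x ∧ ∀ g h, x (g * h) = x g + (Mq M q).ρ g (x h) := by
  obtain ⟨hx1, hx2⟩ := (LevelCoh28.mem_Z1_iff (levelLoc q) (Mq M q) x).1 hx
  refine ⟨hx2, fun g h => ?_⟩
  have h1 := (groupCohomology.mem_cocycles₁_iff (A := Mq M q) x).1 hx1 g h
  rw [h1, add_comm]

theorem mem_Z1_of_raw {x : Gq q → (Mq M q)} (hl : HyperLevel25.IsLevel₁ (levelLoc q).sets x)
    (hc : ∀ g h, x (g * h) = x g + (Mq M q).ρ g (x h)) : x ∈ Z1 (levelLoc q) (Mq M q) :=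
  (LevelCoh28.mem_Z1_iff (levelLoc q) (Mq M q) x).2
    ⟨(groupCohomology.mem_cocycles₁_iff (A := Mq M q) x).2 (fun g h => by rw [hc g h, add_comm]), hl⟩

theorem mem_Z1_dual_of_raw {y : Gq q → (Mq (M.dualTwist (cycloChar p)) q)}
    (hl : HyperLevel25.IsLevel₁ (levelLoc q).sets y)
    (hc : ∀ g h, y (g * h) = y g + ((Mq M q).dualTwist (chiq q p)).ρ g (y h)) :
    y ∈ Z1 (levelLoc q) (Mq (M.dualTwist (cycloChar p)) q) :=
  (LevelCoh28.mem_Z1_iff (levelLoc q) (Mq (M.dualTwist (cycloChar p)) q) y).2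
    ⟨(groupCohomology.mem_cocycles₁_iff (A := Mq (M.dualTwist (cycloChar p)) q) y).2
      (fun g h => by rw [hc g h, add_comm, res_dualTwist_apply]), hl⟩

/-- The vanishing of a cup product of classes, in raw form. -/
theorem raw_of_cupq_eq_zero
    (hMq' : IsDiscrete (levelLoc q).sets (Mq (M.dualTwist (cycloChar p)) q))
    (x : ↥(Z1 (levelLoc q) (Mq M q)))
    (y : ↥(Z1 (levelLoc q) (Mq (M.dualTwist (cycloChar p)) q)))
    (h : cupq p M q hMq' (H1mk _ _ x) (H1mk _ _ y) = 0) :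
    ∃ u : Gq q → ZMod p, HyperLevel25.IsLevel₁ (levelLoc q).sets u ∧ ∀ g h,
      (((Mq M q).dualTwist (chiq q p)).ρ g ((y : Gq q → Module.Dual (ZMod p) M) h))
          ((x : Gq q → M) g) =
        (chiq q p g : ZMod p) * u h - u (g * h) + u g := by
  unfold cupq at h
  rw [cup_mk, H2mk_eq_zero_iff, coe_cupZ, mem_B2_iff] at h
  obtain ⟨u, hul, hu⟩ := h
  refine ⟨u, hul, fun g h => ?_⟩
  have h1 := congrFun hu (g, h)
  rw [d₁₂_hom_apply, cupFun_apply, evalB_apply, res_dualTwist_apply] at h1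
  exact h1.symm

/-- **(LOC-2)** The local Tate cup product is right-nondegenerate. -/
theorem cupq_right_nondegenerate [FiniteDimensional (ZMod p) M] (hMq : IsDiscrete (levelLoc q).sets (Mq M q))
    (hMq' : IsDiscrete (levelLoc q).sets (Mq (M.dualTwist (cycloChar p)) q))
    (y : Hq1 (M.dualTwist (cycloChar p)) q) (h : ∀ x : Hq1 M q, cupq p M q hMq' x y = 0) :
    y = 0 := by
  obtain ⟨yz, rfl⟩ := H1mk_surjective _ _ y
  obtain ⟨hyl, hyc⟩ := raw_of_mem_Z1_dual p M q yz.2
  have := finiteDimensional_Mq p M q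
  obtain ⟨a, ha⟩ := cup_right_kernel q p (Mq M q) hMq (yz : Gq q → Module.Dual (ZMod p) M) hyl hyc
    (fun x hxl hxc =>
      raw_of_cupq_eq_zero p M q hMq' ⟨x, mem_Z1_of_raw p M q hxl hxc⟩ yz (h _))
  rw [H1mk_eq_zero_iff]
  refine ⟨a, ?_⟩
  funext g
  rw [d₀₁_hom_apply, res_dualTwist_apply]
  exact (ha g).symm

/-- The local Tate cup product is left-nondegenerate. -/
theorem cupq_left_nondegenerate [FiniteDimensional (ZMod p) M] (hMq : IsDiscrete (levelLoc q).sets (Mq M q))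
    (hMq' : IsDiscrete (levelLoc q).sets (Mq (M.dualTwist (cycloChar p)) q))
    (x : Hq1 M q) (h : ∀ y : Hq1 (M.dualTwist (cycloChar p)) q, cupq p M q hMq' x y = 0) :
    x = 0 := by
  obtain ⟨xz, rfl⟩ := H1mk_surjective _ _ x
  obtain ⟨hxl, hxc⟩ := raw_of_mem_Z1 p M q xz.2
  have := finiteDimensional_Mq p M q
  obtain ⟨n, hn⟩ := cup_left_kernel q p (Mq M q) hMq (xz : Gq q → M) hxl hxc
    (fun y hyl hyc =>
      raw_of_cupq_eq_zero p M q hMq' xz ⟨y, mem_Z1_dual_of_raw p M q hyl hyc⟩ (h _))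
  rw [H1mk_eq_zero_iff]
  refine ⟨n, ?_⟩
  funext g
  rw [d₀₁_hom_apply]
  exact (hn g).symm

end Fermat.Agent.TW.LOC.CupDualityMu2
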