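/-
Programme T (S56, Taylor–Wiles primes), chapter LOC, BRICK A = (DIV) (request of helper1, msg 248;
needed by GLOB T6 `tail`, helper5's H²-side (A4), helper2's LOC-1) — helper4.

`Γ_q = Gq q`, `rq q : Γ_q → Γ = Gal(ℚ̄/ℚ)`, `levelLocS q S`, `levelLoc q`, `levelS S` (`Objects21`).

* Part 1 (decomposition groups surject, any valuation subring `A` of `ℚ̄` over a prime `q`, any finite
  Galois `K/ℚ` inside `ℚ̄`): `primeK K A : Ideal (𝓞 K)` (the prime below `A`), `mem_primeK`,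
  **`exists_mem_decomposition_restrict`** : `g • primeK K A = primeK K A →
  ∃ σ ∈ A.decompositionSubgroup ℚ, ∀ x : K, σ x = g x`.
* Part 2 (`A = padicPlace q`): `resK q K : Γ_q →* Gal(K/ℚ)`, `ker_resK`,
  **`range_resK : (resK q K).range = MulAction.stabilizer (K ≃ₐ[ℚ] K) (primeKq q K)`**,
  **`index_comap_fixingSubgroup : (K.fixingSubgroup.comap (rq q)).index = #(decomposition group)`**.
* Part 3: `Kcyc p r = ℚ(ζ_{p^r}) ⊆ ℚ̄` (cyclotomic, finite, Galois), `isUnramifiedOutside_Kcyc`.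
* Part 4: `exists_pow_dvd_index_Kcyc q p N : ∃ r, p ^ N ∣ [Γ_q : level of ℚ(ζ_{p^r})]`
  (from `CycloLocalDeg22.exists_level`; `q = p` allowed, any prime `p`).
* Part 5: `div_of_levels` (abstract), `exists_levelLocS_pow_dvd_index`, `exists_levelLoc_pow_dvd_index`,
  `exists_levelS_pow_dvd_index`, and
  **`div_levelLocS q p S (hpS : pPrime p ∈ S) : ∀ V0 ∈ (levelLocS q S).sets,
      ∃ V ∈ (levelLocS q S).sets, V.Normal ∧ V ≤ V0 ∧ p ∣ V.relIndex V0`**,
  **`div_levelLoc q p`** (same for `levelLoc q`), **`div_levelS p S hpS`** (same for `(Γ, levelS S)`).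
-/
import Mathlib
import Fermat.Agent.TW.LOC.Defs2
import Fermat.Agent.TW.LOC.DecompSurj4
import Fermat.Agent.S13.UnramInf
import Fermat.Agent.ES.J.CycloChar8
import Fermat.Agent.PT.GLOB.CycloLocalDeg22
import Fermat.Agent.PT.GLUE.Objects21

set_option autoImplicit false
set_option linter.unusedSectionVars false
set_option linter.style.haveILetI false

open Fermat.Agent.PT.GLUE.Objects21
open Fermat.Agent.PT.PRO.LevelCoh28
open Fermat.Agent.TW.LOC.Defs2
open Fermat.Agent.TW.LOC.TameProfinite4 Fermat.Agent.TW.LOC.DecompSurj4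
open Fermat.Agent.S13.UnramInf
open NumberField ExtCitation
open scoped Pointwise

namespace Fermat.Agent.TW.LOC.BrickA4

noncomputable section

local notation "Qbar" => AlgebraicClosure ℚ
local notation "GQ" => (AlgebraicClosure ℚ ≃ₐ[ℚ] AlgebraicClosure ℚ)

attribute [local instance] isAlgClosure_rat topOQ

/-! ### Part 1: decomposition groups surject onto decomposition groups of finite levels -/

section Part1

variable (K : IntermediateField ℚ Qbar) (A : ValuationSubring Qbar)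

/-- The prime of `𝓞 K` cut out by the valuation subring `A` of `ℚ̄`. -/
def primeK : Ideal (𝓞 K) := (primeQ A).under (𝓞 K)

instance primeK_isPrime : (primeK K A).IsPrime := Ideal.IsPrime.under _ _

theorem mem_primeK {x : 𝓞 K} : x ∈ primeK K A ↔ (((x : K) : Qbar)) ∈ A.nonunits := by
  rw [primeK, Ideal.under_def, Ideal.mem_comap, mem_primeQ, coe_algebraMap_OK]

theorem smul_mem_primeK_iff [FiniteDimensional ℚ K] [IsGalois ℚ K] (g : K ≃ₐ[ℚ] K) (x : 𝓞 K) :
    x ∈ g • primeK K A ↔ (((g.symm (x : K) : K) : Qbar)) ∈ A.nonunits := by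
  rw [Ideal.mem_pointwise_smul_iff_inv_smul_mem, mem_primeK]
  rfl

/-- **Decomposition groups surject.**  If `g ∈ Gal(K/ℚ)` stabilises the prime of `𝓞 K` below `A`,
then `g` is the restriction of an element of the decomposition group of `A`. -/
theorem exists_mem_decomposition_restrict [FiniteDimensional ℚ K] [IsGalois ℚ K]
    {q : ℕ} (hq : q.Prime) (hA : A.LiesOverPrime q) (g : K ≃ₐ[ℚ] K)
    (hg : g • primeK K A = primeK K A) :
    ∃ σ : GQ, σ ∈ A.decompositionSubgroup ℚ ∧ ∀ x : K, σ (x : Qbar) = ((g x : K) : Qbar) := by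
  classical
  set σ₀ : GQ := g.liftNormal Qbar with hσ₀def
  have hσ₀ : ∀ x : K, σ₀ (x : Qbar) = g x := fun x => g.liftNormal_commutes Qbar x
  set Q : Ideal (𝓞 Qbar) := primeQ A with hQdef
  -- Step 1: `σ₀ • Q` and `Q` lie over the same prime of `𝓞 K`
  have hunder : (σ₀ • Q).under (𝓞 K) = Q.under (𝓞 K) := by
    ext a
    have hR : a ∈ Q.under (𝓞 K) ↔ a ∈ primeK K A := Iff.rfl
    rw [hR, ← hg, smul_mem_primeK_iff, Ideal.under_def, Ideal.mem_comap,
      Ideal.mem_pointwise_smul_iff_inv_smul_mem, mem_primeQ]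
    have h1 : σ₀ ((g.symm (a : K) : K) : Qbar) = ((a : K) : Qbar) := by
      rw [hσ₀, AlgEquiv.apply_symm_apply]
    have h2 : ((σ₀⁻¹ • algebraMap (𝓞 K) (𝓞 Qbar) a : 𝓞 Qbar) : Qbar) =
        ((g.symm (a : K) : K) : Qbar) := by
      rw [coe_smul_OQ, coe_algebraMap_OK, ← h1]
      exact σ₀.symm_apply_apply _
    rw [h2]
  -- Step 2: transitivity
  obtain ⟨ρ, hρ⟩ := Algebra.IsInvariant.exists_smul_of_under_eq_of_profinite
    (A := 𝓞 K) (B := 𝓞 Qbar) (G := Qbar ≃ₐ[K] Qbar) (σ₀ • Q) Q hunder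
  set σ₁ : GQ := (ρ.restrictScalars ℚ) * σ₀ with hσ₁def
  have hσ₁Q : σ₁ • Q = Q := by
    ext x
    rw [Ideal.mem_pointwise_smul_iff_inv_smul_mem]
    conv_rhs => rw [hρ, Ideal.mem_pointwise_smul_iff_inv_smul_mem,
      Ideal.mem_pointwise_smul_iff_inv_smul_mem]
    have : σ₁⁻¹ • x = σ₀⁻¹ • ρ⁻¹ • x := by
      rw [hσ₁def, mul_inv_rev, mul_smul]
      rfl
    rw [this]
  have hσ₁K : ∀ x : K, σ₁ (x : Qbar) = g x := by
    intro x
    show ρ (σ₀ (x : Qbar)) = _
    rw [hσ₀]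
    exact ρ.commutes (g x)
  refine ⟨σ₁, ?_, hσ₁K⟩
  -- Step 3: `σ₁ • A = A`
  have hmemQ : ∀ (τ : GQ), τ • Q = Q → ∀ b : Qbar, IsIntegral ℤ b → b ∉ A.nonunits →
      τ b ∉ A.nonunits := by
    intro τ hτ b hb hbu hcon
    apply hbu
    have h1 : (τ • (⟨b, hb⟩ : 𝓞 Qbar)) ∈ Q := (mem_primeQ A).mpr hcon
    rw [← hτ] at h1
    exact (mem_primeQ A).mp (Ideal.smul_mem_pointwise_smul_iff.mp h1)
  have hσ₁inv : σ₁⁻¹ • Q = Q := by
    conv_lhs => rw [← hσ₁Q]
    rw [inv_smul_smul]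
  rw [ValuationSubring.decompositionSubgroup, MulAction.mem_stabilizer_iff]
  apply SetLike.ext
  intro x
  rw [ValuationSubring.mem_pointwise_smul_iff_inv_smul_mem]
  constructor
  · intro hx
    have := Fermat.Agent.TW.GRP.PlaceConj3.map_mem_of_units hq hA σ₁ (hmemQ σ₁ hσ₁Q) hx
    simpa [AlgEquiv.smul_def] using this
  · intro hx
    exact Fermat.Agent.TW.GRP.PlaceConj3.map_mem_of_units hq hA σ₁⁻¹ (hmemQ σ₁⁻¹ hσ₁inv) hx

end Part1

/-! ### Part 2: the image of `Γ_q` in `Gal(K/ℚ)` is the decomposition group -/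

section Part2

variable (q : ℕ) [Fact q.Prime]
variable (K : IntermediateField ℚ Qbar) [FiniteDimensional ℚ K] [IsGalois ℚ K]

/-- `Γ_q → Gal(ℚ̄/ℚ) → Gal(K/ℚ)`. -/
def resK : Gq q →* (K ≃ₐ[ℚ] K) := (AlgEquiv.restrictNormalHom K).comp (rq q)

theorem resK_apply (τ : Gq q) (x : K) : ((resK q K τ x : K) : Qbar) = rq q τ (x : Qbar) :=
  AlgEquiv.restrictNormal_commutes (rq q τ) K x

theorem ker_resK : (resK q K).ker = K.fixingSubgroup.comap (rq q) := by
  ext τ
  rw [MonoidHom.mem_ker, Subgroup.mem_comap, IntermediateField.mem_fixingSubgroup_iff]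
  constructor
  · intro h x hx
    have := resK_apply q K τ ⟨x, hx⟩
    rw [h] at this
    exact this.symm
  · intro h
    ext x
    rw [resK_apply]
    exact h x x.2

/-- The prime of `𝓞 K` below `padicPlace q`. -/
abbrev primeKq : Ideal (𝓞 K) := primeK K (padicPlace q)

theorem resK_mem_stabilizer (τ : Gq q) :
    resK q K τ ∈ MulAction.stabilizer (K ≃ₐ[ℚ] K) (primeKq q K) := by
  rw [MulAction.mem_stabilizer_iff]
  ext x
  rw [smul_mem_primeK_iff, mem_primeK]
  have h1 : (((resK q K τ).symm (x : K) : K) : Qbar) = rq q τ⁻¹ ((x : K) : Qbar) := by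
    have : (resK q K τ).symm = resK q K τ⁻¹ := by
      rw [map_inv]; rfl
    rw [this, resK_apply]
  rw [h1, mem_nonunits_padicPlace_iff, mem_nonunits_padicPlace_iff,
    norm_padicEmbedding_apply (rq_mem_decomposition q τ⁻¹)]

theorem mem_range_resK_of_mem_stabilizer {g : K ≃ₐ[ℚ] K}
    (hg : g ∈ MulAction.stabilizer (K ≃ₐ[ℚ] K) (primeKq q K)) : g ∈ (resK q K).range := by
  rw [MulAction.mem_stabilizer_iff] at hg
  obtain ⟨σ, hσ, hσK⟩ := exists_mem_decomposition_restrict K (padicPlace q)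
    (Fact.out : q.Prime) (liesOverPrime_padicPlace q) g hg
  obtain ⟨τ, rfl⟩ := exists_rq_eq hσ
  refine ⟨τ, ?_⟩
  ext x
  rw [resK_apply, hσK]

/-- **The image of `Γ_q` in `Gal(K/ℚ)` is the decomposition group** of the prime below
`padicPlace q`. -/
theorem range_resK :
    (resK q K).range = MulAction.stabilizer (K ≃ₐ[ℚ] K) (primeKq q K) := by
  apply le_antisymm
  · rintro _ ⟨τ, rfl⟩
    exact resK_mem_stabilizer q K τ
  · intro g hg
    exact mem_range_resK_of_mem_stabilizer q K hg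

/-- **The index of the level of `K` in `Γ_q` is the order of the decomposition group.** -/
theorem index_comap_fixingSubgroup :
    (K.fixingSubgroup.comap (rq q)).index =
      Nat.card (MulAction.stabilizer (K ≃ₐ[ℚ] K) (primeKq q K)) := by
  rw [← ker_resK, Subgroup.index_ker, range_resK]

end Part2

/-! ### Part 3: the cyclotomic levels -/

section Part3

variable (p : ℕ) [hp : Fact p.Prime]

/-- A primitive `p ^ r`-th root of unity in `ℚ̄`. -/
def zetaP (r : ℕ) : Qbar := (Fermat.Agent.ES.J.CycloChar8.exists_primitiveRoot p r).choose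

theorem zetaP_spec (r : ℕ) : IsPrimitiveRoot (zetaP p r) (p ^ r) :=
  (Fermat.Agent.ES.J.CycloChar8.exists_primitiveRoot p r).choose_spec

/-- `ℚ(ζ_{p^r}) ⊆ ℚ̄`. -/
def Kcyc (r : ℕ) : IntermediateField ℚ Qbar := IntermediateField.adjoin ℚ {zetaP p r}

local instance neZero_pow (r : ℕ) : NeZero (p ^ r) := ⟨(pow_pos hp.out.pos _).ne'⟩

instance isCyclotomicExtension_Kcyc (r : ℕ) : IsCyclotomicExtension {p ^ r} ℚ (Kcyc p r) := by
  have h := (zetaP_spec p r).intermediateField_adjoin_isCyclotomicExtension (K := ℚ)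
  exact h

instance finiteDimensional_Kcyc (r : ℕ) : FiniteDimensional ℚ (Kcyc p r) :=
  IsCyclotomicExtension.finiteDimensional {p ^ r} ℚ (Kcyc p r)

instance isGalois_Kcyc (r : ℕ) : IsGalois ℚ (Kcyc p r) :=
  IsCyclotomicExtension.isGalois {p ^ r} ℚ (Kcyc p r)

instance numberField_Kcyc (r : ℕ) : NumberField (Kcyc p r) :=
  IsCyclotomicExtension.numberField {p ^ r} ℚ (Kcyc p r)

/-- `ℚ(ζ_{p^r})` is unramified outside any `S ∋ p`. -/
theorem isUnramifiedOutside_Kcyc {S : Finset Nat.Primes} (hpS : pPrime p ∈ S) (r : ℕ) :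
    (Kcyc p r).IsUnramifiedOutside S := by
  refine ⟨inferInstance, fun q hq A hA σ hσ => ?_⟩
  have hqp : (q : ℕ) ≠ p := by
    intro h
    apply hq
    have : q = pPrime p := Subtype.ext h
    rw [this]; exact hpS
  have hc := Fermat.Agent.ES.J.CycloChar8.cyclo_of_mem_inertia p q.2 hqp A hA hσ
  have hζ : σ (zetaP p r) = zetaP p r := by
    have h1 := Fermat.Agent.ES.J.CycloChar8.cyclo_spec p σ (zetaP p r) (zetaP_spec p r).pow_eq_one
    rw [hc, Units.val_one, map_one, ZMod.val_one_eq_one_mod,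
      ← pow_eq_pow_mod 1 (zetaP_spec p r).pow_eq_one, pow_one] at h1
    exact h1
  rw [IntermediateField.mem_fixingSubgroup_iff]
  have hle : Kcyc p r ≤ IntermediateField.fixedField (Subgroup.zpowers σ) := by
    rw [Kcyc, IntermediateField.adjoin_le_iff]
    rintro x hx
    rw [Set.mem_singleton_iff] at hx
    subst hx
    rw [SetLike.mem_coe, IntermediateField.mem_fixedField_iff]
    rintro _ ⟨n, rfl⟩
    induction n using Int.induction_on with
    | zero => simp
    | succ n ih =>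
      change (σ ^ ((n : ℤ) + 1)) (zetaP p r) = zetaP p r
      change (σ ^ (n : ℤ)) (zetaP p r) = zetaP p r at ih
      rw [zpow_add_one, AlgEquiv.mul_apply, hζ, ih]
    | pred n ih =>
      change (σ ^ (-(n : ℤ) - 1)) (zetaP p r) = zetaP p r
      change (σ ^ (-(n : ℤ))) (zetaP p r) = zetaP p r at ih
      rw [zpow_sub_one, AlgEquiv.mul_apply]
      have : σ⁻¹ (zetaP p r) = zetaP p r := by
        conv_lhs => rw [← hζ]
        exact σ.symm_apply_apply _
      rw [this, ih]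
  intro x hx
  have := (IntermediateField.mem_fixedField_iff _ _).1 (hle hx) σ (Subgroup.mem_zpowers σ)
  exact this

end Part3

/-! ### Part 4: levels of `Γ_q` of index divisible by a large power of `p` -/

section Part4

variable (q : ℕ) [Fact q.Prime] (p : ℕ) [hp : Fact p.Prime]

/-- The prime of `𝓞 ℚ` below `padicPlace q`. -/
def primeQq : Ideal (𝓞 ℚ) := (primeQ (padicPlace q)).under (𝓞 ℚ)

instance primeQq_isPrime : (primeQq q).IsPrime := Ideal.IsPrime.under _ _

theorem natCast_mem_primeQq : ((q : ℕ) : 𝓞 ℚ) ∈ primeQq q := by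
  rw [primeQq, Ideal.under_def, Ideal.mem_comap, map_natCast, mem_primeQ]
  have h : ((q : ℕ) : Qbar) ∈ (padicPlace q).nonunits := liesOverPrime_padicPlace q
  have h2 : (((q : ℕ) : 𝓞 Qbar) : Qbar) = ((q : ℕ) : Qbar) := map_natCast (algebraMap (𝓞 Qbar) Qbar) q
  rw [h2]
  exact h

theorem primeQq_ne_bot : primeQq q ≠ ⊥ := by
  intro h
  have h1 := natCast_mem_primeQq q
  rw [h, Ideal.mem_bot] at h1
  have : (q : ℕ) = 0 := by exact_mod_cast h1
  exact (Fact.out : q.Prime).ne_zero this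

theorem under_primeKq (K : IntermediateField ℚ Qbar) :
    (primeKq q K).under (𝓞 ℚ) = primeQq q := by
  rw [primeKq, primeK, primeQq, Ideal.under_under]

/-- For every `N` there is `r` such that the level of `ℚ(ζ_{p^r})` in `Γ_q` has index divisible by
`p ^ N`. -/
theorem exists_pow_dvd_index_Kcyc (N : ℕ) :
    ∃ r : ℕ, p ^ N ∣ ((Kcyc p r).fixingSubgroup.comap (rq q)).index := by
  obtain ⟨r₀, -, h⟩ := Fermat.Agent.PT.GLOB.CycloLocalDeg22.exists_level.{0, 0} p ℚ {primeQq q}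
    (fun P0 hP0 => by
      rw [Finset.mem_singleton] at hP0
      subst hP0
      exact ⟨primeQq_isPrime q, primeQq_ne_bot q⟩) N
  refine ⟨r₀, ?_⟩
  rw [index_comap_fixingSubgroup]
  exact h r₀ le_rfl (Kcyc p r₀) (primeKq q (Kcyc p r₀)) inferInstance
    (by rw [under_primeKq]; exact Finset.mem_singleton_self _)

end Part4

/-! ### Part 5: (DIV) -/

section Part5

/-- Abstract (DIV): if a level basis has levels of index divisible by arbitrarily large powers of
`p`, then below every level there is a normal level of relative index divisible by `p`. -/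
theorem div_of_levels {G : Type*} [Group G] (𝓑 : LevelBasis G) {p : ℕ} (hp : p.Prime)
    (h : ∀ N : ℕ, ∃ V ∈ 𝓑.sets, p ^ N ∣ V.index) :
    ∀ V0 ∈ 𝓑.sets, ∃ V ∈ 𝓑.sets, V.Normal ∧ V ≤ V0 ∧ p ∣ V.relIndex V0 := by
  intro V0 hV0
  have hfi := 𝓑.isBasis.finiteIndex V0 hV0
  have hn0 : V0.index ≠ 0 := hfi.index_ne_zero
  obtain ⟨V1, hV1, hdiv⟩ := h V0.index
  obtain ⟨W, hW, hWle⟩ := 𝓑.isBasis.directed V0 hV0 V1 hV1
  obtain ⟨V, hV, hVW, hVn⟩ := 𝓑.isBasis.normalCore W hW
  have hVV0 : V ≤ V0 := hVW.trans (hWle.trans inf_le_left)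
  have hVV1 : V ≤ V1 := hVW.trans (hWle.trans inf_le_right)
  refine ⟨V, hV, hVn, hVV0, ?_⟩
  have h1 : V1.index ∣ V.index := Subgroup.index_dvd_of_le hVV1
  have h2 : V.relIndex V0 * V0.index = V.index := Subgroup.relIndex_mul_index hVV0
  by_contra hnd
  have hcop : Nat.Coprime (p ^ V0.index) (V.relIndex V0) :=
    ((Nat.Prime.coprime_iff_not_dvd hp).2 hnd).pow_left _
  have h3 : p ^ V0.index ∣ V0.index :=
    hcop.dvd_of_dvd_mul_left (by rw [h2]; exact hdiv.trans h1)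
  have hlt : V0.index < p ^ V0.index := Nat.lt_pow_self hp.one_lt
  exact absurd (Nat.le_of_dvd (Nat.pos_of_ne_zero hn0) h3) (not_le.2 hlt)

variable (q : ℕ) [Fact q.Prime] (p : ℕ) [hp : Fact p.Prime]

/-- Levels of `(Γ_q, levelLocS q S)` of index divisible by `p ^ N` (`p ∈ S`). -/
theorem exists_levelLocS_pow_dvd_index (S : Finset Nat.Primes) (hpS : pPrime p ∈ S) (N : ℕ) :
    ∃ V ∈ (levelLocS q S).sets, p ^ N ∣ V.index := by
  obtain ⟨r, hr⟩ := exists_pow_dvd_index_Kcyc q p N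
  exact ⟨_, ⟨(Kcyc p r).fixingSubgroup, ⟨Kcyc p r, isUnramifiedOutside_Kcyc p hpS r, rfl⟩, rfl⟩, hr⟩

/-- Levels of `(Γ_q, levelLoc q)` of index divisible by `p ^ N`. -/
theorem exists_levelLoc_pow_dvd_index (N : ℕ) :
    ∃ V ∈ (levelLoc q).sets, p ^ N ∣ V.index := by
  obtain ⟨r, hr⟩ := exists_pow_dvd_index_Kcyc q p N
  exact ⟨_, ⟨(Kcyc p r).fixingSubgroup, ⟨Kcyc p r, inferInstance, rfl⟩, rfl⟩, hr⟩

/-- **(DIV) for `(Γ_q, levelLocS q S)`, `p ∈ S`** (`q = p` allowed): `p^∞` divides the degree of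
`(ℚ_S)_q` over every finite subextension. -/
theorem div_levelLocS (S : Finset Nat.Primes) (hpS : pPrime p ∈ S) :
    ∀ V0 ∈ (levelLocS q S).sets, ∃ V ∈ (levelLocS q S).sets,
      V.Normal ∧ V ≤ V0 ∧ p ∣ V.relIndex V0 :=
  div_of_levels (levelLocS q S) hp.out (exists_levelLocS_pow_dvd_index q p S hpS)

/-- **(DIV) for the full local group `(Γ_q, levelLoc q)`.** -/
theorem div_levelLoc :
    ∀ V0 ∈ (levelLoc q).sets, ∃ V ∈ (levelLoc q).sets,
      V.Normal ∧ V ≤ V0 ∧ p ∣ V.relIndex V0 :=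
  div_of_levels (levelLoc q) hp.out (exists_levelLoc_pow_dvd_index q p)

/-- Levels of `(Γ, levelS S)` of index divisible by `p ^ N` (`p ∈ S`). -/
theorem exists_levelS_pow_dvd_index (S : Finset Nat.Primes) (hpS : pPrime p ∈ S) (N : ℕ) :
    ∃ V ∈ (levelS S).sets, p ^ N ∣ V.index := by
  obtain ⟨r, hr⟩ := exists_pow_dvd_index_Kcyc p p N
  refine ⟨(Kcyc p r).fixingSubgroup, ⟨Kcyc p r, isUnramifiedOutside_Kcyc p hpS r, rfl⟩, ?_⟩
  haveI : (Kcyc p r).fixingSubgroup.Normal :=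
    @IsGalois.fixingSubgroup_normal_of_isGalois ℚ Qbar _ _ _ (Kcyc p r)
      (IsAlgClosure.isGalois ℚ Qbar) (isGalois_Kcyc p r)
  refine hr.trans ?_
  rw [Subgroup.index_comap]
  exact Subgroup.relIndex_dvd_index_of_normal _ _

/-- **(DIV) for `(Γ, levelS S)`, `p ∈ S`** (global). -/
theorem div_levelS (S : Finset Nat.Primes) (hpS : pPrime p ∈ S) :
    ∀ V0 ∈ (levelS S).sets, ∃ V ∈ (levelS S).sets,
      V.Normal ∧ V ≤ V0 ∧ p ∣ V.relIndex V0 :=
  div_of_levels (levelS S) hp.out (exists_levelS_pow_dvd_index p S hpS)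

end Part5

end

end Fermat.Agent.TW.LOC.BrickA4
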