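/-
Programme T (S56), chapter T/LOC, brick (LOC-1) = (LD20).  Owner: helper2.

`LocalDuality20_2`: **local Tate duality in degrees `(2,0)`**, `H²(Γ_q, N) ≅ (H⁰(Γ_q, N^∨(1)))^∨`,
in COUNTING form, for all primes `q` (`q = p` included) and any prime `p`:

  `Finite H²(Γ_q, N)`   and   `#H²(Γ_q, N) = #H⁰(Γ_q, N^∨(1))`

for `N : Rep (ZMod p) Γ_q` finite-dimensional and discrete for `levelLoc q`
(`Γ_q = Gal(ℚ̄_q/ℚ_q)`, `N^∨(1) = N.dualTwist (chiq q p)`).

Proof = the `(2,0)` limit argument (`TW/GLOB/{FL20_2, Lim20_2, FundHyp20_2, ExtPair20_2}`) for the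
local datum `(Γ_q, levelLoc q, ℚ̄_qˣ)`, whose finite levels carry fundamental classes
(`PT/GLUE/LocalFund11`), + vanishing of norms from (DIV) (`TW/LOC/BrickA4.div_levelLoc`: `p^∞`
divides the degree of `ℚ̄_q` over every finite extension of `ℚ_q`) + the invariant map
`H²_lev(ℚ̄_qˣ)[p] ↪ ℤ/p` (`InvFund18`) + `KerIso7.compare2_bijective`
(`H²(Γ_q, N) ≅ ℍ²(K(P; ℚ̄_qˣ))`, `P` a free resolution of `N^∨(1)`).

* `hyp20_local`, `norm_local`: `Lim20_2.Hyp20` and the vanishing of norms for the local datum;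
* `card_ℍ2_local`: `#ℍ²(K(P; ℚ̄_qˣ)) = #H⁰(Γ_q, M)` for any resolved `M` killed by `p`;
* **`card_H2_eq`**: `Finite (H2 (levelLoc q) N) ∧ #H2 (levelLoc q) N = #(N^∨(1))^{Γ_q}`;
* **`card_H2_dualTwist`**: `Finite (H2 (levelLoc q) N^∨(1)) ∧ #H2 (levelLoc q) N^∨(1) = #N^{Γ_q}`.
-/
import Mathlib
import Fermat.Agent.PT.GLUE.LocalFund11
import Fermat.Agent.PT.GLUE.LocalHypR11
import Fermat.Agent.PT.PRO.KerIsoMain7
import Fermat.Agent.PT.PRO.KerIsoGal7
import Fermat.Agent.PT.PRO.LevelEquiv29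
import Fermat.Agent.PT.PRO.InvFund18
import Fermat.Agent.TW.GLOB.ExtPair20_2
import Fermat.Agent.TW.GLOB.FundHyp20_2
import Fermat.Agent.TW.LOC.CupDuality2
import Fermat.Agent.TW.LOC.BrickA4

set_option autoImplicit false

namespace Fermat.Agent.TW.LOC.LocalDuality20_2

open Function ExtCitation
open Fermat.Agent.PT.PRO Fermat.Agent.PT.PRO.HyperLevel25 Fermat.Agent.PT.PRO.Resolved4
open Fermat.Agent.PT.PRO.ExtPairing4 Fermat.Agent.PT.PRO.ExtPairingB4
open Fermat.Agent.PT.PRO.KerIso7 Fermat.Agent.PT.PRO.KerIsoGal7 Fermat.Agent.PT.PRO.Setup20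
open Fermat.Agent.PT.PRO.IndRes20 Fermat.Agent.PT.PRO.GlobalDuality20
open Fermat.Agent.PT.PRO.FundHyp12 Fermat.Agent.PT.PRO.InvP4
open Fermat.Agent.PT.GLUE.Objects21 Fermat.Agent.PT.GLUE.LocalHypR11
open Fermat.Agent.PT.GLUE.LocalFund11
open Fermat.Agent.TW.GLOB.Lim20_2 Fermat.Agent.TW.GLOB.FundHyp20_2
open Fermat.Agent.TW.LOC.Defs2 Fermat.Agent.TW.LOC.CupAlgebra2 Fermat.Agent.TW.LOC.CupDuality2

/-! ### The local datum -/

section Local

variable (q : ℕ) [Fact q.Prime]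

variable {P1 P0 M : Type} [AddCommGroup P1] [Module ℤ P1] [AddCommGroup P0] [Module ℤ P0]
  [AddCommGroup M] [Module ℤ M]

/-- **`Hyp20` for the local datum `K(P; ℚ̄_qˣ)`, raw form.** -/
theorem hyp20_local (R : Res ℤ (Gq q) P1 P0 M) [Module.Free ℤ P0] [Module.Finite ℤ P0]
    [Module.Free ℤ P1] [Module.Finite ℤ P1] (h0 : IsDiscrete (levelLoc q).sets R.ρ0)
    (p : ℕ) [Fact p.Prime] (hpM : ∀ m : M, p • m = 0) :
    Hyp20 (R.datum (unitsLoc q).ρ) (levelLoc q).sets (goodSet (levelLoc q).sets R.ρ0) p :=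
  hyp20_of_fixed R (unitsLoc q).ρ (isLevelBasis_levelLoc q)
    (fun m => (Nat.cast_smul_eq_nsmul ℤ p m).trans (hpM m))
    (isDiscrete_unitsLoc' q) h0
    (tn11lFixed_of_fund _ (fundFixed_unitsLoc q p))
    (tn11rFixed_of_fund _ (fundFixed_unitsLoc q p))
    (h1Fixed_of_fund _ (fundFixed_unitsLoc q p))

/-- **Vanishing of norms for the local datum**, from (DIV). -/
theorem norm_local (R : Res ℤ (Gq q) P1 P0 M) (p : ℕ) [Fact p.Prime]
    (hpM : ∀ m : M, p • m = 0) :
    ∀ U ∈ goodSet (levelLoc q).sets R.ρ0, ∃ V ∈ goodSet (levelLoc q).sets R.ρ0, V ≤ U ∧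
      ∀ a', FixedBy (R.datum (unitsLoc q).ρ).ρA V a' →
        nrm (R.datum (unitsLoc q).ρ).ρA V a' = 0 :=
  norm_of_div R (unitsLoc q).ρ (isLevelBasis_levelLoc q)
    (fun m => (Nat.cast_smul_eq_nsmul ℤ p m).trans (hpM m))
    (Fermat.Agent.TW.LOC.BrickA4.div_levelLoc q p)

/-- **The count for the local datum**: `#ℍ²(K(P; ℚ̄_qˣ)) = #H⁰(Γ_q, M)` for a resolved module `M`
killed by `p` (`P₀` finitely generated free). -/
theorem card_ℍ2_local (P : Resolved ℤ (levelLoc q).sets P1 P0 M) [Module.Free ℤ P0]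
    [Module.Finite ℤ P0] [Module.Finite ℤ P1] (p : ℕ) [Fact p.Prime]
    (hpM : ∀ m : M, p • m = 0) [Finite P.ρM.invariants] :
    Finite ((P.K (isLevelBasis_levelLoc q) (unitsLoc q).ρ (isDiscrete_unitsLoc' q)).ℍ2
        (isLevelBasis_levelLoc q)) ∧
      Nat.card ((P.K (isLevelBasis_levelLoc q) (unitsLoc q).ρ (isDiscrete_unitsLoc' q)).ℍ2
        (isLevelBasis_levelLoc q)) = Nat.card P.ρM.invariants := by
  have := free_P1 P
  obtain ⟨τ, hτ⟩ := InvFund18.exists_inv_of_isFundClass (unitsLoc q).ρ (p := p)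
    (isLevelBasis_levelLoc q) (isDiscrete_unitsLoc' q) (fundFixed_unitsLoc q p)
  exact Fermat.Agent.TW.GLOB.ExtPair20_2.card_ℍ2_eq
    (evalPairing P (isLevelBasis_levelLoc q) (unitsLoc q).ρ (isDiscrete_unitsLoc' q))
    (isLevelBasis_levelLoc q) (isDiscrete_unitsLoc' q)
    (hyp20_local q (Fermat.Agent.PT.GLUE.LocalHypR11.toRes P) P.disc0 p hpM)
    (norm_local q (Fermat.Agent.PT.GLUE.LocalHypR11.toRes P) p hpM) hpM τ hτ

end Local

/-! ### `H²(Γ_q, N)` -/

section Main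

variable (q : ℕ) [Fact q.Prime] (p : ℕ) [Fact p.Prime]
variable (N : Rep.{0} (ZMod p) (Gq q)) [FiniteDimensional (ZMod p) N]

/-- Auxiliary form of `card_H2_eq` (finiteness and discreteness as hypotheses), in the vocabulary
of `HyperCompare25`. -/
theorem card_Hp2_aux [Finite (N.dualTwist (chiq q p))]
    (hN : HyperLevel25.IsDiscrete (levelLoc q).sets N.ρ)
    (h0 : HyperLevel25.IsDiscrete (levelLoc q).sets
      (HpAt29.freeRes (IntRep20.intRep (N.dualTwist (chiq q p)))).ρ0) :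
    Finite (HyperCompare25.Hp2 (isLevelBasis_levelLoc q) (intRep intSurj_int N.ρ)
        (isDiscrete_intRep intSurj_int hN)) ∧
      Nat.card (HyperCompare25.Hp2 (isLevelBasis_levelLoc q) (intRep intSurj_int N.ρ)
        (isDiscrete_intRep intSurj_int hN)) =
      Nat.card (toResolved (HpAt29.freeRes (IntRep20.intRep (N.dualTwist (chiq q p))))
        h0).ρM.invariants := by
  have hpA : ∀ m : (N.dualTwist (chiq q p)), p • m = 0 := fun m => by
    rw [← Nat.cast_smul_eq_nsmul (ZMod p), ZMod.natCast_self, zero_smul]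
  have hfinInv : Finite (toResolved (HpAt29.freeRes (IntRep20.intRep (N.dualTwist (chiq q p))))
      h0).ρM.invariants := Finite.of_injective (fun x => (x.1 : N.dualTwist (chiq q p)))
        Subtype.val_injective
  have h1 := card_ℍ2_local q
    (toResolved (HpAt29.freeRes (IntRep20.intRep (N.dualTwist (chiq q p)))) h0) p hpA
  have hb := compare2_bijective intSurj_int (isLevelBasis_levelLoc q)
    (toResolved (HpAt29.freeRes (IntRep20.intRep (N.dualTwist (chiq q p)))) h0) N.ρ hN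
    (chiq q p) (KerIsoMain7.hA_freeRes N (chiq q p)) (isDiscrete_unitsLoc' q) (muLoc p q)
    (exists_zsmul_eq_unitsLoc p q)
  have := h1.1
  exact ⟨Finite.of_injective _ hb.1, (Nat.card_congr (Equiv.ofBijective _ hb)).trans h1.2⟩

/-- **Local Tate duality `(2,0)`, counting form**: `H²(Γ_q, N)` is finite and
`#H²(Γ_q, N) = #H⁰(Γ_q, N^∨(1))`. -/
theorem card_H2_eq (hN : LevelCoh28.IsDiscrete (levelLoc q).sets N) :
    Finite (LevelCoh28.H2 (levelLoc q) N) ∧
      Nat.card (LevelCoh28.H2 (levelLoc q) N) =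
        Nat.card (N.dualTwist (chiq q p)).ρ.invariants := by
  have hfinA : Finite (N.dualTwist (chiq q p)) := Module.finite_of_finite (ZMod p)
  have h0 := FreeRes29.isDiscrete_freeRep (isLevelBasis_levelLoc q)
    (isDiscrete_dualTwist q p N hN)
  obtain ⟨h1, h2⟩ := card_Hp2_aux q p N hN h0
  let e := LevelEquiv29.h2IntEquiv (levelLoc q) N hN
  have h1' : Finite (Resolved4.Hlev2 (LevelEquiv29.basis (levelLoc q)) (IntRep20.intRep N) hN) :=
    h1
  have hfin : Finite (LevelCoh28.H2 (levelLoc q) N) := Finite.of_injective e e.injective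
  refine ⟨hfin, (Nat.card_congr e.toEquiv).trans (h2.trans ?_)⟩
  refine Nat.card_congr (Equiv.subtypeEquivRight fun a => ?_)
  rw [Representation.mem_invariants, Representation.mem_invariants]
  rfl

/-- `N^∨(1)` is discrete. -/
theorem isDiscrete_dualTwist' (hN : LevelCoh28.IsDiscrete (levelLoc q).sets N) :
    LevelCoh28.IsDiscrete (levelLoc q).sets (N.dualTwist (chiq q p)) :=
  fun a => isDiscrete_dualTwist q p N hN a

/-- **Local Tate duality `(2,0)` for the dual module**: `H²(Γ_q, N^∨(1))` is finite and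
`#H²(Γ_q, N^∨(1)) = #H⁰(Γ_q, N)`. -/
theorem card_H2_dualTwist (hN : LevelCoh28.IsDiscrete (levelLoc q).sets N) :
    Finite (LevelCoh28.H2 (levelLoc q) (N.dualTwist (chiq q p))) ∧
      Nat.card (LevelCoh28.H2 (levelLoc q) (N.dualTwist (chiq q p))) =
        Nat.card N.ρ.invariants := by
  obtain ⟨h1, h2⟩ := card_H2_eq q p (N.dualTwist (chiq q p)) (isDiscrete_dualTwist' q p N hN)
  refine ⟨h1, h2.trans (Nat.card_congr ?_).symm⟩
  refine Equiv.ofBijective (fun n => ⟨Module.evalEquiv (ZMod p) N n.1, ?_⟩) ⟨?_, ?_⟩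
  · rw [Representation.mem_invariants]
    intro g
    have hn := (Representation.mem_invariants _ _).1 n.2 g
    rw [Module.evalEquiv_apply, ← eval_equivariant N (chiq q p), hn]
  · intro n n' h
    apply Subtype.ext
    have h' := Subtype.ext_iff.1 h
    exact (Module.evalEquiv (ZMod p) N).injective h'
  · intro a
    obtain ⟨n, hn⟩ := (Module.evalEquiv (ZMod p) N).surjective a.1
    refine ⟨⟨n, ?_⟩, Subtype.ext hn⟩
    rw [Representation.mem_invariants]
    intro g
    apply (Module.evalEquiv (ZMod p) N).injective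
    have ha := (Representation.mem_invariants _ _).1 a.2 g
    rw [Module.evalEquiv_apply, eval_equivariant N (chiq q p), ← Module.evalEquiv_apply, hn]
    exact ha

end Main

end Fermat.Agent.TW.LOC.LocalDuality20_2
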