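/-
Programme T (S56), chapter T/LOC, brick (LOC-1), vocabulary of T/GLOB.  Owner: helper2.

`Loc02_2`: the two fields `finHq2'` and `loc02` of `TW/GLOB/GWNumeric1.GWInputs` for
`M' = M^*(1) = M.dualTwist (cycloChar p)`, from local Tate duality `(2,0)`
(`LocalDuality20_2.card_H2_dualTwist`), in the vocabulary of `TW/DEF/Basic1`, `TW/DEF/Mu1`:

* `card_Hq2_dualTwist` : `Finite (Hq2 M^*(1) q) ∧ #Hq2 M^*(1) q = #H⁰(ℚ_q, M)`;
* `finite_Hq2_dualTwist`, `card_invariants_le_card_Hq2` (`= loc02`);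
* `card_Hq2_eq` : `Finite (Hq2 M q) ∧ #Hq2 M q = #H⁰(ℚ_q, M^*(1))`.

All primes `q` (`q = p` included), any prime `p`; `M : Rep (ZMod p) GQ` finite-dimensional with
`Mq M q` discrete for `levelLoc q`.
-/
import Mathlib
import Fermat.Agent.TW.LOC.LocalDuality20_2
import Fermat.Agent.TW.DEF.Mu1
import Fermat.Agent.TW.ASM.EquivTransport8

set_option autoImplicit false

namespace Fermat.Agent.TW.LOC.Loc02_2

open ExtCitation
open Fermat.Agent.PT.PRO.LevelCoh28 Fermat.Agent.PT.GLUE.Objects21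
open Fermat.Agent.TW.DEF.Basic1 Fermat.Agent.TW.DEF.Mu1
open Fermat.Agent.TW.LOC.CupDuality2 Fermat.Agent.TW.LOC.LocalDuality20_2
open Fermat.Agent.TW.ASM.EquivTransport8

variable (p : ℕ) [Fact p.Prime] (M : Rep.{0} (ZMod p) GQ) [FiniteDimensional (ZMod p) M]
variable (q : ℕ) [Fact q.Prime]

/-- The identity of `Module.Dual (ZMod p) M`, from `Res (M^*(1))` to `(Res M)^*(1)`. -/
noncomputable def resDualEquiv :
    (Mq (M.dualTwist (cycloChar p)) q).V ≃ₗ[ZMod p] ((Mq M q).dualTwist (chiq q p)).V :=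
  LinearEquiv.refl (ZMod p) (Module.Dual (ZMod p) M)

theorem resDualEquiv_equivariant (g : Gq q) (a : (Mq (M.dualTwist (cycloChar p)) q).V) :
    resDualEquiv p M q ((Mq (M.dualTwist (cycloChar p)) q).ρ g a) =
      ((Mq M q).dualTwist (chiq q p)).ρ g (resDualEquiv p M q a) :=
  res_dualTwist_ρ (rq q) (cycloChar p) M g a

/-- **`H²(ℚ_q, M^*(1))` is finite, of the same cardinality as `H⁰(ℚ_q, M)`.** -/
theorem card_Hq2_dualTwist (hMq : IsDiscrete (levelLoc q).sets (Mq M q)) :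
    Finite (Hq2 (M.dualTwist (cycloChar p)) q) ∧
      Nat.card (Hq2 (M.dualTwist (cycloChar p)) q) = Nat.card ↥(Mq M q).ρ.invariants := by
  have : FiniteDimensional (ZMod p) (Mq M q) := ‹FiniteDimensional (ZMod p) M›
  obtain ⟨h1, h2⟩ := card_H2_dualTwist q p (Mq M q) hMq
  let e := h2Iso (resDualEquiv p M q) (resDualEquiv_equivariant p M q) (levelLoc q)
  exact ⟨Finite.of_injective e e.injective, (Nat.card_congr e.toEquiv).trans h2⟩

/-- The field `finHq2'` of `GWInputs` for `M' = M^*(1)`. -/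
theorem finite_Hq2_dualTwist (hMq : IsDiscrete (levelLoc q).sets (Mq M q)) :
    Finite (Hq2 (M.dualTwist (cycloChar p)) q) :=
  (card_Hq2_dualTwist p M q hMq).1

/-- The field `loc02` of `GWInputs` for `M' = M^*(1)`. -/
theorem card_invariants_le_card_Hq2 (hMq : IsDiscrete (levelLoc q).sets (Mq M q)) :
    Nat.card ↥(Mq M q).ρ.invariants ≤ Nat.card (Hq2 (M.dualTwist (cycloChar p)) q) :=
  (card_Hq2_dualTwist p M q hMq).2.ge

/-- **`H²(ℚ_q, M)` is finite, of the same cardinality as `H⁰(ℚ_q, M^*(1))`.** -/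
theorem card_Hq2_eq (hMq : IsDiscrete (levelLoc q).sets (Mq M q)) :
    Finite (Hq2 M q) ∧
      Nat.card (Hq2 M q) = Nat.card ↥(Mq (M.dualTwist (cycloChar p)) q).ρ.invariants := by
  have : FiniteDimensional (ZMod p) (Mq M q) := ‹FiniteDimensional (ZMod p) M›
  obtain ⟨h1, h2⟩ := card_H2_eq q p (Mq M q) hMq
  exact ⟨h1, h2.trans (card_invariants_eq (resDualEquiv p M q)
    (resDualEquiv_equivariant p M q)).symm⟩

end Fermat.Agent.TW.LOC.Loc02_2
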