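/-
Programme T (S56), chapter LOC (helper6): FINITENESS OF `H¹(ℚ_q, N)` FOR EVERY PRIME `q`
(`q = p` INCLUDED) and every finite discrete `𝔽_p[Γ_q]`-module `N` (`p` odd).

(`FiniteH1q4.card_H1_le_sq` covers `q ≠ p`; `KummerCard4` covers the modules of `μ`-type at `q = p`.)

Abstract:
* `finite_of_fibers`, `finite_Z1_of_finite_res 𝓑 U A [U.FiniteIndex] [Finite A]
    (h : (Set.range fun (c : ↥(Z1 𝓑 A)) (u : U) => (c : G → A) u).Finite) : Finite ↥(Z1 𝓑 A)`.

Kummer theory over a finite extension `L/ℚ_q` inside `Ω = PadicAlgCl q` (`V = L.fixingSubgroup`):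
* `exists_reps q p hp2 L : ∃ T : Finset Ωˣ, (∀ t ∈ T, (t : Ω) ∈ L) ∧ ∀ x : Ωˣ, (x : Ω) ∈ L →
    ∃ t ∈ T, ∃ y : Ωˣ, (y : Ω) ∈ L ∧ x = t * y ^ p`            (`Lˣ / p` is finite);
* `finite_addChar q p hp2 L hζ` : the restrictions to `V` of the level cochains `Γ_q → ZMod p` which
  are additive on `V` form a finite set (`hζ : ∀ n ∈ V, chiq q p n = 1`).

Main results (`hp2 : p ≠ 2`, `N : Rep.{0} (ZMod p) (Gq q)`, `[Finite N]`,
`hN : IsDiscrete (levelLoc q).sets N`):
* `finite_Z1_levelLoc q p hp2 N hN : Finite ↥(Z1 (levelLoc q) N)`;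
* `finite_H1_levelLoc q p hp2 N hN : Finite (H1 (levelLoc q) N)`;
* `finite_Hq1 hp2 X q hXq : Finite (Hq1 X q)`  (`X : Rep.{0} (ZMod p) GQ` finite,
  `hXq : IsDiscrete (levelLoc q).sets (Mq X q)`);
* `finite_Hq1_of_levelS hp2 S X hX q : Finite (Hq1 X q)`  (`hX : IsDiscrete (levelS S).sets X`).
-/
import Mathlib
import Fermat.Agent.TW.LOC.KummerRaw4
import Fermat.Agent.TW.LOC.PowIndexLoc4
import Fermat.Agent.TW.DEF.Basic1

set_option autoImplicit false
set_option linter.unusedSectionVars false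
set_option linter.style.haveILetI false

open CategoryTheory groupCohomology
open Fermat.Agent.PT.PRO.LevelCoh28 Fermat.Agent.PT.PRO.LevelCohRes28
open Fermat.Agent.PT.GLUE.Objects21
open Fermat.Agent.TW.DEF.Basic1
open Fermat.Agent.TW.LOC.CupDuality2 Fermat.Agent.TW.LOC.KummerRaw4
open Fermat.Agent.TW.LOC.PowIndexLoc4

namespace Fermat.Agent.TW.LOC.FiniteH1Loc6

/-! ### Abstract finiteness lemmas -/

/-- A map to a finite type whose fibres differ by elements of a finite set has a finite domain. -/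
theorem finite_of_fibers {α β : Type*} [AddGroup α] [Finite β] (f : α → β) (F : Set α)
    (hF : F.Finite) (h : ∀ x y, f x = f y → x - y ∈ F) : Finite α := by
  classical
  haveI : Finite F := hF.to_subtype
  let rep : β → α := fun b => if hb : ∃ x, f x = b then hb.choose else 0
  have hrep : ∀ x, f (rep (f x)) = f x := by
    intro x
    have hb : ∃ y, f y = f x := ⟨x, rfl⟩
    simp only [rep, dif_pos hb]
    exact hb.choose_spec
  refine Finite.of_injective
    (fun x => ((f x, ⟨x - rep (f x), h _ _ (hrep x).symm⟩) : β × F)) ?_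
  intro x y hxy
  simp only [Prod.mk.injEq, Subtype.mk.injEq] at hxy
  obtain ⟨h1, h2⟩ := hxy
  rw [h1] at h2
  exact sub_left_injective h2

section InfRes

variable {k : Type} [CommRing k] {G : Type} [Group G] (𝓑 : LevelBasis G) (U : Subgroup G)
  (A : Rep.{0} k G)

/-- The level cocycles vanishing on a subgroup of finite index are finitely many. -/
theorem finite_vanishing [U.FiniteIndex] [Finite A] :
    {d : ↥(Z1 𝓑 A) | ∀ u : U, (d : G → A) u = 0}.Finite := by
  classical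
  have hinj : Set.InjOn (fun (d : ↥(Z1 𝓑 A)) (q : G ⧸ U) => (d : G → A) (Quotient.out q))
      {d | ∀ u : U, (d : G → A) u = 0} := by
    intro d hd d' hd' hdd'
    apply Subtype.ext
    funext g
    have key : ∀ e : ↥(Z1 𝓑 A), (∀ u : U, (e : G → A) u = 0) →
        (e : G → A) g = (e : G → A) (Quotient.out (QuotientGroup.mk g : G ⧸ U)) := by
      intro e he
      have hu : (Quotient.out (QuotientGroup.mk g : G ⧸ U))⁻¹ * g ∈ U := by
        rw [← QuotientGroup.eq]
        exact Quotient.out_eq _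
      have hc := (mem_cocycles₁_iff (e : G → A)).mp e.2.1
        (Quotient.out (QuotientGroup.mk g : G ⧸ U))
        ((Quotient.out (QuotientGroup.mk g : G ⧸ U))⁻¹ * g)
      rw [mul_inv_cancel_left] at hc
      rw [hc, he ⟨_, hu⟩, map_zero, zero_add]
    rw [key d hd, key d' hd']
    exact congrFun hdd' _
  exact Set.Finite.of_finite_image (Set.toFinite _) hinj

/-- **Inflation–restriction, finiteness form**: if `U` has finite index, `A` is finite and the level
cocycles of `G` have finitely many restrictions to `U`, then they are finitely many. -/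
theorem finite_Z1_of_finite_res [U.FiniteIndex] [Finite A]
    (h : (Set.range fun (c : ↥(Z1 𝓑 A)) (u : U) => (c : G → A) u).Finite) :
    Finite ↥(Z1 𝓑 A) := by
  haveI : Finite (Set.range fun (c : ↥(Z1 𝓑 A)) (u : U) => (c : G → A) u) := h.to_subtype
  refine finite_of_fibers
    (fun c : ↥(Z1 𝓑 A) => (⟨fun u : U => (c : G → A) u, Set.mem_range_self c⟩ :
      Set.range fun (c : ↥(Z1 𝓑 A)) (u : U) => (c : G → A) u))
    {d | ∀ u : U, (d : G → A) u = 0} (finite_vanishing 𝓑 U A) ?_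
  intro c c' hcc' u
  have h1 := congrFun (congrArg Subtype.val hcc') u
  change (c : G → A) u - (c' : G → A) u = 0
  rw [h1, sub_self]

end InfRes

/-! ### Kummer theory over a finite extension of `ℚ_q` -/

section Kummer

variable (q : ℕ) [Fact q.Prime] (p : ℕ) [hp : Fact p.Prime]

local notation "Ω" => PadicAlgCl q

local instance isGaloisPadicH6 : IsGalois ℚ_[q] (PadicAlgCl q) :=
  IsAlgClosure.isGalois ℚ_[q] (PadicAlgCl q)

/-- `Lˣ / p` is finite, in the form of a finite set of representatives inside `Ωˣ`. -/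
theorem exists_reps (hp2 : p ≠ 2) (L : IntermediateField ℚ_[q] Ω) [FiniteDimensional ℚ_[q] L] :
    ∃ T : Finset Ωˣ, (∀ t ∈ T, (t : Ω) ∈ L) ∧ ∀ x : Ωˣ, (x : Ω) ∈ L →
      ∃ t ∈ T, ∃ y : Ωˣ, (y : Ω) ∈ L ∧ x = t * y ^ p := by
  classical
  have hidx := index_powRange_qadic_ne_zero q (↥L) hp.out hp2
  haveI : (powMonoidHom p : (↥L)ˣ →* (↥L)ˣ).range.FiniteIndex := ⟨hidx⟩
  haveI : Finite ((↥L)ˣ ⧸ (powMonoidHom p : (↥L)ˣ →* (↥L)ˣ).range) :=
    Subgroup.finite_quotient_of_finiteIndex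
  haveI := Fintype.ofFinite ((↥L)ˣ ⧸ (powMonoidHom p : (↥L)ˣ →* (↥L)ˣ).range)
  let ι : (↥L)ˣ →* Ωˣ := Units.map (algebraMap (↥L) Ω).toMonoidHom
  have hι : ∀ z : (↥L)ˣ, ((ι z : Ωˣ) : Ω) ∈ L := fun z => (z : ↥L).2
  refine ⟨Finset.univ.image fun c : (↥L)ˣ ⧸ (powMonoidHom p : (↥L)ˣ →* (↥L)ˣ).range =>
    ι (Quotient.out c), ?_, ?_⟩
  · intro t ht
    obtain ⟨c, -, rfl⟩ := Finset.mem_image.1 ht
    exact hι _
  · intro x hx
    have hx0 : (⟨(x : Ω), hx⟩ : ↥L) ≠ 0 := by
      intro h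
      exact x.ne_zero (congrArg Subtype.val h)
    let x' : (↥L)ˣ := Units.mk0 ⟨(x : Ω), hx⟩ hx0
    have hx' : ι x' = x := Units.ext rfl
    have hmem : (Quotient.out (QuotientGroup.mk x' :
        (↥L)ˣ ⧸ (powMonoidHom p : (↥L)ˣ →* (↥L)ˣ).range))⁻¹ * x' ∈
        (powMonoidHom p : (↥L)ˣ →* (↥L)ˣ).range := by
      rw [← QuotientGroup.eq]
      exact Quotient.out_eq _
    obtain ⟨y', hy'⟩ := hmem
    refine ⟨ι (Quotient.out (QuotientGroup.mk x' :
        (↥L)ˣ ⧸ (powMonoidHom p : (↥L)ˣ →* (↥L)ˣ).range)),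
      Finset.mem_image.2 ⟨_, Finset.mem_univ _, rfl⟩, ι y', hι y', ?_⟩
    rw [← hx', ← map_pow, ← map_mul]
    congr 1
    have : y' ^ p = (Quotient.out (QuotientGroup.mk x' :
        (↥L)ˣ ⧸ (powMonoidHom p : (↥L)ˣ →* (↥L)ˣ).range))⁻¹ * x' := hy'
    rw [this, mul_inv_cancel_left]

/-- A unit fixed by `Gal(Ω/L)` lies in `L`. -/
theorem mem_of_fixed (L : IntermediateField ℚ_[q] Ω) (γ : Ωˣ)
    (h : ∀ n ∈ L.fixingSubgroup, n • γ = γ) : (γ : Ω) ∈ L := by
  rw [← InfiniteGalois.fixedField_fixingSubgroup L, IntermediateField.mem_fixedField_iff]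
  intro s hs
  exact congrArg Units.val (h s hs)

theorem smul_eq_of_mem (L : IntermediateField ℚ_[q] Ω) {γ : Ωˣ} (h : (γ : Ω) ∈ L)
    {n : Gq q} (hn : n ∈ L.fixingSubgroup) : n • γ = γ := by
  apply Units.ext
  exact (IntermediateField.mem_fixingSubgroup_iff L n).1 hn _ h

/-- The restrictions to `V = Gal(Ω/L)` of the level cochains `Γ_q → ZMod p` which are additive on
`V` are finitely many (`μ_p ⊆ L`). -/
theorem finite_addChar (hp2 : p ≠ 2) (L : IntermediateField ℚ_[q] Ω) [FiniteDimensional ℚ_[q] L]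
    (hζ : ∀ n ∈ L.fixingSubgroup, chiq q p n = 1) :
    {r : ↥L.fixingSubgroup → ZMod p | ∃ c : Gq q → ZMod p, IsLevel₁ (levelLoc q).sets c ∧
      (∀ n ∈ L.fixingSubgroup, ∀ n' ∈ L.fixingSubgroup, c (n * n') = c n + c n') ∧
      r = fun u : ↥L.fixingSubgroup => c (u : Gq q)}.Finite := by
  classical
  obtain ⟨T, hT, hrep⟩ := exists_reps q p hp2 L
  have hroot : ∀ t : Ωˣ, ∃ b : Ωˣ, b ^ p = t := by
    intro t
    obtain ⟨y, hy⟩ := Fermat.Agent.PT.PRO.KerIsoGal7.exists_nsmul_eq_padic p q (Additive.ofMul t)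
    exact ⟨Additive.toMul y, congrArg Additive.toMul hy⟩
  choose b hb using hroot
  refine Set.Finite.subset (T.finite_toSet.image fun t =>
    fun u : ↥L.fixingSubgroup => kumFun q p (b t) (u : Gq q)) ?_
  rintro r ⟨c, hc, hadd, rfl⟩
  obtain ⟨β, hβ1, hβ2⟩ := exists_isKumRep q p L.fixingSubgroup c hc (fun n hn n' hn' => by
    rw [hadd n hn n' hn', hζ n hn, Units.val_one, one_mul])
  have hβL : ((β ^ p : Ωˣ) : Ω) ∈ L := mem_of_fixed q L _ hβ1
  obtain ⟨t, ht, y, hy, hty⟩ := hrep _ hβL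
  refine ⟨t, ht, ?_⟩
  funext u
  have h1 : (β / (b t * y)) ^ p = 1 := by rw [div_pow, mul_pow, hb, ← hty, div_self']
  obtain ⟨a, ha⟩ := exists_jm_eq q p h1
  have hβeq : β = b t * (y * jm q p a) := by
    rw [ha, ← mul_assoc, mul_div_cancel]
  have hu : (u : Gq q) ∈ L.fixingSubgroup := u.2
  have hbt : (u : Gq q) • b t ^ p = b t ^ p := by
    rw [hb]
    exact smul_eq_of_mem q L (hT t ht) hu
  have hyu : (u : Gq q) • y = y := smul_eq_of_mem q L hy hu
  have hyj : (u : Gq q) • (y * jm q p a) ^ p = (y * jm q p a) ^ p := by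
    rw [mul_pow, jm_pow, mul_one, smul_pow', hyu]
  have hyp : (u : Gq q) • y ^ p = y ^ p := by rw [smul_pow', hyu]
  have hjp : (u : Gq q) • jm q p a ^ p = jm q p a ^ p := by rw [jm_pow, smul_one]
  show kumFun q p (b t) u = c u
  rw [hβ2 u hu, hβeq, kumFun_mul_left q p hbt hyj, kumFun_mul_left q p hyp hjp,
    kumFun_eq_zero q p hyu, kumFun_jm, hζ u hu, Units.val_one, one_mul, sub_self, add_zero,
    add_zero]

end Kummer

/-! ### Finiteness of `H¹(ℚ_q, N)` -/

section Main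

variable (q : ℕ) [Fact q.Prime] (p : ℕ) [hp : Fact p.Prime]

/-- **The level cocycles of a finite discrete `𝔽_p[Γ_q]`-module are finitely many** (any prime `q`,
`q = p` included; `p` odd). -/
theorem finite_Z1_levelLoc (hp2 : p ≠ 2) (N : Rep.{0} (ZMod p) (Gq q)) [Finite N]
    (hN : IsDiscrete (levelLoc q).sets N) : Finite ↥(Z1 (levelLoc q) N) := by
  classical
  obtain ⟨U₀, hU₀, -, hfix⟩ :=
    hN.exists_fixing (levelLoc q).isBasis (Set.toFinite (Set.univ : Set N))
  obtain ⟨W, hW, hWle⟩ := (levelLoc q).isBasis.directed U₀ hU₀ (zetaLevel q p) (zetaLevel_mem q p)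
  have hWmem : W ∈ (levelLoc q).sets := hW
  obtain ⟨W', ⟨F, hF, hFW'⟩, hW'W⟩ := hW
  haveI : FiniteDimensional ℚ F := hF
  have hWL : W = (Fermat.Agent.PT.BR.LocInj13.localField q F).fixingSubgroup := by
    rw [← hW'W, ← hFW']
    exact Fermat.Agent.PT.BR.LevelBridge13.comap_fixingSubgroup_eq q F
  subst hWL
  haveI := (levelLoc q).isBasis.finiteIndex _ hWmem
  have hζ : ∀ n ∈ (Fermat.Agent.PT.BR.LocInj13.localField q F).fixingSubgroup, chiq q p n = 1 :=
    fun n hn => chiq_eq_one_of_mem q p (hWle hn).2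
  have hK := finite_addChar q p hp2 (Fermat.Agent.PT.BR.LocInj13.localField q F) hζ
  haveI : Module.Finite (ZMod p) N := Module.Finite.of_finite
  haveI : Finite (Module.Dual (ZMod p) N) := Module.finite_of_finite (ZMod p)
  apply finite_Z1_of_finite_res (levelLoc q)
    (Fermat.Agent.PT.BR.LocInj13.localField q F).fixingSubgroup N
  let Φ : (↥(Fermat.Agent.PT.BR.LocInj13.localField q F).fixingSubgroup → N) →
      (Module.Dual (ZMod p) N →
        ↥(Fermat.Agent.PT.BR.LocInj13.localField q F).fixingSubgroup → ZMod p) :=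
    fun r lam u => lam (r u)
  have hΦ : Function.Injective Φ := by
    intro r r' h
    funext u
    rw [← sub_eq_zero, ← Module.forall_dual_apply_eq_zero_iff (ZMod p)]
    intro lam
    rw [map_sub, sub_eq_zero]
    exact congrFun (congrFun h lam) u
  refine Set.Finite.subset
    ((Set.Finite.pi (fun _ : Module.Dual (ZMod p) N => hK)).preimage hΦ.injOn) ?_
  rintro _ ⟨c, rfl⟩
  rw [Set.mem_preimage, Set.mem_univ_pi]
  intro lam
  refine ⟨fun g => lam ((c : Gq q → N) g), c.2.2.comp lam, ?_, rfl⟩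
  intro n hn n' hn'
  have hc := (mem_cocycles₁_iff (c : Gq q → N)).mp c.2.1 n n'
  show lam ((c : Gq q → N) (n * n')) = lam ((c : Gq q → N) n) + lam ((c : Gq q → N) n')
  rw [hc, hfix n (hWle hn).1 _ (Set.mem_univ _), map_add, add_comm]

/-- **`H¹(ℚ_q, N)` is finite** for every prime `q` (`q = p` included), `N` a finite discrete
`𝔽_p[Γ_q]`-module, `p` odd. -/
theorem finite_H1_levelLoc (hp2 : p ≠ 2) (N : Rep.{0} (ZMod p) (Gq q)) [Finite N]
    (hN : IsDiscrete (levelLoc q).sets N) : Finite (H1 (levelLoc q) N) := by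
  haveI := finite_Z1_levelLoc q p hp2 N hN
  exact Finite.of_surjective (H1mk (levelLoc q) N) (H1mk_surjective (levelLoc q) N)

variable {p}

/-- **`H¹(ℚ_q, X)` is finite** (`X` a finite `𝔽_p[G_ℚ]`-module whose restriction to `Γ_q` is
discrete). -/
theorem finite_Hq1 (hp2 : p ≠ 2) (X : Rep.{0} (ZMod p) GQ) [Finite X] (q : ℕ) [Fact q.Prime]
    (hXq : IsDiscrete (levelLoc q).sets (Mq X q)) : Finite (Hq1 X q) :=
  haveI : Finite (Mq X q) := ‹Finite X›
  finite_H1_levelLoc q p hp2 (Mq X q) hXq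

/-- **`H¹(ℚ_q, X)` is finite** for a finite discrete `G_S`-module `X`. -/
theorem finite_Hq1_of_levelS (hp2 : p ≠ 2) (S : Finset Nat.Primes) (X : Rep.{0} (ZMod p) GQ)
    [Finite X] (hX : IsDiscrete (levelS S).sets X) (q : ℕ) [Fact q.Prime] : Finite (Hq1 X q) := by
  refine finite_Hq1 hp2 X q ?_
  intro a
  obtain ⟨U, hU, hUa⟩ := hX a
  obtain ⟨V, hV, hVU⟩ := isLevelHom_rq S q U hU
  exact ⟨V, hV, fun s hs => hUa (rq q s) (hVU hs)⟩

end Main

end Fermat.Agent.TW.LOC.FiniteH1Loc6
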