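/-
Programme T (S56), chapter T/GLOB, brick (A2) of T/plan/ADD — helper2.

**Local right-exactness of `H²`** (`(LOC-RE)`) and the **local additivity of the Euler
characteristic** (`(LOC-ADD)`), for finite discrete `𝔽_p[Γ_q]`-modules, from

* local Tate duality in counting form (`LocalDuality20_2.card_H2_eq`:
  `#H²(Γ_q, N) = #Hom_{Γ_q}(N, μ_p)`), and
* `(LOC-20-NAT)` (hypothesis `hnat`; helper7): a non-zero equivariant `f : N → μ_p` induces a
  surjection on `H²`, together with `H²(Γ_q, μ_p) ≠ 0` (hypothesis `hne`).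

`μ_p := Mu1.muRep (chiq q p)`.
-/
import Mathlib
import Fermat.Agent.TW.LOC.LocalDuality20_2
import Fermat.Agent.TW.DEF.Mu1
import Fermat.Agent.TW.GLOB.MapH5
import Fermat.Agent.TW.GLOB.LesCount0

set_option autoImplicit false
set_option linter.unusedSectionVars false
set_option linter.style.haveILetI false

open Fermat.Agent.PT.PRO.LevelCoh28 Fermat.Agent.PT.GLUE.Objects21
open Fermat.Agent.TW.LOC.Defs2 Fermat.Agent.TW.LOC.CupDuality2
open Fermat.Agent.TW.DEF.Mu1 Fermat.Agent.TW.GLOB.MapH5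

namespace Fermat.Agent.TW.LOC.LocalRE2

noncomputable section

variable (q : ℕ) [Fact q.Prime] (p : ℕ) [Fact p.Prime]

/-- `μ_p` as a `Γ_q`-module. -/
abbrev muq : Rep.{0} (ZMod p) (Gq q) := muRep (chiq q p)

theorem isDiscrete_muq : IsDiscrete (levelLoc q).sets (muq q p) :=
  isDiscrete_muRep _ ⟨zetaLevel q p, zetaLevel_mem q p, fun _ hs => chiq_eq_one_of_mem q p hs⟩

/-- `(LOC-20-NAT)`, as a hypothesis. -/
def NatHyp : Prop :=
  ∀ (N : Rep.{0} (ZMod p) (Gq q)) [Finite N] (_ : IsDiscrete (levelLoc q).sets N)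
    (f : N →ₗ[ZMod p] muq q p) (hf : ∀ g n, f (N.ρ g n) = (muq q p).ρ g (f n)), f ≠ 0 →
    Function.Surjective (mapH2 (𝓑 := levelLoc q) f hf)

section Dual

variable {q p}
variable (N : Rep.{0} (ZMod p) (Gq q))

/-- An invariant of `N^∨(1)` is an equivariant map `N → μ_p`. -/
def toMu (f : ↥(N.dualTwist (chiq q p)).ρ.invariants) : N →ₗ[ZMod p] muq q p :=
  (f : Module.Dual (ZMod p) N)

theorem toMu_apply (f : ↥(N.dualTwist (chiq q p)).ρ.invariants) (n : N) :
    toMu N f n = (f : Module.Dual (ZMod p) N) n := rfl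

theorem toMu_equivariant (f : ↥(N.dualTwist (chiq q p)).ρ.invariants) (g : Gq q) (n : N) :
    toMu N f (N.ρ g n) = (muq q p).ρ g (toMu N f n) := by
  have h := f.2 g
  rw [Rep.dualTwist_ρ_apply] at h
  have h1 := LinearMap.congr_fun h (N.ρ g n)
  rw [LinearMap.smul_apply, LinearMap.comp_apply, ← Module.End.mul_apply, ← map_mul,
    inv_mul_cancel, map_one, Module.End.one_apply, smul_eq_mul] at h1
  rw [muRep_ρ_apply, toMu_apply, toMu_apply]
  exact h1.symm

theorem toMu_injective : Function.Injective (toMu (q := q) (p := p) N) := fun _ _ h =>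
  Subtype.ext h

theorem toMu_add (f f' : ↥(N.dualTwist (chiq q p)).ρ.invariants) :
    toMu N (f + f') = toMu N f + toMu N f' := rfl

theorem toMu_sub (f f' : ↥(N.dualTwist (chiq q p)).ρ.invariants) :
    toMu N (f - f') = toMu N f - toMu N f' := rfl

end Dual

/-! ### `H²(Γ_q, μ_p)` is a line -/

section Line

theorem card_H2_muq_le : Finite (H2 (levelLoc q) (muq q p)) ∧
    Nat.card (H2 (levelLoc q) (muq q p)) ≤ p := by
  haveI : FiniteDimensional (ZMod p) (muq q p) :=
    (inferInstance : FiniteDimensional (ZMod p) (ZMod p))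
  obtain ⟨h1, h2⟩ := LocalDuality20_2.card_H2_eq q p (muq q p) (isDiscrete_muq q p)
  refine ⟨h1, ?_⟩
  rw [h2]
  have h3 : Nat.card (Module.Dual (ZMod p) (ZMod p)) = p := by
    rw [Module.natCard_eq_pow_finrank (K := ZMod p) (V := Module.Dual (ZMod p) (ZMod p)),
      Subspace.dual_finrank_eq, Module.finrank_self, pow_one, Nat.card_zmod]
  haveI : Finite (Module.Dual (ZMod p) (ZMod p)) := Module.finite_of_finite (ZMod p)
  calc Nat.card ↥((muq q p).dualTwist (chiq q p)).ρ.invariants
      ≤ Nat.card (Module.Dual (ZMod p) (ZMod p)) :=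
        Nat.card_le_card_of_injective (fun x => (x : Module.Dual (ZMod p) (ZMod p)))
          Subtype.val_injective
    _ = p := h3

/-- `H²(Γ_q, μ_p) ≅ 𝔽_p` once it is non-zero. -/
theorem exists_inv (hne : ∃ x : H2 (levelLoc q) (muq q p), x ≠ 0) :
    Nonempty (H2 (levelLoc q) (muq q p) ≃ₗ[ZMod p] ZMod p) := by
  have hp : p.Prime := Fact.out
  obtain ⟨hfin, hle⟩ := card_H2_muq_le q p
  haveI := hfin
  haveI : Module.Finite (ZMod p) (H2 (levelLoc q) (muq q p)) := Module.Finite.of_finite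
  have hcard := Module.natCard_eq_pow_finrank (K := ZMod p) (V := H2 (levelLoc q) (muq q p))
  rw [Nat.card_zmod] at hcard
  have h1 : Module.finrank (ZMod p) (H2 (levelLoc q) (muq q p)) = 1 := by
    apply le_antisymm
    · by_contra hcon
      rw [not_le] at hcon
      have h2 : p ^ 2 ≤ Nat.card (H2 (levelLoc q) (muq q p)) := by
        rw [hcard]
        exact Nat.pow_le_pow_right hp.pos hcon
      have h3 : p < p ^ 2 := by
        calc p = p ^ 1 := (pow_one p).symm
          _ < p ^ 2 := Nat.pow_lt_pow_right hp.one_lt (by norm_num)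
      omega
    · rw [Nat.one_le_iff_ne_zero]
      intro h0
      obtain ⟨x, hx⟩ := hne
      haveI : Subsingleton (H2 (levelLoc q) (muq q p)) :=
        Module.finrank_zero_iff.1 h0
      exact hx (Subsingleton.elim _ _)
  exact ⟨LinearEquiv.ofFinrankEq _ _ (by rw [h1, Module.finrank_self])⟩

end Line

/-! ### Right exactness of `H²` -/

section RE

variable {q p}

/-- **(LOC-RE)**: a surjection of finite discrete `𝔽_p[Γ_q]`-modules induces a surjection on
`H²`. -/
theorem mapH2_surjective (hnat : NatHyp q p) (hne : ∃ x : H2 (levelLoc q) (muq q p), x ≠ 0)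
    {B C : Rep.{0} (ZMod p) (Gq q)} [Finite B] [Finite C]
    (hB : IsDiscrete (levelLoc q).sets B) (hC : IsDiscrete (levelLoc q).sets C)
    (ψ : B →ₗ[ZMod p] C) (hψ : ∀ g b, ψ (B.ρ g b) = C.ρ g (ψ b))
    (hsurj : Function.Surjective ψ) :
    Function.Surjective (mapH2 (𝓑 := levelLoc q) ψ hψ) := by
  haveI : FiniteDimensional (ZMod p) C := Module.Finite.of_finite
  obtain ⟨hfinH, hcardH⟩ := LocalDuality20_2.card_H2_eq q p C hC
  haveI := hfinH
  haveI : Module.Finite (ZMod p) (H2 (levelLoc q) C) := Module.Finite.of_finite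
  obtain ⟨inv⟩ := exists_inv q p hne
  -- vanishing of `f_*` forces `f = 0`
  have hzero : ∀ (N : Rep.{0} (ZMod p) (Gq q)) [Finite N] (_ : IsDiscrete (levelLoc q).sets N)
      (f : N →ₗ[ZMod p] muq q p) (hf : ∀ g n, f (N.ρ g n) = (muq q p).ρ g (f n)),
      (∀ x, mapH2 (𝓑 := levelLoc q) f hf x = 0) → f = 0 := by
    intro N _ hN f hf h0
    by_contra hf0
    obtain ⟨x, hx⟩ := hne
    obtain ⟨y, hy⟩ := hnat N hN f hf hf0 x
    exact hx (by rw [← hy, h0])
  -- the map `f ↦ inv ∘ f_*`
  let Φ : ↥(C.dualTwist (chiq q p)).ρ.invariants → Module.Dual (ZMod p) (H2 (levelLoc q) C) :=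
    fun f => inv.toLinearMap ∘ₗ mapH2 (𝓑 := levelLoc q) (toMu C f) (toMu_equivariant C f)
  have hΦinj : Function.Injective Φ := by
    intro f f' h
    have h1 : ∀ x, mapH2 (𝓑 := levelLoc q) (toMu C f) (toMu_equivariant C f) x =
        mapH2 (𝓑 := levelLoc q) (toMu C f') (toMu_equivariant C f') x := by
      intro x
      have := LinearMap.congr_fun h x
      exact inv.injective this
    have h2 : toMu C (f - f') = 0 := by
      apply hzero C hC _ (toMu_equivariant C (f - f'))
      intro x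
      have h3 := mapH2_add (𝓑 := levelLoc q) (toMu_equivariant C (f - f'))
        (toMu_equivariant C f') x
      have h4 : toMu C (f - f') + toMu C f' = toMu C f := by
        rw [toMu_sub, sub_add_cancel]
      rw [mapH2_congr h4 _ (toMu_equivariant C f) x, h1 x] at h3
      exact (add_eq_right.1 h3.symm)
    have h5 : f - f' = 0 := toMu_injective C (by rw [h2]; rfl)
    exact sub_eq_zero.1 h5
  have hcard : Nat.card ↥(C.dualTwist (chiq q p)).ρ.invariants =
      Nat.card (Module.Dual (ZMod p) (H2 (levelLoc q) C)) := by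
    rw [← hcardH, Module.natCard_eq_pow_finrank (K := ZMod p) (V := H2 (levelLoc q) C),
      Module.natCard_eq_pow_finrank (K := ZMod p) (V := Module.Dual (ZMod p) (H2 (levelLoc q) C)),
      Subspace.dual_finrank_eq]
  haveI : Finite (Module.Dual (ZMod p) (H2 (levelLoc q) C)) := Module.finite_of_finite (ZMod p)
  have hΦsurj : Function.Surjective Φ :=
    (Function.Injective.bijective_of_nat_card_le hΦinj hcard.ge).2
  -- the range is everything
  rw [← LinearMap.range_eq_top]
  by_contra hR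
  obtain ⟨lam, hlam0, hlamR⟩ := Submodule.exists_le_ker_of_lt_top _ (lt_top_iff_ne_top.2 hR)
  obtain ⟨f, hf⟩ := hΦsurj lam
  apply hlam0
  have h1 : toMu C f ∘ₗ ψ = 0 := by
    apply hzero B hB _ (comp_equivariant hψ (toMu_equivariant C f))
    intro y
    rw [← mapH2_comp (𝓑 := levelLoc q) hψ (toMu_equivariant C f) y]
    have h2 : lam (mapH2 (𝓑 := levelLoc q) ψ hψ y) = 0 :=
      LinearMap.mem_ker.1 (hlamR (LinearMap.mem_range_self _ y))
    rw [← hf] at h2
    change inv (mapH2 (𝓑 := levelLoc q) (toMu C f) (toMu_equivariant C f)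
      (mapH2 (𝓑 := levelLoc q) ψ hψ y)) = 0 at h2
    exact inv.map_eq_zero_iff.1 h2
  have h3 : toMu C f = 0 := by
    ext c
    obtain ⟨b, rfl⟩ := hsurj c
    exact LinearMap.congr_fun h1 b
  rw [← hf]
  refine LinearMap.ext fun x => ?_
  change inv (mapH2 (𝓑 := levelLoc q) (toMu C f) (toMu_equivariant C f) x) = 0
  rw [mapH2_congr h3 _ zero_equivariant x, mapH2_zero, map_zero]

/-- **(LOC-ADD)**: the local Euler characteristic is multiplicative in short exact sequences. -/
theorem card_les_local (hnat : NatHyp q p) (hne : ∃ x : H2 (levelLoc q) (muq q p), x ≠ 0)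
    {A B C : Rep.{0} (ZMod p) (Gq q)} [Finite B] [Finite C]
    (hB : IsDiscrete (levelLoc q).sets B) (hC : IsDiscrete (levelLoc q).sets C)
    (φ : A →ₗ[ZMod p] B) (hφ : ∀ g a, φ (A.ρ g a) = B.ρ g (φ a))
    (ψ : B →ₗ[ZMod p] C) (hψ : ∀ g b, ψ (B.ρ g b) = C.ρ g (ψ b))
    (hinj : Function.Injective φ) (hsurj : Function.Surjective ψ)
    (hex : ∀ b, ψ b = 0 ↔ ∃ a, φ a = b) :
    Nat.card ↥A.ρ.invariants * Nat.card ↥C.ρ.invariants * Nat.card (H1 (levelLoc q) B) *
        Nat.card (H2 (levelLoc q) A) * Nat.card (H2 (levelLoc q) C) =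
      Nat.card ↥B.ρ.invariants * Nat.card (H1 (levelLoc q) A) * Nat.card (H1 (levelLoc q) C) *
        Nat.card (H2 (levelLoc q) B) :=
  Fermat.Agent.TW.GLOB.LesCount0.card_les_of_surjective φ hφ ψ hψ hinj hsurj hex hB
    (mapH2_surjective hnat hne hB hC ψ hψ hsurj)

end RE

end

end Fermat.Agent.TW.LOC.LocalRE2
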