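/-
Programme T (S56), chapter T/GLOB, brick (A2) of T/plan/ADD — helper2.

* `card_H2_muq` : `#H²(Γ_q, μ_p) = p` (from local duality `(2,0)` in counting form), hence
  `exists_ne_zero_H2_muq`: the hypothesis `hne` of `LocalRE2` holds unconditionally;
* `mapH2_surjective'`, `card_les_local'`: `(LOC-RE)`, `(LOC-ADD)` from `NatHyp q p` alone;
* `perf_of_natHyp`, `perf_evalB_of_natHyp`: **(LOC-20-PERF)** in the exact shape of the
  hypothesis `hperf` of `TailGe3.tail_ge`, from `NatHyp q p`.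
-/
import Mathlib
import Fermat.Agent.TW.LOC.LocalRE2
import Fermat.Agent.TW.GLOB.TailGe3

set_option autoImplicit false
set_option linter.unusedSectionVars false
set_option linter.style.haveILetI false

open Fermat.Agent.PT.PRO.LevelCoh28 Fermat.Agent.PT.GLUE.Objects21
open Fermat.Agent.TW.LOC.CupDuality2 (chiq)
open Fermat.Agent.TW.DEF.Basic1 Fermat.Agent.TW.DEF.Mu1 Fermat.Agent.TW.GLOB.MapH5
open Fermat.Agent.TW.LOC.LocalRE2

namespace Fermat.Agent.TW.LOC.LocalPerf2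

noncomputable section

variable (q : ℕ) [Fact q.Prime] (p : ℕ) [Fact p.Prime]

/-! ### `#H²(Γ_q, μ_p) = p` -/

theorem invariants_dualTwist_muq :
    ((muq q p).dualTwist (chiq q p)).ρ.invariants = ⊤ := by
  rw [eq_top_iff]
  intro f _ g
  rw [Rep.dualTwist_ρ_apply]
  apply LinearMap.ext
  intro x
  rw [LinearMap.smul_apply, LinearMap.comp_apply]
  have h1 : (muq q p).ρ g⁻¹ x = ((chiq q p g⁻¹ : (ZMod p)ˣ) : ZMod p) • x := by
    rw [muRep_ρ_apply, smul_eq_mul]
  rw [h1, map_smul, smul_smul, ← Units.val_mul, ← map_mul, mul_inv_cancel, map_one,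
    Units.val_one, one_smul]

theorem card_H2_muq : Finite (H2 (levelLoc q) (muq q p)) ∧
    Nat.card (H2 (levelLoc q) (muq q p)) = p := by
  haveI : FiniteDimensional (ZMod p) (muq q p) :=
    (inferInstance : FiniteDimensional (ZMod p) (ZMod p))
  obtain ⟨h1, h2⟩ := LocalDuality20_2.card_H2_eq q p (muq q p) (isDiscrete_muq q p)
  refine ⟨h1, ?_⟩
  rw [h2, invariants_dualTwist_muq]
  have h3 : Nat.card (Module.Dual (ZMod p) (ZMod p)) = p := by
    rw [Module.natCard_eq_pow_finrank (K := ZMod p) (V := Module.Dual (ZMod p) (ZMod p)),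
      Subspace.dual_finrank_eq, Module.finrank_self, pow_one, Nat.card_zmod]
  refine Eq.trans ?_ h3
  exact Nat.card_congr (Submodule.topEquiv (R := ZMod p)
    (M := Module.Dual (ZMod p) (ZMod p))).toEquiv

/-- `H²(Γ_q, μ_p) ≠ 0`. -/
theorem exists_ne_zero_H2_muq : ∃ x : H2 (levelLoc q) (muq q p), x ≠ 0 := by
  have hp : p.Prime := Fact.out
  obtain ⟨hfin, hcard⟩ := card_H2_muq q p
  haveI := hfin
  by_contra hcon
  push Not at hcon
  haveI : Subsingleton (H2 (levelLoc q) (muq q p)) := ⟨fun a b => by rw [hcon a, hcon b]⟩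
  have h1 : Nat.card (H2 (levelLoc q) (muq q p)) = 1 := Nat.card_unique
  rw [hcard] at h1
  exact hp.one_lt.ne' h1

/-- `H²(Γ_q, μ_p) ≅ 𝔽_p`. -/
theorem exists_inv' : Nonempty (H2 (levelLoc q) (muq q p) ≃ₗ[ZMod p] ZMod p) :=
  exists_inv q p (exists_ne_zero_H2_muq q p)

variable {q p}

/-- **(LOC-RE)** from `(LOC-20-NAT)` alone. -/
theorem mapH2_surjective' (hnat : NatHyp q p)
    {B C : Rep.{0} (ZMod p) (Gq q)} [Finite B] [Finite C]
    (hB : IsDiscrete (levelLoc q).sets B) (hC : IsDiscrete (levelLoc q).sets C)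
    (ψ : B →ₗ[ZMod p] C) (hψ : ∀ g b, ψ (B.ρ g b) = C.ρ g (ψ b))
    (hsurj : Function.Surjective ψ) :
    Function.Surjective (mapH2 (𝓑 := levelLoc q) ψ hψ) :=
  mapH2_surjective hnat (exists_ne_zero_H2_muq q p) hB hC ψ hψ hsurj

/-! ### (LOC-20-PERF) -/

/-- The identity `μ_p|_{Γ_q} → μ_p(χ_q)`. -/
def toMuq : Mq (muP p) q →ₗ[ZMod p] muq q p := LinearMap.id

theorem toMuq_apply (x : Mq (muP p) q) : toMuq (q := q) (p := p) x = x := rfl

theorem toMuq_equivariant (g : Gq q) (x : Mq (muP p) q) :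
    toMuq (q := q) (p := p) ((Mq (muP p) q).ρ g x) = (muq q p).ρ g (toMuq x) := rfl

theorem toMuq_injective : Function.Injective (toMuq (q := q) (p := p)) := fun _ _ h => h

open Fermat.Agent.TW.GLOB.TailGe3 in
/-- **(LOC-20-PERF)**, in the shape of `TailGe3.tail_ge`'s hypothesis `hperf` (for one `m`). -/
theorem perf_of_natHyp (hnat : NatHyp q p) {X X' : Rep.{0} (ZMod p) GQ} [Finite X']
    (hX' : IsDiscrete (levelLoc q).sets (Mq X' q))
    (b : X →ₗ[ZMod p] X' →ₗ[ZMod p] (muP p))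
    (hb : ∀ (g : GQ) (m : X) (f : X'), b (X.ρ g m) (X'.ρ g f) = (muP p).ρ g (b m f))
    (m : X) (hm : ∀ g : Gq q, X.ρ (rq q g) m = m) (hbm : b m ≠ 0) :
    ∃ x : Hq2 X' q, mapH2 (evq b q m) (evq_equivariant b hb q hm) x ≠ 0 := by
  haveI : Finite (Mq X' q) := (inferInstance : Finite X')
  have hf : ∀ (g : Gq q) (n : Mq X' q),
      (toMuq (q := q) (p := p) ∘ₗ evq b q m) ((Mq X' q).ρ g n) =
        (muq q p).ρ g ((toMuq (q := q) (p := p) ∘ₗ evq b q m) n) :=
    comp_equivariant (evq_equivariant b hb q hm) toMuq_equivariant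
  have hne0 : (toMuq (q := q) (p := p) ∘ₗ evq b q m) ≠ 0 := by
    intro h0
    apply hbm
    apply LinearMap.ext
    intro f
    have := LinearMap.congr_fun h0 f
    exact this
  have hs := hnat (Mq X' q) hX' _ hf hne0
  obtain ⟨y, hy⟩ := exists_ne_zero_H2_muq q p
  obtain ⟨x, hx⟩ := hs y
  refine ⟨x, fun h0 => hy ?_⟩
  rw [← hx]
  have h1 := mapH2_comp (𝓑 := levelLoc q) (evq_equivariant b hb q hm)
    (toMuq_equivariant (q := q) (p := p)) x
  rw [h0, map_zero] at h1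
  exact h1.symm

open Fermat.Agent.TW.GLOB.TailGe3 ExtCitation in
/-- **(LOC-20-PERF)** for the evaluation pairing `X × X^*(1) → μ_p`: verbatim the hypothesis
`hperf` of `TailGe3.tail_ge` with `b = evalB (cycloChar p) X`. -/
theorem hperf_evalB (hnat : NatHyp q p) (X : Rep.{0} (ZMod p) GQ) [Finite X]
    (hX' : IsDiscrete (levelLoc q).sets (Mq (X.dualTwist (cycloChar p)) q)) :
    ∀ (m : X) (hm : ∀ g : Gq q, X.ρ (rq q g) m = m), m ≠ 0 →
      ∃ x : Hq2 (X.dualTwist (cycloChar p)) q,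
        mapH2 (evq (evalB (cycloChar p) X) q m)
          (evq_equivariant (evalB (cycloChar p) X) (evalB_equivariant (cycloChar p) X) q hm)
          x ≠ 0 := by
  intro m hm hm0
  haveI : Finite (X.dualTwist (cycloChar p)) := Module.finite_of_finite (ZMod p)
  refine perf_of_natHyp hnat hX' (evalB (cycloChar p) X) (evalB_equivariant (cycloChar p) X)
    m hm ?_
  intro h0
  exact hm0 ((Module.eval_apply_eq_zero_iff (ZMod p) m).1 h0)

/-- **(LOC-ADD)** from `(LOC-20-NAT)` alone. -/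
theorem card_les_local' (hnat : NatHyp q p)
    {A B C : Rep.{0} (ZMod p) (Gq q)} [Finite B] [Finite C]
    (hB : IsDiscrete (levelLoc q).sets B) (hC : IsDiscrete (levelLoc q).sets C)
    (φ : A →ₗ[ZMod p] B) (hφ : ∀ g a, φ (A.ρ g a) = B.ρ g (φ a))
    (ψ : B →ₗ[ZMod p] C) (hψ : ∀ g b, ψ (B.ρ g b) = C.ρ g (ψ b))
    (hinj : Function.Injective φ) (hsurj : Function.Surjective ψ)
    (hex : ∀ b, ψ b = 0 ↔ ∃ a, φ a = b) :
    Nat.card ↥A.ρ.invariants * Nat.card ↥C.ρ.invariants * Nat.card (H1 (levelLoc q) B) *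
        Nat.card (H2 (levelLoc q) A) * Nat.card (H2 (levelLoc q) C) =
      Nat.card ↥B.ρ.invariants * Nat.card (H1 (levelLoc q) A) * Nat.card (H1 (levelLoc q) C) *
        Nat.card (H2 (levelLoc q) B) :=
  card_les_local hnat (exists_ne_zero_H2_muq q p) hB hC φ hφ ψ hψ hinj hsurj hex

end

end Fermat.Agent.TW.LOC.LocalPerf2
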