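/-
PROGRAMME T, chapter LOC (helper1).  `LocalNat20_1` = (LOC-20-NAT), route (b): NATURALITY of local
Tate duality in degrees `(2,0)`.

* `pair20_incl2`, `pair20_compare2` (generic, raw cochain identities): for `P` a resolution of
  `A = Module.Dual (ZMod p) N` with the twisted action, `X ⊇ μ_p` (`D : MuData χ ρX`), `z` a level
  2-cocycle of `N` and `m ∈ A^G`:
    `pair20 (compare2 [z]) m = [ (g, h) ↦ j (m (z (g, h))) ] = j_* (m_* [z])`.
* `exists_mapH2_ne_zero`: for `N` a finite discrete `𝔽_p[Γ_q]`-module and `f : N → μ_p` a non-zero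
  equivariant map, `f_* : H²(Γ_q, N) → H²(Γ_q, μ_p)` is NON-ZERO
  (right kernel of `pair20`: `ExtPair20_2.pair20_right_kernel` + `LocalDuality20_2.hyp20_local`,
  `norm_local`, and `KerIso7.compare2_bijective`).
* **`natHyp q p : LocalRE2.NatHyp q p`** (`f_*` is surjective, as `#H²(Γ_q, μ_p) ≤ p`) and
  **`exists_ne_zero_H2_muq q p : ∃ x : H2 (levelLoc q) (muq q p), x ≠ 0`**.
-/
import Mathlib
import Fermat.Agent.TW.LOC.LocalRE2
import Fermat.Agent.TW.GLOB.KummerH2_1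

set_option autoImplicit false
set_option linter.unusedSectionVars false
set_option linter.unusedVariables false

namespace Fermat.Agent.TW.LOC.LocalNat20_1

open Function
open Fermat.Agent.PT.PRO Fermat.Agent.PT.PRO.HyperLevel25 Fermat.Agent.PT.PRO.Resolved4
open Fermat.Agent.PT.PRO.ExtPairing4 Fermat.Agent.PT.PRO.ExtPairingB4
open Fermat.Agent.PT.PRO.KerIso7
open Fermat.Agent.TW.GLOB.ExtPair20_2

section Generic

variable {k G : Type*} [CommRing k] [Group G] {𝒰 : Set (Subgroup G)}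
variable {Y0 Y1 P1 P0 M C N : Type*}
  [AddCommGroup Y0] [Module k Y0] [AddCommGroup Y1] [Module k Y1]
  [AddCommGroup P1] [Module k P1] [AddCommGroup P0] [Module k P0]
  [AddCommGroup M] [Module k M] [AddCommGroup C] [Module k C] [AddCommGroup N] [Module k N]
variable {Y : Cx k 𝒰 Y0 Y1} {P : Resolved k 𝒰 P1 P0 M} {ρC : Representation k G C}
variable (B : Pairing Y P ρC) (h𝒰 : IsLevelBasis 𝒰) (hC : HyperLevel25.IsDiscrete 𝒰 ρC)
variable {ρN : Representation k G N} (hN : HyperLevel25.IsDiscrete 𝒰 ρN) (ι0 : N →ₗ[k] Y0)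
  (hι : ∀ g n, ι0 (ρN g n) = Y.ρ0 g (ι0 n)) (hfι : ∀ n, Y.f (ι0 n) = 0)

/-- The pairing of `incl2 [z]` with an invariant `m` is the class of the cochain
`(g, h) ↦ β⁰ (ι (z (g, h))) (g h • m̃)` (`m̃` a lift of `m` to `P₀`). -/
theorem pair20_incl2 (z : (HyperCompare25.plainCpx h𝒰 ρN hN).Z2) (m : P.ρM.invariants)
    (L : Lift0 P) (hL : L.Lifts (m : M)) :
    ∃ (hl2 : IsLevel₂ 𝒰 (fun gh : G × G => B.β0 (ι0 (z.1.1 gh)) (P.ρ0 (gh.1 * gh.2) L.mt)))
      (hc2 : dTwo ρC (fun gh : G × G => B.β0 (ι0 (z.1.1 gh)) (P.ρ0 (gh.1 * gh.2) L.mt)) = 0),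
      pair20 B h𝒰 hC (HyperCompare25.incl2 Y h𝒰 hN ι0 hι hfι
        ((HyperCompare25.plainCpx h𝒰 ρN hN).π2 z)) m =
      cl2 h𝒰 ρC hC (fun gh : G × G => B.β0 (ι0 (z.1.1 gh)) (P.ρ0 (gh.1 * gh.2) L.mt))
        hl2 hc2 := by
  have e1 : HyperCompare25.incl2 Y h𝒰 hN ι0 hι hfι ((HyperCompare25.plainCpx h𝒰 ρN hN).π2 z) =
      (HZ2.ofZ2 h𝒰 ((HyperCompare25.inclHom Y h𝒰 hN ι0 hι hfι).mapZ2 z)).cls h𝒰 := rfl
  have hf : B.p20 (HZ2.ofZ2 h𝒰 ((HyperCompare25.inclHom Y h𝒰 hN ι0 hι hfι).mapZ2 z)).c2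
      (HZ2.ofZ2 h𝒰 ((HyperCompare25.inclHom Y h𝒰 hN ι0 hι hfι).mapZ2 z)).c1 L.mt L.z' =
      (fun gh : G × G => B.β0 (ι0 (z.1.1 gh)) (P.ρ0 (gh.1 * gh.2) L.mt)) := by
    funext ⟨g, h⟩
    show B.β0 (ι0 (z.1.1 (g, h))) (P.ρ0 (g * h) L.mt) - B.β1 0 (P.ρ1 g (L.z' h)) = _
    rw [map_zero, LinearMap.zero_apply, sub_zero]
  refine ⟨hf ▸ isLevel₂_p20 B h𝒰 _ L, hf ▸ B.dTwo_p20 (HZ2.hc2 _) (HZ2.hc1 _) L.hz, ?_⟩
  rw [e1, pair20_mk B h𝒰 hC _ m L hL]
  unfold cls20
  exact cl2_congr hf _ _ _ _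

end Generic

section Compare

variable {k : Type*} [CommRing k] (hk : IntSurj k)
variable {p : ℕ} [Fact p.Prime] {G : Type*} [Group G]
variable {X : Type*} [AddCommGroup X] [Module k X]
variable {M : Type*} [AddCommGroup M] [Module (ZMod p) M] [Module k M]
variable [Module k (Module.Dual (ZMod p) M)]
variable {P0 P1 : Type*} [AddCommGroup P0] [Module k P0] [AddCommGroup P1] [Module k P1]
variable {𝒰 : Set (Subgroup G)} (h𝒰 : IsLevelBasis 𝒰)
variable [FiniteDimensional (ZMod p) M] [Module.Finite k P0] [Module.Finite k P1]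
variable (P : Resolved4.Resolved k 𝒰 P1 P0 (Module.Dual (ZMod p) M))
  (ρM : Representation (ZMod p) G M) (hM : IsDiscrete 𝒰 ρM) (χ : G →* (ZMod p)ˣ)
  (hA : ∀ g a, P.ρM g a = (χ g : ZMod p) • (a ∘ₗ ρM g⁻¹))
  {ρX : Representation k G X} (hX : IsDiscrete 𝒰 ρX) (D : MuData χ ρX)

omit [FiniteDimensional (ZMod p) M] in
/-- **`pair20 (compare2 [z]) m = j_* (m_* [z])`**. -/
theorem pair20_compare2
    (z : (HyperCompare25.plainCpx h𝒰 (intRep hk ρM) (isDiscrete_intRep hk hM)).Z2)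
    (m : P.ρM.invariants) :
    ∃ (hl2 : IsLevel₂ 𝒰 (fun gh : G × G => D.j ((m : Module.Dual (ZMod p) M) (z.1.1 gh))))
      (hc2 : dTwo ρX (fun gh : G × G => D.j ((m : Module.Dual (ZMod p) M) (z.1.1 gh))) = 0),
      pair20 (evalPairing P h𝒰 ρX hX) h𝒰 hX
        (compare2 hk h𝒰 P ρM hM χ hA hX D
          ((HyperCompare25.plainCpx h𝒰 (intRep hk ρM) (isDiscrete_intRep hk hM)).π2 z)) m =
      cl2 h𝒰 ρX hX (fun gh : G × G => D.j ((m : Module.Dual (ZMod p) M) (z.1.1 gh)))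
        hl2 hc2 := by
  obtain ⟨L, hL⟩ := exists_lift' (P := P) m
  obtain ⟨hl2, hc2, h⟩ := pair20_incl2 (evalPairing P h𝒰 ρX hX) h𝒰 hX (isDiscrete_intRep hk hM)
    (kapRes hk D.j P.π)
    (kapRes_equivariant hk ρM χ P.ρM hA ρX D.j D.equiv P.ρ0 P.π P.π_comm)
    (lcomp_kapRes hk D.j P.π P.ι P.π_ι) z m L hL
  have hf : (fun gh : G × G => (evalPairing P h𝒰 ρX hX).β0 (kapRes hk D.j P.π (z.1.1 gh))
      (P.ρ0 (gh.1 * gh.2) L.mt)) =
      (fun gh : G × G => D.j ((m : Module.Dual (ZMod p) M) (z.1.1 gh))) := by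
    funext ⟨g, h⟩
    show (evalPairing P h𝒰 ρX hX).β0 (kapRes hk D.j P.π (z.1.1 (g, h))) (P.ρ0 (g * h) L.mt) = _
    have hL' : P.π L.mt = (m : Module.Dual (ZMod p) M) := hL
    rw [evalPairing_β0, kapRes_apply, P.π_comm, hL',
      (Representation.mem_invariants _ _).1 m.2 (g * h)]
  refine ⟨hf ▸ hl2, hf ▸ hc2, ?_⟩
  rw [show compare2 hk h𝒰 P ρM hM χ hA hX D = HyperCompare25.incl2 (P.K h𝒰 ρX hX) h𝒰
    (isDiscrete_intRep hk hM) (kapRes hk D.j P.π)
    (kapRes_equivariant hk ρM χ P.ρM hA ρX D.j D.equiv P.ρ0 P.π P.π_comm)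
    (lcomp_kapRes hk D.j P.π P.ι P.π_ι) from rfl, h]
  exact cl2_congr hf _ _ _ _

end Compare

/-! ### The local application -/

section Local

open Fermat.Agent.PT.PRO.LevelCoh28 Fermat.Agent.PT.GLUE.Objects21 ExtCitation
open Fermat.Agent.PT.GLUE.LocalHypR11
open Fermat.Agent.TW.LOC.Defs2 Fermat.Agent.TW.LOC.LocalRE2
open Fermat.Agent.TW.LOC.CupDuality2 (chiq)
open Fermat.Agent.TW.LOC.LocalDuality20_2
open Fermat.Agent.TW.DEF.Mu1 Fermat.Agent.TW.GLOB.KummerH2_1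
open Fermat.Agent.PT.PRO.LevelEquiv29 Fermat.Agent.PT.PRO.KerIsoGal7 Fermat.Agent.PT.PRO.Setup20

variable (q : ℕ) [Fact q.Prime] (p : ℕ) [Fact p.Prime]

/-- `μ_p ⊂ ℚ̄_qˣ` on the module `muq q p`. -/
noncomputable def jq : (muq q p) →+ (unitsLoc q) := (muLoc p q).j

theorem jq_ρ (g : Gq q) (a : muq q p) :
    jq q p ((muq q p).ρ g a) = (unitsLoc q).ρ g (jq q p a) :=
  ((muLoc p q).equiv g a).symm

variable (N : Rep.{0} (ZMod p) (Gq q))

/-- An equivariant map `N → μ_p` is an invariant of `N^∨(1)`. -/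
theorem mem_invariants_of_equivariant (f : N →ₗ[ZMod p] muq q p)
    (hf : ∀ g n, f (N.ρ g n) = (muq q p).ρ g (f n)) :
    (f : Module.Dual (ZMod p) N) ∈ (N.dualTwist (chiq q p)).ρ.invariants := by
  rw [Representation.mem_invariants]
  intro g
  rw [Rep.dualTwist_ρ_apply]
  apply LinearMap.ext
  intro n
  have h1 : f (N.ρ g⁻¹ n) = ((chiq q p g⁻¹ : (ZMod p)ˣ) : ZMod p) * f n := hf g⁻¹ n
  rw [LinearMap.smul_apply, LinearMap.comp_apply, h1, smul_eq_mul, ← mul_assoc, map_inv,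
    Units.mul_inv, one_mul]

/-- The resolved module `P → N^∨(1)` used below. -/
noncomputable abbrev resP [Finite (N.dualTwist (chiq q p))]
    (h0 : HyperLevel25.IsDiscrete (levelLoc q).sets
      (HpAt29.freeRes (IntRep20.intRep (N.dualTwist (chiq q p)))).ρ0) :=
  toResolved (HpAt29.freeRes (IntRep20.intRep (N.dualTwist (chiq q p)))) h0

variable [FiniteDimensional (ZMod p) N]

/-- **`pair20 (compare2 x) f = j_* (f_* x)`** for `x ∈ H²(Γ_q, N)` and `f : N → μ_p` equivariant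
(in the `Hlev2` model of `H²(Γ_q, ℚ̄_qˣ)`). -/
theorem pair20_compare2_local [Finite (N.dualTwist (chiq q p))]
    (hN : LevelCoh28.IsDiscrete (levelLoc q).sets N)
    (h0 : HyperLevel25.IsDiscrete (levelLoc q).sets
      (HpAt29.freeRes (IntRep20.intRep (N.dualTwist (chiq q p)))).ρ0)
    (f : N →ₗ[ZMod p] muq q p) (hf : ∀ g n, f (N.ρ g n) = (muq q p).ρ g (f n))
    (c : ↥(Z2 (levelLoc q) N)) :
    pair20 (evalPairing (resP q p N h0) (isLevelBasis_levelLoc q) (unitsLoc q).ρ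
        (isDiscrete_unitsLoc' q)) (isLevelBasis_levelLoc q) (isDiscrete_unitsLoc' q)
      (compare2 intSurj_int (isLevelBasis_levelLoc q) (resP q p N h0) N.ρ hN
        (chiq q p) (KerIsoMain7.hA_freeRes N (chiq q p)) (isDiscrete_unitsLoc' q) (muLoc p q)
        (h2IntEquiv (levelLoc q) N hN (H2mk (levelLoc q) N c)))
      ⟨f, mem_invariants_of_equivariant q p N f hf⟩ =
    h2Equiv (levelLoc q) (unitsLoc q) (isDiscrete_unitsLoc q)
      (jH2 (jq q p) (jq_ρ q p) (mapH2 (𝓑 := levelLoc q) f hf (H2mk (levelLoc q) N c))) := by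
  have hpc := pair20_compare2 intSurj_int (isLevelBasis_levelLoc q)
    (resP q p N h0) N.ρ hN
    (chiq q p) (KerIsoMain7.hA_freeRes N (chiq q p)) (isDiscrete_unitsLoc' q) (muLoc p q)
    (toZ2Int (levelLoc q) N hN c)
    ⟨f, mem_invariants_of_equivariant q p N f hf⟩
  refine Exists.elim hpc (fun hl2 h' => Exists.elim h' (fun hc2 h => ?_))
  refine h.trans ?_
  have e1 : h2Equiv (levelLoc q) (unitsLoc q) (isDiscrete_unitsLoc q)
      (jH2 (jq q p) (jq_ρ q p) (mapH2 (𝓑 := levelLoc q) f hf (H2mk (levelLoc q) N c))) =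
      (Resolved4.lvl (basis (levelLoc q)) (unitsLoc q).ρ (isDiscrete_unitsLoc q)).π2
        (toZ2 (levelLoc q) (unitsLoc q) (isDiscrete_unitsLoc q)
          (jZ2 (jq q p) (jq_ρ q p) (mapZ2 (𝓑 := levelLoc q) f hf c))) := rfl
  refine Eq.trans ?_ e1.symm
  unfold cl2
  congr 1

/-- **A non-zero equivariant `f : N → μ_p` induces a NON-ZERO map on `H²(Γ_q, ·)`.** -/
theorem exists_mapH2_ne_zero (hN : LevelCoh28.IsDiscrete (levelLoc q).sets N)
    (f : N →ₗ[ZMod p] muq q p) (hf : ∀ g n, f (N.ρ g n) = (muq q p).ρ g (f n)) (hf0 : f ≠ 0) :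
    ∃ x : H2 (levelLoc q) N, mapH2 (𝓑 := levelLoc q) f hf x ≠ 0 := by
  by_contra hcon
  have hcon' : ∀ x : H2 (levelLoc q) N, mapH2 (𝓑 := levelLoc q) f hf x = 0 := fun x => by
    by_contra hx
    exact hcon ⟨x, hx⟩
  have hfinA : Finite (N.dualTwist (chiq q p)) := Module.finite_of_finite (ZMod p)
  have hAi : HyperLevel25.IsDiscrete (levelLoc q).sets
      (IntRep20.intRep (N.dualTwist (chiq q p))) := isDiscrete_dualTwist' q p N hN
  have h0 : HyperLevel25.IsDiscrete (levelLoc q).sets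
      (HpAt29.freeRes (IntRep20.intRep (N.dualTwist (chiq q p)))).ρ0 :=
    FreeRes29.isDiscrete_freeRep (isLevelBasis_levelLoc q) hAi
  have hpA : ∀ m : (N.dualTwist (chiq q p)), p • m = 0 := fun m => by
    rw [← Nat.cast_smul_eq_nsmul (ZMod p), ZMod.natCast_self, zero_smul]
  have hkey : ∀ c : ↥(Z2 (levelLoc q) N),
      pair20 (evalPairing (resP q p N h0) (isLevelBasis_levelLoc q) (unitsLoc q).ρ
          (isDiscrete_unitsLoc' q)) (isLevelBasis_levelLoc q) (isDiscrete_unitsLoc' q)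
        (compare2 intSurj_int (isLevelBasis_levelLoc q) (resP q p N h0) N.ρ hN
          (chiq q p) (KerIsoMain7.hA_freeRes N (chiq q p)) (isDiscrete_unitsLoc' q) (muLoc p q)
          (h2IntEquiv (levelLoc q) N hN (H2mk (levelLoc q) N c)))
        ⟨f, mem_invariants_of_equivariant q p N f hf⟩ = 0 := fun c =>
    (pair20_compare2_local q p N hN h0 f hf c).trans
      ((congrArg (fun z => h2Equiv (levelLoc q) (unitsLoc q) (isDiscrete_unitsLoc q)
        (jH2 (jq q p) (jq_ρ q p) z)) (hcon' (H2mk (levelLoc q) N c))).trans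
        ((congrArg (h2Equiv (levelLoc q) (unitsLoc q) (isDiscrete_unitsLoc q))
          (map_zero (jH2 (jq q p) (jq_ρ q p)))).trans (map_zero _)))
  have hm0 : (⟨f, mem_invariants_of_equivariant q p N f hf⟩ :
      (resP q p N h0).ρM.invariants) = 0 := by
    refine pair20_right_kernel
      (evalPairing (resP q p N h0)
        (isLevelBasis_levelLoc q) (unitsLoc q).ρ (isDiscrete_unitsLoc' q))
      (isLevelBasis_levelLoc q) (isDiscrete_unitsLoc' q)
      (hyp20_local q (toRes (resP q p N h0)) (resP q p N h0).disc0 p hpA)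
      (norm_local q (toRes (resP q p N h0)) p hpA) _ (fun ξ => ?_)
    refine Exists.elim ((compare2_bijective intSurj_int (isLevelBasis_levelLoc q)
      (resP q p N h0) N.ρ hN
      (chiq q p) (KerIsoMain7.hA_freeRes N (chiq q p)) (isDiscrete_unitsLoc' q) (muLoc p q)
      (exists_zsmul_eq_unitsLoc p q)).2 ξ) (fun y hy => ?_)
    refine Exists.elim ((h2IntEquiv (levelLoc q) N hN).surjective y) (fun x hx => ?_)
    refine Exists.elim (H2mk_surjective (levelLoc q) N x) (fun c hc => ?_)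
    subst hc
    subst hx
    subst hy
    exact hkey c
  exact hf0 (congrArg Subtype.val hm0)

end Local

/-! ### (LOC-20-NAT) in the shapes of `LocalRE2` -/

section Nat

open Fermat.Agent.PT.PRO.LevelCoh28 Fermat.Agent.PT.GLUE.Objects21 ExtCitation
open Fermat.Agent.TW.LOC.Defs2 Fermat.Agent.TW.LOC.LocalRE2
open Fermat.Agent.TW.DEF.Mu1

/-- A submodule of an `𝔽_p`-vector space with at most `p` elements which contains a non-zero
vector is everything. -/
theorem eq_top_of_card_le {p : ℕ} [Fact p.Prime] {V : Type*} [AddCommGroup V] [Module (ZMod p) V]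
    [Finite V] (hV : Nat.card V ≤ p) (W : Submodule (ZMod p) V) {w : V} (hw : w ∈ W)
    (hw0 : w ≠ 0) : W = ⊤ := by
  have hinj : Function.Injective (fun a : ZMod p => (⟨a • w, W.smul_mem a hw⟩ : W)) := by
    intro a b hab
    have h1 : a • w = b • w := congrArg Subtype.val hab
    have h2 : (a - b) • w = 0 := by rw [sub_smul, h1, sub_self]
    rcases smul_eq_zero.1 h2 with h3 | h3
    · exact sub_eq_zero.1 h3
    · exact absurd h3 hw0
  have h3 : p ≤ Nat.card W := by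
    have := Nat.card_le_card_of_injective _ hinj
    rwa [Nat.card_zmod] at this
  have hb := Function.Injective.bijective_of_nat_card_le (f := W.subtype)
    (Submodule.injective_subtype W) (hV.trans h3)
  rw [eq_top_iff]
  intro v _
  obtain ⟨v', rfl⟩ := hb.2 v
  exact v'.2

variable (q : ℕ) [Fact q.Prime] (p : ℕ) [Fact p.Prime]

/-- **(LOC-20-NAT)**: a non-zero equivariant `f : N → μ_p` induces a SURJECTION
`H²(Γ_q, N) → H²(Γ_q, μ_p)`. -/
theorem natHyp : NatHyp q p := by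
  intro N _ hN f hf hf0
  have : FiniteDimensional (ZMod p) N := Module.Finite.of_finite
  obtain ⟨x, hx⟩ := exists_mapH2_ne_zero q p N hN f hf hf0
  obtain ⟨hfin, hle⟩ := card_H2_muq_le q p
  have htop := eq_top_of_card_le hle (LinearMap.range (mapH2 (𝓑 := levelLoc q) f hf))
    (LinearMap.mem_range_self _ x) hx
  exact LinearMap.range_eq_top.1 htop

/-- **`H²(Γ_q, μ_p) ≠ 0`.** -/
theorem exists_ne_zero_H2_muq : ∃ x : H2 (levelLoc q) (muq q p), x ≠ 0 := by
  have : FiniteDimensional (ZMod p) (muq q p) :=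
    (inferInstance : FiniteDimensional (ZMod p) (ZMod p))
  have hid : (LinearMap.id : muq q p →ₗ[ZMod p] muq q p) ≠ 0 := by
    intro h
    have h1 := LinearMap.congr_fun h (1 : ZMod p)
    exact one_ne_zero h1
  obtain ⟨x, hx⟩ := exists_mapH2_ne_zero q p (muq q p) (isDiscrete_muq q p) LinearMap.id
    (fun _ _ => rfl) hid
  refine ⟨x, fun h0 => hx ?_⟩
  rw [h0, map_zero]

end Nat

end Fermat.Agent.TW.LOC.LocalNat20_1
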