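/-
Programme T (S56), chapter T/GLOB, brick (A2) of T/plan/ADD — helper7.

**(LOC-20-NAT)**: for a finite discrete `𝔽_p[Γ_q]`-module `N` and a non-zero equivariant
`f : N → μ_p`, the map `f_* : H²(Γ_q, N) → H²(Γ_q, μ_p)` is surjective
(`natHyp q p : LocalRE2.NatHyp q p`).

Route (trace, no hypercohomology): take `V ◁ Γ_q` open acting trivially on `N` and `μ_p`.
* `H²(V; ℚ̄_qˣ)[p] ≠ 0` (`ClassFormSub5.exists_ne_zero_H2` + `BrickA4.div_levelLoc`), and a
  non-zero `p`-torsion class `z` is `j_*(x₀)` for some `x₀ ∈ H²(V; μ_p)` (Kummer, `KummerU5`);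
* the corestriction is injective on `H²(V; ℚ̄_qˣ)[p]` (`ClassFormSub5.eq_zero_of_trH2_eq_zero`) and
  commutes with `j_*` (`TraceAdd2.trH2_addResH2`, the additive naturality of the trace), hence
  `tr x₀ ≠ 0` in `H²(Γ_q; μ_p)`;
* over `V` the surjection `f` of trivial modules has a linear section `s`, so
  `x₀ = (f|V)_*(s_* x₀)` and `f_*(tr (s_* x₀)) = tr x₀ ≠ 0`;
* `H²(Γ_q; μ_p)` is a line (`LocalPerf2.exists_inv'`), so `f_*` is onto.
-/
import Mathlib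
import Fermat.Agent.TW.LOC.LocalPerf2
import Fermat.Agent.TW.GLOB.TraceAdd2
import Fermat.Agent.TW.LOC.BrickA4
import Fermat.Agent.TW.GLOB.KummerU5
import Fermat.Agent.TW.GLOB.ClassFormInst5
import Fermat.Agent.TW.GLOB.LocalInv1

set_option autoImplicit false
set_option linter.unusedSectionVars false
set_option linter.style.haveILetI false

open Fermat.Agent.PT.PRO.LevelCoh28 Fermat.Agent.PT.PRO.LevelCohRes28
  Fermat.Agent.PT.PRO.SmoothCoind28 Fermat.Agent.PT.PRO.ShapiroLevel28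
  Fermat.Agent.PT.GLUE.Objects21
  Fermat.Agent.TW.GLOB.SubLevel5 Fermat.Agent.TW.GLOB.ShapiroConj5
  Fermat.Agent.TW.GLOB.ResInvariants5 Fermat.Agent.TW.GLOB.TraceLevel5
  Fermat.Agent.TW.GLOB.AddCoh5
open Fermat.Agent.TW.LOC.Defs2
open Fermat.Agent.TW.LOC.CupDuality2 (chiq zetaLevel zetaLevel_mem chiq_eq_one_of_mem)
open Fermat.Agent.TW.DEF.Mu1
open Fermat.Agent.TW.LOC.LocalRE2

namespace Fermat.Agent.TW.LOC.LocalNat20_7

noncomputable section

/-! ### Open normal subgroups acting trivially on a finite discrete module -/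

section Trivial

variable {k : Type} [CommRing k] {G : Type} [Group G] (𝓑 : LevelBasis G)

theorem exists_normal_trivial (N : Rep.{0} k G) [Finite N] (hN : IsDiscrete 𝓑.sets N)
    (W : Subgroup G) (hW : W ∈ 𝓑.sets) :
    ∃ V ∈ 𝓑.sets, V.Normal ∧ V ≤ W ∧ ∀ s ∈ V, ∀ n : N, N.ρ s n = n := by
  classical
  haveI : Fintype N := Fintype.ofFinite N
  have key : ∀ T : Finset N, ∃ V ∈ 𝓑.sets, V ≤ W ∧ ∀ s ∈ V, ∀ n ∈ T, N.ρ s n = n := by
    intro T
    induction T using Finset.induction_on with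
    | empty => exact ⟨W, hW, le_rfl, fun _ _ n hn => absurd hn (Finset.notMem_empty n)⟩
    | insert a T _ ih =>
      obtain ⟨V₁, hV₁, hV₁W, h1⟩ := ih
      obtain ⟨V₂, hV₂, h2⟩ := hN a
      obtain ⟨V, hV, hVle⟩ := 𝓑.isBasis.directed V₁ hV₁ V₂ hV₂
      refine ⟨V, hV, (hVle.trans inf_le_left).trans hV₁W, fun s hs n hn => ?_⟩
      rcases Finset.mem_insert.1 hn with rfl | hn
      · exact h2 s ((hVle.trans inf_le_right) hs)
      · exact h1 s ((hVle.trans inf_le_left) hs) n hn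
  obtain ⟨V₁, hV₁, hV₁W, h1⟩ := key Finset.univ
  obtain ⟨V, hV, hVle, hn⟩ := 𝓑.isBasis.normalCore V₁ hV₁
  exact ⟨V, hV, hn, hVle.trans hV₁W, fun s hs n => h1 s (hVle hs) n (Finset.mem_univ n)⟩

end Trivial

/-! ### A coefficient map with a section -/

section Section

variable {k : Type} [CommRing k] {G : Type} [Group G] {𝓑 : LevelBasis G} {A B : Rep.{0} k G}

theorem mapH2_mapH2_of_rightInverse (φ : A →ₗ[k] B) (hφ : ∀ g a, φ (A.ρ g a) = B.ρ g (φ a))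
    (s : B →ₗ[k] A) (hs : ∀ g b, s (B.ρ g b) = A.ρ g (s b)) (h : φ ∘ₗ s = LinearMap.id)
    (x : H2 𝓑 B) : mapH2 (𝓑 := 𝓑) φ hφ (mapH2 (𝓑 := 𝓑) s hs x) = x := by
  rw [Fermat.Agent.TW.GLOB.MapH5.mapH2_comp hs hφ,
    Fermat.Agent.TW.GLOB.MapH5.mapH2_congr h _ Fermat.Agent.TW.GLOB.MapH5.id_equivariant x,
    Fermat.Agent.TW.GLOB.MapH5.mapH2_id]

end Section

/-! ### The corestriction `H²(V; μ_p) → H²(Γ_q; μ_p)` is non-zero -/

variable (q : ℕ) [Fact q.Prime] (p : ℕ) [Fact p.Prime]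

/-- `μ_p ⊂ ℚ̄_qˣ`, on the model `muq q p` of `μ_p`. -/
def jmu : muq q p →+ unitsLoc q := Fermat.Agent.TW.GLOB.LocalInv1.jLoc p q

theorem jmu_ρ (g : Gq q) (a : muq q p) :
    jmu q p ((muq q p).ρ g a) = (unitsLoc q).ρ g (jmu q p a) :=
  Fermat.Agent.TW.GLOB.LocalInv1.jLoc_ρ p q g a

theorem jmu_injective : Function.Injective (jmu q p) :=
  Fermat.Agent.TW.GLOB.LocalInv1.jLoc_injective p q

theorem nsmul_jmu (a : muq q p) : p • jmu q p a = 0 := by
  rw [← map_nsmul, ← Nat.cast_smul_eq_nsmul (ZMod p), ZMod.natCast_self, zero_smul, map_zero]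

theorem exists_jmu_eq (x : unitsLoc q) (hx : p • x = 0) : ∃ a, jmu q p a = x :=
  Fermat.Agent.TW.GLOB.LocalInv1.exists_jLoc_eq p q x hx

theorem exists_trH2_ne_zero (V : Subgroup (Gq q)) [hVn : V.Normal] (hV : V ∈ (levelLoc q).sets)
    [Fintype (Gq q ⧸ V)] :
    ∃ x : H2 (subBasis (levelLoc q) V) (resRep V (muq q p)),
      trH2 (levelLoc q) V (isDiscrete_muq q p) x ≠ 0 := by
  obtain ⟨V', hV', hn', hle, hdiv⟩ := Fermat.Agent.TW.LOC.BrickA4.div_levelLoc q p V hV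
  haveI := hn'
  have hfund := Fermat.Agent.TW.GLOB.ClassFormInst5.fundAt_unitsLoc p q
  obtain ⟨z, hpz, hz0⟩ := Fermat.Agent.TW.GLOB.ClassFormSub5.exists_ne_zero_H2
    (isDiscrete_unitsLoc q) hfund V V' hV' hle hdiv
  obtain ⟨x₀, hx₀⟩ := (Fermat.Agent.TW.GLOB.KummerU5.nsmul_eq_zero_iff_kj2 (levelLoc q) V
    (isDiscrete_unitsLoc q) (Fermat.Agent.PT.PRO.KerIsoGal7.exists_nsmul_eq_padic p q)
    (jmu q p) (jmu_ρ q p) (jmu_injective q p) (nsmul_jmu q p) (exists_jmu_eq q p) z).1 hpz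
  refine ⟨x₀, fun h0 => hz0 ?_⟩
  refine Fermat.Agent.TW.GLOB.ClassFormSub5.eq_zero_of_trH2_eq_zero (isDiscrete_unitsLoc q) hfund
    V ⟨V, hV, le_rfl⟩ z hpz ?_
  have h1 := Fermat.Agent.TW.GLOB.TraceAdd2.trH2_addResH2 (levelLoc q) V (isDiscrete_muq q p)
    (isDiscrete_unitsLoc q) (jmu q p) (jmu_ρ q p) x₀
  have h2 : addResH2 (levelLoc q) V (jmu q p) (jmu_ρ q p) x₀ = z := hx₀
  rw [h2, h0, map_zero] at h1
  exact h1

/-! ### (LOC-20-NAT) -/

/-- **(LOC-20-NAT)**: a non-zero equivariant `f : N → μ_p` is onto on `H²(Γ_q, -)`. -/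
theorem natHyp : NatHyp q p := by
  intro N _ hN f hf hf0
  obtain ⟨V, hV, hVn, hVz, hVN⟩ := exists_normal_trivial (levelLoc q) N hN
    (zetaLevel q p) (zetaLevel_mem q p)
  have hVμ : ∀ s ∈ V, ∀ a : muq q p, (muq q p).ρ s a = a := fun s hs a => by
    rw [muRep_ρ_apply, chiq_eq_one_of_mem q p (hVz hs), Units.val_one, one_mul]
  haveI := hVn
  haveI : Finite (Gq q ⧸ V) := Fermat.Agent.TW.GLOB.ClassFormSub5.finiteG hV
  haveI : Fintype (Gq q ⧸ V) := Fintype.ofFinite _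
  obtain ⟨x₀, hx₀⟩ := exists_trH2_ne_zero q p V hV
  have hfsurj : Function.Surjective f :=
    LinearMap.surjective (R := ZMod p) (f := (f : N →ₗ[ZMod p] ZMod p)) hf0
  obtain ⟨s, hs⟩ := f.exists_rightInverse_of_surjective (LinearMap.range_eq_top.2 hfsurj)
  have hsV : ∀ (g : V) (a : resRep V (muq q p)),
      s ((resRep V (muq q p)).ρ g a) = (resRep V N).ρ g (s a) := fun g a => by
    rw [resRep_ρ_apply, resRep_ρ_apply, hVμ g g.2, hVN g g.2]
  have h1 : mapResH2 (levelLoc q) V f hf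
      (mapH2 (𝓑 := subBasis (levelLoc q) V) (A := resRep V (muq q p)) (B := resRep V N) s hsV x₀)
        = x₀ :=
    mapH2_mapH2_of_rightInverse (𝓑 := subBasis (levelLoc q) V) (A := resRep V N)
      (B := resRep V (muq q p)) f (res_equivariant V f hf) s hsV hs x₀
  have h2 := trH2_mapResH2 (levelLoc q) V hN (isDiscrete_muq q p) f hf
    (mapH2 (𝓑 := subBasis (levelLoc q) V) (A := resRep V (muq q p)) (B := resRep V N) s hsV x₀)
  rw [h1] at h2
  -- `H²(Γ_q; μ_p)` is a line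
  obtain ⟨e⟩ := Fermat.Agent.TW.LOC.LocalPerf2.exists_inv' q p
  have hew : e (trH2 (levelLoc q) V (isDiscrete_muq q p) x₀) ≠ 0 :=
    fun h => hx₀ (e.map_eq_zero_iff.1 h)
  intro t
  refine ⟨(e t * (e (trH2 (levelLoc q) V (isDiscrete_muq q p) x₀))⁻¹) • trH2 (levelLoc q) V hN
    (mapH2 (𝓑 := subBasis (levelLoc q) V) (A := resRep V (muq q p)) (B := resRep V N) s hsV x₀),
    ?_⟩
  rw [map_smul, ← h2]
  apply e.injective
  rw [map_smul, smul_eq_mul, mul_assoc, inv_mul_cancel₀ hew, mul_one]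

/-- **(LOC-RE)**, unconditional: `H²(Γ_q, -)` is right exact on finite discrete modules. -/
theorem mapH2_surjective {B C : Rep.{0} (ZMod p) (Gq q)} [Finite B] [Finite C]
    (hB : IsDiscrete (levelLoc q).sets B) (hC : IsDiscrete (levelLoc q).sets C)
    (ψ : B →ₗ[ZMod p] C) (hψ : ∀ g b, ψ (B.ρ g b) = C.ρ g (ψ b))
    (hsurj : Function.Surjective ψ) : Function.Surjective (mapH2 (𝓑 := levelLoc q) ψ hψ) :=
  Fermat.Agent.TW.LOC.LocalPerf2.mapH2_surjective' (natHyp q p) hB hC ψ hψ hsurj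

/-- **(LOC-ADD)**, unconditional: multiplicativity of the local Euler characteristic. -/
theorem card_les_local {A B C : Rep.{0} (ZMod p) (Gq q)} [Finite B] [Finite C]
    (hB : IsDiscrete (levelLoc q).sets B) (hC : IsDiscrete (levelLoc q).sets C)
    (φ : A →ₗ[ZMod p] B) (hφ : ∀ g a, φ (A.ρ g a) = B.ρ g (φ a))
    (ψ : B →ₗ[ZMod p] C) (hψ : ∀ g b, ψ (B.ρ g b) = C.ρ g (ψ b))
    (hinj : Function.Injective φ) (hsurj : Function.Surjective ψ)
    (hex : ∀ b, ψ b = 0 ↔ ∃ a, φ a = b) :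
    Nat.card ↥A.ρ.invariants * Nat.card ↥C.ρ.invariants * Nat.card (H1 (levelLoc q) B) *
        Nat.card (H2 (levelLoc q) A) * Nat.card (H2 (levelLoc q) C) =
      Nat.card ↥B.ρ.invariants * Nat.card (H1 (levelLoc q) A) * Nat.card (H1 (levelLoc q) C) *
        Nat.card (H2 (levelLoc q) B) :=
  Fermat.Agent.TW.LOC.LocalPerf2.card_les_local' (natHyp q p) hB hC φ hφ ψ hψ hinj hsurj hex

end

end Fermat.Agent.TW.LOC.LocalNat20_7
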