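/-
Programme T (S56), chapter GLOB, brick (A2) of T/plan/ADD — helper2.
**Last step of the trace route for (LOC-20-NAT).**

Generic (`mapH2_surjective_of_trace`): `V ◁ G` of finite index acting trivially on `N` and `M`,
`f : N → M` equivariant and surjective (over a field), `H²(G; M)` a line, and some
`x₀ ∈ H²(V; M)` with `tr x₀ ≠ 0`.  Then `f_* : H²(G; N) → H²(G; M)` is onto:
`f|_V` has a linear (hence `V`-equivariant) section `s`, so `x₀ = (f|_V)_* (s_* x₀)` and
`f_* (tr (s_* x₀)) = tr x₀ ≠ 0`.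

Local (`natHyp_of_traceHyp`): `LocalRE2.NatHyp q p` follows from
`TraceHyp q p` : for every normal `V` of the level basis of `Γ_q` on which `χ_p` is trivial, the
trace `H²(V; μ_p) → H²(Γ_q; μ_p)` is non-zero.
-/
import Mathlib
import Fermat.Agent.TW.LOC.LocalPerf2
import Fermat.Agent.TW.GLOB.TraceLevel5

set_option autoImplicit false
set_option linter.unusedSectionVars false
set_option linter.style.haveILetI false

open Fermat.Agent.PT.PRO.LevelCoh28 Fermat.Agent.PT.GLUE.Objects21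
open Fermat.Agent.TW.LOC.CupDuality2 (chiq zetaLevel zetaLevel_mem chiq_eq_one_of_mem)
open Fermat.Agent.TW.DEF.Basic1 Fermat.Agent.TW.DEF.Mu1 Fermat.Agent.TW.GLOB.MapH5
open Fermat.Agent.TW.LOC.LocalRE2 Fermat.Agent.TW.LOC.LocalPerf2
open Fermat.Agent.TW.GLOB.SubLevel5 Fermat.Agent.TW.GLOB.TraceLevel5

namespace Fermat.Agent.TW.LOC.LocalNatStep2

noncomputable section

/-! ### Generic step -/

section Generic

variable {k G : Type} [Field k] [Group G] (𝓑 : LevelBasis G) (V : Subgroup G) [hV : V.Normal]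
  [Fintype (G ⧸ V)] {N M : Rep.{0} k G}

theorem mapH2_surjective_of_trace (hN : IsDiscrete 𝓑.sets N) (hM : IsDiscrete 𝓑.sets M)
    (hNV : ∀ v ∈ V, ∀ n : N, N.ρ v n = n) (hMV : ∀ v ∈ V, ∀ m : M, M.ρ v m = m)
    (f : N →ₗ[k] M) (hf : ∀ g n, f (N.ρ g n) = M.ρ g (f n)) (hfs : Function.Surjective f)
    (hline : ∀ y z : H2 𝓑 M, z ≠ 0 → ∃ c : k, y = c • z)
    (x₀ : H2 (subBasis 𝓑 V) (resRep V M)) (hx₀ : trH2 𝓑 V hM x₀ ≠ 0) :
    Function.Surjective (mapH2 (𝓑 := 𝓑) f hf) := by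
  obtain ⟨s, hs⟩ := LinearMap.exists_rightInverse_of_surjective f
    (LinearMap.range_eq_top.2 hfs)
  have hsV : ∀ (v : V) (m : resRep V M), s ((resRep V M).ρ v m) = (resRep V N).ρ v (s m) := by
    intro v m
    show s (M.ρ (v : G) m) = N.ρ (v : G) (s m)
    rw [hMV v v.2, hNV v v.2]
  set y₀ : H2 (subBasis 𝓑 V) (resRep V N) :=
    mapH2 (𝓑 := subBasis 𝓑 V) (A := resRep V M) (B := resRep V N) s hsV x₀ with hy₀
  have h1 : mapResH2 𝓑 V f hf y₀ = x₀ := by
    rw [hy₀]
    show mapH2 (𝓑 := subBasis 𝓑 V) (A := resRep V N) (B := resRep V M) f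
      (res_equivariant V f hf) _ = x₀
    rw [mapH2_comp (𝓑 := subBasis 𝓑 V) (A := resRep V M) (B := resRep V N) (C := resRep V M)
      hsV (res_equivariant V f hf) x₀]
    have h2 := mapH2_congr (𝓑 := subBasis 𝓑 V) (A := resRep V M) (B := resRep V M) hs
      (comp_equivariant (A := resRep V M) (B := resRep V N) (C := resRep V M) hsV
        (res_equivariant V f hf)) (fun _ _ => rfl) x₀
    rw [h2]
    exact mapH2_id (𝓑 := subBasis 𝓑 V) (A := resRep V M) _ x₀
  have h3 : mapH2 (𝓑 := 𝓑) f hf (trH2 𝓑 V hN y₀) = trH2 𝓑 V hM x₀ := by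
    rw [← trH2_mapResH2 𝓑 V hN hM f hf y₀, h1]
  intro y
  obtain ⟨c, hc⟩ := hline y _ hx₀
  refine ⟨c • trH2 𝓑 V hN y₀, ?_⟩
  rw [map_smul, h3, hc]

end Generic

/-! ### The local case -/

section Local

variable (q : ℕ) [Fact q.Prime] (p : ℕ) [Fact p.Prime]

/-- The trace hypothesis: for every normal `V` of the level basis of `Γ_q` on which the mod `p`
cyclotomic character is trivial, the trace `H²(V; μ_p) → H²(Γ_q; μ_p)` is non-zero. -/
def TraceHyp : Prop :=
  ∀ (V : Subgroup (Gq q)) [V.Normal] [Fintype (Gq q ⧸ V)], V ∈ (levelLoc q).sets →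
    (∀ v ∈ V, chiq q p v = 1) →
    ∃ x₀ : H2 (subBasis (levelLoc q) V) (resRep V (muq q p)),
      trH2 (levelLoc q) V (isDiscrete_muq q p) x₀ ≠ 0

variable {q p}

theorem hline_muq (y z : H2 (levelLoc q) (muq q p)) (hz : z ≠ 0) :
    ∃ c : ZMod p, y = c • z := by
  obtain ⟨e⟩ := exists_inv' q p
  have hez : e z ≠ 0 := fun h => hz (e.injective (h.trans (map_zero e).symm))
  refine ⟨e y / e z, e.injective ?_⟩
  rw [map_smul, smul_eq_mul, div_mul_cancel₀ _ hez]

/-- **(LOC-20-NAT) from the trace hypothesis.** -/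
theorem natHyp_of_traceHyp (h : TraceHyp q p) : NatHyp q p := by
  intro N _ hN f hf hf0
  -- `f` is onto
  have hfs : Function.Surjective f := by
    obtain ⟨n, hn⟩ : ∃ n, f n ≠ 0 := by
      by_contra hcon
      push Not at hcon
      exact hf0 (LinearMap.ext hcon)
    intro y
    refine ⟨((show ZMod p from y) / (show ZMod p from f n)) • n, ?_⟩
    rw [map_smul]
    show (show ZMod p from y) / (show ZMod p from f n) * (show ZMod p from f n) = y
    exact div_mul_cancel₀ _ hn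
  -- a normal `V` of the basis acting trivially on `N` and `μ_p`
  obtain ⟨U₁, hU₁, -, hU₁N⟩ := hN.exists_fixing (levelLoc q).isBasis
    (Set.toFinite (Set.univ : Set N))
  obtain ⟨W, hW, hWle⟩ := (levelLoc q).isBasis.directed U₁ hU₁ (zetaLevel q p)
    (zetaLevel_mem q p)
  obtain ⟨V, hV, hVW, hVn⟩ := (levelLoc q).isBasis.normalCore W hW
  haveI := hVn
  haveI : V.FiniteIndex := (levelLoc q).isBasis.finiteIndex V hV
  letI : Fintype (Gq q ⧸ V) := Fintype.ofFinite _
  have hchi : ∀ v ∈ V, chiq q p v = 1 := fun v hv =>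
    chiq_eq_one_of_mem q p (hWle (hVW hv)).2
  obtain ⟨x₀, hx₀⟩ := h V hV hchi
  refine mapH2_surjective_of_trace (levelLoc q) V hN (isDiscrete_muq q p)
    (fun v hv n => hU₁N v (hWle (hVW hv)).1 n (Set.mem_univ n))
    (fun v hv m => ?_) f hf hfs hline_muq x₀ hx₀
  rw [muRep_ρ_apply, hchi v hv, Units.val_one, one_mul]

end Local

end

end Fermat.Agent.TW.LOC.LocalNatStep2
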